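import Mathlib

/-!
# S14 (WP7/WP8/WP9 common input): the Dedekind zeta function as a sum over nonzero ideals

Mathlib defines `NumberField.dedekindZeta K` as the `L`-series of `n ↦ #{I | N I = n}`.
Here we rewrite it, for real `s > 1`, as the absolutely convergent sum
`∑' I : (Ideal (𝓞 K))⁰, (N I : ℝ) ^ (-s)`, and transport the residue theorem.
-/

set_option autoImplicit false

namespace Fermat.Agent.S14.H51

open NumberField Ideal Filter Topology
open scoped nonZeroDivisors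

variable (K : Type*) [Field K] [NumberField K]

/-- The coefficient sequence of the Dedekind zeta function. -/
noncomputable def zetaCoeff (n : ℕ) : ℝ := Nat.card {I : Ideal (𝓞 K) // absNorm I = n}

theorem zetaCoeff_nonneg (n : ℕ) : 0 ≤ zetaCoeff K n := Nat.cast_nonneg _

theorem lseriesSummable_zetaCoeff {s : ℝ} (hs : 1 < s) :
    LSeriesSummable (fun n => (zetaCoeff K n : ℂ)) (s : ℂ) := by
  refine LSeriesSummable_of_sum_norm_bigO_and_nonneg ?_ (zetaCoeff_nonneg K) zero_le_one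
    (by simpa using hs)
  refine Asymptotics.isBigO_atTop_natCast_rpow_of_tendsto_div_rpow
    (a := (2 ^ InfinitePlace.nrRealPlaces K * (2 * Real.pi) ^ InfinitePlace.nrComplexPlaces K *
      Units.regulator K * classNumber K) / (Units.torsionOrder K * Real.sqrt |discr K|)) ?_
  have := ((Ideal.tendsto_norm_le_div_atTop₀ K).comp tendsto_natCast_atTop_atTop)
  simp only [Real.rpow_one]
  refine this.congr fun n => ?_
  simp only [Function.comp_apply, Nat.cast_le, zetaCoeff, ← Nat.cast_sum]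
  congr
  rw [← add_left_inj 1, ← card_norm_le_eq_card_norm_le_add_one,
    show Finset.Icc 1 n = Finset.Ioc 0 n from Finset.Icc_succ_left_eq_Ioc _ _,
    show 1 = Nat.card {I : Ideal (𝓞 K) // absNorm I = 0} by simp [Ideal.absNorm_eq_zero_iff],
    Finset.sum_Ioc_add_eq_sum_Icc (n.zero_le),
    ← Finset.card_preimage_eq_sum_card_image_eq (fun k _ ↦ finite_setOfPred_absNorm_eq k)]
  simp [Set.coe_eq_subtype]

/-- The fibre of the norm on nonzero ideals. -/
abbrev NormFiber (n : ℕ) : Type _ := {I : (Ideal (𝓞 K))⁰ // absNorm (I : Ideal (𝓞 K)) = n}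

instance instFiniteNormFiber (n : ℕ) : Finite (NormFiber K n) := by
  have h : Finite {I : Ideal (𝓞 K) // absNorm I = n} := finite_setOfPred_absNorm_eq n
  exact Finite.of_injective (fun I : NormFiber K n => (⟨(I.1 : Ideal (𝓞 K)), I.2⟩ :
    {I : Ideal (𝓞 K) // absNorm I = n}))
    (fun I J hIJ => by
      simp only [Subtype.mk.injEq] at hIJ
      exact Subtype.ext (Subtype.ext hIJ))

theorem card_normFiber_zero : Nat.card (NormFiber K 0) = 0 := by
  rw [Nat.card_eq_zero]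
  left
  refine ⟨fun I => ?_⟩
  have h1 := I.2
  rw [Ideal.absNorm_eq_zero_iff] at h1
  exact (mem_nonZeroDivisors_iff_ne_zero.mp I.1.2) h1

theorem card_normFiber {n : ℕ} (hn : n ≠ 0) :
    (Nat.card (NormFiber K n) : ℝ) = zetaCoeff K n := by
  unfold zetaCoeff
  congr 1
  refine Nat.card_congr ⟨fun I => ⟨(I.1 : Ideal (𝓞 K)), I.2⟩, fun I => ⟨⟨I.1, ?_⟩, I.2⟩, ?_, ?_⟩
  · rw [mem_nonZeroDivisors_iff_ne_zero]
    rintro h
    have h2 := I.2
    rw [h] at h2
    simp at h2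
    exact hn h2.symm
  · intro I; rfl
  · intro I; rfl

/-- The real `L`-series terms of the Dedekind zeta function. -/
theorem term_zetaCoeff (s : ℝ) (n : ℕ) :
    LSeries.term (fun n => (zetaCoeff K n : ℂ)) (s : ℂ) n =
      ((Nat.card (NormFiber K n) * (n : ℝ) ^ (-s) : ℝ) : ℂ) := by
  rcases eq_or_ne n 0 with rfl | hn
  · simp [card_normFiber_zero]
  · rw [LSeries.term_of_ne_zero hn, card_normFiber K hn, Real.rpow_neg (Nat.cast_nonneg n)]
    push_cast
    rw [Complex.ofReal_cpow (Nat.cast_nonneg n) s]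
    simp [div_eq_mul_inv]

theorem summable_card_normFiber {s : ℝ} (hs : 1 < s) :
    Summable (fun n : ℕ => (Nat.card (NormFiber K n) : ℝ) * (n : ℝ) ^ (-s)) := by
  have h := lseriesSummable_zetaCoeff K hs
  unfold LSeriesSummable at h
  have h2 : LSeries.term (fun n => (zetaCoeff K n : ℂ)) (s : ℂ) =
      fun n => ((Nat.card (NormFiber K n) * (n : ℝ) ^ (-s) : ℝ) : ℂ) :=
    funext fun n => term_zetaCoeff K s n
  rw [h2] at h
  exact Complex.summable_ofReal.mp h

theorem tsum_card_normFiber (s : ℝ) :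
    ((∑' n : ℕ, (Nat.card (NormFiber K n) : ℝ) * (n : ℝ) ^ (-s) : ℝ) : ℂ) =
      dedekindZeta K s := by
  rw [Complex.ofReal_tsum]
  unfold dedekindZeta LSeries
  refine tsum_congr fun n => ?_
  rw [← term_zetaCoeff K s n]
  rfl

/-- The sum over nonzero ideals, fibred over the norm. -/
theorem summable_absNorm_rpow {s : ℝ} (hs : 1 < s) :
    Summable (fun I : (Ideal (𝓞 K))⁰ => (absNorm (I : Ideal (𝓞 K)) : ℝ) ^ (-s)) := by
  rw [← (Equiv.sigmaFiberEquiv (fun I : (Ideal (𝓞 K))⁰ => absNorm (I : Ideal (𝓞 K)))).summable_iff,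
    summable_sigma_of_nonneg (f := (fun I : (Ideal (𝓞 K))⁰ => (absNorm (I : Ideal (𝓞 K)) : ℝ) ^ (-s)) ∘
      (Equiv.sigmaFiberEquiv (fun I : (Ideal (𝓞 K))⁰ => absNorm (I : Ideal (𝓞 K)))))
      (fun _ => Real.rpow_nonneg (Nat.cast_nonneg _) _)]
  refine ⟨fun n => Summable.of_finite, ?_⟩
  refine (summable_card_normFiber K hs).congr fun n => ?_
  have h : ∀ I : NormFiber K n,
      ((fun I : (Ideal (𝓞 K))⁰ => (absNorm (I : Ideal (𝓞 K)) : ℝ) ^ (-s)) ∘
        (Equiv.sigmaFiberEquiv (fun I : (Ideal (𝓞 K))⁰ => absNorm (I : Ideal (𝓞 K))))) ⟨n, I⟩ =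
        (n : ℝ) ^ (-s) := by
    intro I
    simp only [Function.comp_apply, Equiv.sigmaFiberEquiv_apply]
    rw [I.2]
  rw [tsum_congr h, tsum_const, nsmul_eq_mul]

theorem tsum_absNorm_rpow {s : ℝ} (hs : 1 < s) :
    ((∑' I : (Ideal (𝓞 K))⁰, (absNorm (I : Ideal (𝓞 K)) : ℝ) ^ (-s) : ℝ) : ℂ) =
      dedekindZeta K s := by
  rw [← tsum_card_normFiber K s]
  congr 1
  rw [← (Equiv.sigmaFiberEquiv (fun I : (Ideal (𝓞 K))⁰ => absNorm (I : Ideal (𝓞 K)))).tsum_eq]
  have hsum := (Equiv.sigmaFiberEquiv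
    (fun I : (Ideal (𝓞 K))⁰ => absNorm (I : Ideal (𝓞 K)))).summable_iff.mpr
      (summable_absNorm_rpow K hs)
  have h3 := Summable.tsum_sigma hsum
  simp only [Function.comp_apply] at h3
  rw [h3]
  refine tsum_congr fun n => ?_
  have h : ∀ I : NormFiber K n,
      (absNorm (((Equiv.sigmaFiberEquiv (fun I : (Ideal (𝓞 K))⁰ => absNorm (I : Ideal (𝓞 K))))
        ⟨n, I⟩ : (Ideal (𝓞 K))⁰) : Ideal (𝓞 K)) : ℝ) ^ (-s) = (n : ℝ) ^ (-s) := by
    intro I
    simp only [Equiv.sigmaFiberEquiv_apply]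
    rw [I.2]
  rw [tsum_congr h, tsum_const, nsmul_eq_mul]

/-- The Dedekind zeta function at real `s`, as a sum over nonzero ideals. -/
noncomputable def zetaIdeal (s : ℝ) : ℝ :=
  ∑' I : (Ideal (𝓞 K))⁰, (absNorm (I : Ideal (𝓞 K)) : ℝ) ^ (-s)

theorem zetaIdeal_eq {s : ℝ} (hs : 1 < s) : (zetaIdeal K s : ℂ) = dedekindZeta K s :=
  tsum_absNorm_rpow K hs

theorem zetaIdeal_nonneg (s : ℝ) : 0 ≤ zetaIdeal K s :=
  tsum_nonneg fun _ => Real.rpow_nonneg (Nat.cast_nonneg _) _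

theorem one_le_absNorm (I : (Ideal (𝓞 K))⁰) : (1 : ℝ) ≤ absNorm (I : Ideal (𝓞 K)) := by
  have h : absNorm (I : Ideal (𝓞 K)) ≠ 0 := by
    rw [Ne, Ideal.absNorm_eq_zero_iff]
    exact mem_nonZeroDivisors_iff_ne_zero.mp I.2
  exact_mod_cast Nat.one_le_iff_ne_zero.mpr h

theorem zetaIdeal_anti {s t : ℝ} (hs : 1 < s) (hst : s ≤ t) : zetaIdeal K t ≤ zetaIdeal K s := by
  refine (summable_absNorm_rpow K (hs.trans_le hst)).tsum_le_tsum (fun I => ?_)
    (summable_absNorm_rpow K hs)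
  exact Real.rpow_le_rpow_of_exponent_le (one_le_absNorm K I) (by linarith)

/-- **Class number formula**, for the sum over ideals. -/
theorem tendsto_sub_one_mul_zetaIdeal :
    Tendsto (fun s : ℝ => (s - 1) * zetaIdeal K s) (𝓝[>] 1) (𝓝 (dedekindZeta_residue K)) := by
  have h := tendsto_sub_one_mul_dedekindZeta_nhdsGT K
  rw [← Filter.tendsto_ofReal_iff]
  refine h.congr' ?_
  filter_upwards [self_mem_nhdsWithin] with s hs
  rw [← zetaIdeal_eq K hs]
  push_cast
  rfl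

/-- `(s - 1) ζ_K(s)` is bounded on `(1, 2)`. -/
theorem exists_bound_sub_one_mul_zetaIdeal :
    ∃ B : ℝ, ∀ s : ℝ, 1 < s → s < 2 → (s - 1) * zetaIdeal K s ≤ B := by
  have h := tendsto_sub_one_mul_zetaIdeal K
  have h1 : ∀ᶠ s in 𝓝[>] (1 : ℝ), (s - 1) * zetaIdeal K s < dedekindZeta_residue K + 1 :=
    h.eventually (gt_mem_nhds (by linarith))
  rw [eventually_nhdsWithin_iff] at h1
  obtain ⟨ε, hε, hε'⟩ := Metric.eventually_nhds_iff.mp h1
  set δ := min (ε / 2) (1 / 2) with hδ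
  have hδ0 : 0 < δ := by positivity
  have hδε : δ < ε := lt_of_le_of_lt (min_le_left _ _) (by linarith)
  refine ⟨max (dedekindZeta_residue K + 1) (zetaIdeal K (1 + δ)), fun s hs1 hs2 => ?_⟩
  rcases lt_or_ge s (1 + δ) with hlt | hge
  · refine le_max_of_le_left (le_of_lt (hε' ?_ hs1))
    rw [Real.dist_eq, abs_of_pos (by linarith)]
    linarith
  · refine le_max_of_le_right ?_
    have h2 : zetaIdeal K s ≤ zetaIdeal K (1 + δ) := zetaIdeal_anti K (by linarith) hge
    have h3 : 0 ≤ zetaIdeal K s := zetaIdeal_nonneg K s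
    nlinarith

end Fermat.Agent.S14.H51
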