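import Fermat.Agent.S14.Stmts
import Fermat.Agent.S14.ZetaIdeals_helper51

/-!
# S14, node AN1: the ideal zeta function for real `s > 1`

* `an1a : StmtAN1a` : summability of `∑ N(I)^(-s)` over the nonzero ideals;
* `an1b : StmtAN1b` : `log ζ_F(s) = log (1/(s-1)) + O(1)` on `(1, 2)`;
* extras: `one_le_idealZeta`, two-sided bounds for `(s - 1) ζ_F(s)` on `(1, 2)`, summability of
  every subfamily, and the decomposition of `idealZeta` into the `partialZeta` of the classes.

The comparison with Mathlib's `dedekindZeta` and the residue limit come from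
`ZetaIdeals_helper51`.
-/

set_option autoImplicit false

namespace Fermat.Agent.S14.H01

open NumberField Ideal Filter Topology
open scoped nonZeroDivisors

variable (F : Type*) [Field F] [NumberField F]

theorem idealZeta_eq_zetaIdeal (s : ℝ) : idealZeta F s = H51.zetaIdeal F s := rfl

/-- **(AN1a)** -/
theorem an1a : StmtAN1a := fun F _ _ _ hs => H51.summable_absNorm_rpow F hs

theorem summable_idealZeta {s : ℝ} (hs : 1 < s) :
    Summable (fun I : (Ideal (𝓞 F))⁰ => (absNorm (I : Ideal (𝓞 F)) : ℝ) ^ (-s)) :=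
  H51.summable_absNorm_rpow F hs

theorem term_nonneg (s : ℝ) (I : (Ideal (𝓞 F))⁰) :
    0 ≤ (absNorm (I : Ideal (𝓞 F)) : ℝ) ^ (-s) :=
  Real.rpow_nonneg (Nat.cast_nonneg _) _

/-- Every subfamily of the ideal zeta series is summable. -/
theorem summable_subtype (P : (Ideal (𝓞 F))⁰ → Prop) {s : ℝ} (hs : 1 < s) :
    Summable (fun I : {I : (Ideal (𝓞 F))⁰ // P I} =>
      (absNorm ((I : (Ideal (𝓞 F))⁰) : Ideal (𝓞 F)) : ℝ) ^ (-s)) :=
  (summable_idealZeta F hs).subtype _

theorem idealZeta_nonneg (s : ℝ) : 0 ≤ idealZeta F s :=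
  tsum_nonneg fun I => term_nonneg F s I

/-- The unit ideal contributes `1`. -/
theorem one_le_idealZeta {s : ℝ} (hs : 1 < s) : 1 ≤ idealZeta F s := by
  have h := (summable_idealZeta F hs).le_tsum (1 : (Ideal (𝓞 F))⁰)
    (fun I _ => term_nonneg F s I)
  have h1 : (absNorm (((1 : (Ideal (𝓞 F))⁰) : (Ideal (𝓞 F))⁰) : Ideal (𝓞 F)) : ℝ) ^ (-s) = 1 := by
    simp
  rw [h1] at h
  exact h

theorem idealZeta_pos {s : ℝ} (hs : 1 < s) : 0 < idealZeta F s :=
  lt_of_lt_of_le one_pos (one_le_idealZeta F hs)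

theorem idealZeta_anti {s t : ℝ} (hs : 1 < s) (hst : s ≤ t) : idealZeta F t ≤ idealZeta F s :=
  H51.zetaIdeal_anti F hs hst

/-- Upper bound for `(s - 1) ζ_F(s)` on `(1, 2)`. -/
theorem exists_upper_bound :
    ∃ B : ℝ, 0 < B ∧ ∀ s ∈ Set.Ioo (1 : ℝ) 2, (s - 1) * idealZeta F s ≤ B := by
  obtain ⟨B, hB⟩ := H51.exists_bound_sub_one_mul_zetaIdeal F
  refine ⟨max B 1, lt_of_lt_of_le one_pos (le_max_right _ _), fun s hs => ?_⟩
  exact (hB s hs.1 hs.2).trans (le_max_left _ _)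

/-- Lower bound for `(s - 1) ζ_F(s)` on `(1, 2)`. -/
theorem exists_lower_bound :
    ∃ c : ℝ, 0 < c ∧ ∀ s ∈ Set.Ioo (1 : ℝ) 2, c ≤ (s - 1) * idealZeta F s := by
  have hres : 0 < dedekindZeta_residue F := dedekindZeta_residue_pos F
  have h := H51.tendsto_sub_one_mul_zetaIdeal F
  have h1 : ∀ᶠ s in 𝓝[>] (1 : ℝ), dedekindZeta_residue F / 2 < (s - 1) * H51.zetaIdeal F s :=
    h.eventually (lt_mem_nhds (by linarith))
  rw [eventually_nhdsWithin_iff] at h1
  obtain ⟨ε, hε, hε'⟩ := Metric.eventually_nhds_iff.mp h1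
  set δ := min (ε / 2) (1 / 2) with hδ
  have hδ0 : 0 < δ := by positivity
  have hδε : δ < ε := lt_of_le_of_lt (min_le_left _ _) (by linarith)
  refine ⟨min (dedekindZeta_residue F / 2) δ, lt_min (by linarith) hδ0, fun s hs => ?_⟩
  rcases lt_or_ge s (1 + δ) with hlt | hge
  · refine (min_le_left _ _).trans (le_of_lt ?_)
    refine hε' ?_ hs.1
    rw [Real.dist_eq, abs_of_pos (by linarith [hs.1])]
    linarith
  · refine (min_le_right _ _).trans ?_
    have h2 : 1 ≤ idealZeta F s := one_le_idealZeta F hs.1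
    have h3 : δ ≤ s - 1 := by linarith
    nlinarith

/-- `ζ_F(s) ≤ c / (s - 1)` on `(1, 2)`. -/
theorem idealZeta_le_div :
    ∃ c : ℝ, 0 < c ∧ ∀ s ∈ Set.Ioo (1 : ℝ) 2, idealZeta F s ≤ c / (s - 1) := by
  obtain ⟨B, hB0, hB⟩ := exists_upper_bound F
  refine ⟨B, hB0, fun s hs => ?_⟩
  have hs1 : 0 < s - 1 := by linarith [hs.1]
  rw [le_div_iff₀ hs1, mul_comm]
  exact hB s hs

/-- `c / (s - 1) ≤ ζ_F(s)` on `(1, 2)`. -/
theorem div_le_idealZeta :
    ∃ c : ℝ, 0 < c ∧ ∀ s ∈ Set.Ioo (1 : ℝ) 2, c / (s - 1) ≤ idealZeta F s := by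
  obtain ⟨c, hc0, hc⟩ := exists_lower_bound F
  refine ⟨c, hc0, fun s hs => ?_⟩
  have hs1 : 0 < s - 1 := by linarith [hs.1]
  rw [div_le_iff₀ hs1, mul_comm]
  exact hc s hs

/-- The identity `log ζ_F(s) - log (1/(s-1)) = log ((s-1) ζ_F(s))`. -/
theorem log_idealZeta_sub {s : ℝ} (hs : 1 < s) :
    Real.log (idealZeta F s) - Real.log (1 / (s - 1)) = Real.log ((s - 1) * idealZeta F s) := by
  have hs1 : 0 < s - 1 := by linarith
  rw [Real.log_mul hs1.ne' (idealZeta_pos F hs).ne', one_div, Real.log_inv]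
  ring

/-- **(AN1b)**, for a number field in any universe. -/
theorem log_idealZeta_asymp :
    ∃ C : ℝ, ∀ s ∈ Set.Ioo (1 : ℝ) 2,
      |Real.log (idealZeta F s) - Real.log (1 / (s - 1))| ≤ C := by
  obtain ⟨B, hB0, hB⟩ := exists_upper_bound F
  obtain ⟨c, hc0, hc⟩ := exists_lower_bound F
  refine ⟨max |Real.log B| |Real.log c|, fun s hs => ?_⟩
  rw [log_idealZeta_sub F hs.1]
  have h1 : Real.log c ≤ Real.log ((s - 1) * idealZeta F s) :=
    Real.log_le_log hc0 (hc s hs)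
  have h2 : Real.log ((s - 1) * idealZeta F s) ≤ Real.log B :=
    Real.log_le_log (lt_of_lt_of_le hc0 (hc s hs)) (hB s hs)
  rw [abs_le]
  constructor
  · have := neg_abs_le (Real.log c)
    have h3 : |Real.log c| ≤ max |Real.log B| |Real.log c| := le_max_right _ _
    linarith
  · have := le_abs_self (Real.log B)
    have h3 : |Real.log B| ≤ max |Real.log B| |Real.log c| := le_max_left _ _
    linarith

/-- **(AN1b)** -/
theorem an1b : StmtAN1b := fun F _ _ => log_idealZeta_asymp F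

/-! ### Partial zeta functions -/

theorem summable_partialZeta (C : ClassGroup (𝓞 F)) {s : ℝ} (hs : 1 < s) :
    Summable (fun I : {I : (Ideal (𝓞 F))⁰ // ClassGroup.mk0 I = C} =>
      (absNorm ((I : (Ideal (𝓞 F))⁰) : Ideal (𝓞 F)) : ℝ) ^ (-s)) :=
  summable_subtype F _ hs

theorem partialZeta_nonneg (C : ClassGroup (𝓞 F)) (s : ℝ) : 0 ≤ partialZeta F C s :=
  tsum_nonneg fun I => term_nonneg F s I

/-- The ideal zeta function is the sum of the partial zeta functions of the ideal classes. -/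
theorem idealZeta_eq_sum_partialZeta {s : ℝ} (hs : 1 < s) :
    idealZeta F s = ∑ C : ClassGroup (𝓞 F), partialZeta F C s := by
  unfold idealZeta partialZeta
  rw [← (Equiv.sigmaFiberEquiv (fun I : (Ideal (𝓞 F))⁰ => ClassGroup.mk0 I)).tsum_eq]
  have hsum := (Equiv.sigmaFiberEquiv
    (fun I : (Ideal (𝓞 F))⁰ => ClassGroup.mk0 I)).summable_iff.mpr (summable_idealZeta F hs)
  have h3 := Summable.tsum_sigma hsum
  simp only [Function.comp_apply] at h3
  rw [h3, tsum_fintype]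
  rfl

theorem partialZeta_le_idealZeta (C : ClassGroup (𝓞 F)) {s : ℝ} (hs : 1 < s) :
    partialZeta F C s ≤ idealZeta F s := by
  rw [idealZeta_eq_sum_partialZeta F hs]
  exact Finset.single_le_sum (f := fun C => partialZeta F C s)
    (fun C _ => partialZeta_nonneg F C s) (Finset.mem_univ C)

end Fermat.Agent.S14.H01
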