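import Fermat.Agent.S14.Stmts

/-!
# S14, row 173 (helper7): the density pigeonhole `StmtD1 → StmtD2 → StmtD3 → StmtAN`
-/

set_option autoImplicit false

open scoped NumberField nonZeroDivisors

namespace Fermat.Agent.S14.H07

/-- the pigeonhole: no real `L` can satisfy `(1 - 2/p) * L ≤ C` for all `L > 0`;
stated in the form used below. -/
theorem exists_s_log_gt (C : ℝ) (c : ℝ) (hc : 0 < c) :
    ∃ s ∈ Set.Ioo (1 : ℝ) 2, C < c * Real.log (1 / (s - 1)) := by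
  set M : ℝ := max 1 (C / c + 1) with hM
  have hM1 : 1 ≤ M := le_max_left _ _
  have hM2 : C / c + 1 ≤ M := le_max_right _ _
  refine ⟨1 + Real.exp (-M), ⟨?_, ?_⟩, ?_⟩
  · have := Real.exp_pos (-M); linarith
  · have : Real.exp (-M) < 1 := by
      have h := Real.exp_lt_exp.mpr (show -M < 0 by linarith)
      rwa [Real.exp_zero] at h
    linarith
  · have h1 : (1 + Real.exp (-M) - 1) = Real.exp (-M) := by ring
    rw [h1, one_div, ← Real.exp_neg, neg_neg, Real.log_exp]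
    have h2 : C / c < M := by linarith
    have := (div_lt_iff₀ hc).mp h2
    linarith

/-- row 173: the analytic input from the three density inequalities. -/
theorem an_of (h1 : StmtD1) (h2 : StmtD2) (h3 : StmtD3) : StmtAN := by
  intro p _ hp2 K _ _ _ ζ hζ E hE H hH
  by_contra hcon
  -- every degree-one prime not of norm `p` has class in `H` or `E` is a `p`-th power mod it
  have key : ∀ 𝔩 : (Ideal (𝓞 K))⁰, (𝔩 : Ideal (𝓞 K)).IsPrime →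
      (Ideal.absNorm (𝔩 : Ideal (𝓞 K))).Prime → Ideal.absNorm (𝔩 : Ideal (𝓞 K)) ≠ p →
      ClassGroup.mk0 𝔩 ∉ H → ∃ x : 𝓞 K, x ^ p - (E : 𝓞 K) ∈ (𝔩 : Ideal (𝓞 K)) := by
    intro 𝔩 hl hn hnp hcl
    by_contra hx
    exact hcon ⟨𝔩, hl, hn, hnp, hcl, hx⟩
  obtain ⟨C1, hC1⟩ := h1 K p ζ hζ E hE
  obtain ⟨C2, hC2⟩ := h2 K p H hH
  obtain ⟨C3, hC3⟩ := h3 K p
  have hp : p.Prime := Fact.out
  have hp3 : 3 ≤ p := by
    have := hp.two_le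
    omega
  have hpR : (3 : ℝ) ≤ (p : ℝ) := by exact_mod_cast hp3
  have hc : (0 : ℝ) < 1 - 2 / (p : ℝ) := by
    have : (2 : ℝ) / (p : ℝ) < 1 := by
      rw [div_lt_one (by linarith)]; linarith
    linarith
  obtain ⟨s, hs, hlt⟩ := exists_s_log_gt (C1 + C2 + C3) (1 - 2 / (p : ℝ)) hc
  obtain ⟨T, hT, hTsum⟩ := hC3 s hs
  classical
  set T1 : Finset (Ideal (𝓞 K))⁰ := T.filter (fun 𝔩 => ClassGroup.mk0 𝔩 ∈ H) with hT1
  set T2 : Finset (Ideal (𝓞 K))⁰ := T.filter (fun 𝔩 => ¬ ClassGroup.mk0 𝔩 ∈ H) with hT2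
  have hsplit : ∑ 𝔩 ∈ T, (Ideal.absNorm (𝔩 : Ideal (𝓞 K)) : ℝ) ^ (-s) =
      ∑ 𝔩 ∈ T1, (Ideal.absNorm (𝔩 : Ideal (𝓞 K)) : ℝ) ^ (-s) +
        ∑ 𝔩 ∈ T2, (Ideal.absNorm (𝔩 : Ideal (𝓞 K)) : ℝ) ^ (-s) := by
    rw [hT1, hT2]
    exact (Finset.sum_filter_add_sum_filter_not T _ _).symm
  have hb1 : ∑ 𝔩 ∈ T1, (Ideal.absNorm (𝔩 : Ideal (𝓞 K)) : ℝ) ^ (-s) ≤
      (1 / p) * Real.log (1 / (s - 1)) + C2 := by
    apply hC2 s hs T1
    intro 𝔩 h𝔩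
    rw [hT1, Finset.mem_filter] at h𝔩
    exact ⟨(hT 𝔩 h𝔩.1).1, h𝔩.2⟩
  have hb2 : ∑ 𝔩 ∈ T2, (Ideal.absNorm (𝔩 : Ideal (𝓞 K)) : ℝ) ^ (-s) ≤
      (1 / p) * Real.log (1 / (s - 1)) + C1 := by
    apply hC1 s hs T2
    intro 𝔩 h𝔩
    rw [hT2, Finset.mem_filter] at h𝔩
    obtain ⟨hl, hn, hnp⟩ := hT 𝔩 h𝔩.1
    exact ⟨hl, hn, hnp, key 𝔩 hl hn hnp h𝔩.2⟩
  have hfin : (1 - 2 / (p : ℝ)) * Real.log (1 / (s - 1)) ≤ C1 + C2 + C3 := by
    have e : (1 - 2 / (p : ℝ)) * Real.log (1 / (s - 1)) =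
        Real.log (1 / (s - 1)) - 2 * ((1 / (p : ℝ)) * Real.log (1 / (s - 1))) := by ring
    rw [e]
    linarith
  linarith

end Fermat.Agent.S14.H07
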