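import Fermat.Agent.S14.Stmts

/-!
# S14, node (C): the class lemma from Thaine's relation, the analytic input and the unit `E`

`class_lemma_of` derives the class lemma (the `p`-torsion of the `a ↦ a ^ 2` eigenspace of the
class group of `ℚ(ζ_p)` is trivial) from three inputs, taken as hypotheses in the shapes of the
S14 skeleton: Thaine's relation, the existence of a degree one prime outside a subgroup of index
`p` modulo which the cyclotomic unit `E` is not a `p`-th power, and the cyclotomic unit `E`.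
-/

set_option autoImplicit false

open scoped NumberField nonZeroDivisors
open IsCyclotomicExtension.Rat

namespace Fermat.Agent.S14.H93

/-! ## Abstract group theory -/

section Abstract

variable {A : Type*} [CommGroup A]

/-- If every value of `ε` is a `p`-th power and `ε c₀ = c₀⁻¹`, then `c₀` is a `p ^ k`-th power
for every `k`. -/
theorem exists_pow_pow_eq (p : ℕ) (ε : A →* A) (c₀ : A) (hε : ε c₀ = c₀⁻¹)
    (hall : ∀ x : A, ∃ z : A, ε x = z ^ p) (k : ℕ) : ∃ z : A, c₀ = z ^ (p ^ k) := by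
  induction k with
  | zero => exact ⟨c₀, by simp⟩
  | succ k ih =>
    obtain ⟨z, hz⟩ := ih
    obtain ⟨w, hw⟩ := hall (ε z)
    refine ⟨w, ?_⟩
    have h1 : ε (ε c₀) = c₀ := by rw [hε, map_inv, hε, inv_inv]
    calc c₀ = ε (ε c₀) := h1.symm
      _ = ε (ε (z ^ (p ^ k))) := by rw [← hz]
      _ = (ε (ε z)) ^ (p ^ k) := by rw [map_pow, map_pow]
      _ = (w ^ p) ^ (p ^ k) := by rw [hw]
      _ = w ^ (p ^ (k + 1)) := by rw [← pow_mul, pow_succ']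

/-- **Abstract class-group lemma.** Let `A` be a finite commutative group, `ε` an endomorphism
and `c₀ ≠ 1` an element with `c₀ ^ p = 1` and `ε c₀ = c₀⁻¹`. Then there is a subgroup `H` of
index `p` containing every `x` such that `ε x` is a `p`-th power. -/
theorem exists_subgroup_index_eq [Finite A] (p : ℕ) [hp : Fact p.Prime]
    (ε : A →* A) (c₀ : A) (hc₀ : c₀ ≠ 1) (hp₀ : c₀ ^ p = 1) (hε : ε c₀ = c₀⁻¹) :
    ∃ H : Subgroup A, H.index = p ∧ ∀ x : A, (∃ z : A, ε x = z ^ p) → x ∈ H := by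
  classical
  -- `H₁ = {x | ε x ∈ A ^ p}`
  set H₁ : Subgroup A := (powMonoidHom p : A →* A).range.comap ε with hH₁
  have hmem : ∀ x : A, x ∈ H₁ ↔ ∃ z : A, ε x = z ^ p := by
    intro x
    rw [hH₁, Subgroup.mem_comap, MonoidHom.mem_range]
    constructor
    · rintro ⟨z, hz⟩
      exact ⟨z, hz.symm⟩
    · rintro ⟨z, hz⟩
      exact ⟨z, hz.symm⟩
  -- `H₁ ≠ ⊤`
  have hne : H₁ ≠ ⊤ := by
    intro htop
    have hall : ∀ x : A, ∃ z : A, ε x = z ^ p := fun x => (hmem x).mp (htop ▸ Subgroup.mem_top x)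
    obtain ⟨m, r, hr, hcard⟩ := Nat.exists_eq_pow_mul_and_not_dvd (Nat.card_pos (α := A)).ne' p
      hp.out.ne_one
    obtain ⟨z, hz⟩ := exists_pow_pow_eq p ε c₀ hε hall m
    have h1 : c₀ ^ r = 1 := by
      rw [hz, ← pow_mul, ← hcard]
      exact pow_card_eq_one'
    have hcop : Nat.Coprime r p := ((Nat.Prime.coprime_iff_not_dvd hp.out).mpr hr).symm
    have h2 : c₀ ^ (Nat.gcd r p) = 1 := pow_gcd_eq_one.mpr ⟨h1, hp₀⟩
    rw [hcop.gcd_eq_one, pow_one] at h2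
    exact hc₀ h2
  -- the quotient `A ⧸ H₁` is a nontrivial `p`-group
  have hpg : IsPGroup p (A ⧸ H₁) := by
    intro g
    obtain ⟨x, rfl⟩ := QuotientGroup.mk_surjective g
    refine ⟨1, ?_⟩
    rw [pow_one, ← QuotientGroup.mk_pow, QuotientGroup.eq_one_iff, hmem]
    exact ⟨ε x, map_pow ε x p⟩
  obtain ⟨n, hn⟩ := IsPGroup.iff_card.mp hpg
  have hn0 : n ≠ 0 := by
    rintro rfl
    rw [pow_zero] at hn
    have : H₁.index = 1 := by rw [Subgroup.index_eq_card]; exact hn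
    exact hne (Subgroup.index_eq_one.mp this)
  obtain ⟨n', rfl⟩ := Nat.exists_eq_succ_of_ne_zero hn0
  obtain ⟨K₀, hK₀⟩ := Sylow.exists_subgroup_card_pow_prime (G := A ⧸ H₁) p
    (n := n') (by rw [hn]; exact pow_dvd_pow p (Nat.le_succ n'))
  refine ⟨K₀.comap (QuotientGroup.mk' H₁), ?_, ?_⟩
  · rw [Subgroup.index_comap_of_surjective _ (QuotientGroup.mk'_surjective H₁)]
    have h3 := K₀.card_mul_index
    rw [hK₀, hn, pow_succ] at h3
    exact Nat.eq_of_mul_eq_mul_left (pow_pos hp.out.pos n') h3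
  · intro x hx
    rw [Subgroup.mem_comap, QuotientGroup.mk'_apply,
      (QuotientGroup.eq_one_iff x).mpr ((hmem x).mpr hx)]
    exact K₀.one_mem

/-- **Applying the idempotent-like operator to a relation.** Let a finite group `G` act on a
commutative group `A` through endomorphisms, and let `n : G → ℕ` be multiplicative modulo `p`.
If `∏ σ, (σ⁻¹ y) ^ k σ` is a `p`-th power, then so is `(∏ ρ, (ρ y) ^ n ρ) ^ (∑ σ, k σ * n σ)`. -/
theorem exists_pow_eq_of_relation {G : Type*} [Group G] [Fintype G] (p : ℕ)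
    (act : G → A →* A) (hact : ∀ (σ τ : G) (x : A), act (σ * τ) x = act σ (act τ x))
    (n : G → ℕ) (hn : ∀ ρ σ : G, n (ρ * σ) ≡ n ρ * n σ [MOD p])
    (y d : A) (k : G → ℕ) (hrel : ∏ σ, (act σ⁻¹ y) ^ (k σ) = d ^ p) :
    ∃ z : A, (∏ ρ, (act ρ y) ^ (n ρ)) ^ (∑ σ, k σ * n σ) = z ^ p := by
  classical
  let q : A →* A ⧸ (powMonoidHom p : A →* A).range := QuotientGroup.mk' _
  have hq : ∀ x : A, q x ^ p = 1 := by
    intro x
    rw [← map_pow]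
    exact (QuotientGroup.eq_one_iff _).mpr ⟨x, rfl⟩
  have hqpow : ∀ (x : A) (a b : ℕ), a ≡ b [MOD p] → q x ^ a = q x ^ b := by
    intro x a b hab
    rw [pow_eq_pow_mod a (hq x), pow_eq_pow_mod b (hq x), hab]
  have h1 : q (∏ τ, (act τ (∏ σ, (act σ⁻¹ y) ^ (k σ))) ^ (n τ)) = 1 := by
    rw [hrel]
    simp only [map_pow, map_prod]
    refine Finset.prod_eq_one (fun τ _ => ?_)
    rw [hq, one_pow]
  have h2 : q (∏ τ, (act τ (∏ σ, (act σ⁻¹ y) ^ (k σ))) ^ (n τ)) =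
      q (∏ ρ, (act ρ y) ^ (n ρ)) ^ (∑ σ, k σ * n σ) := by
    simp only [map_pow, map_prod]
    calc ∏ τ, (∏ σ, q (act τ (act σ⁻¹ y)) ^ k σ) ^ n τ
        = ∏ τ, ∏ σ, q (act (τ * σ⁻¹) y) ^ (k σ * n τ) := by
          refine Finset.prod_congr rfl (fun τ _ => ?_)
          rw [← Finset.prod_pow]
          refine Finset.prod_congr rfl (fun σ _ => ?_)
          rw [hact, pow_mul]
      _ = ∏ σ, ∏ τ, q (act (τ * σ⁻¹) y) ^ (k σ * n τ) := Finset.prod_comm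
      _ = ∏ σ, ∏ ρ, q (act ρ y) ^ (k σ * n (ρ * σ)) := by
          refine Finset.prod_congr rfl (fun σ _ => ?_)
          exact (Fintype.prod_equiv (Equiv.mulRight σ)
            (fun ρ => q (act ρ y) ^ (k σ * n (ρ * σ)))
            (fun τ => q (act (τ * σ⁻¹) y) ^ (k σ * n τ)) (fun ρ => by simp)).symm
      _ = ∏ σ, ∏ ρ, q (act ρ y) ^ (k σ * (n ρ * n σ)) := by
          refine Finset.prod_congr rfl (fun σ _ => Finset.prod_congr rfl (fun ρ _ => ?_))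
          exact hqpow _ _ _ ((hn ρ σ).mul_left (k σ))
      _ = ∏ σ, (∏ ρ, q (act ρ y) ^ n ρ) ^ (k σ * n σ) := by
          refine Finset.prod_congr rfl (fun σ _ => ?_)
          rw [← Finset.prod_pow]
          refine Finset.prod_congr rfl (fun ρ _ => ?_)
          rw [← pow_mul]
          congr 1
          ring
      _ = (∏ ρ, q (act ρ y) ^ n ρ) ^ ∑ σ, k σ * n σ := by
          rw [Finset.prod_pow_eq_pow_sum]
  rw [h2, ← map_pow] at h1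
  obtain ⟨z, hz⟩ := (QuotientGroup.eq_one_iff _).mp h1
  exact ⟨z, hz.symm⟩

/-- If `x ^ M` is a `p`-th power and `p ∤ M` (`p` prime), then `x` is a `p`-th power. -/
theorem exists_pow_eq_of_pow_of_not_dvd (p : ℕ) [hp : Fact p.Prime] (x : A) (M : ℕ)
    (hM : ¬ p ∣ M) (h : ∃ z : A, x ^ M = z ^ p) : ∃ z : A, x = z ^ p := by
  obtain ⟨z, hz⟩ := h
  have hcop : Nat.Coprime M p := ((Nat.Prime.coprime_iff_not_dvd hp.out).mpr hM).symm
  obtain ⟨m, -, hm⟩ := Nat.exists_mul_mod_eq_one_of_coprime hcop hp.out.one_lt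
  have h1 : M * m = p * (M * m / p) + 1 := by
    have := Nat.div_add_mod (M * m) p
    omega
  refine ⟨z ^ m * (x ^ (M * m / p))⁻¹, ?_⟩
  have h2 : x ^ (M * m) = (z ^ m) ^ p := by
    rw [pow_mul, hz, ← pow_mul, ← pow_mul, mul_comm]
  have h3 : x ^ (M * m) = (x ^ (M * m / p)) ^ p * x := by
    conv_lhs => rw [h1]
    rw [pow_succ, pow_mul']
  rw [mul_pow, inv_pow, ← h2, h3]
  exact (mul_inv_cancel_comm _ _).symm

end Abstract

/-! ## The Galois action on the class group -/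

section ClassGroupAction

variable {K : Type*} [Field K] [NumberField K]

/-- `clAct` is a left action. -/
theorem clAct_mul (σ τ : K ≃ₐ[ℚ] K) (x : ClassGroup (𝓞 K)) :
    clAct (σ * τ) x = clAct σ (clAct τ x) := by
  unfold clAct
  rw [map_mul]
  exact ClassGroup.mulEquiv_trans_apply _ _ x

/-- The residue ring of a prime of prime absolute norm `ℓ` is `ZMod ℓ`. -/
theorem exists_ringHom_zmod (𝔩 : Ideal (𝓞 K)) {ℓ : ℕ} (hℓ : ℓ.Prime)
    (hN : Ideal.absNorm 𝔩 = ℓ) :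
    ∃ φ : 𝓞 K →+* ZMod ℓ, Function.Surjective φ ∧ RingHom.ker φ = 𝔩 := by
  have hcard : Nat.card (𝓞 K ⧸ 𝔩) = ℓ := by
    rw [← hN, Ideal.absNorm_apply, Submodule.cardQuot_apply]
  have : Finite (𝓞 K ⧸ 𝔩) := Nat.finite_of_card_ne_zero (hcard ▸ hℓ.ne_zero)
  let : Fintype (𝓞 K ⧸ 𝔩) := Fintype.ofFinite _
  have hcard' : Fintype.card (𝓞 K ⧸ 𝔩) = ℓ := by rw [← Nat.card_eq_fintype_card, hcard]
  let e : ZMod ℓ ≃+* (𝓞 K ⧸ 𝔩) := ZMod.ringEquivOfPrime _ hℓ hcard'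
  refine ⟨(e.symm : (𝓞 K ⧸ 𝔩) →+* ZMod ℓ).comp (Ideal.Quotient.mk 𝔩), ?_, ?_⟩
  · exact e.symm.surjective.comp Ideal.Quotient.mk_surjective
  · ext x
    rw [RingHom.mem_ker, RingHom.comp_apply, RingEquiv.coe_toRingHom,
      map_eq_zero_iff _ e.symm.injective, Ideal.Quotient.eq_zero_iff_mem]

end ClassGroupAction

/-! ## The operator `e = ∑ [a ^ (p - 3)] σ_a` on the class group of `ℚ(ζ_p)` -/

section Cyclo

variable (p : ℕ) [hp : Fact p.Prime] {K : Type*} [Field K] [NumberField K]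
  [IsCyclotomicExtension {p} ℚ K]

/-- The exponent `a ∈ [1, p - 1]` with `σ ζ = ζ ^ a`. -/
noncomputable def expo (σ : K ≃ₐ[ℚ] K) : ℕ := ((galEquivZMod p K σ : (ZMod p)ˣ) : ZMod p).val

/-- The weight `[a ^ (p - 3)]` of `σ = σ_a`. -/
noncomputable def wt (σ : K ≃ₐ[ℚ] K) : ℕ :=
  (((galEquivZMod p K σ : (ZMod p)ˣ) : ZMod p) ^ (p - 3)).val

theorem apply_eq_pow_expo {ζ : K} (hζ : IsPrimitiveRoot ζ p) (σ : K ≃ₐ[ℚ] K) :
    σ ζ = ζ ^ expo p σ :=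
  galEquivZMod_apply_of_pow_eq p K σ hζ.pow_eq_one

theorem natCast_expo (σ : K ≃ₐ[ℚ] K) :
    ((expo p σ : ℕ) : ZMod p) = ((galEquivZMod p K σ : (ZMod p)ˣ) : ZMod p) :=
  ZMod.natCast_zmod_val _

theorem natCast_wt (σ : K ≃ₐ[ℚ] K) :
    ((wt p σ : ℕ) : ZMod p) = ((galEquivZMod p K σ : (ZMod p)ˣ) : ZMod p) ^ (p - 3) :=
  ZMod.natCast_zmod_val _

theorem wt_mul (ρ σ : K ≃ₐ[ℚ] K) : wt p (ρ * σ) ≡ wt p ρ * wt p σ [MOD p] := by
  rw [← ZMod.natCast_eq_natCast_iff]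
  push_cast
  rw [natCast_wt, natCast_wt, natCast_wt, map_mul, Units.val_mul, mul_pow]

theorem wt_eq (σ : K ≃ₐ[ℚ] K) : wt p σ = (expo p σ) ^ (p - 3) % p := by
  rw [wt, ← natCast_expo, ← Nat.cast_pow, ZMod.val_natCast]

theorem expo_mem (σ : K ≃ₐ[ℚ] K) : expo p σ ∈ Finset.Ico 1 p := by
  rw [Finset.mem_Ico]
  refine ⟨?_, ZMod.val_lt _⟩
  rw [Nat.one_le_iff_ne_zero, expo, Ne, ZMod.val_eq_zero]
  exact Units.ne_zero _

theorem expo_injective : Function.Injective (expo p (K := K)) := by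
  intro σ τ h
  apply (galEquivZMod p K).injective
  apply Units.ext
  exact ZMod.val_injective p h

theorem expo_surj (b : ℕ) (hb : b ∈ Finset.Ico 1 p) : ∃ σ : K ≃ₐ[ℚ] K, expo p σ = b := by
  rw [Finset.mem_Ico] at hb
  have hb0 : (b : ZMod p) ≠ 0 := by
    rw [Ne, ZMod.natCast_eq_zero_iff]
    exact Nat.not_dvd_of_pos_of_lt hb.1 hb.2
  refine ⟨(galEquivZMod p K).symm (Units.mk0 (b : ZMod p) hb0), ?_⟩
  rw [expo, MulEquiv.apply_symm_apply, Units.val_mk0, ZMod.val_natCast, Nat.mod_eq_of_lt hb.2]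

theorem sum_expo_sq_mul_wt (h3 : 3 ≤ p) :
    ((∑ σ : K ≃ₐ[ℚ] K, expo p σ ^ 2 * wt p σ : ℕ) : ZMod p) = -1 := by
  push_cast
  have h : ∀ σ : K ≃ₐ[ℚ] K, ((expo p σ : ℕ) : ZMod p) ^ 2 * ((wt p σ : ℕ) : ZMod p) = 1 := by
    intro σ
    rw [natCast_expo, natCast_wt, ← pow_add]
    have h2 : 2 + (p - 3) = p - 1 := by omega
    rw [h2]
    exact ZMod.pow_card_sub_one_eq_one (Units.ne_zero _)
  rw [Finset.sum_congr rfl (fun σ _ => h σ), Finset.sum_const, Finset.card_univ,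
    Fintype.card_congr (galEquivZMod p K).toEquiv, ZMod.card_units, nsmul_eq_mul, mul_one,
    Nat.cast_sub hp.out.one_le, Nat.cast_one, ZMod.natCast_self, zero_sub]

/-- The operator `x ↦ ∏ σ, (σ x) ^ [a_σ ^ (p - 3)]` on the class group. -/
noncomputable def eOp : ClassGroup (𝓞 K) →* ClassGroup (𝓞 K) :=
  ∏ σ : K ≃ₐ[ℚ] K, (powMonoidHom (wt p σ)).comp (clAct σ).toMonoidHom

theorem eOp_apply (x : ClassGroup (𝓞 K)) :
    eOp p x = ∏ σ : K ≃ₐ[ℚ] K, (clAct σ x) ^ wt p σ := by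
  simp [eOp, MonoidHom.finsetProd_apply]

/-- On a `p`-torsion class in the `a ↦ a ^ 2` eigenspace, `eOp` acts as inversion. -/
theorem eOp_eigen (h3 : 3 ≤ p) {ζ : K} (hζ : IsPrimitiveRoot ζ p) (c : ClassGroup (𝓞 K))
    (hc : c ^ p = 1)
    (heig : ∀ (σ : K ≃ₐ[ℚ] K) (a : ℕ), σ ζ = ζ ^ a → clAct σ c = c ^ (a ^ 2)) :
    eOp p c = c⁻¹ := by
  rw [eOp_apply]
  have h1 : ∀ σ : K ≃ₐ[ℚ] K, (clAct σ c) ^ wt p σ = c ^ (expo p σ ^ 2 * wt p σ) := by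
    intro σ
    rw [heig σ (expo p σ) (apply_eq_pow_expo p hζ σ), pow_mul]
  rw [Finset.prod_congr rfl (fun σ _ => h1 σ), Finset.prod_pow_eq_pow_sum]
  have hS := sum_expo_sq_mul_wt p (K := K) h3
  have h2 : p ∣ (∑ σ : K ≃ₐ[ℚ] K, expo p σ ^ 2 * wt p σ) + 1 := by
    rw [← ZMod.natCast_eq_zero_iff, Nat.cast_add, hS]
    simp
  obtain ⟨t, ht⟩ := h2
  rw [eq_inv_iff_mul_eq_one, ← pow_succ, ht, pow_mul, hc, one_pow]

/-- The product over `b ∈ [1, p - 1]` defining the cyclotomic unit, as a product over the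
Galois group. -/
theorem prod_Ico_eq_prod_gal {ζ : K} (hζ : IsPrimitiveRoot ζ p) :
    ∏ b ∈ Finset.Ico 1 p, (1 - ζ ^ b) ^ (b ^ (p - 3) % p) =
      ∏ σ : K ≃ₐ[ℚ] K, (1 - σ ζ) ^ wt p σ := by
  symm
  refine Finset.prod_bij (fun σ _ => expo p σ) (fun σ _ => expo_mem p σ)
    (fun σ _ τ _ h => expo_injective p h) (fun b hb => ?_) (fun σ _ => ?_)
  · obtain ⟨σ, hσ⟩ := expo_surj p (K := K) b hb
    exact ⟨σ, Finset.mem_univ _, hσ⟩
  · rw [apply_eq_pow_expo p hζ σ, wt_eq]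

/-- **The class lemma from its three inputs** (node (C) of the S14 skeleton).
The hypotheses `hU12`, `hTH`, `hAN` are the statements of the skeleton nodes
`exists_eigenUnit_and_D2`, `thaine` and `exists_prime_notMem_and_not_pow`. -/
theorem class_lemma_of (h3 : 3 ≤ p) {ζ : K} (hζ : IsPrimitiveRoot ζ p)
    (hU12 : ∃ (E : (𝓞 K)ˣ) (D : (𝓞 K)ˣ →* Multiplicative (ZMod p)) (w : K),
      IsEigenUnit p ζ E ∧ D E ≠ 1 ∧
      (∀ ε : (𝓞 K)ˣ, (∃ ξ : 𝓞 K, (hζ.toInteger - 1) ^ 3 ∣ (ε : 𝓞 K) - ξ ^ p) → D ε = 1) ∧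
      ((E : 𝓞 K) : K) * w ^ p = ∏ b ∈ Finset.Ico 1 p, (1 - ζ ^ b) ^ (b ^ (p - 3) % p))
    (hTH : ∀ ℓ : ℕ, ℓ.Prime → ℓ % p = 1 →
      ∀ 𝔩 : (Ideal (𝓞 K))⁰, (𝔩 : Ideal (𝓞 K)).IsPrime → (ℓ : 𝓞 K) ∈ (𝔩 : Ideal (𝓞 K)) →
      ∀ g : ℕ, orderOf (g : ZMod ℓ) = ℓ - 1 → ∀ k : (K ≃ₐ[ℚ] K) → ℕ,
      (∀ σ : K ≃ₐ[ℚ] K,
        (1 - galRestrict ℤ ℚ K (𝓞 K) σ hζ.toInteger) - (g : 𝓞 K) ^ (k σ) ∈ (𝔩 : Ideal (𝓞 K))) →
      ∃ d : ClassGroup (𝓞 K),
        ∏ σ : K ≃ₐ[ℚ] K, (clAct σ⁻¹ (ClassGroup.mk0 𝔩)) ^ (k σ) = d ^ p)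
    (hAN : ∀ E : (𝓞 K)ˣ, (¬ ∃ x : K, x ^ p = ((E : 𝓞 K) : K)) →
      ∀ H : Subgroup (ClassGroup (𝓞 K)), H.index = p →
      ∃ 𝔩 : (Ideal (𝓞 K))⁰, (𝔩 : Ideal (𝓞 K)).IsPrime ∧
        (Ideal.absNorm (𝔩 : Ideal (𝓞 K))).Prime ∧ Ideal.absNorm (𝔩 : Ideal (𝓞 K)) ≠ p ∧
        ClassGroup.mk0 𝔩 ∉ H ∧ ¬ ∃ x : 𝓞 K, x ^ p - (E : 𝓞 K) ∈ (𝔩 : Ideal (𝓞 K)))
    (c : ClassGroup (𝓞 K)) (hc : c ^ p = 1)
    (heig : ∀ (σ : K ≃ₐ[ℚ] K) (a : ℕ), σ ζ = ζ ^ a → clAct σ c = c ^ (a ^ 2)) : c = 1 := by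
  by_contra hc1
  obtain ⟨E, D, w, -, hDE, hD, hEw⟩ := hU12
  -- `E` is not a `p`-th power in `K`
  have hEnot : ¬ ∃ x : K, x ^ p = ((E : 𝓞 K) : K) := by
    rintro ⟨x, hx⟩
    have hxint : IsIntegral ℤ x :=
      IsIntegral.of_pow hp.out.pos (hx ▸ NumberField.RingOfIntegers.isIntegral_coe (E : 𝓞 K))
    obtain ⟨x', rfl⟩ := (IsIntegralClosure.isIntegral_iff (A := 𝓞 K)).mp hxint
    have hx' : x' ^ p = (E : 𝓞 K) := by
      apply FaithfulSMul.algebraMap_injective (𝓞 K) K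
      rw [map_pow]
      exact hx
    exact hDE (hD E ⟨x', by rw [hx', sub_self]; exact dvd_zero _⟩)
  -- the subgroup `H` of index `p`
  obtain ⟨H, hHidx, hH⟩ :=
    exists_subgroup_index_eq p (eOp p) c hc1 hc (eOp_eigen p h3 hζ c hc heig)
  obtain ⟨𝔩, hprime, hNprime, hNp, hnotH, hnotpow⟩ := hAN E hEnot H hHidx
  have hℓmem : ((Ideal.absNorm (𝔩 : Ideal (𝓞 K)) : ℕ) : 𝓞 K) ∈ (𝔩 : Ideal (𝓞 K)) :=
    Ideal.absNorm_mem _
  generalize hℓdef : Ideal.absNorm (𝔩 : Ideal (𝓞 K)) = ℓ at hNprime hNp hℓmem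
  have : Fact ℓ.Prime := ⟨hNprime⟩
  obtain ⟨φ, hφsurj, hφker⟩ := exists_ringHom_zmod (𝔩 : Ideal (𝓞 K)) hNprime hℓdef
  have hφp : φ (p : 𝓞 K) ≠ 0 := by
    rw [map_natCast]
    intro h0
    rw [ZMod.natCast_eq_zero_iff] at h0
    exact hNp ((Nat.prime_dvd_prime_iff_eq hNprime hp.out).mp h0)
  have hφdvd : ∀ x : 𝓞 K, x ∣ (p : 𝓞 K) → φ x ≠ 0 := by
    rintro x ⟨y, hy⟩ h0
    apply hφp
    rw [hy, map_mul, h0, zero_mul]
  have hζ1 : ∀ σ : K ≃ₐ[ℚ] K, φ (1 - galRestrict ℤ ℚ K (𝓞 K) σ hζ.toInteger) ≠ 0 := by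
    intro σ
    have h1 : galRestrict ℤ ℚ K (𝓞 K) σ (hζ.toInteger - 1) ∣ (p : 𝓞 K) := by
      have := map_dvd (galRestrict ℤ ℚ K (𝓞 K) σ) hζ.toInteger_sub_one_dvd_prime'
      rwa [map_natCast] at this
    rw [map_sub, map_one] at h1
    have h2 : (1 - galRestrict ℤ ℚ K (𝓞 K) σ hζ.toInteger) ∣ (p : 𝓞 K) := by
      rw [← neg_sub]
      exact (neg_dvd).mpr h1
    exact hφdvd _ h2
  -- `ℓ ≡ 1 mod p`
  have hℓp : ℓ % p = 1 := by
    have hz1 : φ hζ.toInteger ^ p = 1 := by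
      rw [← map_pow, hζ.toInteger_isPrimitiveRoot.pow_eq_one, map_one]
    have hz2 : φ hζ.toInteger ≠ 1 := by
      intro h
      apply hφdvd (hζ.toInteger - 1) hζ.toInteger_sub_one_dvd_prime'
      rw [map_sub, h, map_one, sub_self]
    have hz0 : φ hζ.toInteger ≠ 0 := by
      intro h
      rw [h, zero_pow hp.out.ne_zero] at hz1
      exact zero_ne_one hz1
    have hord : orderOf (φ hζ.toInteger) = p := orderOf_eq_prime hz1 hz2
    have h4 : φ hζ.toInteger ^ (ℓ - 1) = 1 := ZMod.pow_card_sub_one_eq_one hz0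
    have hdvd : p ∣ ℓ - 1 := hord ▸ orderOf_dvd_of_pow_eq_one h4
    obtain ⟨t, ht⟩ := hdvd
    have hℓ1 : 1 ≤ ℓ := hNprime.one_le
    have h5 : ℓ = 1 + p * t := by omega
    rw [h5, Nat.add_mul_mod_self_left, Nat.mod_eq_of_lt hp.out.one_lt]
  -- a primitive root `g` modulo `ℓ`
  obtain ⟨u, hu⟩ := IsCyclic.exists_generator (α := (ZMod ℓ)ˣ)
  obtain ⟨g, hgu⟩ : ∃ g : ℕ, (g : ZMod ℓ) = u := ⟨_, ZMod.natCast_zmod_val _⟩
  have hgord : orderOf (g : ZMod ℓ) = ℓ - 1 := by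
    rw [hgu, orderOf_units, orderOf_eq_card_of_forall_mem_zpowers hu, Nat.card_eq_fintype_card,
      ZMod.card_units]
  -- discrete logarithms of `1 - σ ζ`
  have hk : ∀ σ : K ≃ₐ[ℚ] K, ∃ k : ℕ, φ (1 - galRestrict ℤ ℚ K (𝓞 K) σ hζ.toInteger) =
      (g : ZMod ℓ) ^ k := by
    intro σ
    obtain ⟨v, hv⟩ : IsUnit (φ (1 - galRestrict ℤ ℚ K (𝓞 K) σ hζ.toInteger)) := (hζ1 σ).isUnit
    obtain ⟨k, hk⟩ := mem_powers_iff_mem_zpowers.mpr (hu v)
    refine ⟨k, ?_⟩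
    rw [hgu, ← hv, ← hk, Units.val_pow_eq_pow_val]
  choose k hk using hk
  have hk' : ∀ σ : K ≃ₐ[ℚ] K, (1 - galRestrict ℤ ℚ K (𝓞 K) σ hζ.toInteger) -
      (g : 𝓞 K) ^ (k σ) ∈ (𝔩 : Ideal (𝓞 K)) := by
    intro σ
    refine hφker.le ?_
    rw [RingHom.mem_ker, map_sub, map_pow, map_natCast, hk σ, sub_self]
  obtain ⟨d, hd⟩ := hTH ℓ hNprime hℓp 𝔩 hprime hℓmem g hgord k hk'
  -- apply the operator `e` to Thaine's relation
  have hrel := exists_pow_eq_of_relation p (fun σ : K ≃ₐ[ℚ] K => (clAct σ).toMonoidHom)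
    (fun σ τ x => clAct_mul σ τ x) (wt p) (wt_mul p) (ClassGroup.mk0 𝔩) d k hd
  -- `p ∤ M`
  have hM : ¬ p ∣ ∑ σ : K ≃ₐ[ℚ] K, k σ * wt p σ := by
    rintro ⟨M', hM'⟩
    rw [prod_Ico_eq_prod_gal p hζ] at hEw
    -- `w` is integral
    have hwp : w ^ p = algebraMap (𝓞 K) K (((E⁻¹ : (𝓞 K)ˣ) : 𝓞 K) *
        ∏ σ : K ≃ₐ[ℚ] K, (1 - galRestrict ℤ ℚ K (𝓞 K) σ hζ.toInteger) ^ wt p σ) := by
      have h6 : algebraMap (𝓞 K) K (∏ σ : K ≃ₐ[ℚ] K,
          (1 - galRestrict ℤ ℚ K (𝓞 K) σ hζ.toInteger) ^ wt p σ) =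
          ∏ σ : K ≃ₐ[ℚ] K, (1 - σ ζ) ^ wt p σ := by
        rw [map_prod]
        refine Finset.prod_congr rfl (fun σ _ => ?_)
        rw [map_pow, map_sub, map_one, algebraMap_galRestrict_apply]
        rfl
      rw [map_mul, h6, ← hEw, ← mul_assoc]
      have h7 : algebraMap (𝓞 K) K ((E⁻¹ : (𝓞 K)ˣ) : 𝓞 K) * ((E : 𝓞 K) : K) = 1 := by
        have : (((E⁻¹ : (𝓞 K)ˣ) : 𝓞 K) * (E : 𝓞 K)) = 1 := Units.inv_mul E
        have h8 := congrArg (algebraMap (𝓞 K) K) this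
        rw [map_mul, map_one] at h8
        exact h8
      rw [h7, one_mul]
    have hwint : IsIntegral ℤ w := by
      refine IsIntegral.of_pow hp.out.pos ?_
      rw [hwp]
      exact NumberField.RingOfIntegers.isIntegral_coe _
    obtain ⟨w', rfl⟩ := (IsIntegralClosure.isIntegral_iff (A := 𝓞 K)).mp hwint
    have hEw' : (E : 𝓞 K) * w' ^ p =
        ∏ σ : K ≃ₐ[ℚ] K, (1 - galRestrict ℤ ℚ K (𝓞 K) σ hζ.toInteger) ^ wt p σ := by
      rw [← map_pow] at hwp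
      have h9 := FaithfulSMul.algebraMap_injective (𝓞 K) K hwp
      rw [h9, ← mul_assoc, Units.mul_inv, one_mul]
    have hφE : φ (E : 𝓞 K) * φ w' ^ p = ((g : ZMod ℓ) ^ M') ^ p := by
      rw [← map_pow, ← map_mul, hEw', map_prod, ← pow_mul, mul_comm M' p, ← hM',
        ← Finset.prod_pow_eq_pow_sum]
      refine Finset.prod_congr rfl (fun σ _ => ?_)
      rw [map_pow, hk σ, ← pow_mul]
    have hg0 : (g : ZMod ℓ) ≠ 0 := by
      rw [hgu]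
      exact Units.ne_zero u
    have hw0 : φ w' ≠ 0 := by
      intro h0
      rw [h0, zero_pow hp.out.ne_zero, mul_zero] at hφE
      exact pow_ne_zero _ (pow_ne_zero _ hg0) hφE.symm
    obtain ⟨x, hx⟩ := hφsurj ((g : ZMod ℓ) ^ M' * (φ w')⁻¹)
    apply hnotpow
    refine ⟨x, hφker.le ?_⟩
    rw [RingHom.mem_ker, map_sub, map_pow, hx, mul_pow, ← hφE, inv_pow]
    field_simp
    ring
  -- conclusion
  have hfin : ∃ z : ClassGroup (𝓞 K), eOp p (ClassGroup.mk0 𝔩) = z ^ p := by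
    refine exists_pow_eq_of_pow_of_not_dvd p _ _ hM ?_
    obtain ⟨z, hz⟩ := hrel
    refine ⟨z, ?_⟩
    rw [eOp_apply]
    exact hz
  exact hnotH (hH _ hfin)

end Cyclo

/-- **Node (C) of the S14 skeleton**: the class lemma `StmtClass` from Thaine's relation
`StmtThaine`, the analytic input `StmtAN` and the cyclotomic unit `StmtU12`. -/
theorem class_of (hT : StmtThaine) (hA : StmtAN) (h12 : StmtU12) : StmtClass := by
  intro p _ h5 K _ _ _ ζ hζ c hc heig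
  have hp2 : p ≠ 2 := by omega
  exact class_lemma_of p (by omega) hζ (h12 p h5 K ζ hζ)
    (fun ℓ hℓ hℓp 𝔩 hprime hmem g hg k hk =>
      hT p hp2 K ζ hζ ℓ hℓ hℓp 𝔩 hprime hmem g hg k hk)
    (fun E hE H hH => hA p hp2 K ζ hζ E hE H hH) c hc heig

end Fermat.Agent.S14.H93
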