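import Mathlib

/-!
S14, work package WP9 (helper61): the density bound (D1).

* `zetaR F s` : the Dedekind zeta function as a real sum over nonzero ideals;
* (Z0) summability and the bridge to Mathlib's `NumberField.dedekindZeta`;
* (Z1) finite Euler lower bound: `∑ P ∈ T, N(P)^(-s) ≤ log (zetaR F s)`;
* (Z2) residue upper bound: `log (zetaR F s) ≤ log (1 / (s - 1)) + C` on `(1, 2)`;
* (S1) `p` primes of norm `N(L)` above a prime `L` modulo which `E` is a `p`-th power;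
* (D1) the density bound.
-/

namespace Fermat.Agent.S14.H61

open NumberField Ideal Filter Topology nonZeroDivisors
open scoped Pointwise

section Zeta

variable (F : Type*) [Field F] [NumberField F]

/-- the weight `N(I)^(-s)` on all ideals (it vanishes at `⊥` for `s ≠ 0`) -/
noncomputable def wt (s : ℝ) (I : Ideal (𝓞 F)) : ℝ := (absNorm I : ℝ) ^ (-s)

/-- the Dedekind zeta function as a real sum over the nonzero ideals -/
noncomputable def zetaR (s : ℝ) : ℝ := ∑' I : (Ideal (𝓞 F))⁰, (absNorm I.1 : ℝ) ^ (-s)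

variable {F}

lemma wt_nonneg (s : ℝ) (I : Ideal (𝓞 F)) : 0 ≤ wt F s I :=
  Real.rpow_nonneg (Nat.cast_nonneg _) _

lemma wt_bot {s : ℝ} (hs : s ≠ 0) : wt F s ⊥ = 0 := by
  simp [wt, Real.zero_rpow (neg_ne_zero.mpr hs)]

lemma wt_top (s : ℝ) : wt F s ⊤ = 1 := by
  simp [wt]

lemma wt_mul (s : ℝ) (I J : Ideal (𝓞 F)) : wt F s (I * J) = wt F s I * wt F s J := by
  simp only [wt, map_mul, Nat.cast_mul]
  exact Real.mul_rpow (Nat.cast_nonneg _) (Nat.cast_nonneg _)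

variable (F)

/-- the coefficients of the Dedekind zeta function -/
noncomputable def cf (n : ℕ) : ℕ := Nat.card {I : Ideal (𝓞 F) // absNorm I = n}

lemma lseriesSummable_cf {s : ℝ} (hs : 1 < s) :
    LSeriesSummable (fun n ↦ ((cf F n : ℝ) : ℂ)) (s : ℂ) := by
  refine LSeriesSummable_of_sum_norm_bigO_and_nonneg (f := fun n ↦ (cf F n : ℝ)) ?_
    (fun _ ↦ Nat.cast_nonneg _) zero_le_one (by simpa using hs)
  refine Asymptotics.isBigO_atTop_natCast_rpow_of_tendsto_div_rpow (𝕜 := ℝ)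
    (a := dedekindZeta_residue F) ?_
  simp only [Real.rpow_one, RCLike.ofReal_real_eq_id, id]
  refine ((Ideal.tendsto_norm_le_div_atTop₀ F).comp tendsto_natCast_atTop_atTop).congr fun n ↦ ?_
  simp only [Function.comp_apply, Nat.cast_le, ← Nat.cast_sum, cf]
  congr
  rw [← add_left_inj 1, ← card_norm_le_eq_card_norm_le_add_one,
    show Finset.Icc 1 n = Finset.Ioc 0 n from Finset.Icc_succ_left_eq_Ioc _ _,
    show 1 = Nat.card {I : Ideal (𝓞 F) // absNorm I = 0} by simp [Ideal.absNorm_eq_zero_iff],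
    Finset.sum_Ioc_add_eq_sum_Icc (n.zero_le),
    ← Finset.card_preimage_eq_sum_card_image_eq (fun k _ ↦ finite_setOfPred_absNorm_eq k)]
  simp [Set.coe_eq_subtype]

/-- the real Dirichlet series of the coefficients -/
lemma summable_cf_mul {s : ℝ} (hs : 1 < s) :
    Summable (fun n : ℕ ↦ (cf F n : ℝ) * (n : ℝ) ^ (-s)) := by
  refine (lseriesSummable_cf F hs).norm.congr fun n ↦ ?_
  rcases eq_or_ne n 0 with rfl | hn
  · simp [Real.zero_rpow (by linarith : -s ≠ 0)]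
  · rw [LSeries.term_of_ne_zero hn, norm_div, Complex.norm_natCast_cpow_of_pos (Nat.pos_of_ne_zero hn),
      Complex.ofReal_re, Real.rpow_neg (Nat.cast_nonneg _), div_eq_mul_inv]
    simp

lemma tsum_fiber_wt (s : ℝ) (n : ℕ) :
    ∑' I : {I : Ideal (𝓞 F) // absNorm I = n}, wt F s I.1 = (cf F n : ℝ) * (n : ℝ) ^ (-s) := by
  have h : ∀ I : {I : Ideal (𝓞 F) // absNorm I = n}, wt F s I.1 = (n : ℝ) ^ (-s) := by
    intro I
    simp [wt, I.2]
  simp_rw [h]
  rw [tsum_const, cf, nsmul_eq_mul]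

/-- (Z0) summability over all ideals -/
lemma summable_wt {s : ℝ} (hs : 1 < s) : Summable (wt F s) := by
  rw [← (Equiv.sigmaFiberEquiv (fun I : Ideal (𝓞 F) ↦ absNorm I)).summable_iff]
  refine (summable_sigma_of_nonneg (fun _ ↦ wt_nonneg _ _)).mpr ⟨fun n ↦ ?_, ?_⟩
  · have : Finite {I : Ideal (𝓞 F) // absNorm I = n} := finite_setOfPred_absNorm_eq n
    exact Summable.of_finite
  · refine (summable_cf_mul F hs).congr fun n ↦ ?_
    exact (tsum_fiber_wt F s n).symm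

/-- the sum over all ideals is the real Dirichlet series -/
lemma tsum_wt_eq {s : ℝ} (hs : 1 < s) :
    ∑' I : Ideal (𝓞 F), wt F s I = ∑' n : ℕ, (cf F n : ℝ) * (n : ℝ) ^ (-s) := by
  have hsum : Summable (wt F s ∘ (Equiv.sigmaFiberEquiv (fun I : Ideal (𝓞 F) ↦ absNorm I))) :=
    ((Equiv.sigmaFiberEquiv (fun I : Ideal (𝓞 F) ↦ absNorm I)).summable_iff).mpr
      (summable_wt F hs)
  rw [← (Equiv.sigmaFiberEquiv (fun I : Ideal (𝓞 F) ↦ absNorm I)).tsum_eq]
  refine (hsum.tsum_sigma).trans ?_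
  exact tsum_congr fun n ↦ tsum_fiber_wt F s n

lemma zetaR_eq_tsum_wt {s : ℝ} (hs : s ≠ 0) : zetaR F s = ∑' I : Ideal (𝓞 F), wt F s I := by
  unfold zetaR
  refine Function.Injective.tsum_eq (f := wt F s) Subtype.val_injective ?_
  intro I hI
  refine ⟨⟨I, mem_nonZeroDivisors_of_ne_zero ?_⟩, rfl⟩
  rintro rfl
  exact hI (wt_bot hs)

/-- (Z0) summability over the nonzero ideals -/
theorem summable_zetaR {s : ℝ} (hs : 1 < s) :
    Summable (fun I : (Ideal (𝓞 F))⁰ ↦ (absNorm I.1 : ℝ) ^ (-s)) :=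
  (summable_wt F hs).comp_injective Subtype.val_injective

/-- (Z0) the bridge to Mathlib's Dedekind zeta function -/
theorem dedekindZeta_eq_zetaR {s : ℝ} (hs : 1 < s) :
    dedekindZeta F (s : ℂ) = ((zetaR F s : ℝ) : ℂ) := by
  rw [zetaR_eq_tsum_wt F (by linarith), tsum_wt_eq F hs, Complex.ofReal_tsum]
  unfold dedekindZeta LSeries
  refine tsum_congr fun n ↦ ?_
  rcases eq_or_ne n 0 with rfl | hn
  · simp [Real.zero_rpow (by linarith : -s ≠ 0)]
  · rw [LSeries.term_of_ne_zero hn, Real.rpow_neg (Nat.cast_nonneg _), div_eq_mul_inv]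
    push_cast
    rw [Complex.ofReal_cpow (Nat.cast_nonneg n)]
    simp [cf]

/-- the residue of `zetaR` at `s = 1` -/
theorem tendsto_sub_one_mul_zetaR :
    Tendsto (fun s : ℝ ↦ (s - 1) * zetaR F s) (𝓝[>] 1) (𝓝 (dedekindZeta_residue F)) := by
  have h := tendsto_sub_one_mul_dedekindZeta_nhdsGT F
  have h2 : Tendsto (fun s : ℝ ↦ (((s - 1) * zetaR F s : ℝ) : ℂ)) (𝓝[>] 1)
      (𝓝 ((dedekindZeta_residue F : ℝ) : ℂ)) := by
    refine h.congr' ?_
    filter_upwards [self_mem_nhdsWithin] with s hs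
    rw [dedekindZeta_eq_zetaR F hs]
    push_cast
    rfl
  exact Complex.continuous_re.continuousAt.tendsto.comp h2

lemma one_le_zetaR {s : ℝ} (hs : 1 < s) : 1 ≤ zetaR F s := by
  rw [zetaR_eq_tsum_wt F (by linarith)]
  have h := (summable_wt F hs).le_tsum ⊤ (fun J _ ↦ wt_nonneg s J)
  rwa [wt_top] at h

lemma zetaR_pos {s : ℝ} (hs : 1 < s) : 0 < zetaR F s :=
  lt_of_lt_of_le zero_lt_one (one_le_zetaR F hs)

lemma zetaR_anti {s t : ℝ} (hs : 1 < s) (hst : s ≤ t) : zetaR F t ≤ zetaR F s := by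
  unfold zetaR
  refine (summable_zetaR F (hs.trans_le hst)).tsum_le_tsum (fun I ↦ ?_) (summable_zetaR F hs)
  refine Real.rpow_le_rpow_of_exponent_le ?_ (by linarith)
  have h : absNorm I.1 ≠ 0 := by
    rw [Ne, Ideal.absNorm_eq_zero_iff]
    exact nonZeroDivisors.coe_ne_zero I
  exact_mod_cast Nat.one_le_iff_ne_zero.mpr h

/-- (Z2) residue upper bound -/
theorem log_zetaR_le : ∃ C : ℝ, ∀ s : ℝ, 1 < s → s < 2 →
    Real.log (zetaR F s) ≤ Real.log (1 / (s - 1)) + C := by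
  have h := (tendsto_sub_one_mul_zetaR F).eventually
    (gt_mem_nhds (lt_add_one (dedekindZeta_residue F)))
  obtain ⟨u, hu, hsub⟩ := (mem_nhdsGT_iff_exists_Ioo_subset).mp h
  have hu1 : (1 : ℝ) < u := hu
  set M : ℝ := max (dedekindZeta_residue F + 1) (zetaR F u) with hM
  have hMpos : 0 < M := lt_of_lt_of_le (zetaR_pos F hu1) (le_max_right _ _)
  refine ⟨Real.log M, fun s hs1 hs2 ↦ ?_⟩
  have hs0 : 0 < s - 1 := by linarith
  have hle : (s - 1) * zetaR F s ≤ M := by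
    rcases lt_or_ge s u with hsu | hsu
    · exact (le_of_lt (hsub ⟨hs1, hsu⟩)).trans (le_max_left _ _)
    · have h1 : zetaR F s ≤ zetaR F u := zetaR_anti F hu1 hsu
      have h2 : (s - 1) * zetaR F s ≤ 1 * zetaR F u :=
        mul_le_mul (by linarith) h1 (zetaR_pos F hs1).le zero_le_one
      rw [one_mul] at h2
      exact h2.trans (le_max_right _ _)
  have hz : zetaR F s ≤ (1 / (s - 1)) * M := by
    rw [one_div, ← div_eq_inv_mul, le_div_iff₀ hs0, mul_comm]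
    exact hle
  calc Real.log (zetaR F s) ≤ Real.log ((1 / (s - 1)) * M) :=
        Real.log_le_log (zetaR_pos F hs1) hz
    _ = Real.log (1 / (s - 1)) + Real.log M :=
        Real.log_mul (one_div_pos.mpr hs0).ne' hMpos.ne'

/-- the part of the zeta sum over the ideals prime to all `P ∈ T` -/
noncomputable def wtT (s : ℝ) (T : Finset (Ideal (𝓞 F))) : Ideal (𝓞 F) → ℝ :=
  Set.indicator {I | ∀ P ∈ T, ¬ P ∣ I} (wt F s)

lemma summable_wtT {s : ℝ} (hs : 1 < s) (T : Finset (Ideal (𝓞 F))) : Summable (wtT F s T) :=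
  (summable_wt F hs).indicator _

lemma wtT_nonneg (s : ℝ) (T : Finset (Ideal (𝓞 F))) (I : Ideal (𝓞 F)) : 0 ≤ wtT F s T I :=
  Set.indicator_nonneg (fun J _ ↦ wt_nonneg s J) I

lemma wtT_empty (s : ℝ) : wtT F s ∅ = wt F s := by
  funext I
  simp [wtT]

variable {F}

lemma prime_dvd_mul_iff {P Q J : Ideal (𝓞 F)} (hP : P.IsPrime) (hP0 : P ≠ ⊥) (hQ : Q.IsPrime)
    (hQ0 : Q ≠ ⊥) (hPQ : Q ≠ P) : Q ∣ P * J ↔ Q ∣ J := by
  have hQp : Prime Q := Ideal.prime_of_isPrime hQ0 hQ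
  have hPp : Prime P := Ideal.prime_of_isPrime hP0 hP
  refine ⟨fun h ↦ ?_, fun h ↦ Dvd.dvd.mul_left h P⟩
  rcases hQp.dvd_mul.mp h with h1 | h1
  · exact absurd (associated_iff_eq.mp ((hQp.dvd_prime_iff_associated hPp).mp h1)) hPQ
  · exact h1

lemma wtT_mul {s : ℝ} {T : Finset (Ideal (𝓞 F))} (hT : ∀ Q ∈ T, Q.IsPrime ∧ Q ≠ ⊥)
    {P : Ideal (𝓞 F)} (hP : P.IsPrime) (hP0 : P ≠ ⊥) (hPT : P ∉ T) (J : Ideal (𝓞 F)) :
    wtT F s T (P * J) = wt F s P * wtT F s T J := by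
  have hiff : (∀ Q ∈ T, ¬ Q ∣ P * J) ↔ (∀ Q ∈ T, ¬ Q ∣ J) := by
    refine forall₂_congr fun Q hQ ↦ not_congr ?_
    exact prime_dvd_mul_iff hP hP0 (hT Q hQ).1 (hT Q hQ).2 (fun h ↦ hPT (h ▸ hQ))
  by_cases h : ∀ Q ∈ T, ¬ Q ∣ J
  · rw [wtT, Set.indicator_of_mem (by exact hiff.mpr h), Set.indicator_of_mem (by exact h), wt_mul]
  · rw [wtT, Set.indicator_of_notMem (by exact fun h' ↦ h (hiff.mp h')),
      Set.indicator_of_notMem (by exact h), mul_zero]

lemma tsum_wtT_insert {s : ℝ} (hs : 1 < s) {T : Finset (Ideal (𝓞 F))}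
    (hT : ∀ Q ∈ T, Q.IsPrime ∧ Q ≠ ⊥)
    {P : Ideal (𝓞 F)} (hP : P.IsPrime) (hP0 : P ≠ ⊥) (hPT : P ∉ T) [DecidableEq (Ideal (𝓞 F))] :
    ∑' I, wtT F s (insert P T) I = (1 - wt F s P) * ∑' I, wtT F s T I := by
  have hpt : ∀ I, wtT F s T I =
      wtT F s (insert P T) I + Set.indicator {I | P ∣ I} (wtT F s T) I := by
    intro I
    by_cases hPI : P ∣ I
    · have h1 : wtT F s (insert P T) I = 0 := by
        rw [wtT, Set.indicator_of_notMem]
        exact fun h ↦ h P (Finset.mem_insert_self P T) hPI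
      rw [h1, Set.indicator_of_mem (by exact hPI), zero_add]
    · have h2 : Set.indicator {I | P ∣ I} (wtT F s T) I = 0 :=
        Set.indicator_of_notMem (by exact hPI) _
      rw [h2, add_zero]
      by_cases h : ∀ Q ∈ T, ¬ Q ∣ I
      · have h' : ∀ Q ∈ insert P T, ¬ Q ∣ I := by
          intro Q hQ
          rcases Finset.mem_insert.mp hQ with rfl | hQ
          · exact hPI
          · exact h Q hQ
        rw [wtT, wtT, Set.indicator_of_mem (by exact h), Set.indicator_of_mem (by exact h')]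
      · have h' : ¬ ∀ Q ∈ insert P T, ¬ Q ∣ I :=
          fun h' ↦ h fun Q hQ ↦ h' Q (Finset.mem_insert_of_mem hQ)
        rw [wtT, wtT, Set.indicator_of_notMem (by exact h), Set.indicator_of_notMem (by exact h')]
  have hsumI : Summable (Set.indicator {I | P ∣ I} (wtT F s T)) :=
    (summable_wtT F hs T).indicator _
  have h1 : ∑' I, wtT F s T I =
      ∑' I, wtT F s (insert P T) I + ∑' I, Set.indicator {I | P ∣ I} (wtT F s T) I := by
    rw [← (summable_wtT F hs (insert P T)).tsum_add hsumI]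
    exact tsum_congr hpt
  have hinj : Function.Injective (fun J : Ideal (𝓞 F) ↦ P * J) :=
    fun J J' h ↦ mul_left_cancel₀ hP0 h
  have h2 : ∑' I, Set.indicator {I | P ∣ I} (wtT F s T) I = wt F s P * ∑' I, wtT F s T I := by
    rw [← tsum_mul_left]
    rw [← hinj.tsum_eq (f := Set.indicator {I | P ∣ I} (wtT F s T))]
    · refine tsum_congr fun J ↦ ?_
      rw [Set.indicator_of_mem (by exact Dvd.intro J rfl)]
      exact wtT_mul hT hP hP0 hPT J
    · intro I hI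
      have hPI : P ∣ I := by
        by_contra hPI
        exact hI (Set.indicator_of_notMem (by exact hPI) _)
      obtain ⟨J, rfl⟩ := hPI
      exact ⟨J, rfl⟩
  rw [h2] at h1
  linarith

lemma tsum_wtT_eq {s : ℝ} (hs : 1 < s) (T : Finset (Ideal (𝓞 F)))
    (hT : ∀ Q ∈ T, Q.IsPrime ∧ Q ≠ ⊥) :
    ∑' I, wtT F s T I = (∏ P ∈ T, (1 - wt F s P)) * ∑' I, wt F s I := by
  classical
  induction T using Finset.induction_on with
  | empty => simp [wtT_empty]
  | insert P T hPT ih =>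
    have hT' : ∀ Q ∈ T, Q.IsPrime ∧ Q ≠ ⊥ := fun Q hQ ↦ hT Q (Finset.mem_insert_of_mem hQ)
    have hP := hT P (Finset.mem_insert_self P T)
    rw [tsum_wtT_insert hs hT' hP.1 hP.2 hPT, ih hT', Finset.prod_insert hPT, mul_assoc]

lemma wt_prime_lt_one {s : ℝ} (hs : 0 < s) {P : Ideal (𝓞 F)} (hP : P.IsPrime) (hP0 : P ≠ ⊥) :
    wt F s P < 1 := by
  have h2 : 2 ≤ absNorm P := by
    have h0 : absNorm P ≠ 0 := by rwa [Ne, Ideal.absNorm_eq_zero_iff]
    have h1 : absNorm P ≠ 1 := by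
      rw [Ne, Ideal.absNorm_eq_one_iff]
      exact hP.ne_top
    omega
  have h2' : (1 : ℝ) < (absNorm P : ℝ) := by exact_mod_cast h2
  exact Real.rpow_lt_one_of_one_lt_of_neg h2' (by linarith)

variable (F)

/-- (Z1) finite Euler lower bound -/
theorem sum_le_log_zetaR {s : ℝ} (hs : 1 < s) (T : Finset (Ideal (𝓞 F)))
    (hT : ∀ P ∈ T, P.IsPrime ∧ P ≠ ⊥) :
    ∑ P ∈ T, (absNorm P : ℝ) ^ (-s) ≤ Real.log (zetaR F s) := by
  have hs0 : (0 : ℝ) < s := by linarith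
  have h1 : 1 ≤ (∏ P ∈ T, (1 - wt F s P)) * zetaR F s := by
    rw [zetaR_eq_tsum_wt F hs0.ne', ← tsum_wtT_eq hs T hT]
    have h := (summable_wtT F hs T).le_tsum ⊤ (fun J _ ↦ wtT_nonneg F s T J)
    have htop : wtT F s T ⊤ = 1 := by
      rw [wtT, Set.indicator_of_mem, wt_top]
      intro P hP hdvd
      exact (hT P hP).1.ne_top (Ideal.eq_top_iff_one P |>.mpr (by
        have := Ideal.le_of_dvd hdvd
        exact this (by simp)))
    rwa [htop] at h
  have hpos : ∀ P ∈ T, 0 < 1 - wt F s P := fun P hP ↦ by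
    have := wt_prime_lt_one hs0 (hT P hP).1 (hT P hP).2
    linarith
  have hprod : 0 < ∏ P ∈ T, (1 - wt F s P) := Finset.prod_pos hpos
  have h2 : 0 ≤ Real.log ((∏ P ∈ T, (1 - wt F s P)) * zetaR F s) := Real.log_nonneg h1
  rw [Real.log_mul hprod.ne' (zetaR_pos F hs).ne', Real.log_prod (fun P hP ↦ (hpos P hP).ne')] at h2
  have h3 : ∑ P ∈ T, Real.log (1 - wt F s P) ≤ ∑ P ∈ T, (- wt F s P) := by
    refine Finset.sum_le_sum fun P hP ↦ ?_
    have := Real.log_le_sub_one_of_pos (hpos P hP)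
    linarith
  rw [Finset.sum_neg_distrib] at h3
  have h4 : ∑ P ∈ T, (absNorm P : ℝ) ^ (-s) = ∑ P ∈ T, wt F s P := rfl
  rw [h4]
  linarith

end Zeta

section Split

variable {p : ℕ} [Fact p.Prime] {K N : Type*} [Field K] [NumberField K] [Field N] [NumberField N]
  [Algebra K N] [IsGalois K N]

/-- in a domain containing a primitive `p`-th root of unity, `x ^ p = y ^ p` forces
`x = μ * y` for a `p`-th root of unity `μ` -/
lemma eq_root_mul_of_pow_eq {R : Type*} [CommRing R] [IsDomain R] {ζ : R}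
    (hζ : IsPrimitiveRoot ζ p) {x y : R} (h : x ^ p = y ^ p) :
    ∃ μ : R, μ ^ p = 1 ∧ x = μ * y := by
  have hp : 0 < p := (Fact.out : p.Prime).pos
  have h0 : ∏ μ ∈ Polynomial.nthRootsFinset p (1 : R), (x - μ * y) = 0 := by
    rw [← hζ.pow_sub_pow_eq_prod_sub_mul x y hp, h, sub_self]
  obtain ⟨μ, hμ, hμ0⟩ := Finset.prod_eq_zero_iff.mp h0
  exact ⟨μ, (Polynomial.mem_nthRootsFinset hp 1).mp hμ, sub_eq_zero.mp hμ0⟩

omit [Fact p.Prime] in
/-- a nontrivial `p`-th root of unity `μ` satisfies `μ - 1 ∣ p` -/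
lemma sub_one_dvd_prime {R : Type*} [CommRing R] [IsDomain R] {μ : R} (hμ : μ ^ p = 1)
    (hμ1 : μ ≠ 1) : μ - 1 ∣ (p : R) := by
  have hsum : ∑ i ∈ Finset.range p, μ ^ i = 0 := by
    have h := mul_geom_sum μ p
    rw [hμ, sub_self] at h
    exact (mul_eq_zero.mp h).resolve_left (sub_ne_zero.mpr hμ1)
  have h2 : μ - 1 ∣ ∑ i ∈ Finset.range p, (μ ^ i - 1) :=
    Finset.dvd_sum fun i _ ↦ by simpa using sub_dvd_pow_sub_pow μ 1 i
  rw [Finset.sum_sub_distrib, hsum] at h2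
  simpa using h2

/-- (S1) above a prime `L ∤ p` of `K` modulo which `E` is a `p`-th power there are exactly `p`
primes of `N = K(E^(1/p))`, all of the same norm as `L`. -/
theorem exists_primes_over (hdeg : Module.finrank K N = p)
    (ζ : 𝓞 K) (hζ : IsPrimitiveRoot ζ p) (E c : 𝓞 K) (hE : ¬ ∃ x : K, x ^ p = (E : K))
    (ε : 𝓞 N) (hε : ε ^ p = algebraMap (𝓞 K) (𝓞 N) E)
    (L : Ideal (𝓞 K)) (hL : L.IsPrime) (hL0 : L ≠ ⊥) (hpL : (p : 𝓞 K) ∉ L) (hEL : E ∉ L)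
    (hc : c ^ p - E ∈ L) :
    ∃ S : Finset (Ideal (𝓞 N)), S.card = p ∧ ∀ Q ∈ S, Q.IsPrime ∧ Q ≠ ⊥ ∧
      Q.comap (algebraMap (𝓞 K) (𝓞 N)) = L ∧ absNorm Q = absNorm L := by
  have hpp : p.Prime := Fact.out
  have hmain := ncard_primesOver_mul_ramificationIdxIn_mul_inertiaDegIn L (𝓞 N) (N ≃ₐ[K] N)
  rw [IsGalois.card_aut_eq_finrank, hdeg] at hmain
  have hdvd : (primesOver L (𝓞 N)).ncard ∣ p := Dvd.intro _ hmain
  rcases (Nat.dvd_prime hpp).mp hdvd with h1 | hp'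
  · -- a single prime above `L`: impossible
    exfalso
    obtain ⟨Q, hQ⟩ := Set.ncard_eq_one.mp h1
    have hQmem : Q ∈ primesOver L (𝓞 N) := by rw [hQ]; exact Set.mem_singleton Q
    have hQprime : Q.IsPrime := hQmem.1
    have hQover : Q.LiesOver L := hQmem.2
    have hfix : ∀ σ : N ≃ₐ[K] N, σ • Q = Q := by
      intro σ
      have h : σ • Q ∈ primesOver L (𝓞 N) := (primesOver.mk L (σ • Q)).2
      rw [hQ] at h
      exact h
    set ζ' : 𝓞 N := algebraMap (𝓞 K) (𝓞 N) ζ with hζ'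
    have hζ'prim : IsPrimitiveRoot ζ' p :=
      hζ.map_of_injective (RingOfIntegers.algebraMap.injective K N)
    set c' : 𝓞 N := algebraMap (𝓞 K) (𝓞 N) c with hc'
    have hεQ : ε ∉ Q := by
      intro h
      have h2 : algebraMap (𝓞 K) (𝓞 N) E ∈ Q := hε ▸ Q.pow_mem_of_mem h p hpp.pos
      exact hEL ((Ideal.mem_of_liesOver Q L E).mpr h2)
    -- some `ε - μ c ∈ Q`
    have hprod : ∏ μ ∈ Polynomial.nthRootsFinset p (1 : 𝓞 N), (ε - μ * c') ∈ Q := by
      rw [← hζ'prim.pow_sub_pow_eq_prod_sub_mul ε c' hpp.pos, hε, hc', ← map_pow, ← map_sub]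
      refine (Ideal.mem_of_liesOver Q L _).mp ?_
      have : E - c ^ p = -(c ^ p - E) := by ring
      rw [this]
      exact L.neg_mem hc
    obtain ⟨μ0, hμ0, hμ0Q⟩ := Ideal.IsPrime.prod_mem_iff.mp hprod
    have hμ0' : μ0 ^ p = 1 := (Polynomial.mem_nthRootsFinset hpp.pos 1).mp hμ0
    have : NeZero p := ⟨hpp.ne_zero⟩
    obtain ⟨i, -, hi⟩ := hζ'prim.eq_pow_of_pow_eq_one hμ0'
    have hμc : μ0 * c' = algebraMap (𝓞 K) (𝓞 N) (ζ ^ i * c) := by
      rw [map_mul, map_pow, ← hi]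
    -- `σ ε - ε ∈ Q` for all `σ`
    have hσ : ∀ σ : N ≃ₐ[K] N, σ • ε - ε ∈ Q := by
      intro σ
      have h1 : σ • (ε - μ0 * c') ∈ Q := by
        have := Ideal.smul_mem_pointwise_smul σ _ Q hμ0Q
        rwa [hfix σ] at this
      have h2 : σ • (ε - μ0 * c') = σ • ε - μ0 * c' := by
        rw [smul_sub, hμc, smul_algebraMap]
      rw [h2] at h1
      have : σ • ε - ε = (σ • ε - μ0 * c') - (ε - μ0 * c') := by ring
      rw [this]
      exact Q.sub_mem h1 hμ0Q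
    -- some `σ` moves `ε`
    have hmove : ∃ σ : N ≃ₐ[K] N, σ • ε ≠ ε := by
      by_contra hcon
      push Not at hcon
      have hfixed : ∀ σ : N ≃ₐ[K] N, σ (ε : N) = (ε : N) := by
        intro σ
        have := congrArg (fun x : 𝓞 N ↦ (x : N)) (hcon σ)
        exact this
      obtain ⟨x, hx⟩ := (IsGalois.mem_range_algebraMap_iff_fixed (F := K) (ε : N)).mpr hfixed
      apply hE
      refine ⟨x, ?_⟩
      apply (algebraMap K N).injective
      rw [map_pow, hx]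
      have h1 : ((ε ^ p : 𝓞 N) : N) = ((algebraMap (𝓞 K) (𝓞 N) E : 𝓞 N) : N) :=
        congrArg (fun x : 𝓞 N ↦ (x : N)) hε
      have h2 : ((algebraMap (𝓞 K) (𝓞 N) E : 𝓞 N) : N) = algebraMap K N (E : K) :=
        (IsScalarTower.algebraMap_apply (𝓞 K) (𝓞 N) N E).symm.trans
          (IsScalarTower.algebraMap_apply (𝓞 K) K N E)
      rw [← h2, ← h1]
      rfl
    obtain ⟨σ, hσne⟩ := hmove
    have hpow : (σ • ε) ^ p = ε ^ p := by
      rw [← smul_pow', hε, smul_algebraMap]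
    obtain ⟨μ, hμ, hμε⟩ := eq_root_mul_of_pow_eq hζ'prim hpow
    have hμ1 : μ ≠ 1 := by
      rintro rfl
      exact hσne (by rw [hμε, one_mul])
    have hμQ : μ - 1 ∈ Q := by
      have h := hσ σ
      have h' : σ • ε - ε = (μ - 1) * ε := by rw [hμε]; ring
      rw [h'] at h
      exact (hQprime.mem_or_mem h).resolve_right hεQ
    have hpQ : (p : 𝓞 N) ∈ Q := Q.mem_of_dvd (sub_one_dvd_prime hμ hμ1) hμQ
    have hpQ' : algebraMap (𝓞 K) (𝓞 N) (p : 𝓞 K) ∈ Q := by simpa using hpQ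
    exact hpL ((Ideal.mem_of_liesOver Q L _).mpr hpQ')
  · -- `p` primes above `L`
    rw [hp'] at hmain
    have hef : ramificationIdxIn L (𝓞 N) * inertiaDegIn L (𝓞 N) = 1 := by
      have : p * (ramificationIdxIn L (𝓞 N) * inertiaDegIn L (𝓞 N)) = p * 1 := by
        rw [hmain, mul_one]
      exact Nat.eq_of_mul_eq_mul_left hpp.pos this
    have hf : inertiaDegIn L (𝓞 N) = 1 := Nat.eq_one_of_mul_eq_one_left hef
    have hfin : (primesOver L (𝓞 N)).Finite :=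
      Set.finite_of_ncard_ne_zero (by rw [hp']; exact hpp.ne_zero)
    refine ⟨hfin.toFinset, ?_, fun Q hQ ↦ ?_⟩
    · rw [← Set.ncard_eq_toFinset_card _ hfin, hp']
    · have hQmem : Q ∈ primesOver L (𝓞 N) := hfin.mem_toFinset.mp hQ
      have hQprime : Q.IsPrime := hQmem.1
      have hQover : Q.LiesOver L := hQmem.2
      have hcomap : Q.comap (algebraMap (𝓞 K) (𝓞 N)) = L := (Ideal.over_def Q L).symm
      refine ⟨hQprime, ?_, hcomap, ?_⟩
      · rintro rfl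
        apply hL0
        rw [← hcomap]
        exact Ideal.comap_bot_of_injective _ (RingOfIntegers.algebraMap.injective K N)
      · have h := Ideal.absNorm_pow_inertiaDeg L Q
        rw [← inertiaDegIn_eq_inertiaDeg L Q (N ≃ₐ[K] N), hf, pow_one] at h
        exact h.symm

end Split

section Density

open Polynomial

variable {p : ℕ} [Fact p.Prime] {K : Type*} [Field K] [NumberField K]

/-- (D1) for a given Kummer extension `N = K(ε)`, `ε ^ p = E` -/
theorem density_of_field {N : Type*} [Field N] [NumberField N] [Algebra K N] [IsGalois K N]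
    (hdeg : Module.finrank K N = p) (ζ : 𝓞 K) (hζ : IsPrimitiveRoot ζ p) (E : 𝓞 K)
    (hEu : IsUnit E) (hE : ¬ ∃ x : K, x ^ p = (E : K))
    (ε : 𝓞 N) (hε : ε ^ p = algebraMap (𝓞 K) (𝓞 N) E) :
    ∃ C : ℝ, ∀ s : ℝ, 1 < s → s < 2 → ∀ T : Finset (Ideal (𝓞 K)),
      (∀ L ∈ T, L.IsPrime ∧ L ≠ ⊥ ∧ (p : 𝓞 K) ∉ L ∧ ∃ c : 𝓞 K, c ^ p - E ∈ L) →
      (p : ℝ) * ∑ L ∈ T, (absNorm L : ℝ) ^ (-s) ≤ Real.log (1 / (s - 1)) + C := by
  classical
  obtain ⟨C, hC⟩ := log_zetaR_le N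
  refine ⟨C, fun s hs1 hs2 T hT ↦ ?_⟩
  have hex : ∀ L : Ideal (𝓞 K), ∃ S : Finset (Ideal (𝓞 N)), L ∈ T →
      (S.card = p ∧ ∀ Q ∈ S, Q.IsPrime ∧ Q ≠ ⊥ ∧
        Q.comap (algebraMap (𝓞 K) (𝓞 N)) = L ∧ absNorm Q = absNorm L) := by
    intro L
    by_cases h : L ∈ T
    · obtain ⟨hL, hL0, hpL, c, hc⟩ := hT L h
      have hEL : E ∉ L := fun hmem ↦ hL.ne_top (Ideal.eq_top_of_isUnit_mem L hmem hEu)
      obtain ⟨S, hS⟩ := exists_primes_over hdeg ζ hζ E c hE ε hε L hL hL0 hpL hEL hc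
      exact ⟨S, fun _ ↦ hS⟩
    · exact ⟨∅, fun h' ↦ absurd h' h⟩
  choose S hS using hex
  have hdisj : (T : Set (Ideal (𝓞 K))).PairwiseDisjoint S := by
    intro L hL L' hL' hne
    refine Finset.disjoint_left.mpr fun Q hQ hQ' ↦ hne ?_
    rw [← ((hS L hL).2 Q hQ).2.2.1, ← ((hS L' hL').2 Q hQ').2.2.1]
  have hU : ∀ Q ∈ T.biUnion S, Q.IsPrime ∧ Q ≠ ⊥ := by
    intro Q hQ
    obtain ⟨L, hL, hQL⟩ := Finset.mem_biUnion.mp hQ
    exact ⟨((hS L hL).2 Q hQL).1, ((hS L hL).2 Q hQL).2.1⟩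
  have h1 := sum_le_log_zetaR N hs1 (T.biUnion S) hU
  have h2 : ∑ Q ∈ T.biUnion S, (absNorm Q : ℝ) ^ (-s) =
      (p : ℝ) * ∑ L ∈ T, (absNorm L : ℝ) ^ (-s) := by
    rw [Finset.sum_biUnion hdisj, Finset.mul_sum]
    refine Finset.sum_congr rfl fun L hL ↦ ?_
    have h3 : ∀ Q ∈ S L, (absNorm Q : ℝ) ^ (-s) = (absNorm L : ℝ) ^ (-s) := by
      intro Q hQ
      rw [((hS L hL).2 Q hQ).2.2.2]
    rw [Finset.sum_congr rfl h3, Finset.sum_const, (hS L hL).1, nsmul_eq_mul]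
  rw [← h2]
  exact h1.trans (hC s hs1 hs2)

open scoped KummerExtension in
/-- (D1) the primes of `K` (not above `p`) modulo which the unit `E` (not a `p`-th power in `K`)
is a `p`-th power have upper Dirichlet density at most `1 / p`:
`p * ∑_{L ∈ T} N(L)^(-s) ≤ log (1 / (s - 1)) + C` uniformly in the finite set `T` and in
`s ∈ (1, 2)`. -/
theorem density_D1 (ζ : 𝓞 K) (hζ : IsPrimitiveRoot ζ p) (E : (𝓞 K)ˣ)
    (hE : ¬ ∃ x : K, x ^ p = ((E : 𝓞 K) : K)) :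
    ∃ C : ℝ, ∀ s : ℝ, 1 < s → s < 2 → ∀ T : Finset (Ideal (𝓞 K)),
      (∀ L ∈ T, L.IsPrime ∧ L ≠ ⊥ ∧ (p : 𝓞 K) ∉ L ∧ ∃ c : 𝓞 K, c ^ p - (E : 𝓞 K) ∈ L) →
      (p : ℝ) * ∑ L ∈ T, (absNorm L : ℝ) ^ (-s) ≤ Real.log (1 / (s - 1)) + C := by
  have hpp : p.Prime := Fact.out
  set a : K := ((E : 𝓞 K) : K) with ha
  have H : Irreducible (X ^ p - C a) :=
    X_pow_sub_C_irreducible_of_prime hpp fun b hb ↦ hE ⟨b, hb⟩
  have hζK : (primitiveRoots p K).Nonempty :=
    ⟨(ζ : K), (mem_primitiveRoots hpp.pos).mpr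
      (hζ.map_of_injective (f := algebraMap (𝓞 K) K) RingOfIntegers.coe_injective)⟩
  have := Fact.mk H
  have hsf : IsSplittingField K (K[p√a]) (X ^ p - C a) :=
    isSplittingField_AdjoinRoot_X_pow_sub_C hζK H
  have : IsGalois K (K[p√a]) := isGalois_of_isSplittingField_X_pow_sub_C hζK H _
  have hfr : Module.finrank K (K[p√a]) = p := finrank_of_isSplittingField_X_pow_sub_C hζK H _
  have : FiniteDimensional K (K[p√a]) :=
    Polynomial.IsSplittingField.finiteDimensional _ (X ^ p - C a)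
  have : CharZero (K[p√a]) := charZero_of_injective_algebraMap (algebraMap K (K[p√a])).injective
  have : FiniteDimensional ℚ (K[p√a]) := Module.Finite.trans K _
  have : NumberField (K[p√a]) := ⟨⟩
  have hroot : (AdjoinRoot.root (X ^ p - C a)) ^ p = algebraMap K (K[p√a]) a :=
    root_X_pow_sub_C_pow p a
  have hint : IsIntegral ℤ (AdjoinRoot.root (X ^ p - C a)) := by
    refine IsIntegral.of_pow hpp.pos ?_
    rw [hroot]
    exact (RingOfIntegers.isIntegral_coe (E : 𝓞 K)).algebraMap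
  set ε : 𝓞 (K[p√a]) := ⟨AdjoinRoot.root (X ^ p - C a), hint⟩ with hεdef
  have hε : ε ^ p = algebraMap (𝓞 K) (𝓞 (K[p√a])) (E : 𝓞 K) := by
    apply RingOfIntegers.coe_injective
    have h2 : ((algebraMap (𝓞 K) (𝓞 (K[p√a])) (E : 𝓞 K) : 𝓞 (K[p√a])) : K[p√a]) =
        algebraMap K (K[p√a]) a :=
      (IsScalarTower.algebraMap_apply (𝓞 K) (𝓞 (K[p√a])) (K[p√a]) (E : 𝓞 K)).symm.trans
        (IsScalarTower.algebraMap_apply (𝓞 K) K (K[p√a]) (E : 𝓞 K))
    have h3 : ((ε ^ p : 𝓞 (K[p√a])) : K[p√a]) = algebraMap K (K[p√a]) a := by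
      rw [← hroot]
      rfl
    exact h3.trans h2.symm
  exact density_of_field hfr ζ hζ (E : 𝓞 K) E.isUnit hE ε hε

end Density

end Fermat.Agent.S14.H61
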