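import Fermat.Agent.S14.Stmts
import Fermat.Agent.S14.SplitPrimes_helper61

/-!
S14, node (D1) (helper61): `theorem d1 : StmtD1`, with no hypotheses, from
`H61.density_D1` (file `SplitPrimes_helper61.lean`).
-/

set_option autoImplicit false

open scoped NumberField nonZeroDivisors

namespace Fermat.Agent.S14.H61

open Ideal

/-- a prime ideal whose norm is a prime `≠ p` does not contain `p` -/
lemma natCast_notMem_of_absNorm {F : Type*} [Field F] [NumberField F] {p : ℕ} (hp : p.Prime)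
    {L : Ideal (𝓞 F)} (hL : L.IsPrime) (hq : (absNorm L).Prime) (hne : absNorm L ≠ p) :
    (p : 𝓞 F) ∉ L := by
  intro hpL
  have hqL : ((absNorm L : ℕ) : 𝓞 F) ∈ L := Ideal.absNorm_mem L
  have hcop : Nat.Coprime (absNorm L) p := (Nat.coprime_primes hq hp).mpr hne
  have h1 : (1 : 𝓞 F) ∈ L := by
    have hb := Nat.Coprime.isCoprime hcop
    obtain ⟨a, b, hab⟩ := hb
    have hab' : ((a : ℤ) : 𝓞 F) * ((absNorm L : ℕ) : 𝓞 F) + ((b : ℤ) : 𝓞 F) * ((p : ℕ) : 𝓞 F) = 1 := by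
      have := congrArg (fun z : ℤ ↦ (z : 𝓞 F)) hab
      simpa using this
    rw [← hab']
    exact L.add_mem (L.mul_mem_left _ hqL) (L.mul_mem_left _ hpL)
  exact hL.ne_top ((Ideal.eq_top_iff_one L).mpr h1)

/-- (D1) in the shape of `Stmts.lean` -/
theorem d1 : StmtD1 := by
  intro F _ _ p _ ζ hζ E hE
  have hpp : p.Prime := Fact.out
  have : NeZero p := ⟨hpp.ne_zero⟩
  obtain ⟨C, hC⟩ := density_D1 (p := p) hζ.toInteger hζ.toInteger_isPrimitiveRoot E hE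
  refine ⟨C / p, fun s hs T hT ↦ ?_⟩
  have hp0 : (0 : ℝ) < p := by exact_mod_cast hpp.pos
  have h := hC s hs.1 hs.2 (T.map ⟨Subtype.val, Subtype.val_injective⟩) (by
    intro L hL
    obtain ⟨𝔩, h𝔩, rfl⟩ := Finset.mem_map.mp hL
    obtain ⟨h1, h2, h3, h4⟩ := hT 𝔩 h𝔩
    exact ⟨h1, nonZeroDivisors.coe_ne_zero 𝔩, natCast_notMem_of_absNorm hpp h1 h2 h3, h4⟩)
  rw [Finset.sum_map] at h
  have h' : ∑ 𝔩 ∈ T, (absNorm (𝔩 : Ideal (𝓞 F)) : ℝ) ^ (-s) ≤
      (Real.log (1 / (s - 1)) + C) / p := by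
    rw [le_div_iff₀ hp0, mul_comm]
    exact h
  calc ∑ 𝔩 ∈ T, (absNorm (𝔩 : Ideal (𝓞 F)) : ℝ) ^ (-s)
      ≤ (Real.log (1 / (s - 1)) + C) / p := h'
    _ = 1 / p * Real.log (1 / (s - 1)) + C / p := by ring

/-- row 180 in its announced shape (the hypotheses are not needed) -/
theorem d1_of (_h1a : StmtAN1a) (_h1b : StmtAN1b) (_hEF : StmtEulerFinite) : StmtD1 := d1

end Fermat.Agent.S14.H61
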