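import Fermat.Agent.S14.Stmts

/-!
# S14, row D3: degree-one primes (not over `p`) carry all the mass

`d3_of : StmtAN1a → StmtAN1b → StmtEulerLimit → StmtEulerFinite → StmtD3`
(and `d3_of'` without the unused finite Euler factor hypothesis).

Proof: by the Euler limit with `ε = 1/2` and `f = N^(-s)`, there is a finite set `T₀` of primes
with `|ζ_F(s) ∏_{𝔭 ∈ T₀} (1 - N𝔭^(-s)) - 1| ≤ 1/2`, hence
`log ζ_F(s) ≤ log (3/2) + ∑_{T₀} (N𝔭^(-s) + 2 N𝔭^(-2s))`.  The squares sum to at most `ζ_F(2)`,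
the primes of norm exactly `p` number at most `[F:ℚ]`, and the primes of non-prime norm `q^k`,
`k ≥ 2`, contribute at most `[F:ℚ] ∑ m^(-2)`.
-/

set_option autoImplicit false

open scoped NumberField nonZeroDivisors

namespace Fermat.Agent.S14.H56

variable {F : Type} [Field F] [NumberField F]

/-- Every nonzero prime ideal of `𝓞 F` contains a rational prime. -/
theorem exists_prime_natCast_mem (𝔭 : Ideal (𝓞 F)) (h𝔭 : 𝔭.IsPrime) (h0 : 𝔭 ≠ ⊥) :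
    ∃ q : ℕ, q.Prime ∧ (q : 𝓞 F) ∈ 𝔭 := by
  have key : ∀ m : ℕ, m ≠ 0 → (m : 𝓞 F) ∈ 𝔭 → ∃ q : ℕ, q.Prime ∧ (q : 𝓞 F) ∈ 𝔭 := by
    intro m
    induction m using Nat.recOnMul with
    | zero => intro h; exact absurd rfl h
    | one =>
      intro _ h1
      exfalso
      apply h𝔭.ne_top
      rw [Ideal.eq_top_iff_one]
      simpa using h1
    | prime q hq => intro _ hmem; exact ⟨q, hq, hmem⟩
    | mul a b iha ihb =>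
      intro hab hmem
      have ha : a ≠ 0 := fun h => hab (by simp [h])
      have hb : b ≠ 0 := fun h => hab (by simp [h])
      rw [Nat.cast_mul] at hmem
      rcases h𝔭.mem_or_mem hmem with h | h
      · exact iha ha h
      · exact ihb hb h
  refine key (Ideal.absNorm 𝔭) ?_ (Ideal.absNorm_mem 𝔭)
  rw [Ne, Ideal.absNorm_eq_zero_iff]
  exact h0

/-- The absolute norm of the ideal generated by a natural number. -/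
theorem absNorm_span_natCast (q : ℕ) :
    Ideal.absNorm (Ideal.span {(q : 𝓞 F)}) = q ^ Module.finrank ℚ F := by
  rw [Ideal.absNorm_span_singleton]
  have h : (q : 𝓞 F) = algebraMap ℤ (𝓞 F) (q : ℤ) := by simp
  rw [h, Algebra.norm_algebraMap, NumberField.RingOfIntegers.rank, Int.natAbs_pow, Int.natAbs_natCast]

/-- The absolute norm of a prime ideal containing the rational prime `q` is a positive power
of `q`. -/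
theorem absNorm_eq_prime_pow (𝔭 : Ideal (𝓞 F)) (h𝔭 : 𝔭.IsPrime) (q : ℕ) (hq : q.Prime)
    (hmem : (q : 𝓞 F) ∈ 𝔭) :
    ∃ k : ℕ, 1 ≤ k ∧ Ideal.absNorm 𝔭 = q ^ k := by
  have hle : Ideal.span {(q : 𝓞 F)} ≤ 𝔭 := by
    rw [Ideal.span_le]
    intro x hx
    rw [Set.mem_singleton_iff] at hx
    rw [hx]
    exact hmem
  have hdvd := Ideal.absNorm_dvd_absNorm_of_le hle
  rw [absNorm_span_natCast] at hdvd
  obtain ⟨k, -, hk⟩ := (Nat.dvd_prime_pow hq).1 hdvd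
  refine ⟨k, ?_, hk⟩
  rcases Nat.eq_zero_or_pos k with h | h
  · exfalso
    rw [h, pow_zero, Ideal.absNorm_eq_one_iff] at hk
    exact h𝔭.ne_top hk
  · exact h

/-- At most `[F : ℚ]` nonzero primes of `𝓞 F` contain a given rational prime. -/
theorem card_le_finrank_of_prime_mem (q : ℕ) (hq : q.Prime) (P : Finset (Ideal (𝓞 F))⁰)
    (hP : ∀ 𝔭 ∈ P, (𝔭 : Ideal (𝓞 F)).IsPrime ∧ (q : 𝓞 F) ∈ (𝔭 : Ideal (𝓞 F))) :
    P.card ≤ Module.finrank ℚ F := by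
  have hprod : ∏ 𝔭 ∈ P, (𝔭 : Ideal (𝓞 F)) ∣ Ideal.span {(q : 𝓞 F)} := by
    apply Finset.prod_dvd_of_coprime
    · intro 𝔭 h𝔭 𝔮 h𝔮 hne
      rw [Function.onFun, Ideal.isCoprime_iff_sup_eq]
      have h1 : (𝔭 : Ideal (𝓞 F)).IsMaximal :=
        (hP 𝔭 h𝔭).1.isMaximal (mem_nonZeroDivisors_iff_ne_zero.1 𝔭.2)
      have h2 : (𝔮 : Ideal (𝓞 F)).IsMaximal :=
        (hP 𝔮 h𝔮).1.isMaximal (mem_nonZeroDivisors_iff_ne_zero.1 𝔮.2)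
      exact Ideal.IsMaximal.coprime_of_ne h1 h2 (fun h => hne (Subtype.ext h))
    · intro 𝔭 h𝔭
      rw [Ideal.dvd_span_singleton]
      exact (hP 𝔭 h𝔭).2
  have h2 : ∏ 𝔭 ∈ P, Ideal.absNorm (𝔭 : Ideal (𝓞 F)) ∣ q ^ Module.finrank ℚ F := by
    have := map_dvd (Ideal.absNorm (S := 𝓞 F)) hprod
    rwa [map_prod, absNorm_span_natCast] at this
  have h3 : q ^ P.card ∣ ∏ 𝔭 ∈ P, Ideal.absNorm (𝔭 : Ideal (𝓞 F)) := by
    rw [← Finset.prod_const]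
    apply Finset.prod_dvd_prod_of_dvd
    intro 𝔭 h𝔭
    obtain ⟨k, hk1, hk⟩ := absNorm_eq_prime_pow (𝔭 : Ideal (𝓞 F)) (hP 𝔭 h𝔭).1 q hq (hP 𝔭 h𝔭).2
    rw [hk]
    exact dvd_pow_self q (by omega)
  exact (Nat.pow_dvd_pow_iff_le_right hq.one_lt).1 (h3.trans h2)

/-- The rational prime below a nonzero prime ideal is the least prime factor of its norm. -/
theorem minFac_absNorm_spec (𝔭 : (Ideal (𝓞 F))⁰) (h𝔭 : (𝔭 : Ideal (𝓞 F)).IsPrime) :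
    (Ideal.absNorm (𝔭 : Ideal (𝓞 F))).minFac.Prime ∧
    (((Ideal.absNorm (𝔭 : Ideal (𝓞 F))).minFac : ℕ) : 𝓞 F) ∈ (𝔭 : Ideal (𝓞 F)) ∧
    ∃ k : ℕ, 1 ≤ k ∧
      Ideal.absNorm (𝔭 : Ideal (𝓞 F)) = (Ideal.absNorm (𝔭 : Ideal (𝓞 F))).minFac ^ k := by
  obtain ⟨q, hq, hmem⟩ := exists_prime_natCast_mem (𝔭 : Ideal (𝓞 F)) h𝔭
    (mem_nonZeroDivisors_iff_ne_zero.1 𝔭.2)
  obtain ⟨k, hk1, hk⟩ := absNorm_eq_prime_pow (𝔭 : Ideal (𝓞 F)) h𝔭 q hq hmem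
  have hmf : (Ideal.absNorm (𝔭 : Ideal (𝓞 F))).minFac = q := by
    rw [hk]; exact hq.pow_minFac (by omega)
  rw [hmf]
  exact ⟨hq, hmem, k, hk1, hk⟩

/-- The norm of a nonzero ideal, as a real number, is at least `1`. -/
theorem one_le_absNorm (I : (Ideal (𝓞 F))⁰) :
    (1 : ℝ) ≤ (Ideal.absNorm (I : Ideal (𝓞 F)) : ℝ) := by
  have := Ideal.absNorm_ne_zero_of_nonZeroDivisors I
  exact_mod_cast Nat.one_le_iff_ne_zero.2 this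

/-- The norm of a nonzero prime ideal, as a real number, is at least `2`. -/
theorem two_le_absNorm (I : (Ideal (𝓞 F))⁰) (hI : (I : Ideal (𝓞 F)).IsPrime) :
    (2 : ℝ) ≤ (Ideal.absNorm (I : Ideal (𝓞 F)) : ℝ) := by
  have h0 := Ideal.absNorm_ne_zero_of_nonZeroDivisors I
  have h1 : Ideal.absNorm (I : Ideal (𝓞 F)) ≠ 1 := by
    rw [Ne, Ideal.absNorm_eq_one_iff]; exact hI.ne_top
  have : 2 ≤ Ideal.absNorm (I : Ideal (𝓞 F)) := by omega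
  exact_mod_cast this

/-- `N(I)^(-s) ≤ 1` for `0 ≤ s`. -/
theorem rpow_absNorm_le_one (I : (Ideal (𝓞 F))⁰) (s : ℝ) (hs : 0 ≤ s) :
    (Ideal.absNorm (I : Ideal (𝓞 F)) : ℝ) ^ (-s) ≤ 1 :=
  Real.rpow_le_one_of_one_le_of_nonpos (one_le_absNorm I) (by linarith)

/-- `N(I)^(-s) ≤ N(I)⁻¹` for `1 ≤ s`. -/
theorem rpow_absNorm_le_inv (I : (Ideal (𝓞 F))⁰) (s : ℝ) (hs : 1 ≤ s) :
    (Ideal.absNorm (I : Ideal (𝓞 F)) : ℝ) ^ (-s) ≤ (Ideal.absNorm (I : Ideal (𝓞 F)) : ℝ)⁻¹ := by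
  calc (Ideal.absNorm (I : Ideal (𝓞 F)) : ℝ) ^ (-s)
      ≤ (Ideal.absNorm (I : Ideal (𝓞 F)) : ℝ) ^ (-1 : ℝ) :=
        Real.rpow_le_rpow_of_exponent_le (one_le_absNorm I) (by linarith)
    _ = (Ideal.absNorm (I : Ideal (𝓞 F)) : ℝ)⁻¹ := Real.rpow_neg_one _

/-- `N(𝔭)^(-s) ≤ 1/2` for a prime `𝔭` and `1 ≤ s`. -/
theorem rpow_absNorm_le_half (I : (Ideal (𝓞 F))⁰) (hI : (I : Ideal (𝓞 F)).IsPrime) (s : ℝ)
    (hs : 1 ≤ s) : (Ideal.absNorm (I : Ideal (𝓞 F)) : ℝ) ^ (-s) ≤ 1 / 2 := by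
  refine (rpow_absNorm_le_inv I s hs).trans ?_
  rw [one_div]
  exact inv_anti₀ (by norm_num) (two_le_absNorm I hI)

/-- `(N(I)^(-s))^2 ≤ N(I)^(-2)` for `1 ≤ s`. -/
theorem sq_rpow_absNorm_le (I : (Ideal (𝓞 F))⁰) (s : ℝ) (hs : 1 ≤ s) :
    ((Ideal.absNorm (I : Ideal (𝓞 F)) : ℝ) ^ (-s)) ^ 2 ≤
      (Ideal.absNorm (I : Ideal (𝓞 F)) : ℝ) ^ (-(2 : ℝ)) := by
  have h1 := one_le_absNorm I
  have h0 : (0 : ℝ) ≤ (Ideal.absNorm (I : Ideal (𝓞 F)) : ℝ) := by linarith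
  have : ((Ideal.absNorm (I : Ideal (𝓞 F)) : ℝ) ^ (-s)) ^ 2 =
      (Ideal.absNorm (I : Ideal (𝓞 F)) : ℝ) ^ (-s * 2) := by
    rw [Real.rpow_mul h0, Real.rpow_two]
  rw [this]
  exact Real.rpow_le_rpow_of_exponent_le h1 (by linarith)

/-- `-log (1 - x) ≤ x + 2 x ^ 2` for `x ≤ 1/2`. -/
theorem neg_log_one_sub_le (x : ℝ) (h1 : x ≤ 1 / 2) :
    -Real.log (1 - x) ≤ x + 2 * x ^ 2 := by
  have hpos : 0 < 1 - x := by linarith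
  have h := Real.log_le_sub_one_of_pos (inv_pos.2 hpos)
  rw [Real.log_inv] at h
  have h2 : (1 - x)⁻¹ - 1 ≤ x + 2 * x ^ 2 := by
    rw [sub_le_iff_le_add, inv_eq_one_div, div_le_iff₀ hpos]
    nlinarith [mul_nonneg (sq_nonneg x) (by linarith : (0 : ℝ) ≤ 1 - 2 * x)]
  linarith

/-- Primes with non-prime norm contribute a bounded amount. -/
theorem sum_nonprime_le (s : ℝ) (hs : 1 ≤ s) (A : Finset (Ideal (𝓞 F))⁰)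
    (hA : ∀ 𝔭 ∈ A, (𝔭 : Ideal (𝓞 F)).IsPrime ∧ ¬ (Ideal.absNorm (𝔭 : Ideal (𝓞 F))).Prime) :
    ∑ 𝔭 ∈ A, (Ideal.absNorm (𝔭 : Ideal (𝓞 F)) : ℝ) ^ (-s) ≤
      (Module.finrank ℚ F : ℝ) * ∑' m : ℕ, ((m : ℝ) ^ 2)⁻¹ := by
  classical
  have hterm : ∀ 𝔭 ∈ A, (Ideal.absNorm (𝔭 : Ideal (𝓞 F)) : ℝ) ^ (-s) ≤
      ((((Ideal.absNorm (𝔭 : Ideal (𝓞 F))).minFac : ℕ) : ℝ) ^ 2)⁻¹ := by
    intro 𝔭 h𝔭
    obtain ⟨hq, -, k, hk1, hk⟩ := minFac_absNorm_spec 𝔭 (hA 𝔭 h𝔭).1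
    have hk2 : 2 ≤ k := by
      by_contra hlt
      have hk' : k = 1 := by omega
      rw [hk', pow_one] at hk
      apply (hA 𝔭 h𝔭).2
      rw [hk]
      exact hq
    have hle : (((Ideal.absNorm (𝔭 : Ideal (𝓞 F))).minFac : ℕ) : ℝ) ^ 2 ≤
        (Ideal.absNorm (𝔭 : Ideal (𝓞 F)) : ℝ) := by
      have : (Ideal.absNorm (𝔭 : Ideal (𝓞 F))).minFac ^ 2 ≤ Ideal.absNorm (𝔭 : Ideal (𝓞 F)) := by
        conv_rhs => rw [hk]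
        exact Nat.pow_le_pow_right hq.pos hk2
      exact_mod_cast this
    refine (rpow_absNorm_le_inv 𝔭 s hs).trans ?_
    apply inv_anti₀ _ hle
    have : (0 : ℝ) < ((Ideal.absNorm (𝔭 : Ideal (𝓞 F))).minFac : ℝ) := by exact_mod_cast hq.pos
    positivity
  calc ∑ 𝔭 ∈ A, (Ideal.absNorm (𝔭 : Ideal (𝓞 F)) : ℝ) ^ (-s)
      ≤ ∑ 𝔭 ∈ A, ((((Ideal.absNorm (𝔭 : Ideal (𝓞 F))).minFac : ℕ) : ℝ) ^ 2)⁻¹ :=
        Finset.sum_le_sum hterm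
    _ = ∑ q ∈ A.image (fun 𝔭 : (Ideal (𝓞 F))⁰ => (Ideal.absNorm (𝔭 : Ideal (𝓞 F))).minFac),
          ∑ 𝔭 ∈ A.filter (fun 𝔭 : (Ideal (𝓞 F))⁰ =>
              (Ideal.absNorm (𝔭 : Ideal (𝓞 F))).minFac = q),
            ((((Ideal.absNorm (𝔭 : Ideal (𝓞 F))).minFac : ℕ) : ℝ) ^ 2)⁻¹ :=
        (Finset.sum_fiberwise_of_maps_to (fun 𝔭 h => Finset.mem_image_of_mem _ h) _).symm
    _ ≤ ∑ q ∈ A.image (fun 𝔭 : (Ideal (𝓞 F))⁰ => (Ideal.absNorm (𝔭 : Ideal (𝓞 F))).minFac),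
          (Module.finrank ℚ F : ℝ) * ((q : ℝ) ^ 2)⁻¹ := by
        apply Finset.sum_le_sum
        intro q hq
        obtain ⟨𝔭₀, h𝔭₀, rfl⟩ := Finset.mem_image.1 hq
        have hqprime := (minFac_absNorm_spec 𝔭₀ (hA 𝔭₀ h𝔭₀).1).1
        have hcard : (A.filter (fun 𝔭 : (Ideal (𝓞 F))⁰ =>
            (Ideal.absNorm (𝔭 : Ideal (𝓞 F))).minFac =
              (Ideal.absNorm (𝔭₀ : Ideal (𝓞 F))).minFac)).card ≤ Module.finrank ℚ F := by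
          apply card_le_finrank_of_prime_mem _ hqprime
          intro 𝔭 h𝔭
          rw [Finset.mem_filter] at h𝔭
          refine ⟨(hA 𝔭 h𝔭.1).1, ?_⟩
          rw [← h𝔭.2]
          exact (minFac_absNorm_spec 𝔭 (hA 𝔭 h𝔭.1).1).2.1
        rw [Finset.sum_congr rfl (fun 𝔭 h𝔭 => by rw [(Finset.mem_filter.1 h𝔭).2] :
          ∀ 𝔭 ∈ A.filter (fun 𝔭 : (Ideal (𝓞 F))⁰ =>
            (Ideal.absNorm (𝔭 : Ideal (𝓞 F))).minFac =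
              (Ideal.absNorm (𝔭₀ : Ideal (𝓞 F))).minFac),
            ((((Ideal.absNorm (𝔭 : Ideal (𝓞 F))).minFac : ℕ) : ℝ) ^ 2)⁻¹ =
            ((((Ideal.absNorm (𝔭₀ : Ideal (𝓞 F))).minFac : ℕ) : ℝ) ^ 2)⁻¹)]
        rw [Finset.sum_const, nsmul_eq_mul]
        apply mul_le_mul_of_nonneg_right _ (by positivity)
        exact_mod_cast hcard
    _ = (Module.finrank ℚ F : ℝ) *
          ∑ q ∈ A.image (fun 𝔭 : (Ideal (𝓞 F))⁰ => (Ideal.absNorm (𝔭 : Ideal (𝓞 F))).minFac),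
            ((q : ℝ) ^ 2)⁻¹ := by rw [Finset.mul_sum]
    _ ≤ (Module.finrank ℚ F : ℝ) * ∑' m : ℕ, ((m : ℝ) ^ 2)⁻¹ := by
        apply mul_le_mul_of_nonneg_left _ (Nat.cast_nonneg _)
        apply Summable.sum_le_tsum
        · intros; positivity
        · exact Real.summable_nat_pow_inv.2 (by norm_num)

/-- Primes of norm exactly `p` contribute a bounded amount. -/
theorem sum_norm_eq_le (s : ℝ) (hs : 0 ≤ s) (p : ℕ) (B : Finset (Ideal (𝓞 F))⁰)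
    (hB : ∀ 𝔭 ∈ B, (𝔭 : Ideal (𝓞 F)).IsPrime ∧ (Ideal.absNorm (𝔭 : Ideal (𝓞 F))).Prime ∧
      Ideal.absNorm (𝔭 : Ideal (𝓞 F)) = p) :
    ∑ 𝔭 ∈ B, (Ideal.absNorm (𝔭 : Ideal (𝓞 F)) : ℝ) ^ (-s) ≤ (Module.finrank ℚ F : ℝ) := by
  have hcard : B.card ≤ Module.finrank ℚ F := by
    rcases B.eq_empty_or_nonempty with h | ⟨𝔭₀, h𝔭₀⟩
    · rw [h]; simp
    · have hp : p.Prime := by
        have := (hB 𝔭₀ h𝔭₀).2
        rw [← this.2]; exact this.1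
      apply card_le_finrank_of_prime_mem p hp
      intro 𝔭 h𝔭
      refine ⟨(hB 𝔭 h𝔭).1, ?_⟩
      rw [← (hB 𝔭 h𝔭).2.2]
      exact Ideal.absNorm_mem _
  calc ∑ 𝔭 ∈ B, (Ideal.absNorm (𝔭 : Ideal (𝓞 F)) : ℝ) ^ (-s)
      ≤ ∑ _𝔭 ∈ B, (1 : ℝ) := Finset.sum_le_sum (fun 𝔭 _ => rpow_absNorm_le_one 𝔭 s hs)
    _ = (B.card : ℝ) := by simp
    _ ≤ (Module.finrank ℚ F : ℝ) := by exact_mod_cast hcard

/-- The sum of squares is bounded by `ζ_F(2)`. -/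
theorem sum_sq_le (h2 : Summable (fun I : (Ideal (𝓞 F))⁰ =>
      (Ideal.absNorm (I : Ideal (𝓞 F)) : ℝ) ^ (-(2 : ℝ))))
    (s : ℝ) (hs : 1 ≤ s) (T : Finset (Ideal (𝓞 F))⁰) :
    ∑ 𝔭 ∈ T, ((Ideal.absNorm (𝔭 : Ideal (𝓞 F)) : ℝ) ^ (-s)) ^ 2 ≤ idealZeta F 2 := by
  calc ∑ 𝔭 ∈ T, ((Ideal.absNorm (𝔭 : Ideal (𝓞 F)) : ℝ) ^ (-s)) ^ 2
      ≤ ∑ 𝔭 ∈ T, (Ideal.absNorm (𝔭 : Ideal (𝓞 F)) : ℝ) ^ (-(2 : ℝ)) :=
        Finset.sum_le_sum (fun 𝔭 _ => sq_rpow_absNorm_le 𝔭 s hs)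
    _ ≤ idealZeta F 2 := by
        rw [idealZeta]
        apply Summable.sum_le_tsum _ _ h2
        intro I _
        exact Real.rpow_nonneg (Nat.cast_nonneg _) _

/-- The completely multiplicative function `I ↦ N(I)^(-s)` on nonzero ideals. -/
noncomputable def normPow (F : Type) [Field F] [NumberField F] (s : ℝ) :
    (Ideal (𝓞 F))⁰ →* ℂ where
  toFun I := (((Ideal.absNorm (I : Ideal (𝓞 F)) : ℝ) ^ (-s) : ℝ) : ℂ)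
  map_one' := by simp
  map_mul' I J := by
    rw [Submonoid.coe_mul, map_mul, Nat.cast_mul,
      Real.mul_rpow (Nat.cast_nonneg _) (Nat.cast_nonneg _), Complex.ofReal_mul]

theorem normPow_apply (s : ℝ) (I : (Ideal (𝓞 F))⁰) :
    normPow F s I = (((Ideal.absNorm (I : Ideal (𝓞 F)) : ℝ) ^ (-s) : ℝ) : ℂ) := rfl

/-- Upper bound for `log ζ_F(s)` by a finite sum over primes, from the Euler product limit. -/
theorem log_idealZeta_le (hEL : StmtEulerLimit) (s : ℝ) (hs : 1 < s) :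
    ∃ T₀ : Finset (Ideal (𝓞 F))⁰, (∀ 𝔭 ∈ T₀, (𝔭 : Ideal (𝓞 F)).IsPrime) ∧
      Real.log (idealZeta F s) ≤ Real.log (3 / 2) +
        ∑ 𝔭 ∈ T₀, ((Ideal.absNorm (𝔭 : Ideal (𝓞 F)) : ℝ) ^ (-s) +
          2 * ((Ideal.absNorm (𝔭 : Ideal (𝓞 F)) : ℝ) ^ (-s)) ^ 2) := by
  obtain ⟨T₀, hT₀, h⟩ := hEL F s hs (normPow F s) (fun I => by
    rw [normPow_apply, Complex.norm_real, Real.norm_eq_abs,
      abs_of_nonneg (Real.rpow_nonneg (Nat.cast_nonneg _) _)]) (1 / 2) (by norm_num)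
  refine ⟨T₀, hT₀, ?_⟩
  have h' := h T₀ (Finset.Subset.refl _) hT₀
  have hcast : (∑' I : (Ideal (𝓞 F))⁰, normPow F s I) * ∏ 𝔭 ∈ T₀, (1 - normPow F s 𝔭) - 1 =
      ((idealZeta F s * ∏ 𝔭 ∈ T₀, (1 - (Ideal.absNorm (𝔭 : Ideal (𝓞 F)) : ℝ) ^ (-s)) - 1 : ℝ) :
        ℂ) := by
    rw [idealZeta]
    push_cast
    rfl
  rw [hcast, Complex.norm_real, Real.norm_eq_abs, abs_le] at h'
  have hfac : ∀ 𝔭 ∈ T₀, 0 < 1 - (Ideal.absNorm (𝔭 : Ideal (𝓞 F)) : ℝ) ^ (-s) := by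
    intro 𝔭 h𝔭
    have := rpow_absNorm_le_half 𝔭 (hT₀ 𝔭 h𝔭) s hs.le
    linarith
  have hPpos : 0 < ∏ 𝔭 ∈ T₀, (1 - (Ideal.absNorm (𝔭 : Ideal (𝓞 F)) : ℝ) ^ (-s)) :=
    Finset.prod_pos hfac
  have hZpos : 0 < idealZeta F s := by
    by_contra hneg
    have := mul_nonpos_of_nonpos_of_nonneg (not_lt.1 hneg) hPpos.le
    linarith [h'.1]
  have hlog : Real.log (idealZeta F s) +
      Real.log (∏ 𝔭 ∈ T₀, (1 - (Ideal.absNorm (𝔭 : Ideal (𝓞 F)) : ℝ) ^ (-s))) ≤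
        Real.log (3 / 2) := by
    rw [← Real.log_mul hZpos.ne' hPpos.ne']
    exact Real.log_le_log (mul_pos hZpos hPpos) (by linarith [h'.2])
  have hlogP : Real.log (∏ 𝔭 ∈ T₀, (1 - (Ideal.absNorm (𝔭 : Ideal (𝓞 F)) : ℝ) ^ (-s))) =
      ∑ 𝔭 ∈ T₀, Real.log (1 - (Ideal.absNorm (𝔭 : Ideal (𝓞 F)) : ℝ) ^ (-s)) :=
    Real.log_prod (fun 𝔭 h𝔭 => (hfac 𝔭 h𝔭).ne')
  have hsum : -∑ 𝔭 ∈ T₀, Real.log (1 - (Ideal.absNorm (𝔭 : Ideal (𝓞 F)) : ℝ) ^ (-s)) ≤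
      ∑ 𝔭 ∈ T₀, ((Ideal.absNorm (𝔭 : Ideal (𝓞 F)) : ℝ) ^ (-s) +
          2 * ((Ideal.absNorm (𝔭 : Ideal (𝓞 F)) : ℝ) ^ (-s)) ^ 2) := by
    rw [← Finset.sum_neg_distrib]
    apply Finset.sum_le_sum
    intro 𝔭 h𝔭
    exact neg_log_one_sub_le _ (rpow_absNorm_le_half 𝔭 (hT₀ 𝔭 h𝔭) s hs.le)
  linarith

/-- **(D3)** degree-one primes (not over `p`) carry all the mass; the finite Euler factor
extraction statement is not needed. -/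
theorem d3_of' (h1a : StmtAN1a) (h1b : StmtAN1b) (hEL : StmtEulerLimit) : StmtD3 := by
  intro F _ _ p
  classical
  obtain ⟨C₁, hC₁⟩ := h1b F
  have hsum2 := h1a F 2 (by norm_num)
  refine ⟨C₁ + Real.log (3 / 2) + (Module.finrank ℚ F : ℝ) +
    (Module.finrank ℚ F : ℝ) * (∑' m : ℕ, ((m : ℝ) ^ 2)⁻¹) + 2 * idealZeta F 2, ?_⟩
  intro s hs
  obtain ⟨T₀, hT₀, hlog⟩ := log_idealZeta_le (F := F) hEL s hs.1
  refine ⟨(T₀.filter (fun 𝔭 : (Ideal (𝓞 F))⁰ =>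
      (Ideal.absNorm (𝔭 : Ideal (𝓞 F))).Prime)).filter
        (fun 𝔭 : (Ideal (𝓞 F))⁰ => Ideal.absNorm (𝔭 : Ideal (𝓞 F)) ≠ p), ?_, ?_⟩
  · intro 𝔩 h𝔩
    rw [Finset.mem_filter, Finset.mem_filter] at h𝔩
    exact ⟨hT₀ 𝔩 h𝔩.1.1, h𝔩.1.2, h𝔩.2⟩
  · have hC := hC₁ s hs
    rw [abs_le] at hC
    have hsplit1 := Finset.sum_filter_add_sum_filter_not T₀
      (fun 𝔭 : (Ideal (𝓞 F))⁰ => (Ideal.absNorm (𝔭 : Ideal (𝓞 F))).Prime)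
      (fun 𝔭 => (Ideal.absNorm (𝔭 : Ideal (𝓞 F)) : ℝ) ^ (-s))
    have hsplit2 := Finset.sum_filter_add_sum_filter_not
      (T₀.filter (fun 𝔭 : (Ideal (𝓞 F))⁰ => (Ideal.absNorm (𝔭 : Ideal (𝓞 F))).Prime))
      (fun 𝔭 : (Ideal (𝓞 F))⁰ => Ideal.absNorm (𝔭 : Ideal (𝓞 F)) ≠ p)
      (fun 𝔭 => (Ideal.absNorm (𝔭 : Ideal (𝓞 F)) : ℝ) ^ (-s))
    have hA := sum_nonprime_le s hs.1.le
      (T₀.filter (fun 𝔭 : (Ideal (𝓞 F))⁰ => ¬ (Ideal.absNorm (𝔭 : Ideal (𝓞 F))).Prime)) (by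
        intro 𝔭 h𝔭
        rw [Finset.mem_filter] at h𝔭
        exact ⟨hT₀ 𝔭 h𝔭.1, h𝔭.2⟩)
    have hB := sum_norm_eq_le s (by linarith [hs.1]) p
      ((T₀.filter (fun 𝔭 : (Ideal (𝓞 F))⁰ => (Ideal.absNorm (𝔭 : Ideal (𝓞 F))).Prime)).filter
        (fun 𝔭 : (Ideal (𝓞 F))⁰ => ¬ Ideal.absNorm (𝔭 : Ideal (𝓞 F)) ≠ p)) (by
        intro 𝔭 h𝔭
        rw [Finset.mem_filter, Finset.mem_filter] at h𝔭
        exact ⟨hT₀ 𝔭 h𝔭.1.1, h𝔭.1.2, not_not.1 h𝔭.2⟩)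
    have hsq := sum_sq_le hsum2 s hs.1.le T₀
    rw [Finset.sum_add_distrib, ← Finset.mul_sum] at hlog
    linarith

/-- **(D3)**, with the signature requested by the S14 plan (row 178). -/
theorem d3_of (h1a : StmtAN1a) (h1b : StmtAN1b) (hEL : StmtEulerLimit)
    (_hEF : StmtEulerFinite) : StmtD3 :=
  d3_of' h1a h1b hEL

end Fermat.Agent.S14.H56
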