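import Fermat.Agent.S14.Stmts

/-!
# S14, row EULER (helper19): finite Euler factor extraction on ideals

For a completely multiplicative function `f` on the nonzero ideals of a Dedekind domain with
`∑ f` summable, and a finite set `T` of nonzero primes,

  `(∑_I f I) * ∏_{𝔭 ∈ T} (1 - f 𝔭) = ∑_{I prime to T} f I`      (`euler_finite_core`),

by induction on `T`: multiplication by `𝔭 ∉ T` is a bijection from the ideals prime to `T` onto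
those of them divisible by `𝔭`.  For a number field and `‖f I‖ ≤ g I` with `g` summable, the
right-hand side tends to `1` along finite sets of primes (`euler_limit_core`).

Main results: `euler_finite : StmtAN1a → StmtEulerFinite`, `euler_limit : StmtAN1a →
StmtEulerLimit`, and the real corollaries `prod_inv_le_idealZeta`, `exists_idealZeta_le`.
-/

set_option autoImplicit false

open scoped NumberField nonZeroDivisors

namespace Fermat.Agent.S14.H19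

section Core

variable {R : Type*} [CommRing R] [IsDedekindDomain R]

/-- the nonzero ideals not divisible by any member of `T` -/
def cop (T : Finset (Ideal R)⁰) : Set (Ideal R)⁰ :=
  {I | ∀ 𝔭 ∈ T, ¬ ((𝔭 : Ideal R) ∣ (I : Ideal R))}

omit [IsDedekindDomain R] in
lemma mem_cop {T : Finset (Ideal R)⁰} {I : (Ideal R)⁰} :
    I ∈ cop T ↔ ∀ 𝔭 ∈ T, ¬ ((𝔭 : Ideal R) ∣ (I : Ideal R)) := Iff.rfl

lemma coe_ne_bot (I : (Ideal R)⁰) : (I : Ideal R) ≠ ⊥ := nonZeroDivisors.coe_ne_zero I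

lemma dvd_prime_iff_eq {𝔭 𝔮 : (Ideal R)⁰} (h𝔭 : (𝔭 : Ideal R).IsPrime)
    (h𝔮 : (𝔮 : Ideal R).IsPrime) : (𝔮 : Ideal R) ∣ (𝔭 : Ideal R) ↔ 𝔮 = 𝔭 := by
  constructor
  · intro h
    have hle : (𝔭 : Ideal R) ≤ 𝔮 := Ideal.dvd_iff_le.mp h
    have hmax : (𝔭 : Ideal R).IsMaximal := h𝔭.isMaximal (coe_ne_bot 𝔭)
    exact Subtype.ext (hmax.eq_of_le h𝔮.ne_top hle).symm
  · rintro rfl; exact dvd_rfl

lemma one_mem_cop {T : Finset (Ideal R)⁰} (hT : ∀ 𝔮 ∈ T, (𝔮 : Ideal R).IsPrime) :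
    (1 : (Ideal R)⁰) ∈ cop T := by
  intro 𝔮 h𝔮 hdvd
  have h1 : ((1 : (Ideal R)⁰) : Ideal R) = ⊤ := by rw [Submonoid.coe_one, Ideal.one_eq_top]
  rw [h1] at hdvd
  exact (hT 𝔮 h𝔮).ne_top (top_le_iff.mp (Ideal.dvd_iff_le.mp hdvd))

lemma mul_mem_cop_iff {T : Finset (Ideal R)⁰} (hT : ∀ 𝔮 ∈ T, (𝔮 : Ideal R).IsPrime)
    {𝔭 : (Ideal R)⁰} (h𝔭 : (𝔭 : Ideal R).IsPrime) (h𝔭T : 𝔭 ∉ T) (J : (Ideal R)⁰) :
    𝔭 * J ∈ cop T ↔ J ∈ cop T := by
  constructor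
  · intro h 𝔮 h𝔮 hdvd
    exact h 𝔮 h𝔮 (by rw [Submonoid.coe_mul]; exact Dvd.dvd.mul_left hdvd _)
  · intro h 𝔮 h𝔮 hdvd
    rw [Submonoid.coe_mul] at hdvd
    rcases (Ideal.prime_of_isPrime (coe_ne_bot 𝔮) (hT 𝔮 h𝔮)).dvd_or_dvd hdvd with h1 | h1
    · exact h𝔭T ((dvd_prime_iff_eq h𝔭 (hT 𝔮 h𝔮)).mp h1 ▸ h𝔮)
    · exact h 𝔮 h𝔮 h1

lemma mul_left_inj_nz (𝔭 : (Ideal R)⁰) : Function.Injective (fun J : (Ideal R)⁰ => 𝔭 * J) := by
  intro J J' h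
  have h' : (𝔭 : Ideal R) * J = (𝔭 : Ideal R) * J' := by
    have := congrArg (Subtype.val) h
    simpa [Submonoid.coe_mul] using this
  exact Subtype.ext (mul_left_cancel₀ (coe_ne_bot 𝔭) h')

variable {𝕜 : Type*} [NormedField 𝕜] [CompleteSpace 𝕜]

/-- the inductive step of the finite Euler factor extraction -/
lemma tsum_cop_insert (f : (Ideal R)⁰ →* 𝕜) (hf : Summable f) {T : Finset (Ideal R)⁰}
    (hT : ∀ 𝔮 ∈ T, (𝔮 : Ideal R).IsPrime) {𝔭 : (Ideal R)⁰} (h𝔭 : (𝔭 : Ideal R).IsPrime)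
    (h𝔭T : 𝔭 ∉ T) [DecidableEq (Ideal R)⁰] :
    ∑' I, (cop T).indicator f I =
      f 𝔭 * ∑' I, (cop T).indicator f I + ∑' I, (cop (insert 𝔭 T)).indicator f I := by
  set D : Set (Ideal R)⁰ := {I | (𝔭 : Ideal R) ∣ (I : Ideal R)} with hD
  have hsplit : ∀ I, (cop T).indicator f I =
      (cop T ∩ D).indicator f I + (cop (insert 𝔭 T)).indicator f I := by
    intro I
    by_cases h1 : I ∈ cop T
    · by_cases h2 : I ∈ D
      · have h3 : I ∉ cop (insert 𝔭 T) := fun h => h 𝔭 (Finset.mem_insert_self _ _) h2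
        rw [Set.indicator_of_mem h1, Set.indicator_of_mem (Set.mem_inter h1 h2),
          Set.indicator_of_notMem h3, add_zero]
      · have h3 : I ∈ cop (insert 𝔭 T) := by
          intro 𝔮 h𝔮
          rcases Finset.mem_insert.mp h𝔮 with rfl | h𝔮
          · exact h2
          · exact h1 𝔮 h𝔮
        rw [Set.indicator_of_mem h1, Set.indicator_of_notMem (fun h => h2 h.2),
          Set.indicator_of_mem h3, zero_add]
    · have h3 : I ∉ cop (insert 𝔭 T) :=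
        fun h => h1 (fun 𝔮 h𝔮 => h 𝔮 (Finset.mem_insert_of_mem h𝔮))
      rw [Set.indicator_of_notMem h1, Set.indicator_of_notMem (fun h => h1 h.1),
        Set.indicator_of_notMem h3, add_zero]
  have hinj : Function.Injective (fun J : (Ideal R)⁰ => 𝔭 * J) := mul_left_inj_nz 𝔭
  have hsupp : Function.support ((cop T ∩ D).indicator f) ⊆
      Set.range (fun J : (Ideal R)⁰ => 𝔭 * J) := by
    intro I hI
    have hI' : I ∈ cop T ∩ D := by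
      by_contra hcon
      exact hI (Set.indicator_of_notMem hcon f)
    obtain ⟨J, hJ⟩ := hI'.2
    have hJ0 : J ≠ 0 := by
      rintro rfl
      exact coe_ne_bot I (by rw [hJ, mul_zero]; rfl)
    exact ⟨⟨J, mem_nonZeroDivisors_iff_ne_zero.mpr hJ0⟩, Subtype.ext hJ.symm⟩
  have hshift : ∀ J, (cop T ∩ D).indicator f (𝔭 * J) = f 𝔭 * (cop T).indicator f J := by
    intro J
    by_cases hJ : J ∈ cop T
    · have hmem : 𝔭 * J ∈ cop T ∩ D :=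
        ⟨(mul_mem_cop_iff hT h𝔭 h𝔭T J).mpr hJ, by
          show (𝔭 : Ideal R) ∣ ((𝔭 * J : (Ideal R)⁰) : Ideal R)
          rw [Submonoid.coe_mul]; exact dvd_mul_right _ _⟩
      rw [Set.indicator_of_mem hmem, Set.indicator_of_mem hJ, map_mul]
    · have hmem : 𝔭 * J ∉ cop T ∩ D := fun h => hJ ((mul_mem_cop_iff hT h𝔭 h𝔭T J).mp h.1)
      rw [Set.indicator_of_notMem hmem, Set.indicator_of_notMem hJ, mul_zero]
  calc ∑' I, (cop T).indicator f I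
      = ∑' I, ((cop T ∩ D).indicator f I + (cop (insert 𝔭 T)).indicator f I) :=
        tsum_congr hsplit
    _ = ∑' I, (cop T ∩ D).indicator f I + ∑' I, (cop (insert 𝔭 T)).indicator f I :=
        (hf.indicator _).tsum_add (hf.indicator _)
    _ = f 𝔭 * ∑' I, (cop T).indicator f I + ∑' I, (cop (insert 𝔭 T)).indicator f I := by
        congr 1
        rw [← hinj.tsum_eq hsupp, ← tsum_mul_left]
        exact tsum_congr hshift

/-- FINITE EULER FACTOR EXTRACTION (indicator form, any Dedekind domain, any complete normed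
field of values). -/
theorem euler_finite_core (f : (Ideal R)⁰ →* 𝕜) (hf : Summable f) (T : Finset (Ideal R)⁰)
    (hT : ∀ 𝔮 ∈ T, (𝔮 : Ideal R).IsPrime) :
    (∑' I, f I) * ∏ 𝔭 ∈ T, (1 - f 𝔭) = ∑' I, (cop T).indicator f I := by
  classical
  induction T using Finset.induction_on with
  | empty =>
    have h0 : cop (∅ : Finset (Ideal R)⁰) = Set.univ := by
      ext I; simp [cop]
    simp [h0]
  | insert 𝔭 T h𝔭T ih =>
    have hT' : ∀ 𝔮 ∈ T, (𝔮 : Ideal R).IsPrime := fun 𝔮 h => hT 𝔮 (Finset.mem_insert_of_mem h)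
    have h𝔭 := hT 𝔭 (Finset.mem_insert_self _ _)
    have hstep := tsum_cop_insert f hf hT' h𝔭 h𝔭T
    rw [Finset.prod_insert h𝔭T, mul_left_comm, ih hT']
    linear_combination hstep

/-- the same with the sum over the subtype of ideals prime to `T` -/
theorem euler_finite_subtype (f : (Ideal R)⁰ →* 𝕜) (hf : Summable f) (T : Finset (Ideal R)⁰)
    (hT : ∀ 𝔮 ∈ T, (𝔮 : Ideal R).IsPrime) :
    (∑' I, f I) * ∏ 𝔭 ∈ T, (1 - f 𝔭) =
      ∑' I : {I : (Ideal R)⁰ // ∀ 𝔭 ∈ T, ¬ ((𝔭 : Ideal R) ∣ (I : Ideal R))}, f I := by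
  rw [euler_finite_core f hf T hT]
  exact (tsum_subtype (cop T) f).symm

end Core

section NumberField

variable {F : Type*} [Field F] [NumberField F]

variable {𝕜 : Type*} [NormedField 𝕜] [CompleteSpace 𝕜]

/-- a nonzero ideal `≠ 1` has a nonzero prime divisor, of norm at most its own -/
lemma exists_prime_dvd {I : (Ideal (𝓞 F))⁰} (hI : I ≠ 1) :
    ∃ 𝔮 : (Ideal (𝓞 F))⁰, (𝔮 : Ideal (𝓞 F)).IsPrime ∧ (𝔮 : Ideal (𝓞 F)) ∣ (I : Ideal (𝓞 F)) ∧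
      Ideal.absNorm (𝔮 : Ideal (𝓞 F)) ≤ Ideal.absNorm (I : Ideal (𝓞 F)) := by
  have hItop : (I : Ideal (𝓞 F)) ≠ ⊤ := by
    intro h
    exact hI (Subtype.ext (by rw [h, Submonoid.coe_one, Ideal.one_eq_top]))
  obtain ⟨𝔪, h𝔪, hle⟩ := Ideal.exists_le_maximal _ hItop
  have h𝔪0 : 𝔪 ≠ ⊥ := by
    rintro rfl
    exact coe_ne_bot I (le_bot_iff.mp hle)
  refine ⟨⟨𝔪, mem_nonZeroDivisors_iff_ne_zero.mpr h𝔪0⟩, h𝔪.isPrime, Ideal.dvd_iff_le.mpr hle, ?_⟩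
  have hdvd : Ideal.absNorm 𝔪 ∣ Ideal.absNorm (I : Ideal (𝓞 F)) :=
    Ideal.absNorm_dvd_absNorm_of_le hle
  have hpos : 0 < Ideal.absNorm (I : Ideal (𝓞 F)) :=
    Nat.pos_of_ne_zero (fun h => coe_ne_bot I (Ideal.absNorm_eq_zero_iff.mp h))
  exact Nat.le_of_dvd hpos hdvd

/-- THE EULER PRODUCT AS A LIMIT along finite sets of primes (any complete normed field of
values, any summable majorant `g`). -/
theorem euler_limit_core (g : (Ideal (𝓞 F))⁰ → ℝ) (hg : Summable g)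
    (f : (Ideal (𝓞 F))⁰ →* 𝕜) (hfg : ∀ I, ‖f I‖ ≤ g I) (ε : ℝ) (hε : 0 < ε) :
    ∃ T₀ : Finset (Ideal (𝓞 F))⁰, (∀ 𝔭 ∈ T₀, (𝔭 : Ideal (𝓞 F)).IsPrime) ∧
      ∀ T : Finset (Ideal (𝓞 F))⁰, T₀ ⊆ T → (∀ 𝔭 ∈ T, (𝔭 : Ideal (𝓞 F)).IsPrime) →
        ‖(∑' I, f I) * ∏ 𝔭 ∈ T, (1 - f 𝔭) - 1‖ ≤ ε := by
  classical
  have hf : Summable f := Summable.of_norm_bounded hg hfg
  have hg0 : ∀ I, 0 ≤ g I := fun I => (norm_nonneg _).trans (hfg I)
  -- a finite set of ideals outside of which the majorant has small sum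
  obtain ⟨S₀, hS₀⟩ : ∃ S₀ : Finset (Ideal (𝓞 F))⁰, ∑' I : {x // x ∉ S₀}, g I < ε :=
    ((tendsto_order.1 (tendsto_tsum_compl_atTop_zero g)).2 ε hε).exists
  set X : ℕ := S₀.sup (fun I => Ideal.absNorm (I : Ideal (𝓞 F))) with hX
  have hfin : {I : (Ideal (𝓞 F))⁰ | Ideal.absNorm (I : Ideal (𝓞 F)) ≤ X}.Finite :=
    Ideal.finite_setOfPred_absNorm_le₀ X
  refine ⟨hfin.toFinset.filter (fun I => (I : Ideal (𝓞 F)).IsPrime), ?_, ?_⟩
  · intro 𝔭 h𝔭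
    exact (Finset.mem_filter.mp h𝔭).2
  intro T hT₀ hT
  rw [euler_finite_core f hf T hT]
  have hsum : Summable ((cop T).indicator f) := hf.indicator _
  rw [hsum.tsum_eq_add_tsum_ite (1 : (Ideal (𝓞 F))⁰), Set.indicator_of_mem (one_mem_cop hT),
    map_one, add_sub_cancel_left]
  -- the remaining ideals lie outside `S₀`
  have hout : ∀ I : (Ideal (𝓞 F))⁰, I ≠ 1 → I ∈ cop T → I ∉ S₀ := by
    intro I hI1 hIT hIS
    obtain ⟨𝔮, h𝔮, hdvd, hnorm⟩ := exists_prime_dvd hI1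
    have hIX : Ideal.absNorm (I : Ideal (𝓞 F)) ≤ X :=
      Finset.le_sup (f := fun J : (Ideal (𝓞 F))⁰ => Ideal.absNorm (J : Ideal (𝓞 F))) hIS
    have h𝔮T : 𝔮 ∈ T := by
      apply hT₀
      rw [Finset.mem_filter, Set.Finite.mem_toFinset]
      exact ⟨hnorm.trans hIX, h𝔮⟩
    exact hIT 𝔮 h𝔮T hdvd
  have hbound : ∀ I : (Ideal (𝓞 F))⁰,
      ‖(if I = 1 then (0 : 𝕜) else (cop T).indicator f I)‖ ≤
        ({x | x ∉ S₀} : Set (Ideal (𝓞 F))⁰).indicator g I := by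
    intro I
    have hnn : 0 ≤ ({x | x ∉ S₀} : Set (Ideal (𝓞 F))⁰).indicator g I :=
      Set.indicator_nonneg (fun x _ => hg0 x) I
    by_cases hI1 : I = 1
    · rw [if_pos hI1, norm_zero]; exact hnn
    · rw [if_neg hI1]
      by_cases hIT : I ∈ cop T
      · rw [Set.indicator_of_mem hIT, Set.indicator_of_mem (hout I hI1 hIT)]
        exact hfg I
      · rw [Set.indicator_of_notMem hIT, norm_zero]; exact hnn
  have hgs : Summable (({x | x ∉ S₀} : Set (Ideal (𝓞 F))⁰).indicator g) := hg.indicator _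
  have hns : Summable (fun I : (Ideal (𝓞 F))⁰ =>
      ‖(if I = 1 then (0 : 𝕜) else (cop T).indicator f I)‖) :=
    Summable.of_nonneg_of_le (fun _ => norm_nonneg _) hbound hgs
  calc ‖∑' I : (Ideal (𝓞 F))⁰, (if I = 1 then (0 : 𝕜) else (cop T).indicator f I)‖
      ≤ ∑' I : (Ideal (𝓞 F))⁰, ‖(if I = 1 then (0 : 𝕜) else (cop T).indicator f I)‖ :=
        norm_tsum_le_tsum_norm hns
    _ ≤ ∑' I, ({x | x ∉ S₀} : Set (Ideal (𝓞 F))⁰).indicator g I :=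
        hns.tsum_le_tsum hbound hgs
    _ = ∑' I : {x // x ∉ S₀}, g I := (tsum_subtype _ g).symm
    _ ≤ ε := hS₀.le

end NumberField

/-! ## Real corollaries for the norm character -/

section Real

variable (F : Type*) [Field F] [NumberField F]

/-- `I ↦ N(I)^(-s)` as a monoid homomorphism to `ℝ` -/
noncomputable def normPow (s : ℝ) : (Ideal (𝓞 F))⁰ →* ℝ where
  toFun I := (Ideal.absNorm (I : Ideal (𝓞 F)) : ℝ) ^ (-s)
  map_one' := by simp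
  map_mul' I J := by
    rw [Submonoid.coe_mul, map_mul, Nat.cast_mul,
      Real.mul_rpow (Nat.cast_nonneg _) (Nat.cast_nonneg _)]

lemma normPow_apply (s : ℝ) (I : (Ideal (𝓞 F))⁰) :
    normPow F s I = (Ideal.absNorm (I : Ideal (𝓞 F)) : ℝ) ^ (-s) := rfl

/-- `I ↦ N(I)^(-s)` as a monoid homomorphism to `ℂ` -/
noncomputable def normPowC (s : ℝ) : (Ideal (𝓞 F))⁰ →* ℂ :=
  (Complex.ofRealHom : ℝ →* ℂ).comp (normPow F s)

lemma normPowC_apply (s : ℝ) (I : (Ideal (𝓞 F))⁰) :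
    normPowC F s I = (((Ideal.absNorm (I : Ideal (𝓞 F)) : ℝ) ^ (-s) : ℝ) : ℂ) := rfl

lemma idealZeta_eq_tsum_normPow (s : ℝ) : idealZeta F s = ∑' I, normPow F s I := rfl

variable {F}

lemma absNorm_pos (I : (Ideal (𝓞 F))⁰) : 0 < Ideal.absNorm (I : Ideal (𝓞 F)) :=
  Nat.pos_of_ne_zero (fun h => coe_ne_bot I (Ideal.absNorm_eq_zero_iff.mp h))

lemma two_le_absNorm_of_isPrime {𝔭 : (Ideal (𝓞 F))⁰} (h : (𝔭 : Ideal (𝓞 F)).IsPrime) :
    2 ≤ Ideal.absNorm (𝔭 : Ideal (𝓞 F)) := by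
  have h0 := absNorm_pos 𝔭
  have h1 : Ideal.absNorm (𝔭 : Ideal (𝓞 F)) ≠ 1 :=
    fun h1 => h.ne_top (Ideal.absNorm_eq_one_iff.mp h1)
  omega

lemma normPow_pos (s : ℝ) (I : (Ideal (𝓞 F))⁰) : 0 < normPow F s I :=
  Real.rpow_pos_of_pos (by exact_mod_cast absNorm_pos I) _

lemma normPow_prime_le {s : ℝ} (hs : 0 ≤ s) {𝔭 : (Ideal (𝓞 F))⁰}
    (h : (𝔭 : Ideal (𝓞 F)).IsPrime) : normPow F s 𝔭 ≤ (2 : ℝ) ^ (-s) := by
  have h2 : (2 : ℝ) ≤ (Ideal.absNorm (𝔭 : Ideal (𝓞 F)) : ℝ) := by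
    exact_mod_cast two_le_absNorm_of_isPrime h
  exact Real.rpow_le_rpow_of_nonpos (by norm_num) h2 (by linarith)

lemma normPow_prime_le_half {s : ℝ} (hs : 1 ≤ s) {𝔭 : (Ideal (𝓞 F))⁰}
    (h : (𝔭 : Ideal (𝓞 F)).IsPrime) : normPow F s 𝔭 ≤ 1 / 2 := by
  refine (normPow_prime_le (by linarith) h).trans ?_
  have h1 : (2 : ℝ) ^ (-s) ≤ (2 : ℝ) ^ (-1 : ℝ) :=
    Real.rpow_le_rpow_of_exponent_le (by norm_num) (by linarith)
  have h2 : (2 : ℝ) ^ (-1 : ℝ) = 1 / 2 := by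
    rw [Real.rpow_neg_one]; norm_num
  exact h1.trans h2.le

lemma normPow_prime_lt_one {s : ℝ} (hs : 1 ≤ s) {𝔭 : (Ideal (𝓞 F))⁰}
    (h : (𝔭 : Ideal (𝓞 F)).IsPrime) : normPow F s 𝔭 < 1 := by
  have := normPow_prime_le_half hs h
  linarith

lemma prod_one_sub_normPow_pos {s : ℝ} (hs : 1 ≤ s) (T : Finset (Ideal (𝓞 F))⁰)
    (hT : ∀ 𝔭 ∈ T, (𝔭 : Ideal (𝓞 F)).IsPrime) : 0 < ∏ 𝔭 ∈ T, (1 - normPow F s 𝔭) :=
  Finset.prod_pos (fun 𝔭 h𝔭 => by have := normPow_prime_lt_one hs (hT 𝔭 h𝔭); linarith)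

/-- `1 ≤ ζ_F(s) ∏_{𝔭 ∈ T} (1 - N𝔭^(-s))` -/
theorem one_le_idealZeta_mul_prod {s : ℝ} (hsum : Summable (normPow F s))
    (T : Finset (Ideal (𝓞 F))⁰) (hT : ∀ 𝔭 ∈ T, (𝔭 : Ideal (𝓞 F)).IsPrime) :
    1 ≤ idealZeta F s * ∏ 𝔭 ∈ T, (1 - normPow F s 𝔭) := by
  rw [idealZeta_eq_tsum_normPow, euler_finite_core (normPow F s) hsum T hT]
  have h1 : (cop T).indicator (normPow F s) 1 = 1 := by
    rw [Set.indicator_of_mem (one_mem_cop hT), map_one]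
  rw [← h1]
  exact (hsum.indicator _).le_tsum 1
    (fun I _ => Set.indicator_nonneg (fun x _ => (normPow_pos s x).le) I)

/-- COROLLARY (i): `∏_{𝔭 ∈ T} (1 - N𝔭^(-s))⁻¹ ≤ ζ_F(s)` for every finite set `T` of primes -/
theorem prod_inv_le_idealZeta' {s : ℝ} (hs : 1 ≤ s) (hsum : Summable (normPow F s))
    (T : Finset (Ideal (𝓞 F))⁰) (hT : ∀ 𝔭 ∈ T, (𝔭 : Ideal (𝓞 F)).IsPrime) :
    ∏ 𝔭 ∈ T, (1 - normPow F s 𝔭)⁻¹ ≤ idealZeta F s := by
  have hP := prod_one_sub_normPow_pos hs T hT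
  have h1 := one_le_idealZeta_mul_prod hsum T hT
  rw [Finset.prod_inv_distrib, inv_eq_one_div, div_le_iff₀ hP]
  exact h1

/-- COROLLARY (ii): `ζ_F(s) ≤ (1 + ε) ∏_{𝔭 ∈ T} (1 - N𝔭^(-s))⁻¹` for all large finite sets `T`
of primes -/
theorem exists_idealZeta_le' {s : ℝ} (hs : 1 ≤ s) (hsum : Summable (normPow F s))
    (ε : ℝ) (hε : 0 < ε) :
    ∃ T₀ : Finset (Ideal (𝓞 F))⁰, (∀ 𝔭 ∈ T₀, (𝔭 : Ideal (𝓞 F)).IsPrime) ∧
      ∀ T : Finset (Ideal (𝓞 F))⁰, T₀ ⊆ T → (∀ 𝔭 ∈ T, (𝔭 : Ideal (𝓞 F)).IsPrime) →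
        idealZeta F s ≤ (1 + ε) * ∏ 𝔭 ∈ T, (1 - normPow F s 𝔭)⁻¹ := by
  obtain ⟨T₀, hT₀, h⟩ := euler_limit_core (normPow F s) hsum (normPow F s)
    (fun I => by rw [Real.norm_eq_abs, abs_of_pos (normPow_pos s I)]) ε hε
  refine ⟨T₀, hT₀, fun T hTT hT => ?_⟩
  have h1 := h T hTT hT
  rw [← idealZeta_eq_tsum_normPow, Real.norm_eq_abs, abs_le] at h1
  have hP := prod_one_sub_normPow_pos hs T hT
  rw [Finset.prod_inv_distrib, ← div_eq_mul_inv, le_div_iff₀ hP]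
  linarith [h1.2]

end Real

/-- COROLLARY (i) from (AN1a) -/
theorem prod_inv_le_idealZeta (h : StmtAN1a) (F : Type) [Field F] [NumberField F] (s : ℝ)
    (hs : 1 < s) (T : Finset (Ideal (𝓞 F))⁰) (hT : ∀ 𝔭 ∈ T, (𝔭 : Ideal (𝓞 F)).IsPrime) :
    ∏ 𝔭 ∈ T, (1 - (Ideal.absNorm (𝔭 : Ideal (𝓞 F)) : ℝ) ^ (-s))⁻¹ ≤ idealZeta F s :=
  prod_inv_le_idealZeta' hs.le (h F s hs) T hT

/-- COROLLARY (ii) from (AN1a) -/
theorem exists_idealZeta_le (h : StmtAN1a) (F : Type) [Field F] [NumberField F] (s : ℝ)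
    (hs : 1 < s) (ε : ℝ) (hε : 0 < ε) :
    ∃ T₀ : Finset (Ideal (𝓞 F))⁰, (∀ 𝔭 ∈ T₀, (𝔭 : Ideal (𝓞 F)).IsPrime) ∧
      ∀ T : Finset (Ideal (𝓞 F))⁰, T₀ ⊆ T → (∀ 𝔭 ∈ T, (𝔭 : Ideal (𝓞 F)).IsPrime) →
        idealZeta F s ≤
          (1 + ε) * ∏ 𝔭 ∈ T, (1 - (Ideal.absNorm (𝔭 : Ideal (𝓞 F)) : ℝ) ^ (-s))⁻¹ :=
  exists_idealZeta_le' hs.le (h F s hs) ε hε

/-! ## The two node statements -/

/-- (EF) from (AN1a) -/
theorem euler_finite (h : StmtAN1a) : StmtEulerFinite := by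
  intro F _ _ s hs f hf T hT
  exact euler_finite_subtype f (Summable.of_norm_bounded (h F s hs) hf) T hT

/-- (EL) from (AN1a) -/
theorem euler_limit (h : StmtAN1a) : StmtEulerLimit := by
  intro F _ _ s hs f hf ε hε
  exact euler_limit_core _ (h F s hs) f hf ε hε

end Fermat.Agent.S14.H19
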