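import Mathlib

/-!
S14 / WP5-R7b (helper77): the Galois group of `K = ℚ(ζ_p)` acts simply transitively on the
primes of `𝓞 K` above a rational prime `ℓ ≡ 1 mod p`.
-/

set_option autoImplicit false

namespace Fermat.Agent.S14.H77

open NumberField Ideal

section GalPrimes

variable {p ℓ : ℕ} [hp : Fact p.Prime] {K : Type*} [Field K] [NumberField K]
  [hcyc : IsCyclotomicExtension {p} ℚ K]

/-- a primitive `p`-th root of unity in `ZMod ℓ` when `ℓ ≡ 1 mod p` -/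
lemma exists_primitiveRoot_zmod (hℓ : ℓ.Prime) (hℓp : ℓ % p = 1) :
    ∃ c : ZMod ℓ, IsPrimitiveRoot c p := by
  have : Fact ℓ.Prime := ⟨hℓ⟩
  have hdvd : p ∣ Fintype.card (ZMod ℓ)ˣ := by
    rw [ZMod.card_units]
    refine (Nat.modEq_iff_dvd' hℓ.one_lt.le).mp ?_
    rw [Nat.ModEq, hℓp, Nat.mod_eq_of_lt hp.out.one_lt]
  obtain ⟨x, hx⟩ := exists_prime_orderOf_dvd_card p hdvd
  refine ⟨(x : ZMod ℓ), ?_⟩
  rw [IsPrimitiveRoot.iff_orderOf, orderOf_units, hx]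

/-- every element of `𝓞 K` is congruent to an integer modulo a prime `𝔩` over `ℓ ≡ 1 mod p` -/
lemma exists_int_sub_mem (hℓ : ℓ.Prime) (hℓp : ℓ % p = 1) {ζ : K} (hζ : IsPrimitiveRoot ζ p)
    (𝔩 : Ideal (𝓞 K)) [h𝔩 : 𝔩.IsPrime] (hℓ𝔩 : (ℓ : 𝓞 K) ∈ 𝔩) (x : 𝓞 K) :
    ∃ m : ℤ, x - (m : 𝓞 K) ∈ 𝔩 := by
  classical
  have : Fact ℓ.Prime := ⟨hℓ⟩
  have : NeZero p := ⟨hp.out.ne_zero⟩
  -- the generator
  have hgen : ∃ m : ℕ, hζ.toInteger - (m : 𝓞 K) ∈ 𝔩 := by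
    obtain ⟨c, hc⟩ := exists_primitiveRoot_zmod (p := p) hℓ hℓp
    have : CharP (𝓞 K ⧸ 𝔩) ℓ := (CharP.charP_iff_prime_eq_zero hℓ).mpr (by
      have : (Ideal.Quotient.mk 𝔩 (ℓ : 𝓞 K)) = 0 := Ideal.Quotient.eq_zero_iff_mem.mpr hℓ𝔩
      simpa using this)
    let φ : ZMod ℓ →+* (𝓞 K ⧸ 𝔩) := ZMod.castHom (dvd_refl ℓ) (𝓞 K ⧸ 𝔩)
    have hφ : Function.Injective φ := φ.injective
    have hc' : IsPrimitiveRoot (φ c) p := hc.map_of_injective hφ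
    have hζF : (Ideal.Quotient.mk 𝔩 hζ.toInteger) ^ p = 1 := by
      rw [← map_pow, hζ.toInteger_isPrimitiveRoot.pow_eq_one, map_one]
    obtain ⟨i, -, hi⟩ := hc'.eq_pow_of_pow_eq_one hζF
    refine ⟨(c ^ i).val, ?_⟩
    rw [← Ideal.Quotient.eq_zero_iff_mem, map_sub, map_natCast, ← hi, ← map_pow]
    have : (((c ^ i).val : ℕ) : 𝓞 K ⧸ 𝔩) = φ (c ^ i) := by
      rw [← map_natCast φ, ZMod.natCast_zmod_val]
    rw [this, sub_self]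
  obtain ⟨m, hm⟩ := hgen
  have htop := IsCyclotomicExtension.Rat.adjoin_singleton_eq_top hζ
  have hx : x ∈ Algebra.adjoin ℤ {hζ.toInteger} := by rw [htop]; trivial
  induction hx using Algebra.adjoin_induction with
  | mem y hy =>
    rw [Set.mem_singleton_iff] at hy
    subst hy
    exact ⟨m, by simpa using hm⟩
  | algebraMap r => exact ⟨r, by simp⟩
  | add y z _ _ hy hz =>
    obtain ⟨a, ha⟩ := hy
    obtain ⟨b, hb⟩ := hz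
    refine ⟨a + b, ?_⟩
    have : y + z - ((a + b : ℤ) : 𝓞 K) = (y - a) + (z - b) := by push_cast; ring
    rw [this]
    exact 𝔩.add_mem ha hb
  | mul y z _ _ hy hz =>
    obtain ⟨a, ha⟩ := hy
    obtain ⟨b, hb⟩ := hz
    refine ⟨a * b, ?_⟩
    have : y * z - ((a * b : ℤ) : 𝓞 K) = (y - a) * z + a * (z - b) := by push_cast; ring
    rw [this]
    exact 𝔩.add_mem (𝔩.mul_mem_right _ ha) (𝔩.mul_mem_left _ hb)

/-- a ring endomorphism of `𝓞 K` preserving `𝔩` acts trivially modulo `𝔩` -/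
lemma ringHom_sub_mem (hℓ : ℓ.Prime) (hℓp : ℓ % p = 1) {ζ : K} (hζ : IsPrimitiveRoot ζ p)
    (𝔩 : Ideal (𝓞 K)) [h𝔩 : 𝔩.IsPrime] (hℓ𝔩 : (ℓ : 𝓞 K) ∈ 𝔩) (ρ : 𝓞 K →+* 𝓞 K)
    (hρ : ∀ y ∈ 𝔩, ρ y ∈ 𝔩) (x : 𝓞 K) : ρ x - x ∈ 𝔩 := by
  obtain ⟨m, hm⟩ := exists_int_sub_mem hℓ hℓp hζ 𝔩 hℓ𝔩 x
  have : ρ x - x = ρ (x - m) - (x - m) := by rw [map_sub, map_intCast]; ring
  rw [this]
  exact 𝔩.sub_mem (hρ _ hm) hm

/-- distinct `p`-th roots of unity stay distinct modulo a prime over `ℓ ≠ p` -/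
lemma eq_of_pow_eq_one_of_sub_mem (hℓ : ℓ.Prime) (hℓp : ℓ % p = 1) {ζ : K}
    (hζ : IsPrimitiveRoot ζ p) (𝔩 : Ideal (𝓞 K)) [h𝔩 : 𝔩.IsPrime] (hℓ𝔩 : (ℓ : 𝓞 K) ∈ 𝔩)
    (η₁ η₂ : 𝓞 K) (h1 : η₁ ^ p = 1) (h2 : η₂ ^ p = 1) (h : η₁ - η₂ ∈ 𝔩) : η₁ = η₂ := by
  by_contra hne
  have hmem1 : η₁ ∈ Polynomial.nthRootsFinset p (1 : 𝓞 K) :=
    (Polynomial.mem_nthRootsFinset hp.out.pos 1).mpr h1
  have hmem2 : η₂ ∈ Polynomial.nthRootsFinset p (1 : 𝓞 K) :=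
    (Polynomial.mem_nthRootsFinset hp.out.pos 1).mpr h2
  have hass := hζ.toInteger_isPrimitiveRoot.nthRootsFinset_pairwise_associated_sub_one_sub_of_prime
    hp.out hmem1 hmem2 hne
  have hdvd : (η₁ - η₂) ∣ (p : 𝓞 K) := hass.symm.dvd.trans hζ.toInteger_sub_one_dvd_prime'
  have hp𝔩 : (p : 𝓞 K) ∈ 𝔩 := Ideal.mem_of_dvd 𝔩 hdvd h
  have hcop : Nat.Coprime p ℓ := (Nat.coprime_primes hp.out hℓ).mpr (by
    rintro rfl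
    simp at hℓp)
  have hcop' : IsCoprime (p : ℤ) (ℓ : ℤ) := Nat.isCoprime_iff_coprime.mpr hcop
  obtain ⟨u, v, huv⟩ := hcop'
  have h1' : (1 : 𝓞 K) ∈ 𝔩 := by
    have : (1 : 𝓞 K) = (u : 𝓞 K) * (p : 𝓞 K) + (v : 𝓞 K) * (ℓ : 𝓞 K) := by
      exact_mod_cast congrArg (Int.cast : ℤ → 𝓞 K) huv.symm
    rw [this]
    exact 𝔩.add_mem (𝔩.mul_mem_left _ hp𝔩) (𝔩.mul_mem_left _ hℓ𝔩)
  exact h𝔩.ne_top ((Ideal.eq_top_iff_one _).mpr h1')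

end GalPrimes

/-- **R7b.** `Gal(K/ℚ)` acts simply transitively on the primes of `𝓞 K` over `ℓ ≡ 1 mod p`. -/
theorem gal_primes_over (p ℓ : ℕ) [Fact p.Prime] (hℓ : ℓ.Prime) (hℓp : ℓ % p = 1) (K : Type*)
    [Field K] [NumberField K] [IsCyclotomicExtension {p} ℚ K] (𝔩 : Ideal (𝓞 K)) [𝔩.IsPrime]
    (h𝔩 : (ℓ : 𝓞 K) ∈ 𝔩) :
    (∀ P : Ideal (𝓞 K), P.IsPrime → (ℓ : 𝓞 K) ∈ P →
      ∃ σ : K ≃ₐ[ℚ] K, P = 𝔩.map (galRestrict ℤ ℚ K (𝓞 K) σ : 𝓞 K →+* 𝓞 K)) ∧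
    (∀ σ τ : K ≃ₐ[ℚ] K,
      𝔩.map (galRestrict ℤ ℚ K (𝓞 K) σ : 𝓞 K →+* 𝓞 K) =
        𝔩.map (galRestrict ℤ ℚ K (𝓞 K) τ : 𝓞 K →+* 𝓞 K) → σ = τ) := by
  have : IsGalois ℚ K := IsCyclotomicExtension.isGalois {p} ℚ K
  constructor
  · intro P hP hℓP
    have := hP
    have : 𝔩.LiesOver (Ideal.span {(ℓ : ℤ)}) :=
      (Ideal.liesOver_span_iff (Ideal.IsPrime.ne_top ‹_›) (Nat.prime_iff_prime_int.mp hℓ)).mpr
        (by simpa using h𝔩)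
    have : P.LiesOver (Ideal.span {(ℓ : ℤ)}) :=
      (Ideal.liesOver_span_iff hP.ne_top (Nat.prime_iff_prime_int.mp hℓ)).mpr
        (by simpa using hℓP)
    obtain ⟨σ, hσ⟩ := Ideal.exists_smul_eq_of_isGaloisGroup (Ideal.span {(ℓ : ℤ)}) 𝔩 P (K ≃ₐ[ℚ] K)
    refine ⟨σ, ?_⟩
    rw [← hσ, Ideal.pointwise_smul_def]
    congr 1
    ext x
    simp only [MulSemiringAction.toRingHom_apply, RingHom.coe_coe]
    have h1 : (((galRestrict ℤ ℚ K (𝓞 K) σ) x : 𝓞 K) : K) = σ (x : K) :=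
      algebraMap_galRestrict_apply ℤ σ x
    rw [h1]
    rfl
  · intro σ τ hστ
    obtain ⟨ζ, hζ⟩ : ∃ ζ : K, IsPrimitiveRoot ζ p := ⟨_, IsCyclotomicExtension.zeta_spec p ℚ K⟩
    set σ' := galRestrict ℤ ℚ K (𝓞 K) σ with hσ'
    set τ' := galRestrict ℤ ℚ K (𝓞 K) τ with hτ'
    let ρ : 𝓞 K →+* 𝓞 K := (τ'.symm : 𝓞 K →+* 𝓞 K).comp (σ' : 𝓞 K →+* 𝓞 K)
    have hρ : ∀ y ∈ 𝔩, ρ y ∈ 𝔩 := by
      intro y hy
      have h1 : σ' y ∈ 𝔩.map (σ' : 𝓞 K →+* 𝓞 K) := Ideal.mem_map_of_mem _ hy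
      rw [hστ] at h1
      obtain ⟨z, hz, hzy⟩ :=
        (Ideal.mem_map_iff_of_surjective (τ' : 𝓞 K →+* 𝓞 K) τ'.surjective).mp h1
      change τ'.symm (σ' y) ∈ 𝔩
      rw [← hzy]
      simpa using hz
    have h2 := ringHom_sub_mem hℓ hℓp hζ 𝔩 h𝔩 ρ hρ hζ.toInteger
    have h3 : ρ hζ.toInteger = hζ.toInteger :=
      eq_of_pow_eq_one_of_sub_mem hℓ hℓp hζ 𝔩 h𝔩 _ _
        (by rw [← map_pow, hζ.toInteger_isPrimitiveRoot.pow_eq_one, map_one])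
        hζ.toInteger_isPrimitiveRoot.pow_eq_one h2
    have h4 : σ' hζ.toInteger = τ' hζ.toInteger := by
      have h := congrArg τ' h3
      simpa [ρ] using h
    have h5 : σ ζ = τ ζ := by
      have := congrArg (algebraMap (𝓞 K) K) h4
      rwa [hσ', hτ', algebraMap_galRestrict_apply, algebraMap_galRestrict_apply] at this
    apply AlgEquiv.coe_toAlgHom_injective
    apply (hζ.powerBasis ℚ).algHom_ext
    simpa using h5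

end Fermat.Agent.S14.H77
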