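import Mathlib
import Fermat.Prelude.Def_ExtCitation_AdmissibleExtension_v2

/-!
S14, work package WP1 (group theory) + the Galois half of WP3 (Kummer generator), owner helper18.

From an admissible extension `0 → C → V → V/C → 0` (`C` with trivial action, `V/C` cyclotomic)
which does not split globally we produce a Kummer generator `β` in the algebraic closure of `ℚ`:
`β ^ p ∈ ℚ(ζ)`, `β ∉ ℚ(ζ)`, `σ β = c * β ^ (a ^ 2)` with `c ∈ ℚ(ζ)` where `σ ζ = ζ ^ a`, the kernel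
of the action on `V` is the fixing subgroup of `ℚ(ζ, β)`, inertia outside `p` fixes `β`, and the
part of a decomposition group at `p` fixing `ζ` fixes `β`.
-/

set_option autoImplicit false
set_option linter.unusedSectionVars false

namespace Fermat.Agent.S14.H18

open ExtCitation IntermediateField

/-- the algebraic closure of `ℚ` -/
abbrev Qb := AlgebraicClosure ℚ

/-- the absolute Galois group of `ℚ` -/
abbrev GQ := Qb ≃ₐ[ℚ] Qb

theorem isGalois_Qb : IsGalois ℚ Qb :=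
  haveI : IsAlgClosure ℚ Qb := AlgebraicClosure.instIsAlgClosure ℚ
  IsAlgClosure.isGalois ℚ Qb

section Cyclo

variable {p : ℕ} [Fact p.Prime]

/-- `σ ζ = ζ ^ cycloExp p σ` for every `p`-th root of unity `ζ` -/
theorem apply_root (σ : GQ) {ζ : Qb} (hζ : ζ ^ p = 1) : σ ζ = ζ ^ cycloExp p σ := by
  have : NeZero p := ⟨(Fact.out : p.Prime).ne_zero⟩
  have hp0 : p ≠ 0 := (Fact.out : p.Prime).ne_zero
  have hu : IsUnit ζ := IsUnit.of_pow_eq_one hζ hp0
  obtain ⟨t, rfl⟩ := hu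
  have ht : t ∈ rootsOfUnity p Qb := by
    rw [mem_rootsOfUnity]
    exact Units.ext (by simpa using hζ)
  have := modularCyclotomicCharacter.spec Qb (card_rootsOfUnity_eq_self p) (σ : Qb ≃+* Qb) ht
  exact this

/-- comparing powers of a primitive `p`-th root of unity -/
theorem pow_eq_pow_iff {ζ : Qb} (hζ : IsPrimitiveRoot ζ p) (m n : ℕ) :
    ζ ^ m = ζ ^ n ↔ (m : ZMod p) = (n : ZMod p) := by
  have hp0 : p ≠ 0 := (Fact.out : p.Prime).ne_zero
  have hz : ζ ≠ 0 := hζ.ne_zero hp0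
  rw [ZMod.natCast_eq_natCast_iff]
  constructor
  · intro h
    have h' : (Units.mk0 ζ hz) ^ m = (Units.mk0 ζ hz) ^ n := Units.ext (by simpa using h)
    rw [pow_eq_pow_iff_modEq] at h'
    have ho : orderOf (Units.mk0 ζ hz) = p := by
      rw [← orderOf_units]
      simpa using hζ.eq_orderOf.symm
    rw [ho] at h'
    exact h'
  · intro h
    have ho : orderOf ζ = p := hζ.eq_orderOf.symm
    rw [← ho] at h
    exact pow_eq_pow_of_modEq h (by rw [ho]; exact hζ.pow_eq_one)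

/-- the mod `p` cyclotomic character, as a function to `ZMod p` -/
noncomputable def chi (p : ℕ) [Fact p.Prime] (σ : GQ) : ZMod p := (cycloExp p σ : ZMod p)

theorem chi_mul {ζ : Qb} (hζ : IsPrimitiveRoot ζ p) (σ τ : GQ) :
    chi p (σ * τ) = chi p σ * chi p τ := by
  have h1 : (σ * τ) ζ = ζ ^ cycloExp p (σ * τ) := apply_root _ hζ.pow_eq_one
  have h2 : (σ * τ) ζ = ζ ^ (cycloExp p σ * cycloExp p τ) := by
    rw [AlgEquiv.mul_apply, apply_root τ hζ.pow_eq_one, map_pow, apply_root σ hζ.pow_eq_one,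
      ← pow_mul]
  rw [h1, pow_eq_pow_iff hζ] at h2
  simpa [chi] using h2

theorem chi_one {ζ : Qb} (hζ : IsPrimitiveRoot ζ p) : chi p (1 : GQ) = 1 := by
  have h1 : (1 : GQ) ζ = ζ ^ cycloExp p (1 : GQ) := apply_root _ hζ.pow_eq_one
  have h2 : (1 : GQ) ζ = ζ ^ 1 := by simp
  rw [h1, pow_eq_pow_iff hζ] at h2
  simpa [chi] using h2

theorem chi_eq_one_iff {ζ : Qb} (hζ : IsPrimitiveRoot ζ p) (σ : GQ) :
    chi p σ = 1 ↔ σ ζ = ζ := by
  have h1 : σ ζ = ζ ^ cycloExp p σ := apply_root _ hζ.pow_eq_one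
  rw [h1]
  conv_lhs => rw [show (1 : ZMod p) = ((1 : ℕ) : ZMod p) by simp]
  rw [chi, ← pow_eq_pow_iff hζ, pow_one]

theorem chi_inv {ζ : Qb} (hζ : IsPrimitiveRoot ζ p) (σ : GQ) :
    chi p σ⁻¹ * chi p σ = 1 := by
  rw [← chi_mul hζ, inv_mul_cancel, chi_one hζ]

theorem chi_ne_zero {ζ : Qb} (hζ : IsPrimitiveRoot ζ p) (σ : GQ) : chi p σ ≠ 0 := by
  intro h
  have := chi_inv hζ σ
  rw [h, mul_zero] at this
  exact zero_ne_one this

/-- `σ ζ = ζ ^ n` whenever `n` represents `chi p σ` -/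
theorem apply_root_of_cast {ζ : Qb} (hζ : IsPrimitiveRoot ζ p) (σ : GQ) (n : ℕ)
    (hn : (n : ZMod p) = chi p σ) : σ ζ = ζ ^ n := by
  rw [apply_root σ hζ.pow_eq_one, pow_eq_pow_iff hζ]
  exact hn.symm

end Cyclo


section Cocycle

variable {p : ℕ} [Fact p.Prime]
variable {V : Type} [AddCommGroup V] [Module (ZMod p) V] [DistribMulAction GQ V]
  [SMulCommClass GQ (ZMod p) V]

/-- A frame of an admissible extension: a generator `c0` of `C`, a vector `v0` outside `C`,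
and the resulting cocycle `b`. -/
structure Frame (p : ℕ) [Fact p.Prime] (V : Type) [AddCommGroup V] [Module (ZMod p) V]
    [DistribMulAction GQ V] (C : Submodule (ZMod p) V) where
  /-- generator of `C` -/
  c0 : V
  /-- a vector outside `C` -/
  v0 : V
  /-- the cocycle -/
  b : GQ → ZMod p
  c0_mem : c0 ∈ C
  c0_ne : c0 ≠ 0
  v0_not_mem : v0 ∉ C
  span_C : ∀ x ∈ C, ∃ t : ZMod p, x = t • c0
  span_V : ∀ v : V, ∃ s t : ZMod p, v = s • v0 + t • c0
  inj : ∀ s t s' t' : ZMod p, s • v0 + t • c0 = s' • v0 + t' • c0 → s = s' ∧ t = t'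
  act : ∀ σ : GQ, σ • v0 = chi p σ • v0 + b σ • c0

theorem exists_frame {C : Submodule (ZMod p) V} (hadm : IsAdmissibleExtension p V C) :
    Nonempty (Frame p V C) := by
  have hp : p.Prime := Fact.out
  have : Finite C := Nat.finite_of_card_ne_zero (by rw [hadm.card_sub]; exact hp.ne_zero)
  have : Nontrivial C :=
    Finite.one_lt_card_iff_nontrivial.mp (by rw [hadm.card_sub]; exact hp.one_lt)
  have : Finite V :=
    Nat.finite_of_card_ne_zero (by rw [hadm.card_total]; exact pow_ne_zero 2 hp.ne_zero)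
  obtain ⟨⟨c0, hc0⟩, hne⟩ := exists_ne (0 : C)
  have hc0ne : c0 ≠ 0 := fun h => hne (Subtype.ext h)
  -- `C` is spanned by `c0`
  have hspanC : ∀ x ∈ C, ∃ t : ZMod p, x = t • c0 := by
    have hinj : Function.Injective (fun t : ZMod p => (⟨t • c0, C.smul_mem t hc0⟩ : C)) := by
      intro t t' h
      have h1 : t • c0 = t' • c0 := congrArg Subtype.val h
      have h2 : (t - t') • c0 = 0 := by rw [sub_smul, h1, sub_self]
      rcases smul_eq_zero.mp h2 with h3 | h3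
      · exact sub_eq_zero.mp h3
      · exact absurd h3 hc0ne
    have hbij := hinj.bijective_of_nat_card_le (by rw [hadm.card_sub, Nat.card_zmod])
    intro x hx
    obtain ⟨t, ht⟩ := hbij.2 ⟨x, hx⟩
    exact ⟨t, (congrArg Subtype.val ht).symm⟩
  -- a vector outside `C`
  have hv0 : ∃ v0 : V, v0 ∉ C := by
    by_contra hcon
    simp only [not_exists, not_not] at hcon
    have h1 : Nat.card C = Nat.card V := Nat.card_congr (Equiv.subtypeUnivEquiv hcon)
    rw [hadm.card_sub, hadm.card_total] at h1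
    have h2 : p * 1 = p * p := by rw [mul_one, ← sq]; exact h1
    have h3 := Nat.eq_of_mul_eq_mul_left hp.pos h2
    exact hp.one_lt.ne h3
  obtain ⟨v0, hv0⟩ := hv0
  have hinj : ∀ s t s' t' : ZMod p, s • v0 + t • c0 = s' • v0 + t' • c0 → s = s' ∧ t = t' := by
    intro s t s' t' h
    have h1 : (s - s') • v0 = (t' - t) • c0 := by
      rw [sub_smul, sub_smul, sub_eq_sub_iff_add_eq_add, add_comm (t' • c0)]
      exact h
    have hs : s = s' := by
      by_contra hs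
      have hs' : s - s' ≠ 0 := sub_ne_zero.mpr hs
      have h2 : v0 = (s - s')⁻¹ • ((t' - t) • c0) := by
        rw [← h1, smul_smul, inv_mul_cancel₀ hs', one_smul]
      exact hv0 (h2 ▸ C.smul_mem _ (C.smul_mem _ hc0))
    refine ⟨hs, ?_⟩
    rw [hs, sub_self, zero_smul] at h1
    rcases smul_eq_zero.mp h1.symm with h3 | h3
    · exact (sub_eq_zero.mp h3).symm
    · exact absurd h3 hc0ne
  have hspanV : ∀ v : V, ∃ s t : ZMod p, v = s • v0 + t • c0 := by
    have hinj' : Function.Injective (fun st : ZMod p × ZMod p => st.1 • v0 + st.2 • c0) := by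
      rintro ⟨s, t⟩ ⟨s', t'⟩ h
      obtain ⟨h1, h2⟩ := hinj s t s' t' h
      rw [h1, h2]
    have hbij := hinj'.bijective_of_nat_card_le
      (by rw [hadm.card_total, Nat.card_prod, Nat.card_zmod, sq])
    intro v
    obtain ⟨⟨s, t⟩, hst⟩ := hbij.2 v
    exact ⟨s, t, hst.symm⟩
  have hact : ∀ σ : GQ, ∃ t : ZMod p, σ • v0 = chi p σ • v0 + t • c0 := by
    intro σ
    obtain ⟨t, ht⟩ := hspanC _ (hadm.cyclo_quot σ v0)
    exact ⟨t, by rw [← ht, chi]; abel⟩
  choose b hb using hact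
  exact ⟨⟨c0, v0, b, hc0, hc0ne, hv0, hspanC, hspanV, hinj, hb⟩⟩

namespace Frame

variable {C : Submodule (ZMod p) V} (F : Frame p V C)

theorem smul_c0 (hadm : IsAdmissibleExtension p V C) (σ : GQ) : σ • F.c0 = F.c0 :=
  hadm.fixed_sub σ _ F.c0_mem

theorem smul_comb (hadm : IsAdmissibleExtension p V C) (σ : GQ) (s t : ZMod p) :
    σ • (s • F.v0 + t • F.c0) = (s * chi p σ) • F.v0 + (s * F.b σ + t) • F.c0 := by
  rw [smul_add, smul_comm σ s, smul_comm σ t, F.smul_c0 hadm, F.act, smul_add, smul_smul,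
    smul_smul, add_smul, add_assoc]

/-- the cocycle relation -/
theorem b_mul (hadm : IsAdmissibleExtension p V C) (σ τ : GQ) :
    F.b (σ * τ) = chi p τ * F.b σ + F.b τ := by
  have h1 : (σ * τ) • F.v0 = chi p (σ * τ) • F.v0 + F.b (σ * τ) • F.c0 := F.act _
  have h2 : (σ * τ) • F.v0 = (chi p τ * chi p σ) • F.v0 + (chi p τ * F.b σ + F.b τ) • F.c0 := by
    rw [mul_smul, F.act τ, F.smul_comb hadm]
  rw [h1] at h2
  exact (F.inj _ _ _ _ h2).2

theorem b_one (hadm : IsAdmissibleExtension p V C) {ζ : Qb} (hζ : IsPrimitiveRoot ζ p) :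
    F.b 1 = 0 := by
  have h := F.b_mul hadm 1 1
  rw [mul_one, chi_one hζ, one_mul] at h
  exact left_eq_add.mp h

/-- the kernel of the action in terms of the cocycle -/
theorem acts_trivially_iff (hadm : IsAdmissibleExtension p V C) (σ : GQ) :
    (∀ v : V, σ • v = v) ↔ (chi p σ = 1 ∧ F.b σ = 0) := by
  constructor
  · intro h
    have h1 := F.act σ
    rw [h F.v0] at h1
    have h2 : (1 : ZMod p) • F.v0 + (0 : ZMod p) • F.c0 = chi p σ • F.v0 + F.b σ • F.c0 := by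
      rw [one_smul, zero_smul, add_zero]; exact h1
    obtain ⟨h3, h4⟩ := F.inj _ _ _ _ h2
    exact ⟨h3.symm, h4.symm⟩
  · rintro ⟨h1, h2⟩ v
    obtain ⟨s, t, rfl⟩ := F.span_V v
    rw [F.smul_comb hadm, h1, h2, mul_one, mul_zero, zero_add]

/-- on the kernel of the cyclotomic character the cocycle is additive -/
theorem b_mul_of_chi (hadm : IsAdmissibleExtension p V C) (σ τ : GQ) (hτ : chi p τ = 1) :
    F.b (σ * τ) = F.b σ + F.b τ := by
  rw [F.b_mul hadm, hτ, one_mul]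

theorem b_pow_of_chi (hadm : IsAdmissibleExtension p V C) {ζ : Qb} (hζ : IsPrimitiveRoot ζ p)
    (τ : GQ) (hτ : chi p τ = 1) (n : ℕ) : chi p (τ ^ n) = 1 ∧ F.b (τ ^ n) = n * F.b τ := by
  induction n with
  | zero => exact ⟨by rw [pow_zero, chi_one hζ], by rw [pow_zero, F.b_one hadm hζ]; simp⟩
  | succ n ih =>
    refine ⟨by rw [pow_succ, chi_mul hζ, ih.1, hτ, one_mul], ?_⟩
    rw [pow_succ, F.b_mul_of_chi hadm _ _ hτ, ih.2]
    push_cast
    ring

theorem b_inv (hadm : IsAdmissibleExtension p V C) {ζ : Qb} (hζ : IsPrimitiveRoot ζ p)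
    (δ : GQ) : F.b δ⁻¹ = -(chi p δ⁻¹ * F.b δ) := by
  have h := F.b_mul hadm δ δ⁻¹
  rw [mul_inv_cancel, F.b_one hadm hζ] at h
  exact eq_neg_of_add_eq_zero_right h.symm

/-- conjugation scales the cocycle by the cyclotomic character -/
theorem b_conj (hadm : IsAdmissibleExtension p V C) {ζ : Qb} (hζ : IsPrimitiveRoot ζ p)
    (δ σ : GQ) (hσ : chi p σ = 1) :
    chi p (δ⁻¹ * σ * δ) = 1 ∧ F.b (δ⁻¹ * σ * δ) = chi p δ * F.b σ := by
  have hinv := chi_inv hζ δ
  refine ⟨by rw [chi_mul hζ, chi_mul hζ, hσ, mul_one, hinv], ?_⟩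
  rw [F.b_mul hadm, F.b_mul hadm, F.b_inv hadm hζ, hσ]
  linear_combination (-(F.b δ)) * hinv

end Frame

end Cocycle

section Split

variable {p : ℕ} [Fact p.Prime]
variable {V : Type} [AddCommGroup V] [Module (ZMod p) V] [DistribMulAction GQ V]
  [SMulCommClass GQ (ZMod p) V]

/-- a primitive `p`-th root of unity, `p ≥ 3`, is moved by some automorphism -/
theorem exists_chi_ne_one (h3 : 3 ≤ p) {ζ : Qb} (hζ : IsPrimitiveRoot ζ p) :
    ∃ τ : GQ, chi p τ ≠ 1 := by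
  by_contra hcon
  simp only [not_exists, not_not] at hcon
  have := isGalois_Qb
  have hfix : ∀ σ : GQ, σ ζ = ζ := fun σ => (chi_eq_one_iff hζ σ).mp (hcon σ)
  obtain ⟨q, hq⟩ := (InfiniteGalois.mem_range_algebraMap_iff_fixed (k := ℚ) (K := Qb) ζ).mpr hfix
  rw [← hq] at hζ
  have hq' : IsPrimitiveRoot q p := hζ.of_map_of_injective (algebraMap ℚ Qb).injective
  have hp0 : p ≠ 0 := by omega
  have h1 : |q| ^ p = 1 := by rw [← abs_pow, hq'.pow_eq_one, abs_one]
  have h2 : |q| = 1 := (pow_eq_one_iff_of_nonneg (abs_nonneg q) hp0).mp h1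
  have h4 : q ^ 2 = 1 := by
    rcases abs_eq (zero_le_one' ℚ) |>.mp h2 with h | h <;> rw [h] <;> norm_num
  have h5 : p ∣ 2 := hq'.dvd_of_pow_eq_one 2 h4
  have h6 := Nat.le_of_dvd (by norm_num) h5
  omega

/-- if the cocycle vanishes on the kernel of the cyclotomic character, the extension splits -/
theorem splits_of_b_eq_zero (h3 : 3 ≤ p) {C : Submodule (ZMod p) V}
    (hadm : IsAdmissibleExtension p V C) {ζ : Qb} (hζ : IsPrimitiveRoot ζ p) (F : Frame p V C)
    (h0 : ∀ σ : GQ, chi p σ = 1 → F.b σ = 0) : SplitsGlobally C := by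
  obtain ⟨τ0, hτ0⟩ := exists_chi_ne_one h3 hζ
  have hne : chi p τ0 - 1 ≠ 0 := sub_ne_zero.mpr hτ0
  -- the cocycle is a coboundary
  have hcomm : ∀ σ : GQ, (chi p τ0 - 1) * F.b σ = (chi p σ - 1) * F.b τ0 := by
    intro σ
    set κ := σ * τ0 * σ⁻¹ * τ0⁻¹ with hκ
    have hχκ : chi p κ = 1 := by
      rw [hκ, chi_mul hζ, chi_mul hζ, chi_mul hζ]
      have e1 := chi_inv hζ σ
      have e2 := chi_inv hζ τ0
      linear_combination (chi p τ0 * chi p τ0⁻¹) * e1 + e2
    have hbκ := h0 κ hχκ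
    have hprod : σ * τ0 = κ * (τ0 * σ) := by rw [hκ]; group
    have e1 : F.b (σ * τ0) = chi p τ0 * F.b σ + F.b τ0 := F.b_mul hadm σ τ0
    have e2 : F.b (κ * (τ0 * σ)) = chi p σ * F.b τ0 + F.b σ := by
      rw [F.b_mul hadm κ, hbκ, mul_zero, zero_add, F.b_mul hadm τ0 σ]
    rw [hprod, e2] at e1
    linear_combination (-1 : ZMod p) * e1
  set t : ZMod p := F.b τ0 * (chi p τ0 - 1)⁻¹ with ht
  have hb : ∀ σ : GQ, F.b σ = (chi p σ - 1) * t := by
    intro σ
    have h := hcomm σ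
    rw [ht]
    field_simp
    linear_combination h
  set v1 : V := F.v0 + t • F.c0 with hv1
  have hv1' : v1 = (1 : ZMod p) • F.v0 + t • F.c0 := by rw [one_smul]
  have hact : ∀ σ : GQ, σ • v1 = chi p σ • v1 := by
    intro σ
    rw [hv1', F.smul_comb hadm, smul_add, smul_smul, smul_smul, hb σ]
    congr 2 <;> ring
  refine ⟨Submodule.span (ZMod p) {v1}, ?_, ?_, ?_⟩
  · intro σ x hx
    obtain ⟨s, rfl⟩ := Submodule.mem_span_singleton.mp hx
    rw [smul_comm, hact, smul_smul]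
    exact Submodule.smul_mem _ _ (Submodule.mem_span_singleton_self v1)
  · rw [Submodule.disjoint_def]
    intro x hxC hx
    obtain ⟨s, rfl⟩ := Submodule.mem_span_singleton.mp hx
    have hs : s = 0 := by
      by_contra hs
      have h1 : s • F.v0 ∈ C := by
        have : s • F.v0 = s • v1 - (s * t) • F.c0 := by
          rw [hv1, smul_add, smul_smul]; abel
        rw [this]
        exact C.sub_mem hxC (C.smul_mem _ F.c0_mem)
      have h2 : F.v0 = s⁻¹ • (s • F.v0) := by rw [smul_smul, inv_mul_cancel₀ hs, one_smul]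
      exact F.v0_not_mem (h2 ▸ C.smul_mem _ h1)
    rw [hs, zero_smul]
  · rw [Submodule.codisjoint_iff_exists_add_eq]
    intro v
    obtain ⟨s, r, rfl⟩ := F.span_V v
    refine ⟨(r - s * t) • F.c0, s • v1, C.smul_mem _ F.c0_mem,
      Submodule.smul_mem _ _ (Submodule.mem_span_singleton_self v1), ?_⟩
    rw [hv1, smul_add, smul_smul, sub_smul]
    abel

end Split

section Resolvent

variable {p : ℕ} [Fact p.Prime]

/-- Lagrange resolvent: an open normal subgroup `H` and `τ` of exact order `p` modulo `H`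
fixing `ζ` give `β ≠ 0` fixed by `H` with `τ β = ζ β`. -/
theorem exists_resolvent {ζ : Qb} (hζ : IsPrimitiveRoot ζ p) (H : Subgroup GQ)
    (hH : IsOpen (H : Set GQ)) (hHn : H.Normal) (hHζ : ∀ σ ∈ H, σ ζ = ζ)
    (τ : GQ) (hτζ : τ ζ = ζ) (hτp : τ ^ p ∈ H)
    (hτ : ∀ j : ℕ, 0 < j → j < p → τ ^ j ∉ H) :
    ∃ β : Qb, β ≠ 0 ∧ τ β = ζ * β ∧ ∀ σ ∈ H, σ β = β := by
  have := isGalois_Qb
  have hp0 : p ≠ 0 := (Fact.out : p.Prime).ne_zero
  have hz : ζ ≠ 0 := hζ.ne_zero hp0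
  set M := IntermediateField.fixedField H with hM
  have hfix : M.fixingSubgroup = H :=
    InfiniteGalois.fixingSubgroup_fixedField ⟨H, H.isClosed_of_isOpen hH⟩
  have hMfix : ∀ θ : M, ∀ h ∈ H, h (θ : Qb) = θ := fun θ =>
    (IntermediateField.mem_fixedField_iff H (θ : Qb)).mp θ.2
  -- the `p` restrictions of the powers of `τ` to `M` are pairwise distinct
  have hdist : ∀ i j : ℕ, i < j → j < p → (∀ x : M, (τ ^ i) (x : Qb) = (τ ^ j) (x : Qb)) →
      False := by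
    intro i j hij hj hx
    refine hτ (j - i) (by omega) (by omega) ?_
    rw [← hfix, IntermediateField.mem_fixingSubgroup_iff]
    intro x hxM
    have h1 := hx ⟨x, hxM⟩
    have h2 : τ ^ j = τ ^ i * τ ^ (j - i) := by rw [← pow_add]; congr 1; omega
    rw [h2, AlgEquiv.mul_apply] at h1
    exact ((τ ^ i).injective h1).symm
  let f : Fin p → (M →* Qb) := fun j =>
    { toFun := fun x => (τ ^ (j : ℕ)) (x : Qb)
      map_one' := by simp
      map_mul' := fun x y => by simp }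
  have hf_inj : Function.Injective f := by
    intro i j hij
    have hx : ∀ x : M, (τ ^ (i : ℕ)) (x : Qb) = (τ ^ (j : ℕ)) (x : Qb) := fun x =>
      DFunLike.congr_fun hij x
    rcases lt_trichotomy (i : ℕ) (j : ℕ) with h | h | h
    · exact (hdist _ _ h j.2 hx).elim
    · exact Fin.ext h
    · exact (hdist _ _ h i.2 (fun x => (hx x).symm)).elim
  have hli := (linearIndependent_monoidHom M Qb).comp f hf_inj
  rw [Fintype.linearIndependent_iff] at hli
  have hex : ∃ θ : M, ∑ j : Fin p, (ζ⁻¹) ^ (j : ℕ) * (τ ^ (j : ℕ)) (θ : Qb) ≠ 0 := by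
    by_contra hcon
    simp only [not_exists, not_not] at hcon
    have h0 := hli (fun j => (ζ⁻¹) ^ (j : ℕ)) (by
      funext θ
      simp only [Finset.sum_apply, Pi.smul_apply, smul_eq_mul, Function.comp, Pi.zero_apply]
      exact hcon θ) ⟨0, Nat.pos_of_ne_zero hp0⟩
    simp at h0
  obtain ⟨θ, hθ⟩ := hex
  rw [Fin.sum_univ_eq_sum_range (fun j => (ζ⁻¹) ^ j * (τ ^ j) (θ : Qb)) p] at hθ
  refine ⟨∑ j ∈ Finset.range p, (ζ⁻¹) ^ j * (τ ^ j) (θ : Qb), hθ, ?_, ?_⟩
  · -- `τ β = ζ β`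
    set g : ℕ → Qb := fun j => ζ * (ζ⁻¹) ^ j * (τ ^ j) (θ : Qb) with hg
    have h1 : τ (∑ j ∈ Finset.range p, (ζ⁻¹) ^ j * (τ ^ j) (θ : Qb)) =
        ∑ j ∈ Finset.range p, g (j + 1) := by
      rw [map_sum]
      refine Finset.sum_congr rfl fun j _ => ?_
      rw [hg]
      simp only [map_mul, map_pow, map_inv₀, hτζ]
      rw [pow_succ' τ j, AlgEquiv.mul_apply, pow_succ]
      have hzz : ζ * ζ⁻¹ = 1 := mul_inv_cancel₀ hz
      linear_combination (-((ζ⁻¹) ^ j * τ ((τ ^ j) (θ : Qb)))) * hzz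
    have h2 : ζ * ∑ j ∈ Finset.range p, (ζ⁻¹) ^ j * (τ ^ j) (θ : Qb) =
        ∑ j ∈ Finset.range p, g j := by
      rw [Finset.mul_sum]
      refine Finset.sum_congr rfl fun j _ => ?_
      simp only [hg]
      ring
    have h3 : g p = g 0 := by
      rw [hg]
      simp only [pow_zero, AlgEquiv.one_apply, mul_one]
      rw [inv_pow, hζ.pow_eq_one, inv_one, mul_one, hMfix θ _ hτp]
    rw [h1, h2]
    have e1 := Finset.sum_range_succ' g p
    have e2 := Finset.sum_range_succ g p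
    rw [e1, h3] at e2
    exact add_right_cancel e2
  · -- `H` fixes `β`
    intro σ hσ
    rw [map_sum]
    refine Finset.sum_congr rfl fun j _ => ?_
    have hσz : σ ζ⁻¹ = ζ⁻¹ := by rw [map_inv₀, hHζ σ hσ]
    rw [map_mul, map_pow, hσz]
    congr 1
    have hconj : (τ ^ j)⁻¹ * σ * τ ^ j ∈ H := by
      have := hHn.conj_mem σ hσ (τ ^ j)⁻¹
      rwa [inv_inv] at this
    have h4 := hMfix θ _ hconj
    rw [AlgEquiv.mul_apply, AlgEquiv.mul_apply] at h4
    have h5 := congrArg (τ ^ j) h4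
    rw [← AlgEquiv.mul_apply, mul_inv_cancel, AlgEquiv.one_apply] at h5
    exact h5

end Resolvent

section Main

variable {p : ℕ} [Fact p.Prime]

/-- an element fixed by every automorphism fixing `ζ` lies in `ℚ(ζ)` -/
theorem mem_adjoin_of_fixed {ζ x : Qb} (h : ∀ σ : GQ, σ ζ = ζ → σ x = x) : x ∈ ℚ⟮ζ⟯ := by
  have := isGalois_Qb
  rw [← InfiniteGalois.fixedField_fixingSubgroup ℚ⟮ζ⟯, IntermediateField.mem_fixedField_iff]
  intro σ hσ
  exact h σ ((IntermediateField.mem_fixingSubgroup_iff _ σ).mp hσ ζ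
    (IntermediateField.mem_adjoin_simple_self ℚ ζ))

/-- an automorphism fixing `ζ` fixes `ℚ(ζ)` pointwise -/
theorem fixed_of_mem_adjoin {ζ x : Qb} (hx : x ∈ ℚ⟮ζ⟯) (σ : GQ) (hσ : σ ζ = ζ) : σ x = x := by
  have hle : ℚ⟮ζ⟯ ≤ IntermediateField.fixedField (Subgroup.zpowers σ) := by
    rw [IntermediateField.adjoin_simple_le_iff, IntermediateField.mem_fixedField_iff]
    intro f hf
    have h1 : Subgroup.zpowers σ ≤ MulAction.stabilizer GQ ζ := by
      rw [Subgroup.zpowers_le, MulAction.mem_stabilizer_iff]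
      exact hσ
    exact MulAction.mem_stabilizer_iff.mp (h1 hf)
  exact (IntermediateField.mem_fixedField_iff _ x).mp (hle hx) σ (Subgroup.mem_zpowers σ)

/-- the kernel of the action on `V`, as a subgroup -/
def kerAction (V : Type) [AddCommGroup V] [DistribMulAction GQ V] : Subgroup GQ where
  carrier := {σ | ∀ v : V, σ • v = v}
  mul_mem' := fun {a b} ha hb v => by rw [mul_smul, hb, ha]
  one_mem' := fun v => one_smul _ v
  inv_mem' := fun {a} ha v => by rw [inv_smul_eq_iff, ha]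

theorem kerAction_normal (V : Type) [AddCommGroup V] [DistribMulAction GQ V] :
    (kerAction V).Normal :=
  ⟨fun σ hσ g v => by
    show (g * σ * g⁻¹) • v = v
    rw [mul_smul, mul_smul, hσ, smul_inv_smul]⟩

/-- **Kummer generator of a non-split admissible extension.** -/
theorem exists_kummer_generator (h3 : 3 ≤ p) (V : Type) [AddCommGroup V] [Module (ZMod p) V]
    [DistribMulAction GQ V] [SMulCommClass GQ (ZMod p) V] (C : Submodule (ZMod p) V)
    (hadm : IsAdmissibleExtensionCts p V C) (hns : ¬ SplitsGlobally C) (ζ : Qb)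
    (hζ : IsPrimitiveRoot ζ p) :
    ∃ β : Qb, β ≠ 0 ∧ β ^ p ∈ ℚ⟮ζ⟯ ∧ β ∉ ℚ⟮ζ⟯ ∧
      (∀ σ : GQ, ∃ c ∈ ℚ⟮ζ⟯, σ β = c * β ^ (cycloExp p σ ^ 2)) ∧
      (∀ σ : GQ, σ ζ = ζ → ∃ j : ℕ, σ β = ζ ^ j * β) ∧
      (∃ τ : GQ, τ ζ = ζ ∧ τ β = ζ * β) ∧
      (∀ σ : GQ, (∀ v : V, σ • v = v) ↔ (σ ζ = ζ ∧ σ β = β)) ∧
      (∀ ℓ : ℕ, ℓ.Prime → ℓ ≠ p → ∀ A : ValuationSubring Qb, A.LiesOverPrime ℓ →
        ∀ σ ∈ A.inertiaSubgroupIn ℚ, σ ζ = ζ ∧ σ β = β) ∧
      (∀ A : ValuationSubring Qb, A.LiesOverPrime p →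
        ∀ σ ∈ A.decompositionSubgroup ℚ, σ ζ = ζ → σ β = β) := by
  have hadm' := hadm.toIsAdmissibleExtension
  obtain ⟨F⟩ := exists_frame hadm'
  have hp : p.Prime := Fact.out
  have : NeZero p := ⟨hp.ne_zero⟩
  have hz : ζ ≠ 0 := hζ.ne_zero hp.ne_zero
  by_cases h0 : ∀ σ : GQ, chi p σ = 1 → F.b σ = 0
  · exact absurd (splits_of_b_eq_zero h3 hadm' hζ F h0) hns
  simp only [not_forall] at h0
  obtain ⟨κ, hκ1, hκb⟩ := h0
  -- normalise: `τ` with `b τ = 1`
  have hτ := F.b_pow_of_chi hadm' hζ κ hκ1 ((F.b κ)⁻¹).val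
  set τ := κ ^ ((F.b κ)⁻¹).val with hτdef
  have hτχ : chi p τ = 1 := hτ.1
  have hτb : F.b τ = 1 := by rw [hτ.2, ZMod.natCast_zmod_val, inv_mul_cancel₀ hκb]
  have hτζ : τ ζ = ζ := (chi_eq_one_iff hζ τ).mp hτχ
  have hτpow : ∀ j : ℕ, chi p (τ ^ j) = 1 ∧ F.b (τ ^ j) = j := fun j => by
    have := F.b_pow_of_chi hadm' hζ τ hτχ j
    rw [hτb, mul_one] at this
    exact this
  -- the kernel of the action
  have hHmem : ∀ σ, σ ∈ kerAction V ↔ (chi p σ = 1 ∧ F.b σ = 0) :=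
    fun σ => F.acts_trivially_iff hadm' σ
  have hHopen : IsOpen ((kerAction V : Subgroup GQ) : Set GQ) := hadm.open_kernel
  obtain ⟨β, hβ0, hτβ, hHβ⟩ := exists_resolvent hζ (kerAction V) hHopen (kerAction_normal V)
    (fun σ hσ => (chi_eq_one_iff hζ σ).mp ((hHmem σ).mp hσ).1) τ hτζ
    ((hHmem _).mpr ⟨(hτpow p).1, by rw [(hτpow p).2]; exact ZMod.natCast_self p⟩)
    (fun j hj0 hjp hmem => by
      have h := ((hHmem _).mp hmem).2
      rw [(hτpow j).2, ZMod.natCast_eq_zero_iff] at h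
      exact absurd (Nat.le_of_dvd hj0 h) (not_le.mpr hjp))
  have hτjβ : ∀ j : ℕ, (τ ^ j) β = ζ ^ j * β := by
    intro j
    induction j with
    | zero => simp
    | succ j ih =>
      rw [pow_succ', AlgEquiv.mul_apply, ih, map_mul, map_pow, hτζ, hτβ]
      ring
  -- the action of the kernel of the cyclotomic character on `β`
  have key : ∀ σ : GQ, chi p σ = 1 → σ β = ζ ^ (F.b σ).val * β := by
    intro σ hσ
    set j := (F.b σ).val with hj
    have hinvχ : chi p (τ ^ j)⁻¹ = 1 := by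
      have := chi_inv hζ (τ ^ j)
      rw [(hτpow j).1, mul_one] at this
      exact this
    have hmem : σ * (τ ^ j)⁻¹ ∈ kerAction V := by
      rw [hHmem]
      refine ⟨by rw [chi_mul hζ, hσ, hinvχ, mul_one], ?_⟩
      rw [F.b_mul_of_chi hadm' _ _ hinvχ, F.b_inv hadm' hζ, hinvχ, one_mul, (hτpow j).2, hj,
        ZMod.natCast_zmod_val, add_neg_cancel]
    have h1 := hHβ _ hmem
    have h2 : σ β = (σ * (τ ^ j)⁻¹) ((τ ^ j) β) := by
      rw [← AlgEquiv.mul_apply, inv_mul_cancel_right]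
    have h3 : (σ * (τ ^ j)⁻¹) ζ = ζ := (chi_eq_one_iff hζ _).mp ((hHmem _).mp hmem).1
    rw [h2, hτjβ, map_mul, map_pow, h1, h3]
  have hkerβ : ∀ σ : GQ, (∀ v : V, σ • v = v) ↔ (σ ζ = ζ ∧ σ β = β) := by
    intro σ
    constructor
    · intro h
      exact ⟨(chi_eq_one_iff hζ σ).mp ((hHmem σ).mp h).1, hHβ σ h⟩
    · rintro ⟨h1, h2⟩
      have hχ : chi p σ = 1 := (chi_eq_one_iff hζ σ).mpr h1
      refine (hHmem σ).mpr ⟨hχ, ?_⟩
      have h4 := key σ hχ
      rw [h2] at h4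
      have h5 : ζ ^ (F.b σ).val = ζ ^ 0 := by
        rw [pow_zero]
        exact (mul_right_cancel₀ hβ0 (by rw [one_mul]; exact h4)).symm
      rw [pow_eq_pow_iff hζ, ZMod.natCast_zmod_val, Nat.cast_zero] at h5
      exact h5
  refine ⟨β, hβ0, ?_, ?_, ?_, ?_, ⟨τ, hτζ, hτβ⟩, hkerβ, ?_, ?_⟩
  · -- `β ^ p ∈ ℚ(ζ)`
    refine mem_adjoin_of_fixed fun σ hσ => ?_
    rw [map_pow, key σ ((chi_eq_one_iff hζ σ).mpr hσ), mul_pow, ← pow_mul, mul_comm _ p, pow_mul,
      hζ.pow_eq_one, one_pow, one_mul]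
  · -- `β ∉ ℚ(ζ)`
    intro hmem
    have h1 := fixed_of_mem_adjoin hmem τ hτζ
    rw [hτβ] at h1
    have h2 : ζ = 1 := mul_right_cancel₀ hβ0 (by rw [one_mul]; exact h1)
    exact hζ.ne_one hp.one_lt h2
  · -- the eigen-relation
    intro δ
    set a := cycloExp p δ with ha
    have hβa : β ^ (a ^ 2) ≠ 0 := pow_ne_zero _ hβ0
    refine ⟨δ β / β ^ (a ^ 2), ?_, by rw [div_mul_cancel₀ _ hβa]⟩
    refine mem_adjoin_of_fixed fun σ hσ => ?_
    have hχ : chi p σ = 1 := (chi_eq_one_iff hζ σ).mpr hσ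
    obtain ⟨hc1, hc2⟩ := F.b_conj hadm' hζ δ σ hχ
    set m := (chi p δ * F.b σ).val with hm
    set j := (F.b σ).val with hj
    have e1 : σ (δ β) = ζ ^ (a * m) * δ β := by
      have h1 : σ (δ β) = δ ((δ⁻¹ * σ * δ) β) := by
        rw [← AlgEquiv.mul_apply, ← AlgEquiv.mul_apply]
        congr 1
        group
      rw [h1, key _ hc1, hc2, map_mul, map_pow, apply_root δ hζ.pow_eq_one, ← pow_mul]
    have e2 : σ (β ^ (a ^ 2)) = ζ ^ (a * m) * β ^ (a ^ 2) := by
      rw [map_pow, key σ hχ, mul_pow, ← pow_mul]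
      congr 1
      rw [pow_eq_pow_iff hζ]
      push_cast
      rw [ZMod.natCast_zmod_val, ZMod.natCast_zmod_val]
      have : (a : ZMod p) = chi p δ := rfl
      rw [this]
      ring
    rw [map_div₀, e1, e2, mul_div_mul_left _ _ (pow_ne_zero _ hz)]
  · intro σ hσ
    exact ⟨_, key σ ((chi_eq_one_iff hζ σ).mpr hσ)⟩
  · -- inertia outside `p`
    intro ℓ hℓ hℓp A hA σ hσ
    exact (hkerβ σ).mp (hadm'.unramified_outside ℓ hℓ hℓp A hA σ hσ)
  · -- decomposition groups at `p`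
    intro A hA σ hσ hσζ
    have hχ : chi p σ = 1 := (chi_eq_one_iff hζ σ).mpr hσζ
    obtain ⟨C', hstab, hcompl⟩ := hadm'.locally_split A hA
    obtain ⟨x, y, hx, hy, hxy⟩ := Submodule.codisjoint_iff_exists_add_eq.mp hcompl.codisjoint F.v0
    have h1 : σ • F.v0 = F.v0 + F.b σ • F.c0 := by rw [F.act σ, hχ, one_smul]
    have h2 : σ • F.v0 = x + σ • y := by rw [← hxy, smul_add, hadm'.fixed_sub σ x hx]
    have h3 : F.b σ • F.c0 = σ • y - y := by
      rw [h2, ← hxy] at h1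
      rw [add_assoc] at h1
      have := add_left_cancel h1
      rw [this]; abel
    have h4 : F.b σ • F.c0 ∈ C' := h3 ▸ C'.sub_mem (hstab σ hσ y hy) hy
    have h5 := Submodule.disjoint_def.mp hcompl.disjoint _ (C.smul_mem _ F.c0_mem) h4
    have h6 : F.b σ = 0 := by
      rcases smul_eq_zero.mp h5 with h | h
      · exact h
      · exact absurd h F.c0_ne
    exact ((hkerβ σ).mp ((hHmem σ).mpr ⟨hχ, h6⟩)).2

end Main

end Fermat.Agent.S14.H18
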