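import Fermat.Agent.S14.Stmts2
import Fermat.Agent.S14.KummerGen_helper18

/-!
S14 node (KG) (helper18): `kg : StmtKG`, the Galois side (group theory + Kummer generator) in
the `KGClauses` shape of `Stmts2`, from `H18.exists_kummer_generator`.
-/

set_option autoImplicit false

open scoped NumberField nonZeroDivisors IntermediateField
open ExtCitation

namespace Fermat.Agent.S14.H18

/-- **(KG)**: a non-split admissible extension gives a Kummer generator. -/
theorem kg : StmtKG := by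
  intro p _ h3 V _ _ _ _ C hadm hns
  have hp : p.Prime := Fact.out
  have : NeZero ((p : ℕ) : Qb) := ⟨Nat.cast_ne_zero.mpr hp.ne_zero⟩
  obtain ⟨ζ, hζ⟩ := HasEnoughRootsOfUnity.exists_primitiveRoot Qb p
  obtain ⟨β, hβ0, hpow, -, heig, -, hτ, -, hunr, hsplit⟩ :=
    exists_kummer_generator h3 V C hadm hns ζ hζ
  refine ⟨ζ, β, hζ, hβ0, fun σ hσ => fixed_of_mem_adjoin hpow σ hσ, hτ, ?_,
    fun ℓ hℓ hℓp A hA σ hσ => (hunr ℓ hℓ hℓp A hA σ hσ).2, hsplit⟩
  intro δ
  obtain ⟨c, hc, hδ⟩ := heig δ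
  exact ⟨c, fun σ hσ => fixed_of_mem_adjoin hc σ hσ, by rw [hδ, mul_comm]⟩

end Fermat.Agent.S14.H18
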