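import Fermat.Agent.S14.Stmts

/-!
# S14, row 166: the NSP glue (helper11)

`nsp_of : StmtP3 → StmtUnit → StmtClass → StmtNSP`: there is no singular primary number, given
the case `p = 3`, the unit lemma and the class lemma.
-/

set_option autoImplicit false

open scoped NumberField nonZeroDivisors

namespace Fermat.Agent.S14.H11

/-- `n`-th roots of ideals in a Dedekind domain are unique. -/
theorem ideal_pow_inj {R : Type*} [CommRing R] [IsDedekindDomain R] {I J : Ideal R} {n : ℕ}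
    (hn : n ≠ 0) (h : I ^ n = J ^ n) : I = J := by
  have h1 : I ∣ J := (UniqueFactorizationMonoid.pow_dvd_pow_iff_dvd hn).mp (h ▸ dvd_rfl)
  have h2 : J ∣ I := (UniqueFactorizationMonoid.pow_dvd_pow_iff_dvd hn).mp (h ▸ dvd_rfl)
  exact le_antisymm (Ideal.dvd_iff_le.mp h2) (Ideal.dvd_iff_le.mp h1)

section

variable {K : Type*} [Field K] [NumberField K]

/-- Restriction of an automorphism to the ring of integers, as a ring automorphism. -/
theorem galDatum_coe (σ : K ≃ₐ[ℚ] K) (x : 𝓞 K) :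
    ((galRestrictionDatum ℤ ℚ K (𝓞 K) σ x : 𝓞 K) : K) = σ (x : K) := by
  rw [galRestrictionDatum_apply]
  exact algebraMap_galRestrict_apply ℤ σ x

/-- If `(α) = I ^ p` and `σ α = α ^ m * c ^ p`, then `σ [I] = [I] ^ m` in the class group. -/
theorem clAct_mk0_eq_pow {p : ℕ} (hp : p ≠ 0) (σ : K ≃ₐ[ℚ] K) (I : (Ideal (𝓞 K))⁰) (α : 𝓞 K)
    (hI : Ideal.span {α} = (I : Ideal (𝓞 K)) ^ p) (m : ℕ) (c0 : K)
    (h : σ (α : K) = (α : K) ^ m * c0 ^ p) :
    clAct σ (ClassGroup.mk0 I) = ClassGroup.mk0 I ^ m := by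
  have hI0 : (I : Ideal (𝓞 K)) ≠ ⊥ := by
    have := mem_nonZeroDivisors_iff_ne_zero.mp I.2
    simpa [Ideal.zero_eq_bot] using this
  have hα0 : α ≠ 0 := by
    rintro rfl
    have h0 : (I : Ideal (𝓞 K)) ^ p = 0 := by rw [← hI]; simp
    exact hI0 ((pow_eq_zero_iff hp).mp h0)
  have hαK : (α : K) ≠ 0 := by
    simpa using hα0
  have hc0 : c0 ≠ 0 := by
    rintro rfl
    rw [zero_pow hp, mul_zero] at h
    exact hαK (by simpa using h)
  obtain ⟨y, x, hx, hyx⟩ := IsFractionRing.div_surjective (A := 𝓞 K) c0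
  have hx0 : x ≠ 0 := nonZeroDivisors.ne_zero hx
  have hxK : (x : K) ≠ 0 := by simpa using hx0
  have hy0 : y ≠ 0 := by
    rintro rfl
    rw [map_zero, zero_div] at hyx
    exact hc0 hyx.symm
  have hgα : algebraMap (𝓞 K) K (galRestrictionDatum ℤ ℚ K (𝓞 K) σ α) =
      σ (algebraMap (𝓞 K) K α) := galDatum_coe σ α
  have h' : σ (algebraMap (𝓞 K) K α) = algebraMap (𝓞 K) K α ^ m * c0 ^ p := h
  have hxK' : algebraMap (𝓞 K) K x ≠ 0 := hxK
  have hrel : x ^ p * galRestrictionDatum ℤ ℚ K (𝓞 K) σ α = y ^ p * α ^ m := by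
    apply FaithfulSMul.algebraMap_injective (𝓞 K) K
    rw [map_mul, map_mul, map_pow, map_pow, map_pow, hgα, h', ← hyx, div_pow]
    field_simp
  unfold clAct
  rw [ClassGroup.mulEquiv_mk0, ← map_pow, ClassGroup.mk0_eq_mk0_iff]
  refine ⟨x, y, hx0, hy0, ?_⟩
  apply ideal_pow_inj hp
  rw [mul_pow, mul_pow, Ideal.coe_mapNonZero, ← Ideal.map_pow, ← hI, Ideal.map_span,
    Set.image_singleton, Ideal.span_singleton_pow, Ideal.span_singleton_pow,
    Ideal.span_singleton_mul_span_singleton]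
  have : ((I ^ m : (Ideal (𝓞 K))⁰) : Ideal (𝓞 K)) ^ p = Ideal.span {α ^ m} := by
    rw [SubmonoidClass.coe_pow, ← pow_mul, mul_comm, pow_mul, ← hI, Ideal.span_singleton_pow]
  rw [this, Ideal.span_singleton_mul_span_singleton]
  congr 1
  rw [Set.singleton_eq_singleton_iff]
  exact hrel

omit [NumberField K] in
/-- An element of `K` whose `p`-th power is (the image of) a unit of `𝓞 K` is a unit of `𝓞 K`. -/
theorem exists_unit_of_pow_eq {p : ℕ} (hp : p ≠ 0) (η0 : K) (u : (𝓞 K)ˣ)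
    (h : η0 ^ p = algebraMap (𝓞 K) K (u : 𝓞 K)) :
    ∃ η : (𝓞 K)ˣ, algebraMap (𝓞 K) K (η : 𝓞 K) = η0 := by
  have hint : IsIntegral ℤ η0 := by
    refine IsIntegral.of_pow (Nat.pos_of_ne_zero hp) ?_
    rw [h]
    exact NumberField.RingOfIntegers.isIntegral_coe (u : 𝓞 K)
  obtain ⟨η1, hη1⟩ : ∃ η1 : 𝓞 K, algebraMap (𝓞 K) K η1 = η0 := ⟨⟨η0, hint⟩, rfl⟩
  have hpow : η1 ^ p = (u : 𝓞 K) := by
    apply FaithfulSMul.algebraMap_injective (𝓞 K) K
    rw [map_pow, hη1, h]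
  have hunit : IsUnit η1 := (isUnit_pow_iff hp).mp (hpow ▸ u.isUnit)
  exact ⟨hunit.unit, by rw [IsUnit.unit_spec, hη1]⟩

end

/-- **Row 166 (NSP glue).** No singular primary number exists, given the case `p = 3`, the unit
lemma and the class lemma. -/
theorem nsp_of (h3 : StmtP3) (hU : StmtUnit) (hC : StmtClass) : StmtNSP := by
  intro p _ hp3 K _ _ _ ζ hζ α hα
  by_cases hp : p = 3
  · subst hp
    exact h3 K ζ hζ α hα
  have hprime : p.Prime := Fact.out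
  have hp5 : 5 ≤ p := by
    have h4 : p ≠ 4 := by
      rintro rfl
      exact absurd hprime (by decide)
    omega
  have hp0 : p ≠ 0 := by omega
  -- the ideal `I` with `(α) = I ^ p`
  obtain ⟨I, hI⟩ := hα.ideal_pow
  have hα0 : α ≠ 0 := by
    rintro rfl
    exact hα.not_pow ⟨0, by simp [hp0]⟩
  have hI0 : I ≠ ⊥ := by
    rintro rfl
    have : Ideal.span {α} = (⊥ : Ideal (𝓞 K)) := by
      rw [hI, ← Ideal.zero_eq_bot, zero_pow hp0]
    exact hα0 (by simpa using this)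
  have hImem : I ∈ (Ideal (𝓞 K))⁰ := mem_nonZeroDivisors_iff_ne_zero.mpr (by simpa using hI0)
  set I' : (Ideal (𝓞 K))⁰ := ⟨I, hImem⟩ with hI'
  have hI'c : Ideal.span {α} = (I' : Ideal (𝓞 K)) ^ p := hI
  -- the class of `I` is `p`-torsion and in the eigenspace
  have hcp : ClassGroup.mk0 I' ^ p = 1 := by
    rw [← map_pow]
    have hmem : (I' ^ p : (Ideal (𝓞 K))⁰) = ⟨Ideal.span {α}, by
        rw [hI]; exact (I' ^ p).2⟩ := by
      apply Subtype.ext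
      rw [SubmonoidClass.coe_pow]
      exact hI.symm
    rw [hmem, ClassGroup.mk0_eq_one_iff]
    exact ⟨⟨α, rfl⟩⟩
  have hceig : ∀ (σ : K ≃ₐ[ℚ] K) (a : ℕ), σ ζ = ζ ^ a →
      clAct σ (ClassGroup.mk0 I') = ClassGroup.mk0 I' ^ (a ^ 2) := by
    intro σ a hσ
    obtain ⟨c0, hc0⟩ := hα.eigen σ a hσ
    exact clAct_mk0_eq_pow hp0 σ I' α hI'c (a ^ 2) c0 hc0
  have hc1 : ClassGroup.mk0 I' = 1 := hC p hp5 K ζ hζ _ hcp hceig
  -- `I` is principal
  have hprin : I.IsPrincipal := (ClassGroup.mk0_eq_one_iff hImem).mp hc1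
  obtain ⟨γ, hγ⟩ := hprin.principal
  have hγ' : I = Ideal.span {γ} := hγ
  have hassoc : Associated α (γ ^ p) := by
    rw [← Ideal.span_singleton_eq_span_singleton, hI, hγ', Ideal.span_singleton_pow]
  obtain ⟨u, hu⟩ := hassoc
  -- `α = ε * γ ^ p`
  set ε : (𝓞 K)ˣ := u⁻¹ with hε
  have hαε : α = (ε : 𝓞 K) * γ ^ p := by
    rw [← hu, hε, mul_comm, mul_assoc, Units.mul_inv, mul_one]
  have hγ0 : γ ≠ 0 := by
    rintro rfl
    rw [zero_pow hp0, mul_zero] at hαε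
    exact hα0 hαε
  have hαK : algebraMap (𝓞 K) K α =
      algebraMap (𝓞 K) K (ε : 𝓞 K) * algebraMap (𝓞 K) K γ ^ p := by
    rw [hαε, map_mul, map_pow]
  have hγK : algebraMap (𝓞 K) K γ ≠ 0 := by
    simpa using hγ0
  have hεK : algebraMap (𝓞 K) K (ε : 𝓞 K) ≠ 0 := by
    simp
  -- `ε` is an eigen-unit
  have heig : IsEigenUnit p ζ ε := by
    intro σ a hσ
    obtain ⟨c0, hc0⟩ := hα.eigen σ a hσ
    have hc0' : σ (algebraMap (𝓞 K) K α) = algebraMap (𝓞 K) K α ^ (a ^ 2) * c0 ^ p := hc0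
    set g := galRestrictionDatum ℤ ℚ K (𝓞 K) σ with hg
    have hgγ : algebraMap (𝓞 K) K (g γ) = σ (algebraMap (𝓞 K) K γ) := galDatum_coe σ γ
    have hgε : algebraMap (𝓞 K) K (g (ε : 𝓞 K)) = σ (algebraMap (𝓞 K) K (ε : 𝓞 K)) :=
      galDatum_coe σ (ε : 𝓞 K)
    have hσγ : σ (algebraMap (𝓞 K) K γ) ≠ 0 := by
      rw [Ne, EmbeddingLike.map_eq_zero_iff]
      exact hγK
    set η0 : K := algebraMap (𝓞 K) K γ ^ (a ^ 2) * c0 / σ (algebraMap (𝓞 K) K γ) with hη0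
    have hkey : σ (algebraMap (𝓞 K) K (ε : 𝓞 K)) =
        algebraMap (𝓞 K) K (ε : 𝓞 K) ^ (a ^ 2) * η0 ^ p := by
      have h1 : σ (algebraMap (𝓞 K) K (ε : 𝓞 K)) * σ (algebraMap (𝓞 K) K γ) ^ p =
          (algebraMap (𝓞 K) K (ε : 𝓞 K) * algebraMap (𝓞 K) K γ ^ p) ^ (a ^ 2) * c0 ^ p := by
        rw [← hαK, ← hc0', hαK, map_mul, map_pow]
      rw [hη0, div_pow, mul_pow, eq_comm, ← mul_div_assoc, div_eq_iff (pow_ne_zero p hσγ), h1]
      ring
    -- the unit `σ ε / ε ^ (a ^ 2)`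
    let gu : (𝓞 K)ˣ := Units.map (g : 𝓞 K →* 𝓞 K) ε
    have hgu : ((gu : (𝓞 K)ˣ) : 𝓞 K) = g (ε : 𝓞 K) := rfl
    have hpow : η0 ^ p = algebraMap (𝓞 K) K ((gu * (ε ^ (a ^ 2))⁻¹ : (𝓞 K)ˣ) : 𝓞 K) := by
      have hinv : algebraMap (𝓞 K) K (((ε ^ (a ^ 2))⁻¹ : (𝓞 K)ˣ) : 𝓞 K) =
          (algebraMap (𝓞 K) K (ε : 𝓞 K) ^ (a ^ 2))⁻¹ := by
        apply eq_inv_of_mul_eq_one_left
        rw [← map_pow, ← map_mul, ← Units.val_pow_eq_pow_val, ← Units.val_mul, inv_mul_cancel,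
          Units.val_one, map_one]
      rw [Units.val_mul, map_mul, hgu, hgε, hkey, hinv]
      field_simp
    obtain ⟨η, hη⟩ := exists_unit_of_pow_eq hp0 η0 _ hpow
    refine ⟨η, ?_⟩
    show σ (algebraMap (𝓞 K) K (ε : 𝓞 K)) =
      algebraMap (𝓞 K) K (ε : 𝓞 K) ^ (a ^ 2) * algebraMap (𝓞 K) K (η : 𝓞 K) ^ p
    rw [hη, hkey]
  -- `ε` is a `p`-th power modulo `(ζ - 1) ^ 3`
  have hloc : ∃ ξ : 𝓞 K, (hζ.toInteger - 1) ^ 3 ∣ (ε : 𝓞 K) - ξ ^ p := by
    obtain ⟨ξ, hξ⟩ := hα.local_pow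
    set π : 𝓞 K := hζ.toInteger - 1 with hπ
    have hπprime : Prime π := hζ.zeta_sub_one_prime'
    have hπγ : ¬ π ∣ γ := by
      intro hdiv
      apply hα.coprime
      rw [hαε]
      exact Dvd.dvd.mul_left (dvd_pow hdiv hp0) _
    have hmax : (Ideal.span {π} : Ideal (𝓞 K)).IsMaximal := by
      have hpr : (Ideal.span {π} : Ideal (𝓞 K)).IsPrime :=
        (Ideal.span_singleton_prime hπprime.ne_zero).mpr hπprime
      exact hpr.isMaximal (by simpa using hπprime.ne_zero)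
    have hγmem : γ ∉ (Ideal.span {π} : Ideal (𝓞 K)) := by
      rw [Ideal.mem_span_singleton]
      exact hπγ
    obtain ⟨y, i, hi, hyi⟩ := hmax.exists_inv hγmem
    obtain ⟨t, rfl⟩ := Ideal.mem_span_singleton'.mp hi
    have hcop : IsCoprime γ π := ⟨y, t, hyi⟩
    obtain ⟨u', v, huv⟩ := (hcop.pow_right (n := 3))
    refine ⟨ξ * u', ?_⟩
    have h1 : π ^ 3 ∣ 1 - (γ * u') ^ p := by
      have h2 : 1 - γ * u' ∣ 1 ^ p - (γ * u') ^ p := sub_dvd_pow_sub_pow 1 (γ * u') p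
      rw [one_pow] at h2
      refine Dvd.dvd.trans ⟨v, ?_⟩ h2
      rw [← huv]
      ring
    have h3' : (ε : 𝓞 K) - (ξ * u') ^ p =
        (ε : 𝓞 K) * (1 - (γ * u') ^ p) + (α - ξ ^ p) * u' ^ p := by
      rw [hαε]
      ring
    rw [h3']
    exact dvd_add (Dvd.dvd.mul_left h1 _) (Dvd.dvd.mul_right hξ _)
  -- conclude with the unit lemma
  obtain ⟨η, hη⟩ := hU p hp5 K ζ hζ ε hloc heig
  apply hα.not_pow
  refine ⟨algebraMap (𝓞 K) K ((η : 𝓞 K) * γ), ?_⟩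
  rw [← map_pow, mul_pow, ← Units.val_pow_eq_pow_val, hη, ← hαε]

end Fermat.Agent.S14.H11
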