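import Mathlib
import Fermat.Agent.S14.ZetaIdeals_helper51

/-!
# S14, WP8 (algebraic half): partial zeta functions of ideal classes as weighted lattice sums

For a weight `W : 𝓞 K → ℝ` which is a partition of unity over the unit orbits
(`∑_{u} W (u x) = w_K` for `x ≠ 0`) and an integral ideal `J` in the class `C⁻¹`:

  `∑_{γ ∈ J} W γ |N γ|^(-s) = w_K * N(J)^(-s) * ∑_{I ∈ C} N(I)^(-s)`.

Together with a translation bound for `γ ↦ W γ |N γ|^(-s)` this shows that the partial zeta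
functions of any two ideal classes differ by `O(1)` on `(1, 2)`, hence that the `L`-series of
every function on the class group with sum zero is bounded there.
-/

set_option autoImplicit false

namespace Fermat.Agent.S14.H51

open NumberField Ideal Filter Topology
open scoped nonZeroDivisors

variable {K : Type*} [Field K] [NumberField K]

/-- The weighted term `W γ * |N γ| ^ (-s)`. -/
noncomputable def F (W : 𝓞 K → ℝ) (s : ℝ) (γ : 𝓞 K) : ℝ :=
  W γ * |((Algebra.norm ℤ γ : ℤ) : ℝ)| ^ (-s)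

/-- The partial zeta function of an ideal class. -/
noncomputable def partialZeta (C : ClassGroup (𝓞 K)) (s : ℝ) : ℝ :=
  ∑' I : {I : (Ideal (𝓞 K))⁰ // ClassGroup.mk0 I = C},
    (absNorm ((I : (Ideal (𝓞 K))⁰) : Ideal (𝓞 K)) : ℝ) ^ (-s)

theorem abs_norm_eq_absNorm_span (γ : 𝓞 K) :
    |((Algebra.norm ℤ γ : ℤ) : ℝ)| = (absNorm (span {γ}) : ℝ) := by
  rw [Ideal.absNorm_span_singleton, Nat.cast_natAbs, Int.cast_abs]

theorem F_zero (W : 𝓞 K → ℝ) {s : ℝ} (hs : s ≠ 0) : F W s 0 = 0 := by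
  simp [F, Real.zero_rpow (neg_ne_zero.mpr hs)]

omit [NumberField K] in
theorem F_nonneg {W : 𝓞 K → ℝ} (hW : ∀ x, 0 ≤ W x) (s : ℝ) (γ : 𝓞 K) : 0 ≤ F W s γ :=
  mul_nonneg (hW γ) (Real.rpow_nonneg (abs_nonneg _) _)

theorem F_unit_mul (W : 𝓞 K → ℝ) (s : ℝ) (u : (𝓞 K)ˣ) (γ : 𝓞 K) :
    F W s (u * γ) = W (u * γ) * (absNorm (span {γ}) : ℝ) ^ (-s) := by
  unfold F
  rw [abs_norm_eq_absNorm_span, Ideal.span_singleton_mul_left_unit u.isUnit]

theorem summable_partialZeta (C : ClassGroup (𝓞 K)) {s : ℝ} (hs : 1 < s) :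
    Summable (fun I : {I : (Ideal (𝓞 K))⁰ // ClassGroup.mk0 I = C} =>
      (absNorm ((I : (Ideal (𝓞 K))⁰) : Ideal (𝓞 K)) : ℝ) ^ (-s)) :=
  (summable_absNorm_rpow K hs).subtype _

theorem partialZeta_nonneg (C : ClassGroup (𝓞 K)) (s : ℝ) : 0 ≤ partialZeta C s :=
  tsum_nonneg fun _ => Real.rpow_nonneg (Nat.cast_nonneg _) _

theorem partialZeta_le_zetaIdeal (C : ClassGroup (𝓞 K)) {s : ℝ} (hs : 1 < s) :
    partialZeta C s ≤ zetaIdeal K s := by
  unfold partialZeta zetaIdeal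
  exact Summable.tsum_subtype_le
    (fun I : (Ideal (𝓞 K))⁰ => (absNorm (I : Ideal (𝓞 K)) : ℝ) ^ (-s))
    {I | ClassGroup.mk0 I = C} (fun _ => Real.rpow_nonneg (Nat.cast_nonneg _) _)
    (summable_absNorm_rpow K hs)

section orbit

/-- The nonzero ideals in a given class. -/
abbrev ClassIdeal (C : ClassGroup (𝓞 K)) : Type _ :=
  {I : (Ideal (𝓞 K))⁰ // ClassGroup.mk0 I = C}

variable (J : (Ideal (𝓞 K))⁰) (C : ClassGroup (𝓞 K))

theorem isPrincipal_mul (hJ : ClassGroup.mk0 J = C⁻¹) (I : ClassIdeal C) :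
    ((I.1 : Ideal (𝓞 K)) * (J : Ideal (𝓞 K))).IsPrincipal := by
  have h : ClassGroup.mk0 (I.1 * J) = 1 := by rw [map_mul, I.2, hJ, mul_inv_cancel]
  have h2 := (ClassGroup.mk0_eq_one_iff (SetLike.coe_mem (I.1 * J))).mp h
  simpa using h2

/-- A generator of the principal ideal `I * J`. -/
noncomputable def gen (hJ : ClassGroup.mk0 J = C⁻¹) (I : ClassIdeal C) : 𝓞 K :=
  haveI := isPrincipal_mul J C hJ I
  Submodule.IsPrincipal.generator ((I.1 : Ideal (𝓞 K)) * (J : Ideal (𝓞 K)))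

theorem span_gen (hJ : ClassGroup.mk0 J = C⁻¹) (I : ClassIdeal C) :
    span {gen J C hJ I} = (I.1 : Ideal (𝓞 K)) * (J : Ideal (𝓞 K)) := by
  have := isPrincipal_mul J C hJ I
  exact Ideal.span_singleton_generator _

theorem mul_ne_bot (I : ClassIdeal C) : (I.1 : Ideal (𝓞 K)) * (J : Ideal (𝓞 K)) ≠ ⊥ :=
  mul_ne_zero (mem_nonZeroDivisors_iff_ne_zero.mp I.1.2) (mem_nonZeroDivisors_iff_ne_zero.mp J.2)

theorem gen_ne_zero (hJ : ClassGroup.mk0 J = C⁻¹) (I : ClassIdeal C) : gen J C hJ I ≠ 0 := by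
  intro h
  have h2 := span_gen J C hJ I
  rw [h, Ideal.span_singleton_eq_bot.mpr rfl] at h2
  exact mul_ne_bot J C I h2.symm

theorem gen_mem (hJ : ClassGroup.mk0 J = C⁻¹) (I : ClassIdeal C) :
    gen J C hJ I ∈ (J : Ideal (𝓞 K)) := by
  have h : gen J C hJ I ∈ span {gen J C hJ I} := Ideal.mem_span_singleton_self _
  have h2 : span {gen J C hJ I} ≤ (J : Ideal (𝓞 K)) := by
    rw [span_gen]
    exact Ideal.mul_le_right (I := (I.1 : Ideal (𝓞 K))) (J := (J : Ideal (𝓞 K)))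
  exact h2 h

/-- The orbit map `(I, u) ↦ u * gen (I * J)`. -/
noncomputable def orbitMap (hJ : ClassGroup.mk0 J = C⁻¹) :
    ClassIdeal C × (𝓞 K)ˣ → (J : Ideal (𝓞 K)) :=
  fun p => ⟨p.2 * gen J C hJ p.1, Ideal.mul_mem_left _ _ (gen_mem J C hJ p.1)⟩

theorem orbitMap_injective (hJ : ClassGroup.mk0 J = C⁻¹) :
    Function.Injective (orbitMap J C hJ) := by
  rintro ⟨I, u⟩ ⟨I', u'⟩ h
  have h1 : (u : 𝓞 K) * gen J C hJ I = u' * gen J C hJ I' := congrArg Subtype.val h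
  have h2 : span {(u : 𝓞 K) * gen J C hJ I} = span {(u' : 𝓞 K) * gen J C hJ I'} := by rw [h1]
  rw [Ideal.span_singleton_mul_left_unit u.isUnit, Ideal.span_singleton_mul_left_unit u'.isUnit,
    span_gen, span_gen] at h2
  have h3 : (I.1 : Ideal (𝓞 K)) = I'.1 :=
    mul_right_cancel₀ (mem_nonZeroDivisors_iff_ne_zero.mp J.2) h2
  have h4 : I = I' := Subtype.ext (Subtype.ext h3)
  subst h4
  have h5 : (u : 𝓞 K) = u' := mul_right_cancel₀ (gen_ne_zero J C hJ I) h1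
  rw [Units.ext h5]

theorem mem_range_orbitMap (hJ : ClassGroup.mk0 J = C⁻¹) (γ : (J : Ideal (𝓞 K)))
    (hγ : (γ : 𝓞 K) ≠ 0) : γ ∈ Set.range (orbitMap J C hJ) := by
  have h1 : (J : Ideal (𝓞 K)) ∣ span {(γ : 𝓞 K)} := Ideal.dvd_span_singleton.mpr γ.2
  obtain ⟨I, hI⟩ := h1
  have hI0 : I ≠ ⊥ := by
    rintro rfl
    rw [Ideal.mul_bot, Ideal.span_singleton_eq_bot] at hI
    exact hγ hI
  have hImem : I ∈ (Ideal (𝓞 K))⁰ := mem_nonZeroDivisors_iff_ne_zero.mpr hI0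
  have hspan : span {(γ : 𝓞 K)} ∈ (Ideal (𝓞 K))⁰ :=
    mem_nonZeroDivisors_iff_ne_zero.mpr (by
      intro h
      rw [Ideal.zero_eq_bot, Ideal.span_singleton_eq_bot] at h
      exact hγ h)
  have hprinc : ClassGroup.mk0 ⟨span {(γ : 𝓞 K)}, hspan⟩ = 1 :=
    (ClassGroup.mk0_eq_one_iff hspan).mpr ⟨⟨(γ : 𝓞 K), rfl⟩⟩
  have hmul : (⟨span {(γ : 𝓞 K)}, hspan⟩ : (Ideal (𝓞 K))⁰) = J * ⟨I, hImem⟩ := Subtype.ext hI
  have hclass : ClassGroup.mk0 (⟨I, hImem⟩ : (Ideal (𝓞 K))⁰) = C := by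
    rw [hmul, map_mul, hJ] at hprinc
    exact (inv_mul_eq_one.mp hprinc).symm
  let I' : ClassIdeal C := ⟨⟨I, hImem⟩, hclass⟩
  have h2 : span {gen J C hJ I'} = span {(γ : 𝓞 K)} := by
    rw [span_gen, hI, mul_comm]
  obtain ⟨u, hu⟩ := Ideal.span_singleton_eq_span_singleton.mp h2
  refine ⟨⟨I', u⟩, Subtype.ext ?_⟩
  change (u : 𝓞 K) * gen J C hJ I' = γ
  rw [mul_comm]
  exact hu

end orbit

section orbitSum

variable (J : (Ideal (𝓞 K))⁰) (C : ClassGroup (𝓞 K))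

theorem F_orbitMap (W : 𝓞 K → ℝ) (hJ : ClassGroup.mk0 J = C⁻¹) (s : ℝ)
    (p : ClassIdeal C × (𝓞 K)ˣ) :
    F W s (orbitMap J C hJ p : 𝓞 K) =
      W (p.2 * gen J C hJ p.1) * ((absNorm ((p.1 : (Ideal (𝓞 K))⁰) : Ideal (𝓞 K)) : ℝ) ^ (-s) *
        (absNorm (J : Ideal (𝓞 K)) : ℝ) ^ (-s)) := by
  change F W s (p.2 * gen J C hJ p.1) = _
  rw [F_unit_mul, span_gen, map_mul, Nat.cast_mul,
    Real.mul_rpow (Nat.cast_nonneg _) (Nat.cast_nonneg _)]

/-- **Orbit decomposition**: the weighted sum over the ideal `J` (in the class `C⁻¹`) is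
`w_K * N(J)^(-s)` times the partial zeta function of `C`. -/
theorem hasSum_F {W : 𝓞 K → ℝ} (hW0 : ∀ x, 0 ≤ W x)
    (hWsum : ∀ x : 𝓞 K, x ≠ 0 → HasSum (fun u : (𝓞 K)ˣ => W (u * x)) (Units.torsionOrder K))
    (hJ : ClassGroup.mk0 J = C⁻¹) {s : ℝ} (hs : 1 < s) :
    HasSum (fun γ : (J : Ideal (𝓞 K)) => F W s γ)
      (Units.torsionOrder K * (absNorm (J : Ideal (𝓞 K)) : ℝ) ^ (-s) * partialZeta C s) := by
  rw [← (orbitMap_injective J C hJ).hasSum_iff]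
  swap
  · intro γ hγ
    have h0 : (γ : 𝓞 K) = 0 := by
      by_contra h
      exact hγ (mem_range_orbitMap J C hJ γ h)
    rw [h0]
    exact F_zero W (by linarith)
  set g : ClassIdeal C × (𝓞 K)ˣ → ℝ := fun p =>
    W (p.2 * gen J C hJ p.1) * ((absNorm ((p.1 : (Ideal (𝓞 K))⁰) : Ideal (𝓞 K)) : ℝ) ^ (-s) *
      (absNorm (J : Ideal (𝓞 K)) : ℝ) ^ (-s)) with hg
  have hfg : ((fun γ : (J : Ideal (𝓞 K)) => F W s γ) ∘ orbitMap J C hJ) = g :=
    funext fun p => F_orbitMap J C W hJ s p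
  rw [hfg]
  have hinner : ∀ I : ClassIdeal C, HasSum (fun u : (𝓞 K)ˣ => g (I, u))
      (Units.torsionOrder K * ((absNorm ((I : (Ideal (𝓞 K))⁰) : Ideal (𝓞 K)) : ℝ) ^ (-s) *
        (absNorm (J : Ideal (𝓞 K)) : ℝ) ^ (-s))) :=
    fun I => (hWsum _ (gen_ne_zero J C hJ I)).mul_right _
  have houter : Summable (fun I : ClassIdeal C =>
      (Units.torsionOrder K : ℝ) * ((absNorm ((I : (Ideal (𝓞 K))⁰) : Ideal (𝓞 K)) : ℝ) ^ (-s) *
        (absNorm (J : Ideal (𝓞 K)) : ℝ) ^ (-s))) :=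
    ((summable_partialZeta C hs).mul_right _).mul_left _
  have hg0 : 0 ≤ g := fun p =>
    mul_nonneg (hW0 _) (mul_nonneg (Real.rpow_nonneg (Nat.cast_nonneg _) _)
      (Real.rpow_nonneg (Nat.cast_nonneg _) _))
  have hsum : Summable g := by
    rw [summable_prod_of_nonneg hg0]
    refine ⟨fun I => (hinner I).summable, ?_⟩
    refine houter.congr fun I => ?_
    exact (hinner I).tsum_eq.symm
  have htsum : ∑' p, g p = Units.torsionOrder K * (absNorm (J : Ideal (𝓞 K)) : ℝ) ^ (-s) *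
      partialZeta C s := by
    rw [hsum.tsum_prod' (fun I => (hinner I).summable)]
    rw [tsum_congr fun I => (hinner I).tsum_eq]
    unfold partialZeta
    rw [tsum_mul_left, tsum_mul_right]
    ring
  rw [← htsum]
  exact hsum.hasSum

end orbitSum

section coset

variable (J : Ideal (𝓞 K))

/-- The (non-canonical) bijection `𝓞 K ≃ (𝓞 K ⧸ J) × J`, `γ ↦ (γ mod J, γ - rep (γ mod J))`. -/
noncomputable def cosetEquiv : 𝓞 K ≃ (𝓞 K ⧸ J) × J where
  toFun γ := (Ideal.Quotient.mk J γ, ⟨γ - Quotient.out (Ideal.Quotient.mk J γ), by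
    rw [← Ideal.Quotient.eq]
    exact (Ideal.Quotient.mk_out _).symm⟩)
  invFun p := Quotient.out p.1 + p.2
  left_inv γ := by simp
  right_inv p := by
    have h : Ideal.Quotient.mk J (Quotient.out p.1 + (p.2 : 𝓞 K)) = p.1 := by
      rw [map_add, Ideal.Quotient.mk_out, Ideal.Quotient.eq_zero_iff_mem.mpr p.2.2, add_zero]
    refine Prod.ext h (Subtype.ext ?_)
    simp only
    rw [h]
    ring

omit [NumberField K] in
theorem cosetEquiv_symm_apply (p : (𝓞 K ⧸ J) × J) :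
    (cosetEquiv J).symm p = Quotient.out p.1 + (p.2 : 𝓞 K) := rfl

end coset

section assembly

/-- The translation hypothesis (output of the analytic half of WP8). -/
def TransBound (W : 𝓞 K → ℝ) : Prop :=
  ∀ (J : Ideal (𝓞 K)) (r : 𝓞 K), ∃ B : ℝ, ∀ s : ℝ, 1 < s → s < 2 →
    Summable (fun γ : J => |F W s ((γ : 𝓞 K) + r) - F W s γ|) ∧
      ∑' γ : J, |F W s ((γ : 𝓞 K) + r) - F W s γ| ≤ B

/-- The weighted sum over all integers is `w_K` times the partial zeta function of the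
trivial class. -/
theorem hasSum_F_top {W : 𝓞 K → ℝ} (hW0 : ∀ x, 0 ≤ W x)
    (hWsum : ∀ x : 𝓞 K, x ≠ 0 → HasSum (fun u : (𝓞 K)ˣ => W (u * x)) (Units.torsionOrder K))
    {s : ℝ} (hs : 1 < s) :
    HasSum (fun γ : 𝓞 K => F W s γ) (Units.torsionOrder K * partialZeta (1 : ClassGroup (𝓞 K)) s) := by
  have h := hasSum_F (1 : (Ideal (𝓞 K))⁰) (1 : ClassGroup (𝓞 K)) hW0 hWsum (by simp) hs
  have h1 : (absNorm (((1 : (Ideal (𝓞 K))⁰) : Ideal (𝓞 K))) : ℝ) ^ (-s) = 1 := by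
    simp
  rw [h1, mul_one] at h
  let e : (((1 : (Ideal (𝓞 K))⁰) : Ideal (𝓞 K))) ≃ 𝓞 K :=
    ⟨fun γ => γ.1, fun x => ⟨x, by simp⟩, fun γ => rfl, fun x => rfl⟩
  exact (e.hasSum_iff (f := fun γ : 𝓞 K => F W s γ)).mp h

omit [NumberField K] in
theorem coset_sum {W : 𝓞 K → ℝ} (J : Ideal (𝓞 K)) [Fintype (𝓞 K ⧸ J)] (s : ℝ) {a b : ℝ}
    (hJsum : HasSum (fun γ : J => F W s γ) a) (htop : HasSum (fun γ : 𝓞 K => F W s γ) b)
    (Bf : 𝓞 K → ℝ)
    (hBf : ∀ r, Summable (fun γ : J => |F W s ((γ : 𝓞 K) + r) - F W s γ|) ∧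
      ∑' γ : J, |F W s ((γ : 𝓞 K) + r) - F W s γ| ≤ Bf r) :
    |b - Fintype.card (𝓞 K ⧸ J) * a| ≤ ∑ q : 𝓞 K ⧸ J, Bf (Quotient.out q) := by
  have h1 : HasSum (fun p : (𝓞 K ⧸ J) × J => F W s (Quotient.out p.1 + (p.2 : 𝓞 K))) b :=
    ((cosetEquiv J).symm.hasSum_iff (f := fun γ : 𝓞 K => F W s γ)).mpr htop
  have h2 : b = ∑ q : 𝓞 K ⧸ J, ∑' j : J, F W s (Quotient.out q + (j : 𝓞 K)) := by
    rw [← h1.tsum_eq, h1.summable.tsum_prod' (fun q => h1.summable.prod_factor q), tsum_fintype]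
  have h3 : ∀ q : 𝓞 K ⧸ J, ∑' j : J, F W s (Quotient.out q + (j : 𝓞 K)) =
      a + ∑' j : J, (F W s ((j : 𝓞 K) + Quotient.out q) - F W s j) := by
    intro q
    have hd : Summable (fun j : J => F W s ((j : 𝓞 K) + Quotient.out q) - F W s j) :=
      (hBf (Quotient.out q)).1.of_abs
    have h4 := hJsum.add hd.hasSum
    rw [← h4.tsum_eq]
    refine tsum_congr fun j => ?_
    rw [add_comm (Quotient.out q) (j : 𝓞 K)]
    ring
  have h5 : b - Fintype.card (𝓞 K ⧸ J) * a =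
      ∑ q : 𝓞 K ⧸ J, ∑' j : J, (F W s ((j : 𝓞 K) + Quotient.out q) - F W s j) := by
    rw [h2, Finset.sum_congr rfl (fun q _ => h3 q), Finset.sum_add_distrib, Finset.sum_const,
      Finset.card_univ, nsmul_eq_mul]
    ring
  rw [h5]
  refine (Finset.abs_sum_le_sum_abs _ _).trans (Finset.sum_le_sum fun q _ => ?_)
  refine le_trans ?_ (hBf (Quotient.out q)).2
  have := norm_tsum_le_tsum_norm (f := fun j : J => F W s ((j : 𝓞 K) + Quotient.out q) - F W s j)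
    (by simpa only [Real.norm_eq_abs] using (hBf (Quotient.out q)).1)
  simpa only [Real.norm_eq_abs] using this

end assembly

section main

/-- **WP8, core**: the partial zeta function of any class differs from that of the trivial
class by `O(1)` on `(1, 2)`. -/
theorem exists_bound_partialZeta_sub_one {W : 𝓞 K → ℝ} (hW0 : ∀ x, 0 ≤ W x)
    (hWsum : ∀ x : 𝓞 K, x ≠ 0 → HasSum (fun u : (𝓞 K)ˣ => W (u * x)) (Units.torsionOrder K))
    (hT : TransBound W) (C : ClassGroup (𝓞 K)) :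
    ∃ B : ℝ, ∀ s : ℝ, 1 < s → s < 2 →
      |partialZeta C s - partialZeta (1 : ClassGroup (𝓞 K)) s| ≤ B := by
  obtain ⟨J, hJ⟩ := ClassGroup.mk0_surjective C⁻¹
  choose Bf hBf using hT (J : Ideal (𝓞 K))
  obtain ⟨Bz, hBz⟩ := exists_bound_sub_one_mul_zetaIdeal K
  have hJ0 : (J : Ideal (𝓞 K)) ≠ ⊥ := mem_nonZeroDivisors_iff_ne_zero.mp J.2
  have hfin : Finite (𝓞 K ⧸ (J : Ideal (𝓞 K))) := Ideal.finiteQuotientOfFreeOfNeBot _ hJ0
  let _ : Fintype (𝓞 K ⧸ (J : Ideal (𝓞 K))) := Fintype.ofFinite _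
  have hcard : (Fintype.card (𝓞 K ⧸ (J : Ideal (𝓞 K))) : ℝ) = (absNorm (J : Ideal (𝓞 K)) : ℝ) := by
    rw [Ideal.absNorm_apply, Submodule.cardQuot_apply, Nat.card_eq_fintype_card]
  obtain ⟨w, hw⟩ : ∃ w : ℝ, w = (Units.torsionOrder K : ℝ) := ⟨_, rfl⟩
  have hw0 : 0 < w := by rw [hw]; exact Nat.cast_pos.mpr (Units.torsionOrder_pos K)
  obtain ⟨N, hN⟩ : ∃ N : ℝ, N = (absNorm (J : Ideal (𝓞 K)) : ℝ) := ⟨_, rfl⟩
  have hN1 : 1 ≤ N := by rw [hN]; exact one_le_absNorm K J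
  have hN0 : 0 < N := by linarith
  have hlogN : 0 ≤ Real.log N := Real.log_nonneg hN1
  refine ⟨Real.log N * Bz + (∑ q : 𝓞 K ⧸ (J : Ideal (𝓞 K)), Bf (Quotient.out q)) / w,
    fun s hs1 hs2 => ?_⟩
  have hTJ := hasSum_F J C hW0 hWsum hJ hs1
  have htop := hasSum_F_top (K := K) hW0 hWsum hs1
  have hcos := coset_sum (J : Ideal (𝓞 K)) s hTJ htop Bf (fun r => hBf r s hs1 hs2)
  rw [hcard, ← hw, ← hN] at hcos
  -- `N * N ^ (-s) = N ^ (1 - s)`
  have hpow : N * N ^ (-s) = N ^ (1 - s) := by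
    rw [sub_eq_add_neg, Real.rpow_add hN0, Real.rpow_one]
  have h1 : |partialZeta (1 : ClassGroup (𝓞 K)) s - N ^ (1 - s) * partialZeta C s| ≤
      (∑ q : 𝓞 K ⧸ (J : Ideal (𝓞 K)), Bf (Quotient.out q)) / w := by
    rw [le_div_iff₀ hw0]
    have h4 : |partialZeta (1 : ClassGroup (𝓞 K)) s - N ^ (1 - s) * partialZeta C s| * w =
        |w * partialZeta (1 : ClassGroup (𝓞 K)) s - N * (w * N ^ (-s) * partialZeta C s)| := by
      rw [← hpow]
      conv_lhs => rw [← abs_of_pos hw0, ← abs_mul]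
      congr 1
      ring
    rw [h4]
    exact hcos
  -- the factor `1 - N ^ (1 - s)`
  have hle1 : N ^ (1 - s) ≤ 1 := Real.rpow_le_one_of_one_le_of_nonpos hN1 (by linarith)
  have hge : 1 - (s - 1) * Real.log N ≤ N ^ (1 - s) := by
    rw [Real.rpow_def_of_pos hN0]
    have := Real.add_one_le_exp (Real.log N * (1 - s))
    linarith
  have hZC0 : 0 ≤ partialZeta C s := partialZeta_nonneg C s
  have hZle : partialZeta C s ≤ zetaIdeal K s := partialZeta_le_zetaIdeal C hs1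
  have hz := hBz s hs1 hs2
  have h2 : |partialZeta C s - N ^ (1 - s) * partialZeta C s| ≤ Real.log N * Bz := by
    have h3 : partialZeta C s - N ^ (1 - s) * partialZeta C s =
        (1 - N ^ (1 - s)) * partialZeta C s := by ring
    rw [h3, abs_of_nonneg (mul_nonneg (by linarith) hZC0)]
    calc (1 - N ^ (1 - s)) * partialZeta C s
        ≤ ((s - 1) * Real.log N) * zetaIdeal K s :=
          mul_le_mul (by linarith) hZle hZC0 (mul_nonneg (by linarith) hlogN)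
      _ = Real.log N * ((s - 1) * zetaIdeal K s) := by ring
      _ ≤ Real.log N * Bz := mul_le_mul_of_nonneg_left hz hlogN
  calc |partialZeta C s - partialZeta (1 : ClassGroup (𝓞 K)) s|
      = |(partialZeta C s - N ^ (1 - s) * partialZeta C s) -
          (partialZeta (1 : ClassGroup (𝓞 K)) s - N ^ (1 - s) * partialZeta C s)| := by
        congr 1; ring
    _ ≤ |partialZeta C s - N ^ (1 - s) * partialZeta C s| +
          |partialZeta (1 : ClassGroup (𝓞 K)) s - N ^ (1 - s) * partialZeta C s| := abs_sub _ _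
    _ ≤ Real.log N * Bz + (∑ q : 𝓞 K ⧸ (J : Ideal (𝓞 K)), Bf (Quotient.out q)) / w :=
        add_le_add h2 h1

/-- **WP8**: the partial zeta functions of any two classes differ by `O(1)` on `(1, 2)`. -/
theorem exists_bound_partialZeta_sub {W : 𝓞 K → ℝ} (hW0 : ∀ x, 0 ≤ W x)
    (hWsum : ∀ x : 𝓞 K, x ≠ 0 → HasSum (fun u : (𝓞 K)ˣ => W (u * x)) (Units.torsionOrder K))
    (hT : TransBound W) (C C' : ClassGroup (𝓞 K)) :
    ∃ B : ℝ, ∀ s : ℝ, 1 < s → s < 2 → |partialZeta C s - partialZeta C' s| ≤ B := by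
  obtain ⟨B, hB⟩ := exists_bound_partialZeta_sub_one hW0 hWsum hT C
  obtain ⟨B', hB'⟩ := exists_bound_partialZeta_sub_one hW0 hWsum hT C'
  refine ⟨B + B', fun s hs1 hs2 => ?_⟩
  have h1 := hB s hs1 hs2
  have h2 := hB' s hs1 hs2
  calc |partialZeta C s - partialZeta C' s|
      = |(partialZeta C s - partialZeta 1 s) - (partialZeta C' s - partialZeta 1 s)| := by
        congr 1; ring
    _ ≤ |partialZeta C s - partialZeta 1 s| + |partialZeta C' s - partialZeta 1 s| := abs_sub _ _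
    _ ≤ B + B' := add_le_add h1 h2

end main

section lseries

/-- The `L`-series of a function on the class group is the combination of the partial zeta
functions. -/
theorem tsum_class_eq (χ : ClassGroup (𝓞 K) → ℂ) {s : ℝ} (hs : 1 < s) :
    ∑' I : (Ideal (𝓞 K))⁰,
        χ (ClassGroup.mk0 I) * (((absNorm (I : Ideal (𝓞 K)) : ℝ) ^ (-s) : ℝ) : ℂ) =
      ∑ C : ClassGroup (𝓞 K), χ C * ((partialZeta C s : ℝ) : ℂ) := by
  set f : (Ideal (𝓞 K))⁰ → ℂ := fun I =>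
    χ (ClassGroup.mk0 I) * (((absNorm (I : Ideal (𝓞 K)) : ℝ) ^ (-s) : ℝ) : ℂ) with hf
  have hsum : Summable f := by
    refine Summable.of_norm_bounded (g := fun I : (Ideal (𝓞 K))⁰ =>
      (∑ C : ClassGroup (𝓞 K), ‖χ C‖) * (absNorm (I : Ideal (𝓞 K)) : ℝ) ^ (-s))
      ((summable_absNorm_rpow K hs).mul_left _) fun I => ?_
    rw [hf, norm_mul, Complex.norm_real, Real.norm_eq_abs,
      abs_of_nonneg (Real.rpow_nonneg (Nat.cast_nonneg _) _)]
    refine mul_le_mul_of_nonneg_right ?_ (Real.rpow_nonneg (Nat.cast_nonneg _) _)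
    exact Finset.single_le_sum (f := fun C : ClassGroup (𝓞 K) => ‖χ C‖)
      (fun _ _ => norm_nonneg _) (Finset.mem_univ _)
  have hsum' := (Equiv.sigmaFiberEquiv
    (fun I : (Ideal (𝓞 K))⁰ => ClassGroup.mk0 I)).summable_iff.mpr hsum
  rw [← (Equiv.sigmaFiberEquiv (fun I : (Ideal (𝓞 K))⁰ => ClassGroup.mk0 I)).tsum_eq]
  have h3 := Summable.tsum_sigma hsum'
  simp only [Function.comp_apply] at h3
  rw [h3, tsum_fintype]
  refine Finset.sum_congr rfl fun C _ => ?_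
  unfold partialZeta
  rw [Complex.ofReal_tsum, ← tsum_mul_left]
  refine tsum_congr fun I => ?_
  simp only [hf, Equiv.sigmaFiberEquiv_apply]
  rw [I.2]

/-- **WP8, final form**: the `L`-series of any function on the class group with sum zero is
bounded on `(1, 2)`. -/
theorem classLBound {W : 𝓞 K → ℝ} (hW0 : ∀ x, 0 ≤ W x)
    (hWsum : ∀ x : 𝓞 K, x ≠ 0 → HasSum (fun u : (𝓞 K)ˣ => W (u * x)) (Units.torsionOrder K))
    (hT : TransBound W) (χ : ClassGroup (𝓞 K) → ℂ) (hχ : ∑ C, χ C = 0) :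
    ∃ B : ℝ, ∀ s : ℝ, 1 < s → s < 2 →
      ‖∑' I : (Ideal (𝓞 K))⁰,
        χ (ClassGroup.mk0 I) * (((absNorm (I : Ideal (𝓞 K)) : ℝ) ^ (-s) : ℝ) : ℂ)‖ ≤ B := by
  choose Bc hBc using exists_bound_partialZeta_sub_one hW0 hWsum hT
  refine ⟨∑ C : ClassGroup (𝓞 K), ‖χ C‖ * Bc C, fun s hs1 hs2 => ?_⟩
  rw [tsum_class_eq χ hs1]
  have h1 : ∑ C : ClassGroup (𝓞 K), χ C * ((partialZeta C s : ℝ) : ℂ) =
      ∑ C : ClassGroup (𝓞 K), χ C *
        (((partialZeta C s - partialZeta (1 : ClassGroup (𝓞 K)) s : ℝ)) : ℂ) := by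
    have h2 : ∑ C : ClassGroup (𝓞 K), χ C *
        (((partialZeta C s - partialZeta (1 : ClassGroup (𝓞 K)) s : ℝ)) : ℂ) =
        ∑ C : ClassGroup (𝓞 K), χ C * ((partialZeta C s : ℝ) : ℂ) -
          (∑ C : ClassGroup (𝓞 K), χ C) * ((partialZeta (1 : ClassGroup (𝓞 K)) s : ℝ) : ℂ) := by
      rw [Finset.sum_mul, ← Finset.sum_sub_distrib]
      refine Finset.sum_congr rfl fun C _ => ?_
      push_cast
      ring
    rw [h2, hχ, zero_mul, sub_zero]
  rw [h1]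
  refine (norm_sum_le _ _).trans (Finset.sum_le_sum fun C _ => ?_)
  rw [norm_mul, Complex.norm_real, Real.norm_eq_abs]
  exact mul_le_mul_of_nonneg_left (hBc C s hs1 hs2) (norm_nonneg _)

end lseries

end Fermat.Agent.S14.H51
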