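import Mathlib

/-
S14 / WP8 (bound B), analytic half 8-ANA-L (helper44): the TRANSLATION BOUND.

For a weight `W : 𝓞 K → ℝ` on the integers of a number field which is bounded, supported where
all archimedean absolute values are comparable, and Lipschitz in the logarithmic coordinates
(`LogLip W`), and `F W s γ = W γ * |N γ| ^ (-s)`, the sum over any ideal `J` of
`|F W s (γ + r) - F W s γ|` converges and is bounded uniformly for `s ∈ (1, 2)` (`transBound`).
Imports Mathlib only.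
-/

namespace Fermat.Agent.S14.H44

open NumberField NumberField.InfinitePlace NumberField.mixedEmbedding Module

open scoped Classical

variable {K : Type*} [Field K] [NumberField K]

/-- The weighted norm power `W γ * |N γ| ^ (-s)` (zero at `γ = 0` for `s ≠ 0`). -/
noncomputable def F (W : 𝓞 K → ℝ) (s : ℝ) (γ : 𝓞 K) : ℝ :=
  W γ * |(Algebra.norm ℤ γ : ℝ)| ^ (-s)

/-- Abstract interface for the unit weight: bounded, supported where all archimedean absolute
values are comparable, and Lipschitz in logarithmic coordinates. -/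
structure LogLip (W : 𝓞 K → ℝ) : Prop where
  nonneg : ∀ x, 0 ≤ W x
  le_one : ∀ x, W x ≤ 1
  cone : ∃ c : ℝ, 0 < c ∧ ∀ x : 𝓞 K, W x ≠ 0 →
    ∀ w w' : InfinitePlace K, c * w' (x : K) ≤ w (x : K)
  lip : ∃ L : ℝ, ∀ x y : 𝓞 K, x ≠ 0 → y ≠ 0 →
    |W x - W y| ≤ L * ∑ w : InfinitePlace K, |Real.log (w (x : K)) - Real.log (w (y : K))|

/-- The sup norm of the image in the mixed space: the maximum of the archimedean
absolute values. -/
noncomputable def M (x : 𝓞 K) : ℝ := ‖mixedEmbedding K (x : K)‖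

theorem M_nonneg (x : 𝓞 K) : 0 ≤ M x := norm_nonneg _

theorem place_le_M (w : InfinitePlace K) (x : 𝓞 K) : w (x : K) ≤ M x := by
  unfold M
  rw [norm_eq_sup'_normAtPlace]
  calc w (x : K) = normAtPlace w (mixedEmbedding K (x : K)) := (normAtPlace_apply w _).symm
    _ ≤ _ := Finset.le_sup' (fun w => normAtPlace w (mixedEmbedding K (x : K))) (Finset.mem_univ w)

theorem exists_place_eq_M (x : 𝓞 K) : ∃ w : InfinitePlace K, w (x : K) = M x := by
  unfold M
  rw [norm_eq_sup'_normAtPlace]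
  obtain ⟨w, -, hw⟩ := Finset.exists_mem_eq_sup' Finset.univ_nonempty
    (fun w => normAtPlace w (mixedEmbedding K (x : K)))
  exact ⟨w, by rw [hw, normAtPlace_apply]⟩

theorem M_zero : M (0 : 𝓞 K) = 0 := by simp [M]

theorem M_pos {x : 𝓞 K} (hx : x ≠ 0) : 0 < M x := by
  unfold M
  rw [norm_pos_iff]
  intro h
  apply hx
  have := (mixedEmbedding_injective K) (h.trans (map_zero _).symm)
  exact_mod_cast this

theorem M_neg (x : 𝓞 K) : M (-x) = M x := by simp [M]

theorem M_add_le (x y : 𝓞 K) : M (x + y) ≤ M x + M y := by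
  unfold M
  push_cast
  rw [map_add]
  exact norm_add_le _ _

theorem M_sub_le (x y : 𝓞 K) : M x - M y ≤ M (x + y) := by
  have := M_add_le (x + y) (-y)
  rw [M_neg] at this
  simp at this
  linarith

theorem abs_place_sub_le (w : InfinitePlace K) (x y : 𝓞 K) :
    |w (y : K) - w (x : K)| ≤ M (y - x) := by
  have h1 : |w (y : K) - w (x : K)| ≤ w ((y : K) - (x : K)) := by
    rw [← norm_embedding_eq, ← norm_embedding_eq, ← norm_embedding_eq, map_sub]
    exact abs_norm_sub_norm_le _ _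
  have h2 := place_le_M w (y - x)
  push_cast at h2
  exact h1.trans h2

theorem rank_integerLattice :
    (finrank ℤ (mixedEmbedding.integerLattice K) : ℝ) = finrank ℚ K := by
  rw [ZLattice.rank ℝ, mixedEmbedding.finrank]

theorem summable_M_rpow :
    Summable fun x : 𝓞 K => M x ^ (-((finrank ℚ K : ℝ) + 1)) := by
  have hr : (-((finrank ℚ K : ℝ) + 1)) <
      -(finrank ℤ (mixedEmbedding.integerLattice K) : ℝ) := by
    rw [rank_integerLattice]
    linarith
  have h := ZLattice.summable_norm_rpow (mixedEmbedding.integerLattice K) _ hr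
  have hmem : ∀ x : 𝓞 K, mixedEmbedding K (x : K) ∈ mixedEmbedding.integerLattice K :=
    fun x => ⟨x, rfl⟩
  have he : Function.Injective
      (fun x : 𝓞 K => (⟨mixedEmbedding K (x : K), hmem x⟩ : mixedEmbedding.integerLattice K)) := by
    intro x y hxy
    have := (mixedEmbedding_injective K) (congrArg Subtype.val hxy)
    exact_mod_cast this
  have h2 := h.comp_injective he
  refine h2.congr ?_
  intro x
  rfl

theorem absNorm_eq_prod (x : 𝓞 K) :
    |(Algebra.norm ℤ x : ℝ)| = ∏ w : InfinitePlace K, w (x : K) ^ mult w := by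
  rw [prod_eq_abs_norm, ← Algebra.coe_norm_int]
  push_cast
  rfl

theorem one_le_absNorm {x : 𝓞 K} (hx : x ≠ 0) : 1 ≤ |(Algebra.norm ℤ x : ℝ)| := by
  have h : Algebra.norm ℤ x ≠ 0 := by
    rw [Ne, Algebra.norm_eq_zero_iff]
    exact hx
  have : (1 : ℤ) ≤ |Algebra.norm ℤ x| := Int.one_le_abs h
  exact_mod_cast this

omit [NumberField K] in
/-- `F` with the absolute value taken in `ℤ`. -/
theorem F_eq_intAbs (W : 𝓞 K → ℝ) (s : ℝ) (γ : 𝓞 K) :
    F W s γ = W γ * ((|Algebra.norm ℤ γ| : ℤ) : ℝ) ^ (-s) := by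
  rw [F, Int.cast_abs]

/-- `F` in terms of the absolute norm of the principal ideal. -/
theorem F_eq_absNorm (W : 𝓞 K → ℝ) (s : ℝ) (γ : 𝓞 K) :
    F W s γ = W γ * (Ideal.absNorm (Ideal.span {γ}) : ℝ) ^ (-s) := by
  rw [F, Ideal.absNorm_span_singleton, Nat.cast_natAbs, Int.cast_abs]

theorem F_nonneg {W : 𝓞 K → ℝ} (hW : LogLip W) (s : ℝ) (x : 𝓞 K) : 0 ≤ F W s x :=
  mul_nonneg (hW.nonneg x) (Real.rpow_nonneg (abs_nonneg _) _)

theorem F_le_one {W : 𝓞 K → ℝ} (hW : LogLip W) {s : ℝ} (hs : 0 < s) (x : 𝓞 K) : F W s x ≤ 1 := by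
  unfold F
  by_cases hx : x = 0
  · subst hx
    simp [Real.zero_rpow (neg_ne_zero.mpr hs.ne')]
  · have h1 : |(Algebra.norm ℤ x : ℝ)| ^ (-s) ≤ 1 :=
      Real.rpow_le_one_of_one_le_of_nonpos (one_le_absNorm hx) (by linarith)
    calc W x * |(Algebra.norm ℤ x : ℝ)| ^ (-s) ≤ 1 * 1 :=
          mul_le_mul (hW.le_one x) h1 (Real.rpow_nonneg (abs_nonneg _) _) zero_le_one
      _ = 1 := one_mul 1

theorem abs_log_sub_log_le {a b : ℝ} (ha : 0 < a) (hab : |b - a| ≤ a / 2) :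
    |Real.log b - Real.log a| ≤ 2 * |b - a| / a := by
  have hb2 : a / 2 ≤ b := by have := (abs_le.mp hab).1; linarith
  have hb : 0 < b := by linarith
  rw [abs_le]
  constructor
  · have h1 : Real.log (a / b) ≤ a / b - 1 := Real.log_le_sub_one_of_pos (div_pos ha hb)
    rw [Real.log_div ha.ne' hb.ne'] at h1
    have h2 : a / b - 1 ≤ 2 * |b - a| / a := by
      rw [div_sub_one hb.ne', div_le_div_iff₀ hb ha]
      have h3 : a - b ≤ |b - a| := by rw [abs_sub_comm]; exact le_abs_self _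
      nlinarith [mul_nonneg (sub_nonneg.mpr h3) ha.le,
        mul_nonneg (abs_nonneg (b - a)) (by linarith : (0 : ℝ) ≤ 2 * b - a)]
    linarith
  · have h1 : Real.log (b / a) ≤ b / a - 1 := Real.log_le_sub_one_of_pos (div_pos hb ha)
    rw [Real.log_div hb.ne' ha.ne'] at h1
    have h2 : b / a - 1 ≤ 2 * |b - a| / a := by
      rw [div_sub_one ha.ne', div_le_div_iff_of_pos_right ha]
      have h3 : b - a ≤ |b - a| := le_abs_self _
      nlinarith [abs_nonneg (b - a)]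
    linarith

theorem rpow_neg_succ {a : ℝ} (ha : 0 ≤ a) (k : ℕ) :
    a ^ (-((k : ℝ) + 1)) = (a ^ (k + 1))⁻¹ := by
  rw [Real.rpow_neg ha]
  congr 1
  exact_mod_cast Real.rpow_natCast a (k + 1)

/-- The purely real-variable core of the one-sided estimate. -/
theorem core_real {Wx Wy Nx Ny P ε s A D : ℝ} (hs1 : 1 < s) (hs2 : s < 2) (hε : 0 ≤ ε)
    (hWy0 : 0 ≤ Wy) (hWy1 : Wy ≤ 1) (hNx1 : 1 ≤ Nx) (hNy1 : 1 ≤ Ny) (hP : 0 < P)
    (hNx_lb : P ≤ Nx) (hA : 0 ≤ A) (hWdiff : |Wy - Wx| ≤ A * ε) (hD : 0 ≤ D)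
    (hΔ : |Real.log Ny - Real.log Nx| ≤ D * ε) (hsmall : D * ε ≤ 1 / 2) :
    |Wy * Ny ^ (-s) - Wx * Nx ^ (-s)| ≤ P⁻¹ * ((A + 4 * D) * ε) := by
  have hNxpos : 0 < Nx := by linarith
  have hNypos : 0 < Ny := by linarith
  have hNxs0 : 0 ≤ Nx ^ (-s) := Real.rpow_nonneg hNxpos.le _
  have hD0 : 0 ≤ D * ε := mul_nonneg hD hε
  have hNxs : Nx ^ (-s) ≤ P⁻¹ := by
    calc Nx ^ (-s) ≤ Nx ^ (-1 : ℝ) :=
          Real.rpow_le_rpow_of_exponent_le hNx1 (by linarith)
      _ = Nx⁻¹ := Real.rpow_neg_one Nx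
      _ ≤ P⁻¹ := inv_anti₀ hP hNx_lb
  have hpow : |Ny ^ (-s) - Nx ^ (-s)| ≤ Nx ^ (-s) * (4 * (D * ε)) := by
    have hrew : Ny ^ (-s) = Nx ^ (-s) * Real.exp ((Real.log Ny - Real.log Nx) * (-s)) := by
      rw [Real.rpow_def_of_pos hNypos, Real.rpow_def_of_pos hNxpos, ← Real.exp_add]
      congr 1
      ring
    have htabs : |(Real.log Ny - Real.log Nx) * (-s)| ≤ 2 * (D * ε) := by
      rw [abs_mul, abs_neg, abs_of_pos (by linarith : 0 < s)]
      calc |Real.log Ny - Real.log Nx| * s ≤ (D * ε) * 2 :=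
            mul_le_mul hΔ hs2.le (by linarith) hD0
        _ = _ := by ring
    have ht1 : |(Real.log Ny - Real.log Nx) * (-s)| ≤ 1 := by linarith
    rw [hrew, ← mul_sub_one, abs_mul, abs_of_nonneg hNxs0]
    apply mul_le_mul_of_nonneg_left _ hNxs0
    calc |Real.exp ((Real.log Ny - Real.log Nx) * (-s)) - 1|
        ≤ 2 * |(Real.log Ny - Real.log Nx) * (-s)| := Real.abs_exp_sub_one_le ht1
      _ ≤ _ := by linarith
  have hsplit : Wy * Ny ^ (-s) - Wx * Nx ^ (-s)
      = (Wy - Wx) * Nx ^ (-s) + Wy * (Ny ^ (-s) - Nx ^ (-s)) := by ring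
  rw [hsplit]
  calc |(Wy - Wx) * Nx ^ (-s) + Wy * (Ny ^ (-s) - Nx ^ (-s))|
      ≤ |(Wy - Wx) * Nx ^ (-s)| + |Wy * (Ny ^ (-s) - Nx ^ (-s))| := abs_add_le _ _
    _ = |Wy - Wx| * Nx ^ (-s) + Wy * |Ny ^ (-s) - Nx ^ (-s)| := by
        rw [abs_mul, abs_mul, abs_of_nonneg hNxs0, abs_of_nonneg hWy0]
    _ ≤ (A * ε) * Nx ^ (-s) + 1 * (Nx ^ (-s) * (4 * (D * ε))) := by
        apply add_le_add
        · exact mul_le_mul_of_nonneg_right hWdiff hNxs0
        · exact mul_le_mul hWy1 hpow (abs_nonneg _) zero_le_one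
    _ = Nx ^ (-s) * ((A + 4 * D) * ε) := by ring
    _ ≤ P⁻¹ * ((A + 4 * D) * ε) := by
        apply mul_le_mul_of_nonneg_right hNxs
        exact mul_nonneg (by linarith) hε

theorem log_absNorm {z : 𝓞 K} (hz : ∀ w : InfinitePlace K, 0 < w (z : K)) :
    Real.log |(Algebra.norm ℤ z : ℝ)| =
      ∑ w : InfinitePlace K, (mult w : ℝ) * Real.log (w (z : K)) := by
  rw [absNorm_eq_prod, Real.log_prod]
  · refine Finset.sum_congr rfl fun w _ => ?_
    rw [Real.log_pow]
  · intro w _; exact (pow_pos (hz w) _).ne'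

/-- One-sided estimate: if `W x ≠ 0` and `x` is large compared with `y - x`, then
`F s y - F s x` is `O(M (y - x) * M x ^ (-(d + 1)))`, uniformly in `s ∈ (1, 2)`. -/
theorem F_sub_le_aux {W : 𝓞 K → ℝ} (hW : LogLip W) :
    ∃ C : ℝ, 0 ≤ C ∧ ∃ c : ℝ, 0 < c ∧ ∀ (x y : 𝓞 K) (s : ℝ), 1 < s → s < 2 → W x ≠ 0 → x ≠ 0 →
      4 * (finrank ℚ K : ℝ) * M (y - x) ≤ c * M x → 1 ≤ c * M x →
      |F W s y - F W s x| ≤ C * M (y - x) * M x ^ (-((finrank ℚ K : ℝ) + 1)) := by
  obtain ⟨c, hc, hcone⟩ := hW.cone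
  obtain ⟨L, hL⟩ := hW.lip
  have hdsum : ∑ w : InfinitePlace K, mult w = finrank ℚ K := sum_mult_eq
  have hd1 : 1 ≤ finrank ℚ K := Module.finrank_pos
  generalize finrank ℚ K = d at hdsum hd1 ⊢
  have hmaxL : 0 ≤ max L 0 := le_max_right _ _
  refine ⟨(2 * (max L 0 * Fintype.card (InfinitePlace K)) + 8 * d) * (c ^ (d + 1))⁻¹,
    by positivity, c, hc, ?_⟩
  intro x y s hs1 hs2 hWx hx h4 h1
  have hm : 0 < M x := M_pos hx
  have hδ : 0 ≤ M (y - x) := M_nonneg _
  have hwd : ∀ w : InfinitePlace K, |w (y : K) - w (x : K)| ≤ M (y - x) :=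
    fun w => abs_place_sub_le w x y
  have hwx : ∀ w : InfinitePlace K, c * M x ≤ w (x : K) := by
    intro w
    obtain ⟨w', hw'⟩ := exists_place_eq_M x
    have := hcone x hWx w w'
    rwa [hw'] at this
  obtain ⟨w₀, -⟩ := exists_place_eq_M x
  generalize M (y - x) = δ at *
  generalize M x = m at *
  have hcm : 0 < c * m := mul_pos hc hm
  have hd1' : (1 : ℝ) ≤ d := by exact_mod_cast hd1
  have h2δ : 2 * δ ≤ c * m := by nlinarith
  have hε : 0 ≤ 2 * δ / (c * m) := div_nonneg (by linarith) hcm.le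
  have hwx_pos : ∀ w : InfinitePlace K, 0 < w (x : K) := fun w => lt_of_lt_of_le hcm (hwx w)
  have hlog : ∀ w : InfinitePlace K,
      |Real.log (w (y : K)) - Real.log (w (x : K))| ≤ 2 * δ / (c * m) := by
    intro w
    have h := abs_log_sub_log_le (hwx_pos w) ((hwd w).trans (by linarith [hwx w]))
    refine h.trans ?_
    exact div_le_div₀ (by linarith) (by linarith [hwd w]) hcm (hwx w)
  have hwy : ∀ w : InfinitePlace K, 0 < w (y : K) := by
    intro w
    have := (abs_le.mp (hwd w)).1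
    linarith [hwx w]
  have hy : y ≠ 0 := by
    intro h
    have := hwy w₀
    rw [h] at this
    simp at this
  have hWdiff : |W y - W x| ≤
      (max L 0 * Fintype.card (InfinitePlace K)) * (2 * δ / (c * m)) := by
    calc |W y - W x| ≤ L * ∑ w : InfinitePlace K,
          |Real.log (w (y : K)) - Real.log (w (x : K))| := hL y x hy hx
      _ ≤ max L 0 * ∑ w : InfinitePlace K,
          |Real.log (w (y : K)) - Real.log (w (x : K))| :=
          mul_le_mul_of_nonneg_right (le_max_left _ _)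
            (Finset.sum_nonneg fun _ _ => abs_nonneg _)
      _ ≤ max L 0 * ∑ _w : InfinitePlace K, (2 * δ / (c * m)) :=
          mul_le_mul_of_nonneg_left (Finset.sum_le_sum fun w _ => hlog w) hmaxL
      _ = (max L 0 * Fintype.card (InfinitePlace K)) * (2 * δ / (c * m)) := by
          rw [Finset.sum_const, Finset.card_univ, nsmul_eq_mul, mul_assoc]
  have hNx_lb : (c * m) ^ d ≤ |(Algebra.norm ℤ x : ℝ)| := by
    rw [absNorm_eq_prod, ← hdsum, ← Finset.prod_pow_eq_pow_sum]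
    apply Finset.prod_le_prod
    · intro w _; exact pow_nonneg hcm.le _
    · intro w _; exact pow_le_pow_left₀ hcm.le (hwx w) _
  have hΔ : abs (Real.log (abs (Algebra.norm ℤ y : ℝ)) - Real.log (abs (Algebra.norm ℤ x : ℝ)))
      ≤ d * (2 * δ / (c * m)) := by
    rw [log_absNorm hwy, log_absNorm hwx_pos, ← Finset.sum_sub_distrib]
    calc |∑ w : InfinitePlace K, ((mult w : ℝ) * Real.log (w (y : K))
            - (mult w : ℝ) * Real.log (w (x : K)))|
        ≤ ∑ w : InfinitePlace K, |(mult w : ℝ) * Real.log (w (y : K))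
            - (mult w : ℝ) * Real.log (w (x : K))| := Finset.abs_sum_le_sum_abs _ _
      _ ≤ ∑ w : InfinitePlace K, (mult w : ℝ) * (2 * δ / (c * m)) := by
          apply Finset.sum_le_sum
          intro w _
          rw [← mul_sub, abs_mul, abs_of_nonneg (Nat.cast_nonneg _)]
          exact mul_le_mul_of_nonneg_left (hlog w) (Nat.cast_nonneg _)
      _ = d * (2 * δ / (c * m)) := by rw [← Finset.sum_mul, ← Nat.cast_sum, hdsum]
  have hsmall : (d : ℝ) * (2 * δ / (c * m)) ≤ 1 / 2 := by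
    rw [← mul_div_assoc, div_le_iff₀ hcm]
    linarith
  have hcore := core_real hs1 hs2 hε (hW.nonneg y) (hW.le_one y) (one_le_absNorm hx)
    (one_le_absNorm hy) (pow_pos hcm d) hNx_lb
    (mul_nonneg hmaxL (Nat.cast_nonneg _)) hWdiff (Nat.cast_nonneg d) hΔ hsmall
  rw [rpow_neg_succ hm.le]
  unfold F
  refine hcore.trans (le_of_eq ?_)
  have hc' : c ≠ 0 := hc.ne'
  have hm' : m ≠ 0 := hm.ne'
  field_simp
  ring

/-- Termwise bound: for `β ≠ 0` the translation difference is `O(M β ^ (-(d + 1)))`, uniformly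
in `s ∈ (1, 2)`. -/
theorem term_le {W : 𝓞 K → ℝ} (hW : LogLip W) (r : 𝓞 K) :
    ∃ C : ℝ, 0 ≤ C ∧ ∀ (β : 𝓞 K) (s : ℝ), 1 < s → s < 2 → β ≠ 0 →
      |F W s (β + r) - F W s β| ≤ C * M β ^ (-((finrank ℚ K : ℝ) + 1)) := by
  obtain ⟨C, hC, c, hc, hA⟩ := F_sub_le_aux hW
  generalize finrank ℚ K = d at hA ⊢
  have hρ0 : 0 ≤ M r := M_nonneg r
  have hR₀pos : 0 < (4 * d * M r + 1) / c := by positivity
  have hRpos : 0 < (4 * d * M r + 1) / c + 2 * M r := by positivity
  refine ⟨C * M r * 2 ^ (d + 1) + 2 * ((4 * d * M r + 1) / c + 2 * M r) ^ (d + 1),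
    by positivity, ?_⟩
  intro β s hs1 hs2 hβ
  have hmpos : 0 < M β := M_pos hβ
  have h2 : |F W s (β + r) - F W s β| ≤ 2 := by
    have h0 := F_nonneg hW s (β + r)
    have h0' := F_nonneg hW s β
    have h1 := F_le_one hW (by linarith : 0 < s) (β + r)
    have h1' := F_le_one hW (by linarith : 0 < s) β
    rw [abs_le]
    constructor <;> linarith
  have hm' : M β - M r ≤ M (β + r) := M_sub_le β r
  have hA1 := hA β (β + r) s hs1 hs2
  have hA2 := hA (β + r) β s hs1 hs2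
  rw [add_sub_cancel_left] at hA1
  rw [sub_add_cancel_left, M_neg] at hA2
  have hβ' : 0 < M (β + r) → β + r ≠ 0 := by
    intro h h0
    rw [h0, M_zero] at h
    exact lt_irrefl _ h
  have hF0 : W β = 0 → W (β + r) = 0 → |F W s (β + r) - F W s β| = 0 := by
    intro h h'
    simp [F, h, h']
  generalize F W s (β + r) = Fy at *
  generalize F W s β = Fx at *
  generalize M (β + r) = m' at *
  generalize M β = m at *
  generalize M r = ρ at *
  set R₀ := (4 * d * ρ + 1) / c with hR₀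
  have hcR₀ : c * R₀ = 4 * d * ρ + 1 := by rw [hR₀]; field_simp
  have hd0 : (0 : ℝ) ≤ d := Nat.cast_nonneg d
  have hpow_nonneg : 0 ≤ m ^ (-((d : ℝ) + 1)) := Real.rpow_nonneg hmpos.le _
  by_cases hmR : m < R₀ + 2 * ρ
  · have hone : 1 ≤ (R₀ + 2 * ρ) ^ (d + 1) * m ^ (-((d : ℝ) + 1)) := by
      rw [rpow_neg_succ hmpos.le, ← div_eq_mul_inv, one_le_div (by positivity)]
      exact pow_le_pow_left₀ hmpos.le hmR.le _
    have h3 : 0 ≤ C * ρ * 2 ^ (d + 1) * m ^ (-((d : ℝ) + 1)) := by positivity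
    calc |Fy - Fx| ≤ 2 := h2
      _ ≤ 2 * ((R₀ + 2 * ρ) ^ (d + 1) * m ^ (-((d : ℝ) + 1))) := by linarith
      _ ≤ (C * ρ * 2 ^ (d + 1) + 2 * (R₀ + 2 * ρ) ^ (d + 1)) * m ^ (-((d : ℝ) + 1)) := by
          linarith
  · rw [not_lt] at hmR
    have h3 : 0 ≤ 2 * (R₀ + 2 * ρ) ^ (d + 1) * m ^ (-((d : ℝ) + 1)) := by positivity
    have h2pow : (1 : ℝ) ≤ 2 ^ (d + 1) := one_le_pow₀ (by norm_num)
    by_cases hWβ : W β = 0
    · by_cases hWβ' : W (β + r) = 0
      · rw [hF0 hWβ hWβ']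
        positivity
      · have hm'R : R₀ ≤ m' := by linarith
        have hm'pos : 0 < m' := lt_of_lt_of_le hR₀pos hm'R
        have hcm' : 4 * d * ρ + 1 ≤ c * m' := by
          rw [← hcR₀]; exact mul_le_mul_of_nonneg_left hm'R hc.le
        have h := hA2 hWβ' (hβ' hm'pos) (by linarith) (by nlinarith)
        have hhalf : m / 2 ≤ m' := by linarith
        have hm'pow : m' ^ (-((d : ℝ) + 1)) ≤ 2 ^ (d + 1) * m ^ (-((d : ℝ) + 1)) := by
          calc m' ^ (-((d : ℝ) + 1)) ≤ (m / 2) ^ (-((d : ℝ) + 1)) :=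
                Real.rpow_le_rpow_of_nonpos (by linarith) hhalf (by linarith)
            _ = 2 ^ (d + 1) * m ^ (-((d : ℝ) + 1)) := by
                rw [rpow_neg_succ (by linarith), rpow_neg_succ hmpos.le, div_pow, inv_div,
                  div_eq_mul_inv]
        rw [abs_sub_comm]
        calc |Fx - Fy| ≤ C * ρ * m' ^ (-((d : ℝ) + 1)) := h
          _ ≤ C * ρ * (2 ^ (d + 1) * m ^ (-((d : ℝ) + 1))) :=
              mul_le_mul_of_nonneg_left hm'pow (by positivity)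
          _ ≤ (C * ρ * 2 ^ (d + 1) + 2 * (R₀ + 2 * ρ) ^ (d + 1)) * m ^ (-((d : ℝ) + 1)) := by
              linarith
    · have hmR₀ : R₀ ≤ m := by linarith
      have hcm : 4 * d * ρ + 1 ≤ c * m := by
        rw [← hcR₀]; exact mul_le_mul_of_nonneg_left hmR₀ hc.le
      have h := hA1 hWβ hβ (by linarith) (by nlinarith)
      have h4 : C * ρ * m ^ (-((d : ℝ) + 1)) ≤ C * ρ * 2 ^ (d + 1) * m ^ (-((d : ℝ) + 1)) := by
        have : 0 ≤ C * ρ * m ^ (-((d : ℝ) + 1)) := by positivity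
        nlinarith
      calc |Fy - Fx| ≤ C * ρ * m ^ (-((d : ℝ) + 1)) := h
        _ ≤ (C * ρ * 2 ^ (d + 1) + 2 * (R₀ + 2 * ρ) ^ (d + 1)) * m ^ (-((d : ℝ) + 1)) := by
            linarith

/-- **Translation bound** (8-ANA-L): for a weight `W` satisfying `LogLip`, the sum over an ideal
`J` of the translation differences of `F W s` is bounded uniformly in `s ∈ (1, 2)`. -/
theorem transBound {W : 𝓞 K → ℝ} (hW : LogLip W) (J : Ideal (𝓞 K)) (r : 𝓞 K) :
    ∃ B : ℝ, ∀ s : ℝ, 1 < s → s < 2 →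
      Summable (fun γ : J => |F W s ((γ : 𝓞 K) + r) - F W s γ|) ∧
      ∑' γ : J, |F W s ((γ : 𝓞 K) + r) - F W s γ| ≤ B := by
  obtain ⟨C, hC, hterm⟩ := term_le hW r
  set g : 𝓞 K → ℝ := fun β =>
    C * M β ^ (-((finrank ℚ K : ℝ) + 1)) + (if β = 0 then 2 else 0) with hg
  have hgsum : Summable g :=
    (summable_M_rpow.mul_left C).add (hasSum_ite_eq (0 : 𝓞 K) (2 : ℝ)).summable
  have hg0 : ∀ β, 0 ≤ g β := by
    intro β
    have h1 : 0 ≤ C * M β ^ (-((finrank ℚ K : ℝ) + 1)) :=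
      mul_nonneg hC (Real.rpow_nonneg (M_nonneg β) _)
    have h2 : (0 : ℝ) ≤ (if β = 0 then 2 else 0) := by split_ifs <;> norm_num
    exact add_nonneg h1 h2
  have hle : ∀ s : ℝ, 1 < s → s < 2 → ∀ β : 𝓞 K, |F W s (β + r) - F W s β| ≤ g β := by
    intro s hs1 hs2 β
    by_cases hβ : β = 0
    · have h0 := F_nonneg hW s (β + r)
      have h0' := F_nonneg hW s β
      have h1 := F_le_one hW (by linarith : 0 < s) (β + r)
      have h1' := F_le_one hW (by linarith : 0 < s) β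
      have h2 : |F W s (β + r) - F W s β| ≤ 2 := by
        rw [abs_le]
        constructor <;> linarith
      have h3 : 0 ≤ C * M β ^ (-((finrank ℚ K : ℝ) + 1)) :=
        mul_nonneg hC (Real.rpow_nonneg (M_nonneg β) _)
      simp only [hg, if_pos hβ]
      linarith
    · simp only [hg, if_neg hβ, add_zero]
      exact hterm β s hs1 hs2 hβ
  refine ⟨∑' β : 𝓞 K, g β, fun s hs1 hs2 => ?_⟩
  have hgJ : Summable (fun γ : J => g (γ : 𝓞 K)) := hgsum.comp_injective Subtype.val_injective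
  have hS : Summable (fun γ : J => |F W s ((γ : 𝓞 K) + r) - F W s γ|) :=
    Summable.of_nonneg_of_le (fun _ => abs_nonneg _) (fun γ => hle s hs1 hs2 γ) hgJ
  refine ⟨hS, ?_⟩
  calc ∑' γ : J, |F W s ((γ : 𝓞 K) + r) - F W s γ|
      ≤ ∑' γ : J, g (γ : 𝓞 K) := hS.tsum_le_tsum (fun γ => hle s hs1 hs2 γ) hgJ
    _ ≤ ∑' β : 𝓞 K, g β := tsum_comp_le_tsum_of_inj hgsum hg0 Subtype.val_injective

end Fermat.Agent.S14.H44
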