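import Fermat.Agent.S14.UnitWeight_helper29
import Fermat.Agent.S14.TransBound_helper44

/-
S14 / WP8 row 183 (B.L), helper44: the translation bound `transBound` specialised to the unit
weight `Fermat.Agent.S14.H29.W` of `UnitWeight_helper29.lean`.
-/

namespace Fermat.Agent.S14.H44

open NumberField

variable (K : Type*) [Field K] [NumberField K]

/-- helper29's unit weight satisfies the `LogLip` interface. -/
theorem logLip_W : LogLip (Fermat.Agent.S14.H29.W K) :=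
  ⟨Fermat.Agent.S14.H29.W_nonneg K, Fermat.Agent.S14.H29.W_le_one K,
    Fermat.Agent.S14.H29.W_cone K, Fermat.Agent.S14.H29.W_lip K⟩

/-- **Row 183 (B.L)**: the translation bound for `F s γ = W K γ * |N γ| ^ (-s)`, with `W` the
unit weight of `UnitWeight_helper29`, in fully unfolded form. -/
theorem transBound_W (J : Ideal (𝓞 K)) (r : 𝓞 K) :
    ∃ B : ℝ, ∀ s : ℝ, 1 < s → s < 2 →
      Summable (fun γ : J =>
        |Fermat.Agent.S14.H29.W K ((γ : 𝓞 K) + r) *
            |(Algebra.norm ℤ ((γ : 𝓞 K) + r) : ℝ)| ^ (-s) -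
          Fermat.Agent.S14.H29.W K (γ : 𝓞 K) * |(Algebra.norm ℤ (γ : 𝓞 K) : ℝ)| ^ (-s)|) ∧
      ∑' γ : J,
        |Fermat.Agent.S14.H29.W K ((γ : 𝓞 K) + r) *
            |(Algebra.norm ℤ ((γ : 𝓞 K) + r) : ℝ)| ^ (-s) -
          Fermat.Agent.S14.H29.W K (γ : 𝓞 K) * |(Algebra.norm ℤ (γ : 𝓞 K) : ℝ)| ^ (-s)| ≤ B :=
  transBound (logLip_W K) J r

/-- The same with the abbreviation `F`. -/
theorem transBound_W' (J : Ideal (𝓞 K)) (r : 𝓞 K) :
    ∃ B : ℝ, ∀ s : ℝ, 1 < s → s < 2 →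
      Summable (fun γ : J => |F (Fermat.Agent.S14.H29.W K) s ((γ : 𝓞 K) + r) -
        F (Fermat.Agent.S14.H29.W K) s γ|) ∧
      ∑' γ : J, |F (Fermat.Agent.S14.H29.W K) s ((γ : 𝓞 K) + r) -
        F (Fermat.Agent.S14.H29.W K) s γ| ≤ B :=
  transBound (logLip_W K) J r

end Fermat.Agent.S14.H44
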