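import Fermat.Agent.S14.BoundB_helper29
import Fermat.Agent.S14.TransBoundW_helper44

/-
S14 / WP8 row 183 (B.L), helper44: the translation bound in the exact shape `H29.TransBd K`
consumed by `Fermat.Agent.S14.H29.stmtB_of`.
-/

namespace Fermat.Agent.S14.H44

open NumberField

/-- **Row 183**: the translation-bound hypothesis of `H29.stmtB_of` holds for every number
field. -/
theorem transBd (K : Type*) [Field K] [NumberField K] : Fermat.Agent.S14.H29.TransBd K :=
  fun J r => transBound_W K J r

end Fermat.Agent.S14.H44
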