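import Fermat.Agent.S14.BoundB_helper29
import Fermat.Agent.S14.TransBd_helper44
import Fermat.Agent.S14.PartialZeta_helper51

/-!
# S14 / WP8 row 184 (B.A): the orbit decomposition, and `StmtB`

`orbitDecomp K : H29.OrbitDecomp K` for the unit weight `H29.W K`, and the final
`stmtB : StmtB` (differences of partial zeta functions of ideal classes are bounded on `(1,2)`).
-/

set_option autoImplicit false

namespace Fermat.Agent.S14.H51

open NumberField NumberField.Units Ideal
open scoped nonZeroDivisors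

/-- **Row 184**: the orbit decomposition
`Z_C(s) = N(J)^s / w * ∑_{γ ∈ J} W γ |N γ|^(-s)` for `J` in the class `C⁻¹`. -/
theorem orbitDecomp (K : Type*) [Field K] [NumberField K] :
    Fermat.Agent.S14.H29.OrbitDecomp K := by
  intro C J hJ s hs
  have h := hasSum_F J C (W := H29.W K) (H29.W_nonneg K) (H29.W_hasSum K) hJ hs
  refine ⟨h.summable, ?_⟩
  have h2 : ∑' γ : (J : Ideal (𝓞 K)), H29.wF K s γ =
      torsionOrder K * (absNorm (J : Ideal (𝓞 K)) : ℝ) ^ (-s) *
        Fermat.Agent.S14.partialZeta K C s := h.tsum_eq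
  rw [h2]
  have hw : (torsionOrder K : ℝ) ≠ 0 := Nat.cast_ne_zero.mpr (torsionOrder_ne_zero K)
  have hN : (0 : ℝ) < absNorm (J : Ideal (𝓞 K)) := lt_of_lt_of_le one_pos (one_le_absNorm K J)
  have hNs : (absNorm (J : Ideal (𝓞 K)) : ℝ) ^ s * (absNorm (J : Ideal (𝓞 K)) : ℝ) ^ (-s) = 1 := by
    rw [← Real.rpow_add hN, add_neg_cancel, Real.rpow_zero]
  field_simp
  linear_combination (-(Fermat.Agent.S14.partialZeta K C s)) * hNs

/-- **(B)**: differences of partial zeta functions of ideal classes are bounded on `(1, 2)`. -/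
theorem stmtB : Fermat.Agent.S14.StmtB := fun F _ _ =>
  H29.stmtB_of (orbitDecomp F) (H44.transBd F) (fun _ hs => summable_absNorm_rpow F hs)
    (exists_bound_sub_one_mul_zetaIdeal F)

end Fermat.Agent.S14.H51
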