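import Fermat.Agent.S14.Stmts

/-!
# S14, node (P3): there is no singular primary number for `p = 3` (helper71)

`𝓞 K` is a PID for `K = ℚ(ζ₃)`, so `α = u γ³` with `u` a unit; `γ³ ≡ ±1`, `ξ³ ≡ ±1` modulo
`λ⁴` (`λ = ζ - 1`), hence `u ≡ ±1` modulo `λ²` and `u = ±1` by Kummer's lemma for `p = 3`
(`IsCyclotomicExtension.Rat.Three.eq_one_or_neg_one_of_unit_of_congruent`): `α = (±γ)³`.
Only `not_pow`, `ideal_pow`, `coprime`, `local_pow` are used.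
-/

set_option autoImplicit false

open scoped NumberField

namespace Fermat.Agent.S14.H71

open IsCyclotomicExtension.Rat.Three

/-- (P3) no singular primary number for `p = 3`. -/
theorem stmtP3 : StmtP3 := by
  intro K _ _ _ ζ hζ α h
  have : IsPrincipalIdealRing (𝓞 K) := IsCyclotomicExtension.Rat.three_pid K
  obtain ⟨I, hI⟩ := h.ideal_pow
  have hgen : I = Ideal.span {Submodule.IsPrincipal.generator I} :=
    (Ideal.span_singleton_generator I).symm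
  obtain ⟨γ, hγ⟩ : ∃ γ : 𝓞 K, I = Ideal.span {γ} := ⟨_, hgen⟩
  rw [hγ, Ideal.span_singleton_pow, Ideal.span_singleton_eq_span_singleton] at hI
  obtain ⟨ε, hε⟩ := hI
  have hα : α = γ ^ 3 * ((ε⁻¹ : (𝓞 K)ˣ) : 𝓞 K) := by
    rw [← hε, mul_assoc, Units.mul_inv, mul_one]
  have hγ' : ¬ (hζ.toInteger - 1) ∣ γ := by
    intro hd
    apply h.coprime
    rw [hα]
    exact Dvd.dvd.mul_right (dvd_pow hd (by norm_num)) _
  obtain ⟨ξ, hξ⟩ := h.local_pow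
  have hξ' : ¬ (hζ.toInteger - 1) ∣ ξ := by
    intro hd
    apply h.coprime
    have h1 : (hζ.toInteger - 1) ∣ α - ξ ^ 3 := Dvd.dvd.trans (dvd_pow_self _ (by norm_num)) hξ
    have h2 : (hζ.toInteger - 1) ∣ ξ ^ 3 := dvd_pow hd (by norm_num)
    have h3 := dvd_add h1 h2
    rwa [sub_add_cancel] at h3
  have hg := lambda_pow_four_dvd_cube_sub_one_or_add_one_of_lambda_not_dvd hζ hγ'
  have hx := lambda_pow_four_dvd_cube_sub_one_or_add_one_of_lambda_not_dvd hζ hξ'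
  have h23 : (hζ.toInteger - 1) ^ 2 ∣ (hζ.toInteger - 1) ^ 3 := pow_dvd_pow _ (by norm_num)
  have h24 : (hζ.toInteger - 1) ^ 2 ∣ (hζ.toInteger - 1) ^ 4 := pow_dvd_pow _ (by norm_num)
  have hmain : (hζ.toInteger - 1) ^ 2 ∣ γ ^ 3 * ((ε⁻¹ : (𝓞 K)ˣ) : 𝓞 K) - ξ ^ 3 := by
    rw [← hα]; exact h23.trans hξ
  have key : ∃ n : ℤ, (hζ.toInteger - 1) ^ 2 ∣ (((ε⁻¹ : (𝓞 K)ˣ) : 𝓞 K) - (n : 𝓞 K)) := by
    rcases hg with hg | hg <;> rcases hx with hx | hx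
    · refine ⟨1, ?_⟩
      have e : ((ε⁻¹ : (𝓞 K)ˣ) : 𝓞 K) - ((1 : ℤ) : 𝓞 K) =
          (γ ^ 3 * ((ε⁻¹ : (𝓞 K)ˣ) : 𝓞 K) - ξ ^ 3) - (γ ^ 3 - 1) * ((ε⁻¹ : (𝓞 K)ˣ) : 𝓞 K)
            + (ξ ^ 3 - 1) := by
        push_cast; ring
      rw [e]
      exact dvd_add (dvd_sub hmain (Dvd.dvd.mul_right (h24.trans hg) _)) (h24.trans hx)
    · refine ⟨-1, ?_⟩
      have e : ((ε⁻¹ : (𝓞 K)ˣ) : 𝓞 K) - ((-1 : ℤ) : 𝓞 K) =
          (γ ^ 3 * ((ε⁻¹ : (𝓞 K)ˣ) : 𝓞 K) - ξ ^ 3) - (γ ^ 3 - 1) * ((ε⁻¹ : (𝓞 K)ˣ) : 𝓞 K)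
            + (ξ ^ 3 + 1) := by
        push_cast; ring
      rw [e]
      exact dvd_add (dvd_sub hmain (Dvd.dvd.mul_right (h24.trans hg) _)) (h24.trans hx)
    · refine ⟨-1, ?_⟩
      have e : ((ε⁻¹ : (𝓞 K)ˣ) : 𝓞 K) - ((-1 : ℤ) : 𝓞 K) =
          (γ ^ 3 + 1) * ((ε⁻¹ : (𝓞 K)ˣ) : 𝓞 K) - (γ ^ 3 * ((ε⁻¹ : (𝓞 K)ˣ) : 𝓞 K) - ξ ^ 3)
            - (ξ ^ 3 - 1) := by
        push_cast; ring
      rw [e]
      exact dvd_sub (dvd_sub (Dvd.dvd.mul_right (h24.trans hg) _) hmain) (h24.trans hx)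
    · refine ⟨1, ?_⟩
      have e : ((ε⁻¹ : (𝓞 K)ˣ) : 𝓞 K) - ((1 : ℤ) : 𝓞 K) =
          (γ ^ 3 + 1) * ((ε⁻¹ : (𝓞 K)ˣ) : 𝓞 K) - (γ ^ 3 * ((ε⁻¹ : (𝓞 K)ˣ) : 𝓞 K) - ξ ^ 3)
            - (ξ ^ 3 + 1) := by
        push_cast; ring
      rw [e]
      exact dvd_sub (dvd_sub (Dvd.dvd.mul_right (h24.trans hg) _) hmain) (h24.trans hx)
  rcases eq_one_or_neg_one_of_unit_of_congruent hζ (ε⁻¹) key with h1 | h1
  · apply h.not_pow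
    refine ⟨(γ : K), ?_⟩
    rw [hα, h1]
    simp
  · apply h.not_pow
    refine ⟨-(γ : K), ?_⟩
    rw [hα, h1]
    simp only [Units.val_neg, Units.val_one, mul_neg, mul_one, map_neg, map_pow]
    ring

end Fermat.Agent.S14.H71
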