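import Mathlib

/-!
S14, WP5 (Thaine): from the valuation form to the ideal form (owner: helper72).

Generic Dedekind-domain lemma: if all multiplicities of the prime factors of `I` outside a finite
set `T` of primes are divisible by `m`, then `I = J ^ m * ∏ P ∈ T, P ^ v_P(I)`.
-/

set_option autoImplicit false

namespace Fermat.Agent.S14.H72

open UniqueFactorizationMonoid

variable {A : Type*} [CommRing A] [IsDedekindDomain A]

/-- **Ideal form.** If `m ∣ v_P(I)` for every nonzero prime `P ∉ T`, then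
`I = J ^ m * ∏ P ∈ T, P ^ v_P(I)` for some nonzero ideal `J`. -/
theorem exists_eq_pow_mul_prod (I : Ideal A) (hI : I ≠ ⊥) (m : ℕ) (T : Finset (Ideal A))
    (h : ∀ P : Ideal A, P.IsPrime → P ≠ ⊥ → P ∉ T →
      m ∣ Multiset.count P (normalizedFactors I)) :
    ∃ J : Ideal A, J ≠ ⊥ ∧
      I = J ^ m * ∏ P ∈ T, P ^ Multiset.count P (normalizedFactors I) := by
  classical
  set F := normalizedFactors I with hF
  have hprime : ∀ P ∈ F, P.IsPrime ∧ P ≠ ⊥ := by
    intro P hP
    have hp := prime_of_normalized_factor P hP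
    exact ⟨Ideal.isPrime_of_prime hp, hp.ne_zero⟩
  have hdiv : ∀ P ∈ F.toFinset \ T, m ∣ Multiset.count P F := by
    intro P hP
    rw [Finset.mem_sdiff, Multiset.mem_toFinset] at hP
    exact h P (hprime P hP.1).1 (hprime P hP.1).2 hP.2
  -- the ideal `J`
  refine ⟨∏ P ∈ F.toFinset \ T, P ^ (Multiset.count P F / m), ?_, ?_⟩
  · rw [← Ideal.zero_eq_bot, Finset.prod_ne_zero_iff]
    intro P hP
    rw [Finset.mem_sdiff, Multiset.mem_toFinset] at hP
    exact pow_ne_zero _ (hprime P hP.1).2
  · have h1 : I = F.prod := by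
      have := Ideal.prod_normalizedFactors_eq_self hI
      exact this.symm
    have h2 : F.prod = ∏ P ∈ F.toFinset, P ^ Multiset.count P F :=
      Finset.prod_multiset_count F
    have h3 : ∏ P ∈ T, P ^ Multiset.count P F = ∏ P ∈ F.toFinset ∩ T, P ^ Multiset.count P F := by
      rw [Finset.inter_comm]
      symm
      apply Finset.prod_subset Finset.inter_subset_left
      intro P hPT hP
      have : P ∉ F := by
        intro hPF
        exact hP (Finset.mem_inter.mpr ⟨hPT, Multiset.mem_toFinset.mpr hPF⟩)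
      rw [Multiset.count_eq_zero_of_notMem this, pow_zero]
    have h4 : (∏ P ∈ F.toFinset \ T, P ^ (Multiset.count P F / m)) ^ m =
        ∏ P ∈ F.toFinset \ T, P ^ Multiset.count P F := by
      rw [← Finset.prod_pow]
      refine Finset.prod_congr rfl fun P hP => ?_
      rw [← pow_mul, Nat.div_mul_cancel (hdiv P hP)]
    rw [h4, h3, h1, h2, ← Finset.prod_union (Finset.sdiff_disjoint.mono_right Finset.inter_subset_right)]
    congr 1
    ext P
    simp only [Finset.mem_union, Finset.mem_sdiff, Finset.mem_inter]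
    tauto

/-- **Class-group form.** If `a ≠ 0` and `m ∣ v_P(a)` for every nonzero prime `P ∉ T`, then the
product of the classes `[P] ^ v_P(a)`, `P ∈ T`, is an `m`-th power in the class group. -/
theorem exists_classGroup_prod_eq_pow (a : A) (ha : a ≠ 0) (m : ℕ) (T : Finset (Ideal A))
    (hT : ∀ P ∈ T, P ≠ ⊥)
    (h : ∀ P : Ideal A, P.IsPrime → P ≠ ⊥ → P ∉ T →
      m ∣ Multiset.count P (normalizedFactors (Ideal.span {a}))) :
    ∃ c : ClassGroup A,
      ∏ P ∈ T.attach, ClassGroup.mk0 ⟨P.1, mem_nonZeroDivisors_of_ne_zero (hT P.1 P.2)⟩ ^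
        Multiset.count P.1 (normalizedFactors (Ideal.span {a})) = c ^ m := by
  classical
  have hI : Ideal.span {a} ≠ ⊥ := by rwa [Ne, Ideal.span_singleton_eq_bot]
  obtain ⟨J, hJ, hIJ⟩ := exists_eq_pow_mul_prod (Ideal.span {a}) hI m T h
  have hJ0 : J ∈ nonZeroDivisors (Ideal A) := mem_nonZeroDivisors_of_ne_zero hJ
  refine ⟨(ClassGroup.mk0 ⟨J, hJ0⟩)⁻¹, ?_⟩
  have hprinc : ClassGroup.mk0 ⟨Ideal.span {a}, mem_nonZeroDivisors_of_ne_zero hI⟩ = 1 := by
    rw [ClassGroup.mk0_eq_one_iff]
    exact ⟨⟨a, rfl⟩⟩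
  have hsub : (⟨Ideal.span {a}, mem_nonZeroDivisors_of_ne_zero hI⟩ : nonZeroDivisors (Ideal A)) =
      ⟨J, hJ0⟩ ^ m * ∏ P ∈ T.attach,
        (⟨P.1, mem_nonZeroDivisors_of_ne_zero (hT P.1 P.2)⟩ : nonZeroDivisors (Ideal A)) ^
          Multiset.count P.1 (normalizedFactors (Ideal.span {a})) := by
    apply Subtype.ext
    rw [Submonoid.coe_mul, SubmonoidClass.coe_pow, Submonoid.coe_finsetProd]
    simp only [SubmonoidClass.coe_pow]
    rw [Finset.prod_attach T (fun P => P ^ Multiset.count P (normalizedFactors (Ideal.span {a})))]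
    exact hIJ
  rw [hsub, map_mul, map_pow, map_prod] at hprinc
  simp only [map_pow] at hprinc
  rw [inv_pow, eq_inv_iff_mul_eq_one, mul_comm]
  exact hprinc

/-- the finite set of nonzero primes containing a nonzero element -/
theorem mem_toFinset_normalizedFactors_span_iff (x : A) (hx : x ≠ 0)
    (P : Ideal A) :
    P ∈ (normalizedFactors (Ideal.span {x})).toFinset ↔ P.IsPrime ∧ x ∈ P := by
  have hI : Ideal.span {x} ≠ ⊥ := by rwa [Ne, Ideal.span_singleton_eq_bot]
  rw [Multiset.mem_toFinset, Ideal.mem_normalizedFactors_iff hI, Ideal.span_singleton_le_iff_mem]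

theorem ne_bot_of_mem_toFinset_normalizedFactors_span (x : A)
    (P : Ideal A) (hP : P ∈ (normalizedFactors (Ideal.span {x})).toFinset) : P ≠ ⊥ := by
  rw [Multiset.mem_toFinset] at hP
  exact (prime_of_normalized_factor P hP).ne_zero

/-- **Class-group form, with `T` = the primes containing `x`.** If `a ≠ 0`, `x ≠ 0` and
`m ∣ v_P(a)` for every nonzero prime `P` not containing `x`, then the product of the classes
`[P] ^ v_P(a)` over the primes `P ∋ x` is an `m`-th power in the class group. -/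
theorem exists_classGroup_prod_eq_pow_of_mem (a : A) (ha : a ≠ 0)
    (x : A) (hx : x ≠ 0) (m : ℕ)
    (h : ∀ P : Ideal A, P.IsPrime → P ≠ ⊥ → x ∉ P →
      m ∣ Multiset.count P (normalizedFactors (Ideal.span {a}))) :
    ∃ c : ClassGroup A,
      ∏ P ∈ (normalizedFactors (Ideal.span {x})).toFinset.attach,
        ClassGroup.mk0 ⟨P.1, mem_nonZeroDivisors_of_ne_zero
          (ne_bot_of_mem_toFinset_normalizedFactors_span x P.1 P.2)⟩ ^
        Multiset.count P.1 (normalizedFactors (Ideal.span {a})) = c ^ m := by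
  refine exists_classGroup_prod_eq_pow a ha m _
    (fun P hP => ne_bot_of_mem_toFinset_normalizedFactors_span x P hP) ?_
  intro P hP hP0 hPT
  refine h P hP hP0 fun hxP => hPT ?_
  exact (mem_toFinset_normalizedFactors_span_iff x hx P).mpr ⟨hP, hxP⟩

end Fermat.Agent.S14.H72
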