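import Fermat.Agent.S14.Stmts2
import Fermat.Agent.S14.IdealForm_helper72

/-!
# S14 / WP5: the bridge from the valuation form of Thaine's relation (`StmtThaineA`) to the
class-group form (`StmtThaine`), given that `Gal(K/ℚ)` acts simply transitively on the primes
above `ℓ` (`StmtGalPrimes`)  (helper96)
-/

namespace Fermat.Agent.S14.H96

open NumberField UniqueFactorizationMonoid
open scoped nonZeroDivisors

/-- membership in the image of an ideal under a ring automorphism -/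
theorem mem_map_ringEquiv_iff {R : Type*} [CommRing R] (e : R ≃+* R) (I : Ideal R) (x : R) :
    x ∈ I.map (e : R →+* R) ↔ e.symm x ∈ I := by
  rw [Ideal.mem_map_iff_of_surjective (e : R →+* R) e.surjective]
  constructor
  · rintro ⟨z, hz, rfl⟩
    simpa using hz
  · intro h
    exact ⟨e.symm x, h, e.apply_symm_apply x⟩

/-- the integers contained in a prime ideal containing the prime number `ℓ` -/
theorem intCast_mem_iff_dvd {R : Type*} [CommRing R] (𝔩 : Ideal R) [h𝔩 : 𝔩.IsPrime] {ℓ : ℕ}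
    (hℓ : ℓ.Prime) (h : (ℓ : R) ∈ 𝔩) (n : ℤ) : (n : R) ∈ 𝔩 ↔ (ℓ : ℤ) ∣ n := by
  constructor
  · intro hn
    by_contra hdvd
    have hcop : IsCoprime (ℓ : ℤ) n :=
      ((Nat.prime_iff_prime_int.1 hℓ).irreducible.coprime_iff_not_dvd).2 hdvd
    obtain ⟨u, v, huv⟩ := hcop
    have h1 : ((u * (ℓ : ℤ) + v * n : ℤ) : R) ∈ 𝔩 := by
      push_cast
      exact 𝔩.add_mem (𝔩.mul_mem_left _ h) (𝔩.mul_mem_left _ hn)
    rw [huv] at h1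
    exact h𝔩.ne_top ((Ideal.eq_top_iff_one 𝔩).2 (by simpa using h1))
  · rintro ⟨m, rfl⟩
    push_cast
    exact 𝔩.mul_mem_right _ h

/-- The statement that `Gal(K/ℚ)` acts simply transitively on the primes above `ℓ ≡ 1 mod p`. -/
def StmtGalPrimes : Prop :=
  ∀ (p ℓ : ℕ) [Fact p.Prime], ℓ.Prime → ℓ % p = 1 →
    ∀ (K : Type) [Field K] [NumberField K] [IsCyclotomicExtension {p} ℚ K]
      (𝔩 : Ideal (𝓞 K)) [𝔩.IsPrime], (ℓ : 𝓞 K) ∈ 𝔩 →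
      (∀ P : Ideal (𝓞 K), P.IsPrime → (ℓ : 𝓞 K) ∈ P →
        ∃ σ : K ≃ₐ[ℚ] K, P = 𝔩.map (galRestrict ℤ ℚ K (𝓞 K) σ : 𝓞 K →+* 𝓞 K)) ∧
      (∀ σ τ : K ≃ₐ[ℚ] K, 𝔩.map (galRestrict ℤ ℚ K (𝓞 K) σ : 𝓞 K →+* 𝓞 K) =
        𝔩.map (galRestrict ℤ ℚ K (𝓞 K) τ : 𝓞 K →+* 𝓞 K) → σ = τ)

theorem thaine_of_A_of_galPrimes (hG : StmtGalPrimes) (hTA : StmtThaineA) : StmtThaine := by
  intro p _ hp2 K _ _ _ ζ hζ ℓ hℓ hℓp 𝔩 h𝔩prime hℓ𝔩 g hg k hk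
  classical
  have hp : p.Prime := Fact.out
  have : Fact ℓ.Prime := ⟨hℓ⟩
  have := h𝔩prime
  obtain ⟨hGt, hGi⟩ := hG p ℓ hℓ hℓp K (𝔩 : Ideal (𝓞 K)) hℓ𝔩
  obtain ⟨a, ha0, hA⟩ := hTA p ℓ hℓp K hζ.toInteger hζ.toInteger_isPrimitiveRoot g hg
  -- the conjugate primes
  set e : (K ≃ₐ[ℚ] K) → (𝓞 K ≃+* 𝓞 K) := fun σ => galRestrictionDatum ℤ ℚ K (𝓞 K) σ with he
  have hinv : ∀ (σ : K ≃ₐ[ℚ] K) (x : 𝓞 K), e σ⁻¹ (e σ x) = x := by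
    intro σ x
    have h1 : (galRestrict ℤ ℚ K (𝓞 K) σ⁻¹ * galRestrict ℤ ℚ K (𝓞 K) σ) x = x := by
      rw [← map_mul, inv_mul_cancel, map_one]; rfl
    exact h1
  set Pn : (K ≃ₐ[ℚ] K) → (Ideal (𝓞 K))⁰ := fun σ => Ideal.mapNonZero (e σ⁻¹) 𝔩 with hPn
  have hPmem : ∀ σ x, x ∈ (Pn σ : Ideal (𝓞 K)) ↔ e σ x ∈ (𝔩 : Ideal (𝓞 K)) := by
    intro σ x
    rw [hPn, Ideal.coe_mapNonZero, mem_map_ringEquiv_iff]
    have h1 : (e σ⁻¹).symm x = e σ x := (RingEquiv.symm_apply_eq _).2 (hinv σ x).symm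
    rw [h1]
  have hPcomap : ∀ σ, (Pn σ : Ideal (𝓞 K)) = Ideal.comap (e σ : 𝓞 K →+* 𝓞 K) 𝔩 := by
    intro σ; ext x; rw [hPmem]; rfl
  have hPprime : ∀ σ, (Pn σ : Ideal (𝓞 K)).IsPrime := by
    intro σ; rw [hPcomap]; exact Ideal.comap_isPrime _ _
  have hP0 : ∀ σ, (Pn σ : Ideal (𝓞 K)) ≠ ⊥ := fun σ => nonZeroDivisors.ne_zero (Pn σ).2
  have hPℓ : ∀ σ, (ℓ : 𝓞 K) ∈ (Pn σ : Ideal (𝓞 K)) := by
    intro σ; rw [hPmem, map_natCast]; exact hℓ𝔩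
  set v : (K ≃ₐ[ℚ] K) → ℕ := fun σ =>
    Multiset.count (Pn σ : Ideal (𝓞 K)) (normalizedFactors (Ideal.span {a})) with hv
  -- the congruence `k σ ≡ v σ mod p`
  have hpdvd : p ∣ ℓ - 1 := by
    have h1 : 1 ≡ ℓ [MOD p] := by
      show 1 % p = ℓ % p
      rw [hℓp, Nat.one_mod_eq_one.2 hp.one_lt.ne']
    exact (Nat.modEq_iff_dvd' hℓ.one_lt.le).1 h1
  have hsu : IsUnit (g : ZMod ℓ) := by
    have : IsOfFinOrder (g : ZMod ℓ) := by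
      rw [← orderOf_pos_iff, hg]; exact Nat.sub_pos_of_lt hℓ.one_lt
    exact this.isUnit
  obtain ⟨u, hu⟩ := hsu
  have huord : orderOf u = ℓ - 1 := by rw [← hg, ← hu, orderOf_units]
  have hcong : ∀ σ, k σ ≡ v σ [MOD p] := by
    intro σ
    have h1 := (hA (Pn σ) (hPprime σ) (hP0 σ)).2 (hPℓ σ)
    rw [hPmem] at h1
    have h2 := hk σ
    have h3 : ((g : 𝓞 K) ^ (k σ) - (g : 𝓞 K) ^ (v σ)) ∈ (𝔩 : Ideal (𝓞 K)) := by
      have h4 := (𝔩 : Ideal (𝓞 K)).sub_mem h1 h2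
      have h5 : e σ (1 - hζ.toInteger - (g : 𝓞 K) ^ v σ) -
          (1 - galRestrict ℤ ℚ K (𝓞 K) σ hζ.toInteger - (g : 𝓞 K) ^ k σ) =
          (g : 𝓞 K) ^ (k σ) - (g : 𝓞 K) ^ (v σ) := by
        rw [map_sub, map_sub, map_one, map_pow, map_natCast]
        show 1 - galRestrict ℤ ℚ K (𝓞 K) σ hζ.toInteger - (g : 𝓞 K) ^ v σ -
          (1 - galRestrict ℤ ℚ K (𝓞 K) σ hζ.toInteger - (g : 𝓞 K) ^ k σ) = _
        ring
      rwa [h5] at h4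
    have h4 : (ℓ : ℤ) ∣ (g : ℤ) ^ (k σ) - (g : ℤ) ^ (v σ) :=
      (intCast_mem_iff_dvd (𝔩 : Ideal (𝓞 K)) hℓ hℓ𝔩 _).1 (by push_cast; exact h3)
    have h5 : (g : ZMod ℓ) ^ (k σ) = (g : ZMod ℓ) ^ (v σ) := by
      have h6 := (ZMod.intCast_zmod_eq_zero_iff_dvd _ ℓ).2 h4
      push_cast at h6
      exact sub_eq_zero.1 h6
    have h6 : u ^ (k σ) = u ^ (v σ) := by
      apply Units.ext
      rw [Units.val_pow_eq_pow_val, Units.val_pow_eq_pow_val, hu]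
      exact h5
    have h7 := pow_eq_pow_iff_modEq.1 h6
    rw [huord] at h7
    exact h7.of_dvd hpdvd
  -- ideal form
  set T : Finset (Ideal (𝓞 K)) := Finset.univ.image (fun σ => (Pn σ : Ideal (𝓞 K))) with hT
  have hPeq : ∀ σ, (Pn σ : Ideal (𝓞 K)) =
      (𝔩 : Ideal (𝓞 K)).map (galRestrict ℤ ℚ K (𝓞 K) σ⁻¹ : 𝓞 K →+* 𝓞 K) := by
    intro σ; rfl
  have hinj : Function.Injective (fun σ => (Pn σ : Ideal (𝓞 K))) := by
    intro σ τ hστ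
    apply inv_injective
    apply hGi
    rw [← hPeq, ← hPeq]
    exact hστ
  have hTdvd : ∀ P : Ideal (𝓞 K), P.IsPrime → P ≠ ⊥ → P ∉ T →
      (ℓ - 1) ∣ Multiset.count P (normalizedFactors (Ideal.span {a})) := by
    intro P hP hP0' hPT
    by_cases hℓP : (ℓ : 𝓞 K) ∈ P
    · exfalso
      obtain ⟨σ', hσ'⟩ := hGt P hP hℓP
      apply hPT
      rw [hT, Finset.mem_image]
      refine ⟨σ'⁻¹, Finset.mem_univ _, ?_⟩
      rw [hσ', hPeq, inv_inv]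
    · exact (hA P hP hP0').1 hℓP
  have hspan0 : Ideal.span {a} ≠ (⊥ : Ideal (𝓞 K)) := by
    rw [Ne, Ideal.span_singleton_eq_bot]; exact ha0
  obtain ⟨J, hJ0, hJ⟩ := H72.exists_eq_pow_mul_prod (Ideal.span {a}) hspan0 (ℓ - 1) T hTdvd
  rw [hT, Finset.prod_image (fun σ _ τ _ h => hinj h)] at hJ
  -- class group
  set Jn : (Ideal (𝓞 K))⁰ := ⟨J, mem_nonZeroDivisors_of_ne_zero hJ0⟩ with hJn
  have hcl : (ClassGroup.mk0 Jn) ^ (ℓ - 1) * ∏ σ, (ClassGroup.mk0 (Pn σ)) ^ (v σ) = 1 := by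
    have h1 : (ClassGroup.mk0 Jn) ^ (ℓ - 1) * ∏ σ, (ClassGroup.mk0 (Pn σ)) ^ (v σ) =
        ClassGroup.mk0 (Jn ^ (ℓ - 1) * ∏ σ, (Pn σ) ^ (v σ)) := by
      rw [map_mul, map_pow, map_prod]
      simp only [map_pow]
    rw [h1]
    have h2 : Jn ^ (ℓ - 1) * ∏ σ, (Pn σ) ^ (v σ) =
        ⟨Ideal.span {a}, mem_nonZeroDivisors_of_ne_zero hspan0⟩ := by
      apply Subtype.ext
      show ((Jn ^ (ℓ - 1) * ∏ σ, (Pn σ) ^ (v σ) : (Ideal (𝓞 K))⁰) : Ideal (𝓞 K)) = Ideal.span {a}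
      rw [hJ]
      push_cast
      rfl
    rw [h2, ClassGroup.mk0_eq_one_iff]
    exact ⟨⟨a, rfl⟩⟩
  have hact : ∀ σ : K ≃ₐ[ℚ] K, clAct σ⁻¹ (ClassGroup.mk0 𝔩) = ClassGroup.mk0 (Pn σ) := by
    intro σ
    exact ClassGroup.mulEquiv_mk0 _ _
  have ht : ∀ σ, ∃ t : ℤ, (v σ : ℤ) - (k σ : ℤ) = (p : ℤ) * t := fun σ =>
    (Nat.modEq_iff_dvd.1 (hcong σ))
  choose t ht using ht
  obtain ⟨m, hm⟩ := hpdvd
  refine ⟨((ClassGroup.mk0 Jn) ^ m)⁻¹ * ∏ σ, (ClassGroup.mk0 (Pn σ)) ^ (-(t σ)), ?_⟩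
  have hkey : ∀ σ, (ClassGroup.mk0 (Pn σ)) ^ (k σ) =
      (ClassGroup.mk0 (Pn σ)) ^ (v σ) * ((ClassGroup.mk0 (Pn σ)) ^ (-(t σ))) ^ p := by
    intro σ
    rw [← zpow_natCast, ← zpow_natCast, ← zpow_natCast, ← zpow_mul, ← zpow_add]
    congr 1
    have := ht σ
    linarith
  simp_rw [hact, hkey]
  rw [Finset.prod_mul_distrib, mul_pow, ← Finset.prod_pow, inv_pow, ← pow_mul, mul_comm m p, ← hm]
  congr 1
  exact eq_inv_of_mul_eq_one_right hcl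

end Fermat.Agent.S14.H96
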