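import Mathlib

/-!
# S14 / WP5 (Thaine): setup `L = K(ζ_l)` over `K = ℚ(ζ_p)`  (helper96)
-/

namespace Fermat.Agent.S14.H96

open Polynomial NumberField Module

section Setup

variable {p l : ℕ} [hp : Fact p.Prime] [hl : Fact l.Prime]
variable (K L : Type) [Field K] [NumberField K] [IsCyclotomicExtension {p} ℚ K]
  [Field L] [NumberField L] [Algebra K L] [IsCyclotomicExtension {l} K L]

include K in
/-- `L = K(ζ_l)` over `K = ℚ(ζ_p)` is the `l * p`-th cyclotomic field. -/
theorem isCyclotomicExtension_mul (hpl : p ≠ l) : IsCyclotomicExtension {l * p} ℚ L := by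
  have : NeZero p := ⟨hp.out.ne_zero⟩
  have : NeZero l := ⟨hl.out.ne_zero⟩
  have : NeZero (l * p) := ⟨mul_ne_zero hl.out.ne_zero hp.out.ne_zero⟩
  have h1 : IsCyclotomicExtension ({p} ∪ {l}) ℚ L :=
    IsCyclotomicExtension.trans {p} {l} ℚ K L (algebraMap K L).injective
  have hζp : IsPrimitiveRoot (algebraMap K L (IsCyclotomicExtension.zeta p ℚ K)) p :=
    (IsCyclotomicExtension.zeta_spec p ℚ K).map_of_injective (algebraMap K L).injective
  have hζl : IsPrimitiveRoot (IsCyclotomicExtension.zeta l K L) l :=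
    IsCyclotomicExtension.zeta_spec l K L
  have hcop : Nat.Coprime l p := (Nat.coprime_primes hl.out hp.out).2 (Ne.symm hpl)
  have hprim : IsPrimitiveRoot
      (IsCyclotomicExtension.zeta l K L * algebraMap K L (IsCyclotomicExtension.zeta p ℚ K))
      (l * p) := by
    have h := (Commute.all (IsCyclotomicExtension.zeta l K L)
      (algebraMap K L (IsCyclotomicExtension.zeta p ℚ K))).orderOf_mul_eq_mul_orderOf_of_coprime
      (by rw [← hζl.eq_orderOf, ← hζp.eq_orderOf]; exact hcop)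
    rw [← hζl.eq_orderOf, ← hζp.eq_orderOf] at h
    rw [← h]
    exact IsPrimitiveRoot.orderOf _
  have h2 : IsCyclotomicExtension ({p} ∪ {l} ∪ {l * p}) ℚ L :=
    IsCyclotomicExtension.union_of_isPrimitiveRoot _ ℚ L hprim
  have h3 : IsCyclotomicExtension {l * p} ℚ L ↔ IsCyclotomicExtension ({l * p} ∪ {p}) ℚ L :=
    IsCyclotomicExtension.iff_union_of_dvd ℚ L
      ⟨l * p, rfl, NeZero.ne _, Dvd.intro_left l rfl⟩
  have h4 : IsCyclotomicExtension ({l * p} ∪ {p}) ℚ L ↔
      IsCyclotomicExtension ({l * p} ∪ {p} ∪ {l}) ℚ L :=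
    IsCyclotomicExtension.iff_union_of_dvd ℚ L
      ⟨l * p, Or.inl rfl, NeZero.ne _, Dvd.intro p rfl⟩
  rw [h3, h4]
  have hset : ({l * p} ∪ {p} ∪ {l} : Set ℕ) = {p} ∪ {l} ∪ {l * p} := by
    ext x; simp only [Set.mem_union, Set.mem_singleton_iff]; tauto
  rw [hset]
  exact h2

theorem finrank_eq (hpl : p ≠ l) : finrank K L = l - 1 := by
  have : NeZero p := ⟨hp.out.ne_zero⟩
  have : NeZero l := ⟨hl.out.ne_zero⟩
  have : NeZero (l * p) := ⟨mul_ne_zero hl.out.ne_zero hp.out.ne_zero⟩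
  have hcop : Nat.Coprime l p := (Nat.coprime_primes hl.out hp.out).2 (Ne.symm hpl)
  have := isCyclotomicExtension_mul K L hpl
  have h1 : finrank ℚ K = p - 1 := by
    rw [IsCyclotomicExtension.Rat.finrank p K, Nat.totient_prime hp.out]
  have h2 : finrank ℚ L = (l - 1) * (p - 1) := by
    rw [IsCyclotomicExtension.Rat.finrank (l * p) L, Nat.totient_mul hcop,
      Nat.totient_prime hp.out, Nat.totient_prime hl.out]
  have h3 := Module.finrank_mul_finrank ℚ K L
  rw [h1, h2, mul_comm] at h3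
  have hp1 : 0 < p - 1 := Nat.sub_pos_of_lt hp.out.one_lt
  exact Nat.eq_of_mul_eq_mul_right hp1 h3

include L in
theorem irreducible_cyclotomic (hpl : p ≠ l) : Irreducible (cyclotomic l K) := by
  have : NeZero l := ⟨hl.out.ne_zero⟩
  have hζl : IsPrimitiveRoot (IsCyclotomicExtension.zeta l K L) l :=
    IsCyclotomicExtension.zeta_spec l K L
  have hdeg : (minpoly K (IsCyclotomicExtension.zeta l K L)).natDegree = l - 1 := by
    rw [← hζl.powerBasis_dim K, ← PowerBasis.finrank, finrank_eq K L hpl]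
  have hint : IsIntegral K (IsCyclotomicExtension.zeta l K L) :=
    hζl.isIntegral (NeZero.pos l) |>.tower_top (R := ℤ)
  have hdvd : minpoly K (IsCyclotomicExtension.zeta l K L) ∣ cyclotomic l K := by
    apply minpoly.dvd
    rw [aeval_def, eval₂_eq_eval_map, map_cyclotomic]
    exact hζl.isRoot_cyclotomic (NeZero.pos l)
  have heq : cyclotomic l K = minpoly K (IsCyclotomicExtension.zeta l K L) := by
    refine Polynomial.eq_of_monic_of_dvd_of_natDegree_le (minpoly.monic hint)
      (cyclotomic.monic l K) hdvd ?_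
    rw [hdeg, natDegree_cyclotomic, Nat.totient_prime hl.out]
  rw [heq]
  exact minpoly.irreducible hint

end Setup

end Fermat.Agent.S14.H96

namespace Fermat.Agent.S14.H96

open Polynomial NumberField Module

section Setup2

variable {p l : ℕ} [hp : Fact p.Prime] [hl : Fact l.Prime]
variable (K L : Type) [Field K] [NumberField K] [IsCyclotomicExtension {p} ℚ K]
  [Field L] [NumberField L] [Algebra K L] [IsCyclotomicExtension {l} K L]

/-- A generator `t` of `Gal(L/K)` acting as `ζ ↦ ζ ^ s` on the `l`-th roots of unity, for a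
primitive root `s` modulo `l`. -/
theorem exists_generator (hpl : p ≠ l) (s : ℕ) (hs : orderOf (s : ZMod l) = l - 1) :
    ∃ t : L ≃ₐ[K] L, (∀ x, x ∈ Subgroup.zpowers t) ∧ ∀ ζ : L, ζ ^ l = 1 → t ζ = ζ ^ s := by
  have : NeZero l := ⟨hl.out.ne_zero⟩
  have hirr := irreducible_cyclotomic K L hpl
  let e := IsCyclotomicExtension.autEquivPow L hirr
  have hsu : IsUnit (s : ZMod l) := by
    have : IsOfFinOrder (s : ZMod l) := by
      rw [← orderOf_pos_iff, hs]; exact Nat.sub_pos_of_lt hl.out.one_lt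
    exact this.isUnit
  let u : (ZMod l)ˣ := hsu.unit
  have hu : orderOf u = l - 1 := by
    rw [← hs, ← orderOf_units]; rfl
  have hcard : Nat.card (ZMod l)ˣ = l - 1 := by
    rw [Nat.card_eq_fintype_card, ZMod.card_units_eq_totient, Nat.totient_prime hl.out]
  have hgen : Subgroup.zpowers u = ⊤ := by
    apply Subgroup.eq_top_of_card_eq
    rw [Nat.card_zpowers, hu, hcard]
  have hζ0 := IsCyclotomicExtension.zeta_spec l K L
  refine ⟨e.symm u, ?_, ?_⟩
  · intro x
    have hx : e x ∈ Subgroup.zpowers u := by rw [hgen]; trivial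
    obtain ⟨k, hk⟩ := Subgroup.mem_zpowers_iff.1 hx
    refine Subgroup.mem_zpowers_iff.2 ⟨k, ?_⟩
    apply e.injective
    rw [map_zpow, e.apply_symm_apply, hk]
  · intro ζ hζ
    obtain ⟨i, -, rfl⟩ := hζ0.eq_pow_of_pow_eq_one hζ
    rw [map_pow]
    have h1 := IsPrimitiveRoot.autToPow_spec K hζ0 (e.symm u)
    have h2 : hζ0.autToPow K (e.symm u) = u := e.apply_symm_apply u
    rw [h2] at h1
    have h3 : ((u : (ZMod l)ˣ) : ZMod l).val = s % l := by
      show ((s : ℕ) : ZMod l).val = s % l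
      exact ZMod.val_natCast l s
    rw [h3] at h1
    rw [← h1, ← pow_mul, ← pow_mul]
    have h4 : IsCyclotomicExtension.zeta l K L ^ s = IsCyclotomicExtension.zeta l K L ^ (s % l) := by
      conv_lhs => rw [← Nat.mod_add_div s l]
      rw [pow_add, pow_mul, hζ0.pow_eq_one, one_pow, mul_one]
    rw [pow_mul, ← h4, ← pow_mul, mul_comm]

theorem norm_one_sub_mul (hpl : p ≠ l) (c : K) (hc : c ^ l = c) (hc1 : c ≠ 1) (ζ : L)
    (hζ : IsPrimitiveRoot ζ l) : Algebra.norm K (1 - algebraMap K L c * ζ) = 1 := by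
  classical
  have : NeZero l := ⟨hl.out.ne_zero⟩
  have hirr := irreducible_cyclotomic K L hpl
  have := IsCyclotomicExtension.isGalois {l} K L
  have := IsCyclotomicExtension.finiteDimensional {l} K L
  apply (algebraMap K L).injective
  rw [Algebra.norm_eq_prod_automorphisms, map_one]
  have h1 : ∀ σ : L ≃ₐ[K] L, σ (1 - algebraMap K L c * ζ) = 1 - algebraMap K L c * σ ζ := by
    intro σ; simp
  simp_rw [h1]
  let E : (L ≃ₐ[K] L) ≃ primitiveRoots l L :=
    (algEquivEquivAlgHom K L).toEquiv.trans (hζ.embeddingsEquivPrimitiveRoots L hirr)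
  have h2 : ∏ σ : L ≃ₐ[K] L, (1 - algebraMap K L c * σ ζ) =
      ∏ μ : primitiveRoots l L, (1 - algebraMap K L c * (μ : L)) :=
    Fintype.prod_equiv E _ _ (fun σ => by
      simp [E, IsPrimitiveRoot.embeddingsEquivPrimitiveRoots_apply_coe])
  rw [h2, Finset.prod_coe_sort (primitiveRoots l L) (fun μ => 1 - algebraMap K L c * μ)]
  have h3 := hζ.pow_sub_pow_eq_prod_sub_mul (1 : L) (algebraMap K L c) (NeZero.pos l)
  have h4 : nthRootsFinset l (1 : L) = insert 1 (primitiveRoots l L) := by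
    rw [IsPrimitiveRoot.nthRoots_one_eq_biUnion_primitiveRoots, hl.out.divisors]
    ext x
    simp
  have h5 : (1 : L) ∉ primitiveRoots l L := by
    intro h
    rw [mem_primitiveRoots (NeZero.pos l)] at h
    exact hl.out.one_lt.ne' (h.unique IsPrimitiveRoot.one)
  rw [h4, Finset.prod_insert h5, one_pow, one_mul, ← map_pow, hc] at h3
  have h6 : (1 : L) - algebraMap K L c ≠ 0 := by
    intro h
    apply hc1
    apply (algebraMap K L).injective
    rw [map_one]
    exact (sub_eq_zero.1 h).symm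
  have h7 : ∏ μ ∈ primitiveRoots l L, (1 - algebraMap K L c * μ) =
      ∏ μ ∈ primitiveRoots l L, (1 - μ * algebraMap K L c) :=
    Finset.prod_congr rfl (fun μ _ => by rw [mul_comm])
  rw [h7]
  exact mul_left_cancel₀ h6 (by rw [mul_one]; exact h3.symm)

end Setup2

end Fermat.Agent.S14.H96

namespace Fermat.Agent.S14.H96

open Polynomial NumberField Module

section Hilbert90

variable {p l : ℕ} [hp : Fact p.Prime] [hl : Fact l.Prime]
variable (K L : Type) [Field K] [NumberField K] [IsCyclotomicExtension {p} ℚ K]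
  [Field L] [NumberField L] [Algebra K L] [IsCyclotomicExtension {l} K L]

/-- **Setup + Hilbert 90 for Thaine's relation.**  There are an automorphism `τ` of `𝓞 L` over
`𝓞 K` acting as `ζ ↦ ζ ^ s` on `l`-th roots of unity, and `β ≠ 0` in `𝓞 L` with
`τ β = (1 - ζ_p ζ_l) β`; moreover `a = N_{L/K} β` generates (in `𝓞 L`) the ideal `(β)^(l-1)`. -/
theorem exists_hilbert90 (hlp : l % p = 1) (s : ℕ) (hs : orderOf (s : ZMod l) = l - 1)
    (ζp : 𝓞 K) (hζp : IsPrimitiveRoot ζp p) (ζl : 𝓞 L) (hζl : IsPrimitiveRoot ζl l) :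
    ∃ (τ : 𝓞 L ≃ₐ[𝓞 K] 𝓞 L) (β : 𝓞 L) (a : 𝓞 K),
      (∀ ζ : 𝓞 L, ζ ^ l = 1 → τ ζ = ζ ^ s) ∧ β ≠ 0 ∧
      τ β = (1 - algebraMap (𝓞 K) (𝓞 L) ζp * ζl) * β ∧ a ≠ 0 ∧
      Ideal.span {algebraMap (𝓞 K) (𝓞 L) a} = Ideal.span {β} ^ (l - 1) := by
  classical
  have hpl : p ≠ l := by
    rintro rfl
    rw [Nat.mod_self] at hlp
    exact zero_ne_one hlp
  have : NeZero l := ⟨hl.out.ne_zero⟩
  have hgal := IsCyclotomicExtension.isGalois {l} K L
  have hfd := IsCyclotomicExtension.finiteDimensional {l} K L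
  obtain ⟨t, ht, hts⟩ := exists_generator K L hpl s hs
  have hcyc : IsCyclic (L ≃ₐ[K] L) := isCyclic_iff_exists_zpowers_eq_top.2
    ⟨t, by ext x; simp [ht x]⟩
  -- the unit `u`
  set u : 𝓞 L := 1 - algebraMap (𝓞 K) (𝓞 L) ζp * ζl with hu
  have hc : ((ζp : K)) ^ l = (ζp : K) := by
    have h1 : ζp ^ l = ζp := by
      conv_lhs => rw [← Nat.mod_add_div l p]
      rw [hlp, pow_add, pow_mul, hζp.pow_eq_one, one_pow, mul_one, pow_one]
    exact_mod_cast congrArg (fun x : 𝓞 K => (x : K)) h1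
  have hc1 : (ζp : K) ≠ 1 := by
    intro h
    have h1 : ζp = 1 := by
      apply RingOfIntegers.coe_injective
      simpa using h
    exact hp.out.one_lt.ne' (hζp.unique (h1 ▸ IsPrimitiveRoot.one))
  have hζlL : IsPrimitiveRoot (ζl : L) l :=
    hζl.map_of_injective RingOfIntegers.coe_injective
  have hNu : Algebra.norm K (algebraMap (𝓞 L) L u) = 1 := by
    have := norm_one_sub_mul K L hpl (ζp : K) hc hc1 (ζl : L) hζlL
    rw [← this, hu]
    congr 1
  have hNu' : RingOfIntegers.norm K u = 1 := by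
    apply RingOfIntegers.coe_injective
    rw [map_one]
    exact hNu
  have huU : IsUnit u := (RingOfIntegers.isUnit_norm_of_isGalois K).1 (by rw [hNu']; exact isUnit_one)
  obtain ⟨w, hw⟩ := huU
  have hNη : Algebra.norm K (algebraMap (𝓞 L) L ((w⁻¹ : (𝓞 L)ˣ) : 𝓞 L)) = 1 := by
    have h1 : ((w⁻¹ : (𝓞 L)ˣ) : 𝓞 L) * u = 1 := by rw [← hw]; exact w.inv_mul
    have h2 := congrArg (fun x : 𝓞 L => Algebra.norm K (algebraMap (𝓞 L) L x)) h1
    simp only [map_mul, map_one] at h2
    rwa [hNu, mul_one] at h2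
  obtain ⟨β, hβ0, hβ⟩ := groupCohomology.exists_mul_galRestrict_of_norm_eq_one
    (A := 𝓞 K) (B := 𝓞 L) ht hNη
  set τ := galRestrict (𝓞 K) K L (𝓞 L) t with hτ
  have hτβ : τ β = u * β := by
    have h1 : u * (((w⁻¹ : (𝓞 L)ˣ) : 𝓞 L) * τ β) = u * β := by rw [hβ]
    rwa [← mul_assoc, ← hw, w.mul_inv, one_mul, hw] at h1
  have hτζ : ∀ ζ : 𝓞 L, ζ ^ l = 1 → τ ζ = ζ ^ s := by
    intro ζ hζ
    apply RingOfIntegers.coe_injective
    have h1 : algebraMap (𝓞 L) L (τ ζ) = t (algebraMap (𝓞 L) L ζ) :=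
      algebraMap_galRestrict_apply (𝓞 K) t ζ
    have h2 : (algebraMap (𝓞 L) L ζ) ^ l = 1 := by rw [← map_pow, hζ, map_one]
    have h3 := hts _ h2
    rw [← h1] at h3
    simpa using h3
  refine ⟨τ, β, RingOfIntegers.norm K β, hτζ, hβ0, hτβ, ?_, ?_⟩
  · intro h
    apply hβ0
    have h1 := congrArg (fun x : 𝓞 K => (x : K)) h
    simp only [RingOfIntegers.coe_norm, map_zero] at h1
    have h2 := Algebra.norm_eq_zero_iff.1 h1
    exact RingOfIntegers.coe_injective (by simpa using h2)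
  · -- every Galois conjugate of `β` generates the same ideal
    have hτass : Associated (τ β) β := by
      rw [hτβ, ← hw]
      exact associated_unit_mul_left β (w : 𝓞 L) w.isUnit
    have hinv : ∀ x, (galRestrict (𝓞 K) K L (𝓞 L) t⁻¹) (τ x) = x := fun x => by
      have h1 : (galRestrict (𝓞 K) K L (𝓞 L) t⁻¹ * galRestrict (𝓞 K) K L (𝓞 L) t) x = x := by
        rw [← map_mul, inv_mul_cancel, map_one]; rfl
      exact h1
    have hτass' : Associated (galRestrict (𝓞 K) K L (𝓞 L) t⁻¹ β) β := by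
      have h1 := hτass.map (galRestrict (𝓞 K) K L (𝓞 L) t⁻¹)
      rw [hinv] at h1
      exact h1.symm
    have hass : ∀ σ : L ≃ₐ[K] L, Associated (galRestrict (𝓞 K) K L (𝓞 L) σ β) β := by
      intro σ
      obtain ⟨k, rfl⟩ := Subgroup.mem_zpowers_iff.1 (ht σ)
      induction k using Int.induction_on with
      | zero => simp
      | succ n ih =>
        have e : (n : ℤ) + 1 = 1 + n := by ring
        rw [e, zpow_one_add, map_mul, AlgEquiv.mul_apply]
        exact (ih.map τ).trans hτass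
      | pred n ih =>
        have e : -(n : ℤ) - 1 = -1 + -n := by ring
        rw [e, zpow_add, zpow_neg_one, map_mul, AlgEquiv.mul_apply]
        exact (ih.map (galRestrict (𝓞 K) K L (𝓞 L) t⁻¹)).trans hτass'
    have hstab : ∀ σ : L ≃ₐ[K] L,
        Ideal.span {galRestrict (𝓞 K) K L (𝓞 L) σ β} = Ideal.span {β} := fun σ =>
      Ideal.span_singleton_eq_span_singleton.2 (hass σ)
    have hprod : algebraMap (𝓞 K) (𝓞 L) (RingOfIntegers.norm K β) =
        ∏ σ : L ≃ₐ[K] L, galRestrict (𝓞 K) K L (𝓞 L) σ β := by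
      apply RingOfIntegers.coe_injective
      refine (RingOfIntegers.coe_algebraMap_norm K β).trans ?_
      rw [Algebra.norm_eq_prod_automorphisms, map_prod]
      refine Finset.prod_congr rfl (fun σ _ => ?_)
      exact (algebraMap_galRestrict_apply (𝓞 K) σ β).symm
    rw [hprod, ← Ideal.prod_span_singleton]
    rw [Finset.prod_congr rfl (fun σ _ => hstab σ), Finset.prod_const, Finset.card_univ,
      ← Nat.card_eq_fintype_card, IsGalois.card_aut_eq_finrank, finrank_eq K L hpl]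

end Hilbert90

end Fermat.Agent.S14.H96
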