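import Mathlib

/-!
S14 / WP5-R3 (helper77): the local computation at `l` in Thaine's relation.

* `local_core`: in a Dedekind domain `R` with a prime `Q`, an element `π` of `Q`-valuation one,
  a ring endomorphism `t` acting trivially modulo `Q` with `t π = π * S` and `t β = u * β`:
  `u ≡ S ^ v_Q(β)  (mod Q)`.
* `thaine_local`: the cyclotomic instance, in `𝓞 L` for `L = ℚ(ζ_{l p})`.
-/

set_option autoImplicit false

namespace Fermat.Agent.S14.H77

open Ideal UniqueFactorizationMonoid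

section Core

variable {R : Type*} [CommRing R] [IsDedekindDomain R]

/-- `count Q (normalizedFactors I) = 0` iff `¬ I ≤ Q`, for a nonzero ideal `I` and a prime `Q`. -/
lemma count_eq_zero_iff_not_le {Q I : Ideal R} [hQ : Q.IsPrime] (hI : I ≠ ⊥) :
    Multiset.count Q (normalizedFactors I) = 0 ↔ ¬ I ≤ Q := by
  rw [Multiset.count_eq_zero, Ideal.mem_normalizedFactors_iff hI]
  constructor
  · intro h hle; exact h ⟨hQ, hle⟩
  · intro h hle; exact h hle.2

/-- multiplicativity of the `Q`-adic valuation of nonzero elements -/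
lemma count_span_mul {Q : Ideal R} {a b : R} (ha : a ≠ 0) (hb : b ≠ 0) :
    Multiset.count Q (normalizedFactors (span {a * b})) =
      Multiset.count Q (normalizedFactors (span {a})) +
        Multiset.count Q (normalizedFactors (span {b})) := by
  have ha' : span {a} ≠ (0 : Ideal R) := by
    rw [Ideal.zero_eq_bot, Ne, span_singleton_eq_bot]; exact ha
  have hb' : span {b} ≠ (0 : Ideal R) := by
    rw [Ideal.zero_eq_bot, Ne, span_singleton_eq_bot]; exact hb
  rw [← span_singleton_mul_span_singleton, normalizedFactors_mul ha' hb', Multiset.count_add]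

lemma count_span_pow {Q : Ideal R} {a : R} (k : ℕ) :
    Multiset.count Q (normalizedFactors (span {a ^ k})) =
      k * Multiset.count Q (normalizedFactors (span {a})) := by
  rw [← span_singleton_pow, normalizedFactors_pow, Multiset.count_nsmul]

/-- an element outside `Q` has `Q`-adic valuation zero -/
lemma count_span_eq_zero {Q : Ideal R} [hQ : Q.IsPrime] {c : R} (hc : c ∉ Q) :
    Multiset.count Q (normalizedFactors (span {c})) = 0 := by
  have hc0 : c ≠ 0 := fun h => hc (h ▸ Q.zero_mem)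
  rw [count_eq_zero_iff_not_le (by rwa [Ne, span_singleton_eq_bot])]
  intro hle
  exact hc (hle (mem_span_singleton_self c))

/-- an element of `Q` has positive `Q`-adic valuation -/
lemma one_le_count_span {Q : Ideal R} [hQ : Q.IsPrime] {c : R} (hc0 : c ≠ 0) (hc : c ∈ Q) :
    1 ≤ Multiset.count Q (normalizedFactors (span {c})) := by
  rw [Nat.one_le_iff_ne_zero, Ne, count_eq_zero_iff_not_le (by rwa [Ne, span_singleton_eq_bot]),
    not_not, span_singleton_le_iff_mem]
  exact hc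

/-- Writing `c * β = π ^ k * γ` with `c, γ ∉ Q`, where `k = v_Q(β)` and `v_Q(π) = 1`. -/
lemma exists_mul_eq_pow_mul {Q : Ideal R} [hQ : Q.IsPrime] {π β : R} (hβ : β ≠ 0)
    (hπ : Multiset.count Q (normalizedFactors (span {π})) = 1) :
    ∃ c γ : R, c ∉ Q ∧ γ ∉ Q ∧
      c * β = π ^ (Multiset.count Q (normalizedFactors (span {β}))) * γ := by
  classical
  set k := Multiset.count Q (normalizedFactors (span {β})) with hk
  have hπ0 : π ≠ 0 := by
    rintro rfl
    rw [Ideal.span_singleton_eq_bot.mpr rfl, ← Ideal.zero_eq_bot, normalizedFactors_zero] at hπ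
    simp at hπ
  have hπ' : span {π} ≠ (⊥ : Ideal R) := by rwa [Ne, span_singleton_eq_bot]
  have hβ' : span {β} ≠ (⊥ : Ideal R) := by rwa [Ne, span_singleton_eq_bot]
  have hQ0 : Q ≠ ⊥ := by
    rintro rfl
    have : (⊥ : Ideal R) ∈ normalizedFactors (span {π}) := by
      rw [← Multiset.count_pos, hπ]; exact one_pos
    rw [Ideal.mem_normalizedFactors_iff hπ'] at this
    exact hπ0 (by simpa using this.2)
  have hQprime : Prime Q := Ideal.prime_of_isPrime hQ0 hQ
  -- `span {π} = Q * J` with `¬ J ≤ Q`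
  have hQπ : Q ∣ span {π} := by
    rw [Ideal.dvd_iff_le]
    have : Q ∈ normalizedFactors (span {π}) := by
      rw [← Multiset.count_pos, hπ]; exact one_pos
    exact ((Ideal.mem_normalizedFactors_iff hπ').mp this).2
  obtain ⟨J, hJ⟩ := hQπ
  have hJ0 : J ≠ ⊥ := by
    rintro rfl
    rw [Ideal.mul_bot] at hJ
    exact hπ' hJ
  have hJQ : ¬ J ≤ Q := by
    rw [← count_eq_zero_iff_not_le hJ0]
    have h1 : Multiset.count Q (normalizedFactors (Q * J)) = 1 := by rw [← hJ]; exact hπ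
    rw [normalizedFactors_mul (by simpa using hQ0) (by simpa using hJ0), Multiset.count_add,
      normalizedFactors_irreducible hQprime.irreducible, normalize_eq,
      Multiset.count_singleton_self] at h1
    omega
  -- `span {β} = Q ^ k * I` with `¬ I ≤ Q`
  have hQβ : Q ^ k ∣ span {β} := by
    rw [Ideal.dvd_iff_le]
    have h1 : (Multiset.replicate k Q) ≤ normalizedFactors (span {β}) := by
      rw [Multiset.le_iff_count]
      intro a
      by_cases ha : a = Q
      · subst ha; rw [Multiset.count_replicate_self]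
      · rw [Multiset.count_replicate, if_neg (fun h => ha h.symm)]; exact Nat.zero_le _
    have h2 := Multiset.prod_dvd_prod_of_le h1
    rw [Multiset.prod_replicate, Ideal.prod_normalizedFactors_eq_self hβ'] at h2
    exact Ideal.dvd_iff_le.mp h2
  obtain ⟨I, hI⟩ := hQβ
  -- an element `c ∈ J ^ k`, `c ∉ Q`
  have hJk : ¬ J ^ k ≤ Q := fun h => hJQ (hQ.le_of_pow_le h)
  obtain ⟨c, hcJ, hcQ⟩ := SetLike.not_le_iff_exists.mp hJk
  have hc0 : c ≠ 0 := fun h => hcQ (h ▸ Q.zero_mem)
  -- `c * β ∈ span {π ^ k} * I`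
  have hmem : c * β ∈ span {π ^ k} * I := by
    have h1 : c * β ∈ J ^ k * span {β} := Ideal.mul_mem_mul hcJ (mem_span_singleton_self β)
    have h2 : J ^ k * span {β} = span {π ^ k} * I := by
      rw [hI, ← span_singleton_pow, hJ, mul_pow]
      ring
    rwa [h2] at h1
  obtain ⟨γ, -, hγ⟩ := Ideal.mem_span_singleton_mul.mp hmem
  refine ⟨c, γ, hcQ, ?_, hγ.symm⟩
  -- `γ ∉ Q` by comparing valuations
  have hγ0 : γ ≠ 0 := by
    rintro rfl
    rw [mul_zero] at hγ
    exact mul_ne_zero hc0 hβ hγ.symm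
  intro hγQ
  have h1 := count_span_mul (Q := Q) hc0 hβ
  have h2 := count_span_mul (Q := Q) (pow_ne_zero k hπ0) hγ0
  rw [hγ, h1, count_span_eq_zero hcQ, count_span_pow, hπ] at h2
  have h3 := one_le_count_span hγ0 hγQ
  omega

/-- **Local core of Thaine's relation.** -/
theorem local_core (Q : Ideal R) [hQ : Q.IsPrime] (π : R)
    (hπ : Multiset.count Q (normalizedFactors (span {π})) = 1)
    (t : R →+* R) (ht : ∀ x, t x - x ∈ Q) (S u β : R) (hβ : β ≠ 0)
    (htπ : t π = π * S) (htβ : t β = u * β) :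
    u - S ^ (Multiset.count Q (normalizedFactors (span {β}))) ∈ Q := by
  classical
  obtain ⟨c, γ, hc, hγ, h⟩ := exists_mul_eq_pow_mul (Q := Q) hβ hπ
  set k := Multiset.count Q (normalizedFactors (span {β})) with hk
  have hπ0 : π ≠ 0 := by
    rintro rfl
    rw [Ideal.span_singleton_eq_bot.mpr rfl, ← Ideal.zero_eq_bot, normalizedFactors_zero] at hπ
    simp at hπ
  -- apply `t`
  have h1 : t c * (u * β) = (π * S) ^ k * t γ := by
    rw [← htβ, ← htπ, ← map_pow, ← map_mul, ← map_mul, h]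
  -- multiply by `c` and cancel `π ^ k`
  have h2 : π ^ k * (t c * u * γ) = π ^ k * (c * S ^ k * t γ) := by
    have : c * (t c * (u * β)) = c * ((π * S) ^ k * t γ) := by rw [h1]
    calc π ^ k * (t c * u * γ) = t c * u * (π ^ k * γ) := by ring
      _ = t c * u * (c * β) := by rw [h]
      _ = c * (t c * (u * β)) := by ring
      _ = c * ((π * S) ^ k * t γ) := this
      _ = π ^ k * (c * S ^ k * t γ) := by rw [mul_pow]; ring
  have h3 : t c * u * γ = c * S ^ k * t γ := mul_left_cancel₀ (pow_ne_zero k hπ0) h2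
  -- reduce modulo `Q`
  have h4 : c * γ * (u - S ^ k) = (c - t c) * u * γ + c * S ^ k * (t γ - γ) := by
    linear_combination h3
  have h5 : c * γ * (u - S ^ k) ∈ Q := by
    rw [h4]
    refine Q.add_mem (Q.mul_mem_right _ (Q.mul_mem_right _ ?_)) (Q.mul_mem_left _ (ht γ))
    have := Q.neg_mem (ht c)
    rwa [neg_sub] at this
  rcases hQ.mem_or_mem h5 with h6 | h6
  · rcases hQ.mem_or_mem h6 with h7 | h7
    · exact absurd h7 hc
    · exact absurd h7 hγ
  · exact h6

end Core

section Cyclo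

open NumberField Finset

variable {L : Type*} [Field L] [NumberField L]

/-- In a domain with a primitive `l`-th root of unity `ζ` (`l` prime), the integer `l` is
`(1 - ζ) ^ (l - 1)` times something. -/
lemma natCast_eq_pow_mul {A : Type*} [CommRing A] [IsDomain A] {l : ℕ} (hl : l.Prime) {ζ : A}
    (hζ : IsPrimitiveRoot ζ l) :
    (l : A) = (1 - ζ) ^ (l - 1) * ∏ k ∈ range (l - 1), ∑ i ∈ range (k + 1), ζ ^ i := by
  have hl1 : l - 1 + 1 = l := Nat.sub_add_cancel hl.one_lt.le
  have hζ' : IsPrimitiveRoot ζ (l - 1 + 1) := by rwa [hl1]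
  have h := hζ'.prod_one_sub_pow_eq_order
  have h2 : ((l - 1 : ℕ) : A) + 1 = (l : A) := by
    rw [← Nat.cast_add_one, hl1]
  rw [h2] at h
  rw [← h]
  have h3 : ∀ k ∈ range (l - 1), (1 - ζ ^ (k + 1)) = (1 - ζ) * ∑ i ∈ range (k + 1), ζ ^ i :=
    fun k _ => (mul_neg_geom_sum ζ (k + 1)).symm
  rw [Finset.prod_congr rfl h3, Finset.prod_mul_distrib, Finset.prod_const, Finset.card_range]

/-- `1 - ζ_l` lies in every prime ideal containing `l`. -/
lemma one_sub_mem_of_natCast_mem {A : Type*} [CommRing A] [IsDomain A] {l : ℕ} (hl : l.Prime)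
    {ζ : A} (hζ : IsPrimitiveRoot ζ l) (Q : Ideal A) [hQ : Q.IsPrime] (hlQ : (l : A) ∈ Q) :
    1 - ζ ∈ Q := by
  have hl1 : l - 1 + 1 = l := Nat.sub_add_cancel hl.one_lt.le
  have hζ' : IsPrimitiveRoot ζ (l - 1 + 1) := by rwa [hl1]
  have h := hζ'.prod_one_sub_pow_eq_order
  have h2 : ((l - 1 : ℕ) : A) + 1 = (l : A) := by
    rw [← Nat.cast_add_one, hl1]
  rw [h2] at h
  rw [← h, Ideal.IsPrime.prod_mem_iff] at hlQ
  obtain ⟨k, hk, hkQ⟩ := hlQ
  rw [Finset.mem_range] at hk
  have hcop : (k + 1).Coprime l := by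
    rw [Nat.coprime_comm, hl.coprime_iff_not_dvd]
    intro hdvd
    have := Nat.le_of_dvd (Nat.succ_pos k) hdvd
    omega
  obtain ⟨u, hu⟩ := hζ.associated_sub_one_pow_sub_one_of_coprime hcop
  -- `ζ - 1 = (ζ ^ (k+1) - 1) * u⁻¹`
  have h3 : ζ - 1 = (ζ ^ (k + 1) - 1) * ((u⁻¹ : Aˣ) : A) := by
    rw [← hu, mul_assoc, Units.mul_inv, mul_one]
  have h4 : ζ ^ (k + 1) - 1 ∈ Q := by
    have := Q.neg_mem hkQ
    rwa [neg_sub] at this
  have h5 : ζ - 1 ∈ Q := by rw [h3]; exact Q.mul_mem_right _ h4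
  have := Q.neg_mem h5
  rwa [neg_sub] at this

/-- **Thaine's relation, local computation at `l`.**
`L = ℚ(ζ_{l p})`, `Q` a prime of `𝓞 L` above `l`, `t` a ring endomorphism of `𝓞 L` with
`t ζ_l = ζ_l ^ s`, `t ζ_p = ζ_p`, and `t β = (1 - ζ_p ζ_l) β`.  Then
`1 - ζ_p ≡ s ^ v_Q(β)  (mod Q)`. -/
theorem thaine_local {p l : ℕ} [hp : Fact p.Prime] [hl : Fact l.Prime] (hpl : p ≠ l)
    [hcyc : IsCyclotomicExtension {l * p} ℚ L] (ζp ζl : 𝓞 L) (hζp : IsPrimitiveRoot ζp p)
    (hζl : IsPrimitiveRoot ζl l) (Q : Ideal (𝓞 L)) [hQ : Q.IsPrime] (hlQ : (l : 𝓞 L) ∈ Q)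
    (t : 𝓞 L →+* 𝓞 L) (s : ℕ) (htl : t ζl = ζl ^ s) (htp : t ζp = ζp)
    (β : 𝓞 L) (hβ : β ≠ 0) (htβ : t β = (1 - ζp * ζl) * β) :
    (1 - ζp) - (s : 𝓞 L) ^ (Multiset.count Q (normalizedFactors (Ideal.span {β}))) ∈ Q := by
  classical
  have hlprime := hl.out
  have hpprime := hp.out
  set π : 𝓞 L := 1 - ζl with hπdef
  have hπQ : π ∈ Q := one_sub_mem_of_natCast_mem hlprime hζl Q hlQ
  have hπ0 : π ≠ 0 := by
    intro h
    have h1 : ζl = 1 := by
      have := sub_eq_zero.mp h
      exact this.symm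
    exact hlprime.one_lt.ne' (hζl.unique (h1 ▸ IsPrimitiveRoot.one))
  have hl0 : (l : 𝓞 L) ≠ 0 := Nat.cast_ne_zero.mpr hlprime.ne_zero
  -- the valuation of `π` at `Q` is one
  have hcount : Multiset.count Q (normalizedFactors (Ideal.span {π})) = 1 := by
    have : Q.LiesOver (Ideal.span {(l : ℤ)}) :=
      (Ideal.liesOver_span_iff hQ.ne_top (Nat.prime_iff_prime_int.mp hlprime)).mpr
        (by simpa using hlQ)
    have hnd : ¬ l ∣ p := fun h => hpl ((Nat.prime_dvd_prime_iff_eq hlprime hpprime).mp h).symm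
    have he := IsCyclotomicExtension.Rat.ramificationIdx_eq (l * p) L Q
      (p := l) (k := 0) (m := p) (by ring) hnd
    have hmap : Ideal.map (algebraMap ℤ (𝓞 L)) (Ideal.span {(l : ℤ)}) = Ideal.span {(l : 𝓞 L)} := by
      rw [Ideal.map_span, Set.image_singleton]; simp
    have hp0 : Ideal.map (algebraMap ℤ (𝓞 L)) (Ideal.span {(l : ℤ)}) ≠ ⊥ := by
      rw [hmap, Ne, Ideal.span_singleton_eq_bot]; exact hl0
    have he' := Ideal.IsDedekindDomain.ramificationIdx_eq_normalizedFactors_count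
      (Ideal.span {(l : ℤ)}) Q hp0
    rw [hmap, he] at he'
    have hfac := natCast_eq_pow_mul (A := 𝓞 L) hlprime hζl
    set G : 𝓞 L := ∏ k ∈ range (l - 1), ∑ i ∈ range (k + 1), ζl ^ i with hG
    have hG0 : G ≠ 0 := by
      intro h
      rw [h, mul_zero] at hfac
      exact hl0 hfac
    have hc := count_span_mul (Q := Q) (pow_ne_zero (l - 1) hπ0) hG0
    rw [← hfac, count_span_pow] at hc
    have h1 := one_le_count_span hπ0 hπQ
    have hl2 : 1 ≤ l - 1 := by have := hlprime.two_le; omega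
    have h2 : (l - 1) * Multiset.count Q (normalizedFactors (Ideal.span {π})) ≤ (l - 1) * 1 := by
      rw [mul_one]
      have : l ^ 0 * (l - 1) = l - 1 := by simp
      omega
    have h3 := Nat.le_of_mul_le_mul_left h2 (by omega)
    omega
  -- `t` acts trivially modulo `π`
  have hspanQ : Ideal.span {π} ≤ Q := (Ideal.span_singleton_le_iff_mem _).mpr hπQ
  have hgeom : ∀ n : ℕ, 1 - ζl ^ n ∈ Ideal.span {π} := fun n =>
    Ideal.mem_span_singleton.mpr (one_sub_dvd_one_sub_pow ζl n)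
  have ht : ∀ x, t x - x ∈ Q := by
    intro x
    apply hspanQ
    -- a primitive `l p`-th root of unity generating `𝓞 L`
    have hζp' : IsPrimitiveRoot ((ζp : 𝓞 L) : L) p :=
      hζp.map_of_injective (f := algebraMap (𝓞 L) L) RingOfIntegers.coe_injective
    have hζl' : IsPrimitiveRoot ((ζl : 𝓞 L) : L) l :=
      hζl.map_of_injective (f := algebraMap (𝓞 L) L) RingOfIntegers.coe_injective
    have hη : IsPrimitiveRoot (((ζp : 𝓞 L) : L) * ((ζl : 𝓞 L) : L)) (l * p) := by
      rw [IsPrimitiveRoot.iff_orderOf,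
        (Commute.all _ _).orderOf_mul_eq_mul_orderOf_of_coprime, ← hζp'.eq_orderOf,
        ← hζl'.eq_orderOf, mul_comm]
      rw [← hζp'.eq_orderOf, ← hζl'.eq_orderOf]
      exact (Nat.coprime_primes hpprime hlprime).mpr hpl
    have : NeZero (l * p) := ⟨Nat.mul_ne_zero hlprime.ne_zero hpprime.ne_zero⟩
    have htop := IsCyclotomicExtension.Rat.adjoin_singleton_eq_top hη
    have hηint : hη.toInteger = ζp * ζl := by
      apply RingOfIntegers.ext
      change ((ζp : 𝓞 L) : L) * ((ζl : 𝓞 L) : L) = ((ζp * ζl : 𝓞 L) : L)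
      exact (map_mul (algebraMap (𝓞 L) L) ζp ζl).symm
    rw [hηint] at htop
    have hx : x ∈ Algebra.adjoin ℤ {ζp * ζl} := by rw [htop]; trivial
    induction hx using Algebra.adjoin_induction with
    | mem y hy =>
      rw [Set.mem_singleton_iff] at hy
      subst hy
      have : t (ζp * ζl) - ζp * ζl = ζp * ((1 - ζl) - (1 - ζl ^ s)) := by
        rw [map_mul, htp, htl]; ring
      rw [this]
      exact Ideal.mul_mem_left _ _ (Ideal.sub_mem _ (by simpa using hgeom 1) (hgeom s))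
    | algebraMap r =>
      simp
    | add y z _ _ hy hz =>
      have : t (y + z) - (y + z) = (t y - y) + (t z - z) := by rw [map_add]; ring
      rw [this]; exact Ideal.add_mem _ hy hz
    | mul y z _ _ hy hz =>
      have : t (y * z) - y * z = t y * (t z - z) + (t y - y) * z := by rw [map_mul]; ring
      rw [this]
      exact Ideal.add_mem _ (Ideal.mul_mem_left _ _ hz) (Ideal.mul_mem_right _ _ hy)
  -- `t π = π * S`
  set S : 𝓞 L := ∑ i ∈ range s, ζl ^ i with hS
  have htπ : t π = π * S := by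
    rw [hπdef, map_sub, map_one, htl, hS, mul_neg_geom_sum]
  have hcore := local_core Q π hcount t ht S (1 - ζp * ζl) β hβ htπ htβ
  set k := Multiset.count Q (normalizedFactors (Ideal.span {β})) with hk
  -- `S ≡ s` and `1 - ζp ζl ≡ 1 - ζp` modulo `Q`
  have hSs : S - (s : 𝓞 L) ∈ Q := by
    have h1 : (s : 𝓞 L) = ∑ _i ∈ range s, (1 : 𝓞 L) := by simp
    rw [hS, h1, ← Finset.sum_sub_distrib]
    refine Ideal.sum_mem _ fun i _ => ?_
    have := Q.neg_mem (hspanQ (hgeom i))
    rwa [neg_sub] at this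
  have hSk : S ^ k - (s : 𝓞 L) ^ k ∈ Q :=
    Ideal.mem_of_dvd _ (sub_dvd_pow_sub_pow S (s : 𝓞 L) k) hSs
  have hu : (1 - ζp) - (1 - ζp * ζl) ∈ Q := by
    have : (1 - ζp) - (1 - ζp * ζl) = -(ζp * π) := by rw [hπdef]; ring
    rw [this]
    exact Q.neg_mem (Q.mul_mem_left _ hπQ)
  have : (1 - ζp) - (s : 𝓞 L) ^ k =
      ((1 - ζp) - (1 - ζp * ζl)) + ((1 - ζp * ζl) - S ^ k) + (S ^ k - (s : 𝓞 L) ^ k) := by ring
  rw [this]
  exact Q.add_mem (Q.add_mem hu hcore) hSk

end Cyclo

end Fermat.Agent.S14.H77
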