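import Mathlib

/-!
S14, WP5 (Thaine), row R4 (owner: helper22): ramification indices in the tower
`ℚ ⊆ K = ℚ(ζ_p) ⊆ L = ℚ(ζ_{lp})`: a prime `Q` of `𝓞 L` is totally ramified of index `l - 1` over
`𝓞 K` if it lies over `l`, and unramified over `𝓞 K` otherwise.
-/

set_option autoImplicit false

namespace Fermat.Agent.S14.H22

open NumberField Ideal

/-- a nonzero prime ideal of the ring of integers of a number field lies over a prime number -/
theorem exists_prime_liesOver {L : Type*} [Field L] [NumberField L] (Q : Ideal (𝓞 L)) [Q.IsPrime]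
    (hQ : Q ≠ ⊥) : ∃ q : ℕ, q.Prime ∧ Q.LiesOver (span {(q : ℤ)}) := by
  have h1 : (Q.under ℤ).IsPrime := inferInstance
  have h2 : Q.under ℤ ≠ ⊥ := Ideal.under_ne_bot ℤ hQ
  rcases Ideal.isPrime_int_iff.mp h1 with h | ⟨q, hq, h⟩
  · exact absurd h h2
  · exact ⟨q, hq, ⟨h.symm⟩⟩

/-- membership of a natural number in a prime lying over `q` -/
theorem natCast_mem_iff_of_liesOver {L : Type*} [Field L] [NumberField L] (Q : Ideal (𝓞 L))
    {q : ℕ} (hq : q.Prime) [hQq : Q.LiesOver (span {(q : ℤ)})] (l : ℕ) (hl : l.Prime) :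
    (l : 𝓞 L) ∈ Q ↔ q = l := by
  have h1 : (l : 𝓞 L) ∈ Q ↔ (l : ℤ) ∈ Q.under ℤ := by
    rw [Ideal.under_def, Ideal.mem_comap]; simp
  rw [h1, ← Q.over_def (span {(q : ℤ)}), Ideal.mem_span_singleton, Int.natCast_dvd_natCast,
    Nat.prime_dvd_prime_iff_eq hq hl]

/-- **R4.** Ramification in the tower `ℚ(ζ_{lp}) / ℚ(ζ_p)`. -/
theorem ramificationIdx_cyclotomic_tower (p l : ℕ) [hp : Fact p.Prime] [hl : Fact l.Prime]
    (hpl : p ≠ l) (K L : Type*) [Field K] [NumberField K] [Field L] [NumberField L] [Algebra K L]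
    [IsCyclotomicExtension {p} ℚ K] [IsCyclotomicExtension {l * p} ℚ L]
    (Q : Ideal (𝓞 L)) [Q.IsPrime] (hQ : Q ≠ ⊥) :
    ((l : 𝓞 L) ∈ Q → Q.ramificationIdx (𝓞 K) = l - 1) ∧
      ((l : 𝓞 L) ∉ Q → Q.ramificationIdx (𝓞 K) = 1) := by
  obtain ⟨q, hq, hQq⟩ := exists_prime_liesOver Q hQ
  have hqf : Fact q.Prime := ⟨hq⟩
  have hmem := natCast_mem_iff_of_liesOver Q hq l hl.out
  -- the prime of `𝓞 K` below `Q`
  have hPq : (Q.under (𝓞 K)).LiesOver (span {(q : ℤ)}) :=
    LiesOver.tower_bot Q (Q.under (𝓞 K)) (span {(q : ℤ)})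
  have htower : Q.ramificationIdx ℤ = (Q.under (𝓞 K)).ramificationIdx ℤ * Q.ramificationIdx (𝓞 K) :=
    ramificationIdx_tower (Q.under (𝓞 K)) Q
  have hlp : ¬ l ∣ p := fun h => hpl ((Nat.prime_dvd_prime_iff_eq hl.out hp.out).mp h).symm
  have hpl' : ¬ p ∣ l := fun h => hpl ((Nat.prime_dvd_prime_iff_eq hp.out hl.out).mp h)
  have hlpos : 0 < l - 1 := Nat.sub_pos_of_lt hl.out.one_lt
  have hppos : 0 < p - 1 := Nat.sub_pos_of_lt hp.out.one_lt
  constructor
  · intro hl_mem
    have hql : q = l := hmem.mp hl_mem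
    subst hql
    have e1 : Q.ramificationIdx ℤ = q ^ 0 * (q - 1) :=
      IsCyclotomicExtension.Rat.ramificationIdx_eq (q * p) L Q (m := p) (k := 0) (by ring) hlp
    have e2 : (Q.under (𝓞 K)).ramificationIdx ℤ = 1 :=
      IsCyclotomicExtension.Rat.ramificationIdx_eq_of_not_dvd q K (Q.under (𝓞 K)) (m := p) hlp
    rw [e1, e2] at htower
    simpa using htower.symm
  · intro hl_nmem
    have hql : q ≠ l := fun h => hl_nmem (hmem.mpr h)
    by_cases hqp : q = p
    · subst hqp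
      have e1 : Q.ramificationIdx ℤ = q ^ 0 * (q - 1) :=
        IsCyclotomicExtension.Rat.ramificationIdx_eq (l * q) L Q (m := l) (k := 0) (by ring) hpl'
      have e2 : (Q.under (𝓞 K)).ramificationIdx ℤ = q ^ 0 * (q - 1) :=
        IsCyclotomicExtension.Rat.ramificationIdx_eq q K (Q.under (𝓞 K)) (m := 1) (k := 0)
          (by ring) (by simpa using hq.one_lt.ne')
      rw [e1, e2] at htower
      have h3 : (q - 1) * 1 = (q - 1) * Q.ramificationIdx (𝓞 K) := by simpa using htower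
      exact (Nat.eq_of_mul_eq_mul_left hppos h3).symm
    · have hq_lp : ¬ q ∣ l * p := by
        intro h
        rcases (Nat.Prime.dvd_mul hq).mp h with h | h
        · exact hql ((Nat.prime_dvd_prime_iff_eq hq hl.out).mp h)
        · exact hqp ((Nat.prime_dvd_prime_iff_eq hq hp.out).mp h)
      have hq_p : ¬ q ∣ p := fun h => hqp ((Nat.prime_dvd_prime_iff_eq hq hp.out).mp h)
      have : NeZero (l * p) := ⟨Nat.mul_ne_zero hl.out.ne_zero hp.out.ne_zero⟩
      have e1 : Q.ramificationIdx ℤ = 1 :=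
        IsCyclotomicExtension.Rat.ramificationIdx_eq_of_not_dvd q L Q (m := l * p) hq_lp
      have e2 : (Q.under (𝓞 K)).ramificationIdx ℤ = 1 :=
        IsCyclotomicExtension.Rat.ramificationIdx_eq_of_not_dvd q K (Q.under (𝓞 K)) (m := p) hq_p
      rw [e1, e2] at htower
      simpa using htower.symm

end Fermat.Agent.S14.H22
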