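import Mathlib

/-!
S14, WP5 (Thaine), row R5 (owner: helper22): valuation bridge in an extension of Dedekind
domains: for `Q` a prime of `B` over the nonzero prime `P` of `A`,

  `v_Q (I B) = e(Q | P) * v_P (I)`.
-/

set_option autoImplicit false

namespace Fermat.Agent.S14.H22

open UniqueFactorizationMonoid Ideal

variable {A B : Type*} [CommRing A] [IsDedekindDomain A] [CommRing B] [IsDedekindDomain B]
  [Algebra A B] [Module.IsTorsionFree A B]

omit [Module.IsTorsionFree A B] in
/-- a prime of `B` over `P` does not divide the extension of a prime `P' ≠ P`. -/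
lemma count_map_of_ne (P : Ideal A) [P.IsPrime] (Q : Ideal B) [Q.IsPrime]
    [Q.LiesOver P] (P' : Ideal A) (hP' : P'.IsPrime) (hP'0 : P' ≠ ⊥) (hne : P' ≠ P) :
    Multiset.count Q (normalizedFactors (P'.map (algebraMap A B))) = 0 := by
  rw [Multiset.count_eq_zero]
  intro hmem
  have hle : P'.map (algebraMap A B) ≤ Q :=
    Ideal.le_of_dvd (dvd_of_mem_normalizedFactors hmem)
  have h1 : P' ≤ Q.comap (algebraMap A B) := Ideal.map_le_iff_le_comap.mp hle
  have h2 : Q.comap (algebraMap A B) = P := (Q.over_def P).symm
  rw [h2] at h1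
  have hmax : P'.IsMaximal := hP'.isMaximal hP'0
  exact hne (hmax.eq_of_le (Ideal.IsPrime.ne_top inferInstance) h1)

/-- **R5, ideal form.** -/
theorem count_map (P : Ideal A) [P.IsPrime] (hP : P ≠ ⊥) (Q : Ideal B) [Q.IsPrime]
    [Q.LiesOver P] (I : Ideal A) (hI : I ≠ ⊥) :
    Multiset.count Q (normalizedFactors (I.map (algebraMap A B))) =
      Q.ramificationIdx A * Multiset.count P (normalizedFactors I) := by
  induction I using UniqueFactorizationMonoid.induction_on_prime with
  | h₁ => exact absurd rfl hI
  | h₂ I hu =>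
    have hI1 : I = ⊤ := Ideal.isUnit_iff.mp hu
    subst hI1
    rw [Ideal.map_top]
    have h1 : normalizedFactors (⊤ : Ideal B) = 0 := by
      rw [← Ideal.one_eq_top]; exact normalizedFactors_one
    have h2 : normalizedFactors (⊤ : Ideal A) = 0 := by
      rw [← Ideal.one_eq_top]; exact normalizedFactors_one
    rw [h1, h2]; simp
  | h₃ I P' hI0 hP' ih =>
    have hP'0 : P' ≠ ⊥ := hP'.ne_zero
    have hP'prime : P'.IsPrime := Ideal.isPrime_of_prime hP'
    have hmapP' : P'.map (algebraMap A B) ≠ ⊥ := Ideal.map_ne_bot_of_ne_bot hP'0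
    have hmapI : I.map (algebraMap A B) ≠ ⊥ := Ideal.map_ne_bot_of_ne_bot hI0
    rw [Ideal.map_mul, normalizedFactors_mul hmapP' hmapI, normalizedFactors_mul hP'0 hI0,
      Multiset.count_add, Multiset.count_add, ih hI0, mul_add]
    congr 1
    by_cases hne : P' = P
    · subst hne
      rw [normalizedFactors_irreducible hP'.irreducible, normalize_eq, Multiset.count_singleton_self,
        mul_one]
      exact (IsDedekindDomain.ramificationIdx_eq_normalizedFactors_count P' Q hmapP').symm
    · rw [count_map_of_ne P Q P' hP'prime hP'0 hne,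
        normalizedFactors_irreducible hP'.irreducible, normalize_eq]
      rw [Multiset.count_singleton, if_neg (fun h => hne h.symm), mul_zero]

/-- **R5.** Valuation bridge for principal ideals. -/
theorem count_span_algebraMap (P : Ideal A) [P.IsPrime] (hP : P ≠ ⊥) (Q : Ideal B) [Q.IsPrime]
    [Q.LiesOver P] (a : A) (ha : a ≠ 0) :
    Multiset.count Q (normalizedFactors (Ideal.span {algebraMap A B a})) =
      Q.ramificationIdx A * Multiset.count P (normalizedFactors (Ideal.span {a})) := by
  have h : Ideal.span {algebraMap A B a} = (Ideal.span {a}).map (algebraMap A B) := by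
    rw [Ideal.map_span, Set.image_singleton]
  rw [h]
  exact count_map P hP Q (Ideal.span {a}) (by simpa using ha)

end Fermat.Agent.S14.H22
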