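import Mathlib
import Fermat.Agent.S14.ThSetup_helper96
import Fermat.Agent.S14.ThaineLocal_helper77
import Fermat.Agent.S14.TowerRam_helper22
import Fermat.Agent.S14.ValBridge_helper22

/-!
# S14 / WP5 (Thaine): the valuation form of Thaine's relation (helper96)

Assembly of R1 (`exists_hilbert90`), R3 (helper77 `thaine_local`), R4 (helper22
`ramificationIdx_cyclotomic_tower`) and R5 (helper22 `count_span_algebraMap`).
-/

namespace Fermat.Agent.S14.H96

open NumberField UniqueFactorizationMonoid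

/-- **Thaine's relation, valuation form.** `K = ℚ(ζ_p)`, `l ≡ 1 mod p` a prime, `s` a primitive
root modulo `l`. There is `a ≠ 0` in `𝓞 K` whose valuation at every prime not above `l` is
divisible by `l - 1`, and such that `1 - ζ ≡ s ^ v_P(a) mod P` for every prime `P` above `l`. -/
theorem thaine_relation (p l : ℕ) [hp : Fact p.Prime] [hl : Fact l.Prime] (hlp : l % p = 1)
    (K : Type) [Field K] [NumberField K] [IsCyclotomicExtension {p} ℚ K]
    (ζ : 𝓞 K) (hζ : IsPrimitiveRoot ζ p) (s : ℕ) (hs : orderOf (s : ZMod l) = l - 1) :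
    ∃ a : 𝓞 K, a ≠ 0 ∧ ∀ P : Ideal (𝓞 K), P.IsPrime → P ≠ ⊥ →
      ((l : 𝓞 K) ∉ P → (l - 1) ∣ Multiset.count P (normalizedFactors (Ideal.span {a}))) ∧
      ((l : 𝓞 K) ∈ P →
        (1 - ζ) - (s : 𝓞 K) ^ Multiset.count P (normalizedFactors (Ideal.span {a})) ∈ P) := by
  classical
  have hpl : p ≠ l := by
    rintro rfl
    rw [Nat.mod_self] at hlp
    exact zero_ne_one hlp
  have : NeZero l := ⟨hl.out.ne_zero⟩
  let L := CyclotomicField l K
  have : IsCyclotomicExtension {l * p} ℚ L := isCyclotomicExtension_mul K L hpl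
  have hζl0 := IsCyclotomicExtension.zeta_spec l K L
  let ζl : 𝓞 L := hζl0.toInteger
  have hζl : IsPrimitiveRoot ζl l := hζl0.toInteger_isPrimitiveRoot
  obtain ⟨τ, β, a, hτ, hβ0, hτβ, ha0, hspan⟩ := exists_hilbert90 K L hlp s hs ζ hζ ζl hζl
  refine ⟨a, ha0, fun P hP hP0 => ?_⟩
  have := hP
  have hPmax : P.IsMaximal := hP.isMaximal hP0
  obtain ⟨Q, hQmax, hQover⟩ := Ideal.exists_maximal_ideal_liesOver_of_isIntegral P (S := 𝓞 L)
  have := hQover
  have : Q.IsPrime := hQmax.isPrime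
  have hQ0 : Q ≠ ⊥ := Ideal.ne_bot_of_liesOver_of_ne_bot hP0 Q
  have hcount : (l - 1) * Multiset.count Q (normalizedFactors (Ideal.span {β})) =
      Q.ramificationIdx (𝓞 K) * Multiset.count P (normalizedFactors (Ideal.span {a})) := by
    rw [← H22.count_span_algebraMap P hP0 Q a ha0, hspan, normalizedFactors_pow,
      Multiset.count_nsmul]
  have hram := H22.ramificationIdx_cyclotomic_tower p l hpl K L Q hQ0
  have hmem : ∀ x : 𝓞 K, algebraMap (𝓞 K) (𝓞 L) x ∈ Q ↔ x ∈ P := by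
    intro x
    rw [Q.over_def P, Ideal.under_def, Ideal.mem_comap]
  have hmeml : (l : 𝓞 L) ∈ Q ↔ (l : 𝓞 K) ∈ P := by
    rw [← hmem, map_natCast]
  constructor
  · intro hl'
    have h1 := hram.2 (mt hmeml.1 hl')
    rw [h1, one_mul] at hcount
    exact ⟨_, hcount.symm⟩
  · intro hl'
    have h1 := hram.1 (hmeml.2 hl')
    rw [h1] at hcount
    have h2 : Multiset.count Q (normalizedFactors (Ideal.span {β})) =
        Multiset.count P (normalizedFactors (Ideal.span {a})) :=
      Nat.eq_of_mul_eq_mul_left (Nat.sub_pos_of_lt hl.out.one_lt) hcount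
    have h3 := H77.thaine_local hpl (algebraMap (𝓞 K) (𝓞 L) ζ) ζl
      (hζ.map_of_injective (FaithfulSMul.algebraMap_injective (𝓞 K) (𝓞 L))) hζl Q
      (hmeml.2 hl') (τ : 𝓞 L →+* 𝓞 L) s (hτ ζl hζl.pow_eq_one) (τ.commutes ζ) β hβ0 hτβ
    rw [h2] at h3
    rw [← hmem]
    simpa using h3

end Fermat.Agent.S14.H96
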