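import Fermat.Agent.S14.Stmts2
import Fermat.Agent.S14.ThFormA_helper96

/-!
# S14 / WP5: `thaineA : StmtThaineA` (helper96)
-/

namespace Fermat.Agent.S14.H96

/-- **Thaine's relation, valuation form** in the exact shape of `StmtThaineA`. -/
theorem thaineA : StmtThaineA :=
  fun p l _ _ hlp K _ _ _ ζ hζ s hs => thaine_relation p l hlp K ζ hζ s hs

end Fermat.Agent.S14.H96
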