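import Mathlib

/-!
# S14, WP4c: the cyclotomic unit `E` in the `a²`-eigenspace

`K = ℚ(ζ_p)`.  `cyc n = ∑_{i<n} ζ^i = (ζ^n - 1)/(ζ - 1)` and
`E = ∏_{x : ZMod p} cyc(x.val) ^ (x^(p-3)).val`.

* `isUnit_Eelt` : `E` is a unit of `𝓞 K`;
* `E_eigen` : for `σ ζ = ζ^g`, `p ∤ g`:  `σ E = E^(g²) · η^p` for a unit `η`.
-/

set_option autoImplicit false

open NumberField Finset

namespace Fermat.Agent.S14.H91

variable {p : ℕ} [hp : Fact p.Prime] {K : Type*} [Field K] [NumberField K]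
  [IsCyclotomicExtension {p} ℚ K] {ζ : K} (hζ : IsPrimitiveRoot ζ p)

/-- `cyc n = ∑_{i<n} ζ^i`, i.e. `(ζ^n - 1)/(ζ - 1)`, in `𝓞 K`. -/
noncomputable def cyc (n : ℕ) : 𝓞 K := ∑ i ∈ range n, hζ.toInteger ^ i

omit [NumberField K] [IsCyclotomicExtension {p} ℚ K] in
theorem lam_mul_cyc (n : ℕ) : (hζ.toInteger - 1) * cyc hζ n = hζ.toInteger ^ n - 1 := by
  rw [cyc, mul_comm, geom_sum_mul]

omit [NumberField K] [IsCyclotomicExtension {p} ℚ K] in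
theorem toInteger_pow_prime : hζ.toInteger ^ p = 1 :=
  hζ.toInteger_isPrimitiveRoot.pow_eq_one

omit [NumberField K] [IsCyclotomicExtension {p} ℚ K] in
theorem lam_ne_zero : hζ.toInteger - 1 ≠ 0 := by
  intro h
  have h1 : hζ.toInteger = 1 := sub_eq_zero.mp h
  have h2 := hζ.toInteger_isPrimitiveRoot
  rw [h1] at h2
  have := h2.eq_orderOf
  rw [orderOf_one] at this
  exact hp.out.one_lt.ne' this

omit [NumberField K] [IsCyclotomicExtension {p} ℚ K] in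
theorem cyc_congr {m n : ℕ} (h : m ≡ n [MOD p]) : cyc hζ m = cyc hζ n := by
  apply mul_left_cancel₀ (lam_ne_zero hζ)
  rw [lam_mul_cyc, lam_mul_cyc]
  congr 1
  have h1 := hζ.toInteger_isPrimitiveRoot.eq_orderOf
  rw [← pow_mod_orderOf hζ.toInteger m, ← pow_mod_orderOf hζ.toInteger n, ← h1]
  congr 1

omit [NumberField K] [IsCyclotomicExtension {p} ℚ K] in
theorem cyc_add_prime (n : ℕ) : cyc hζ (n + p) = cyc hζ n :=
  cyc_congr hζ (by simp [Nat.ModEq])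

omit [NumberField K] [IsCyclotomicExtension {p} ℚ K] in
theorem cyc_zero : cyc hζ 0 = 0 := by simp [cyc]

omit [NumberField K] [IsCyclotomicExtension {p} ℚ K] in
theorem isUnit_cyc {n : ℕ} (hn : ¬ p ∣ n) : IsUnit (cyc hζ n) := by
  have hcop : n.Coprime p := (Nat.coprime_comm.mp ((Nat.Prime.coprime_iff_not_dvd hp.out).mpr hn))
  exact hζ.toInteger_isPrimitiveRoot.geom_sum_isUnit hp.out.two_le hcop

omit [NumberField K] [IsCyclotomicExtension {p} ℚ K] in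
theorem isUnit_cyc_val {x : ZMod p} (hx : x ≠ 0) : IsUnit (cyc hζ x.val) := by
  apply isUnit_cyc
  intro h
  have h0 : x.val = 0 := Nat.eq_zero_of_dvd_of_lt h (ZMod.val_lt x)
  exact hx ((ZMod.val_eq_zero x).mp h0)

omit [NumberField K] [IsCyclotomicExtension {p} ℚ K] in
/-- Galois action on the cyclotomic units: `cyc g * σ (cyc n) = cyc (g * n)`. -/
theorem cyc_galois (σ : 𝓞 K ≃+* 𝓞 K) (g : ℕ) (hσ : σ hζ.toInteger = hζ.toInteger ^ g) (n : ℕ) :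
    cyc hζ g * σ (cyc hζ n) = cyc hζ (g * n) := by
  apply mul_left_cancel₀ (lam_ne_zero hζ)
  rw [← mul_assoc, lam_mul_cyc, lam_mul_cyc]
  have h1 : σ (cyc hζ n) = ∑ i ∈ range n, (hζ.toInteger ^ g) ^ i := by
    rw [cyc, map_sum]
    refine Finset.sum_congr rfl fun i _ => ?_
    rw [map_pow, hσ]
  rw [h1, mul_comm, geom_sum_mul, pow_mul]

/-- the exponent `[x^(p-3)]` -/
noncomputable def eExp (x : ZMod p) : ℕ := (x ^ (p - 3)).val

/-- The cyclotomic unit `E = ∏_x cyc(x)^[x^(p-3)]` as an element of `𝓞 K`. -/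
noncomputable def Eelt : 𝓞 K := ∏ x : ZMod p, cyc hζ x.val ^ eExp x

theorem eExp_zero (hp5 : 5 ≤ p) : eExp (0 : ZMod p) = 0 := by
  have h5 := hp5
  have : p - 3 ≠ 0 := by omega
  simp [eExp, zero_pow this]

omit [NumberField K] [IsCyclotomicExtension {p} ℚ K] in
theorem isUnit_cyc_pow (x : ZMod p) (m : ℕ) (hm : x = 0 → m = 0) :
    IsUnit (cyc hζ x.val ^ m) := by
  by_cases hx : x = 0
  · rw [hm hx, pow_zero]; exact isUnit_one
  · exact (isUnit_cyc_val hζ hx).pow m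

omit [NumberField K] [IsCyclotomicExtension {p} ℚ K] in
theorem isUnit_Eelt (hp5 : 5 ≤ p) : IsUnit (Eelt hζ) := by
  classical
  rw [Eelt]
  have : ∀ x ∈ (Finset.univ : Finset (ZMod p)), IsUnit (cyc hζ x.val ^ eExp x) := fun x _ =>
    isUnit_cyc_pow hζ x _ (fun hx => by rw [hx]; exact eExp_zero hp5)
  exact (IsUnit.prod_univ_iff (f := fun x : ZMod p => cyc hζ x.val ^ eExp x)).mpr
    (fun x => this x (Finset.mem_univ x))

/-- The cyclotomic unit `E` as a unit. -/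
noncomputable def EUnit (hp5 : 5 ≤ p) : (𝓞 K)ˣ := (isUnit_Eelt hζ hp5).unit

omit [NumberField K] [IsCyclotomicExtension {p} ℚ K] in
theorem coe_EUnit (hp5 : 5 ≤ p) : ((EUnit hζ hp5 : (𝓞 K)ˣ) : 𝓞 K) = Eelt hζ := rfl

/-- `∑_x [x^(p-3)] ≡ 0 (mod p)`. -/
theorem prime_dvd_sum_eExp (hp5 : 5 ≤ p) : p ∣ ∑ x : ZMod p, eExp x := by
  rw [← ZMod.natCast_eq_zero_iff, Nat.cast_sum]
  have h1 : ∀ x : ZMod p, ((eExp x : ℕ) : ZMod p) = x ^ (p - 3) := fun x => by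
    rw [eExp, ZMod.natCast_zmod_val]
  simp_rw [h1]
  apply FiniteField.sum_pow_lt_card_sub_one
  rw [ZMod.card]
  omega

/-- the exponent identity: `[(γ⁻¹ y)^(p-3)] = (g² · [y^(p-3)]) % p`. -/
theorem eExp_inv_mul (hp5 : 5 ≤ p) (g : ℕ) (hg : ¬ p ∣ g) (y : ZMod p) :
    eExp ((g : ZMod p)⁻¹ * y) = (g ^ 2 * eExp y) % p := by
  have hg0 : (g : ZMod p) ≠ 0 := by
    rwa [Ne, ZMod.natCast_eq_zero_iff]
  have hpow : (g : ZMod p) ^ (p - 1) = 1 := ZMod.pow_card_sub_one_eq_one hg0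
  have h1 : ((g : ZMod p)⁻¹) ^ (p - 3) = (g : ZMod p) ^ 2 := by
    have h2 : ((g : ZMod p)⁻¹) ^ (p - 3) * (g : ZMod p) ^ (p - 3) = 1 := by
      rw [← mul_pow, inv_mul_cancel₀ hg0, one_pow]
    have h3 : (g : ZMod p) ^ 2 * (g : ZMod p) ^ (p - 3) = 1 := by
      rw [← pow_add, show 2 + (p - 3) = p - 1 by omega, hpow]
    have h4 : (g : ZMod p) ^ (p - 3) ≠ 0 := pow_ne_zero _ hg0
    exact mul_right_cancel₀ h4 (h2.trans h3.symm)
  have h5 : ((g : ZMod p)⁻¹ * y) ^ (p - 3) = ((g ^ 2 * eExp y : ℕ) : ZMod p) := by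
    rw [mul_pow, h1, Nat.cast_mul, Nat.cast_pow, eExp, ZMod.natCast_zmod_val]
  rw [eExp, h5, ZMod.val_natCast]

omit [NumberField K] [IsCyclotomicExtension {p} ℚ K] in
/-- **Eigen-relation in `𝓞 K`.**  `E^(g²) = σ(E) · θ^p` with `θ` a unit. -/
theorem Eelt_eigen (hp5 : 5 ≤ p) (σ : 𝓞 K ≃+* 𝓞 K) (g : ℕ) (hg : ¬ p ∣ g)
    (hσ : σ hζ.toInteger = hζ.toInteger ^ g) :
    ∃ θ : (𝓞 K)ˣ, Eelt hζ ^ (g ^ 2) = σ (Eelt hζ) * (θ : 𝓞 K) ^ p := by
  classical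
  have hg0 : (g : ZMod p) ≠ 0 := by
    rwa [Ne, ZMod.natCast_eq_zero_iff]
  obtain ⟨M, hM⟩ := prime_dvd_sum_eExp (p := p) hp5
  -- the unit θ
  have hu1 : IsUnit (cyc hζ g ^ M) := (isUnit_cyc hζ hg).pow M
  have hu2 : IsUnit (∏ y : ZMod p, cyc hζ y.val ^ ((g ^ 2 * eExp y) / p)) := by
    refine (IsUnit.prod_univ_iff
      (f := fun y : ZMod p => cyc hζ y.val ^ ((g ^ 2 * eExp y) / p))).mpr (fun y => ?_)
    refine isUnit_cyc_pow hζ y _ (fun hy => ?_)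
    rw [hy, eExp_zero hp5]; simp
  refine ⟨hu1.unit * hu2.unit, ?_⟩
  rw [Units.val_mul, IsUnit.unit_spec, IsUnit.unit_spec]
  -- step 1: cyc g ^ S * σ E = ∏ cyc (g * x.val) ^ e x
  have step1 : cyc hζ g ^ (∑ x : ZMod p, eExp x) * σ (Eelt hζ)
      = ∏ x : ZMod p, cyc hζ (((g : ZMod p) * x).val) ^ eExp x := by
    rw [Eelt, map_prod, ← Finset.prod_pow_eq_pow_sum, ← Finset.prod_mul_distrib]
    refine Finset.prod_congr rfl fun x _ => ?_
    rw [map_pow, ← mul_pow, cyc_galois hζ σ g hσ]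
    congr 1
    apply cyc_congr
    have : ((g : ZMod p) * x).val = (g * x.val) % p := by
      rw [← ZMod.val_natCast, Nat.cast_mul, ZMod.natCast_zmod_val]
    rw [this]
    exact (Nat.mod_modEq _ _).symm
  -- step 2: reindex by y = g x
  have step2 : ∏ x : ZMod p, cyc hζ (((g : ZMod p) * x).val) ^ eExp x
      = ∏ y : ZMod p, cyc hζ y.val ^ eExp ((g : ZMod p)⁻¹ * y) := by
    refine Fintype.prod_equiv (Equiv.mulLeft₀ (g : ZMod p) hg0) _ _ (fun x => ?_)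
    simp only [Equiv.mulLeft₀_apply]
    rw [inv_mul_cancel_left₀ hg0]
  -- step 3: E^(g²) = ∏ cyc y ^ (g² e y)
  have step3 : Eelt hζ ^ (g ^ 2) = ∏ y : ZMod p, cyc hζ y.val ^ (g ^ 2 * eExp y) := by
    rw [Eelt, ← Finset.prod_pow]
    refine Finset.prod_congr rfl fun y _ => ?_
    rw [← pow_mul, mul_comm]
  -- step 4: split exponents
  have step4 : ∏ y : ZMod p, cyc hζ y.val ^ (g ^ 2 * eExp y)
      = (∏ y : ZMod p, cyc hζ y.val ^ eExp ((g : ZMod p)⁻¹ * y)) *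
        (∏ y : ZMod p, cyc hζ y.val ^ ((g ^ 2 * eExp y) / p)) ^ p := by
    rw [← Finset.prod_pow, ← Finset.prod_mul_distrib]
    refine Finset.prod_congr rfl fun y _ => ?_
    rw [eExp_inv_mul hp5 g hg y, ← pow_mul, ← pow_add]
    congr 1
    rw [mul_comm _ p, add_comm]
    exact (Nat.div_add_mod _ _).symm
  rw [step3, step4, ← step2, ← step1, hM, mul_pow, ← pow_mul (cyc hζ g) M p, mul_comm M p]
  ring

omit [IsCyclotomicExtension {p} ℚ K] in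
/-- **WP4c.** The cyclotomic unit `E` is an `a²`-eigenvector modulo `p`-th powers:
if `σ ζ = ζ^g` with `p ∤ g`, then `σ E = E^(g²) · η^p` for a unit `η` (statement in `K`). -/
theorem E_eigen (hp5 : 5 ≤ p) (σ : K ≃ₐ[ℚ] K) (g : ℕ) (hg : ¬ p ∣ g) (hσ : σ ζ = ζ ^ g) :
    ∃ η : (𝓞 K)ˣ, σ (((EUnit hζ hp5 : (𝓞 K)ˣ) : 𝓞 K) : K)
      = ((((EUnit hζ hp5 : (𝓞 K)ˣ) : 𝓞 K) : K)) ^ (g ^ 2) * (((η : (𝓞 K)ˣ) : 𝓞 K) : K) ^ p := by
  set σ' : 𝓞 K ≃+* 𝓞 K := RingOfIntegers.mapRingEquiv (σ : K ≃+* K) with hσ'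
  have hσζ : σ' hζ.toInteger = hζ.toInteger ^ g := by
    apply RingOfIntegers.coe_injective
    rw [hσ', map_pow]
    exact hσ
  obtain ⟨θ, hθ⟩ := Eelt_eigen hζ hp5 σ' g hg hσζ
  refine ⟨θ⁻¹, ?_⟩
  have h1 : σ' (Eelt hζ) = Eelt hζ ^ (g ^ 2) * ((θ⁻¹ : (𝓞 K)ˣ) : 𝓞 K) ^ p := by
    rw [hθ, mul_assoc, ← mul_pow, Units.mul_inv, one_pow, mul_one]
  have h2 := congrArg (fun x : 𝓞 K => (x : K)) h1
  simp only [map_mul, map_pow] at h2
  rw [coe_EUnit]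
  exact h2

omit [NumberField K] [IsCyclotomicExtension {p} ℚ K] in
/-- Bridge: `E` as a product over `1 ≤ b < p`. -/
theorem Eelt_eq_prod_Ico (hp5 : 5 ≤ p) :
    Eelt hζ = ∏ b ∈ Finset.Ico 1 p, cyc hζ b ^ (((b : ZMod p) ^ (p - 3)).val) := by
  classical
  have hppos : 0 < p := hp.out.pos
  have h3 : p - 3 ≠ 0 := by have := hp5; omega
  have h1 : Eelt hζ = ∏ b ∈ Finset.range p, cyc hζ b ^ (((b : ZMod p) ^ (p - 3)).val) := by
    rw [Eelt]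
    refine Finset.prod_nbij' (fun x : ZMod p => x.val) (fun b : ℕ => (b : ZMod p))
      (fun x _ => Finset.mem_range.mpr (ZMod.val_lt x)) (fun _ _ => Finset.mem_univ _)
      (fun x _ => ZMod.natCast_zmod_val x)
      (fun b hb => ZMod.val_cast_of_lt (Finset.mem_range.mp hb)) (fun x _ => ?_)
    rw [eExp, ZMod.natCast_zmod_val]
  rw [h1, Finset.range_eq_Ico, Finset.prod_eq_prod_Ico_succ_bot hppos]
  simp [zero_pow h3]

end Fermat.Agent.S14.H91
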