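import Mathlib

/-!
# S14, WP4a: the `D2` invariant on `F_p[t]/(t^3)`

Pure algebra: the truncated polynomial ring `T3 p = F_p[t]/(t^3)` as triples of coefficients,
the homomorphism-like map `D2 (c0 + c1 t + c2 t^2) = 2 c2/c0 - (c1/c0)^2 + c1/c0`, its behaviour
under products, `p`-th powers, the substitutions `t ↦ (1+t)^a - 1`, and its value on the
"cyclotomic units" `∑ i < b, (1+t)^i`.
-/

set_option autoImplicit false

namespace Fermat.Agent.S14.H53

/-- The truncated polynomial ring `F_p[t]/(t^3)` as triples of coefficients. -/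
@[ext] structure T3 (p : ℕ) where
  c0 : ZMod p
  c1 : ZMod p
  c2 : ZMod p

namespace T3

variable {p : ℕ}

instance : Zero (T3 p) := ⟨⟨0, 0, 0⟩⟩
instance : One (T3 p) := ⟨⟨1, 0, 0⟩⟩
instance : Add (T3 p) := ⟨fun x y => ⟨x.c0 + y.c0, x.c1 + y.c1, x.c2 + y.c2⟩⟩
instance : Neg (T3 p) := ⟨fun x => ⟨-x.c0, -x.c1, -x.c2⟩⟩
instance : Mul (T3 p) :=
  ⟨fun x y => ⟨x.c0 * y.c0, x.c0 * y.c1 + x.c1 * y.c0, x.c0 * y.c2 + x.c1 * y.c1 + x.c2 * y.c0⟩⟩

@[simp] theorem zero_c0 : (0 : T3 p).c0 = 0 := rfl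
@[simp] theorem zero_c1 : (0 : T3 p).c1 = 0 := rfl
@[simp] theorem zero_c2 : (0 : T3 p).c2 = 0 := rfl
@[simp] theorem one_c0 : (1 : T3 p).c0 = 1 := rfl
@[simp] theorem one_c1 : (1 : T3 p).c1 = 0 := rfl
@[simp] theorem one_c2 : (1 : T3 p).c2 = 0 := rfl
@[simp] theorem add_c0 (x y : T3 p) : (x + y).c0 = x.c0 + y.c0 := rfl
@[simp] theorem add_c1 (x y : T3 p) : (x + y).c1 = x.c1 + y.c1 := rfl
@[simp] theorem add_c2 (x y : T3 p) : (x + y).c2 = x.c2 + y.c2 := rfl
@[simp] theorem neg_c0 (x : T3 p) : (-x).c0 = -x.c0 := rfl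
@[simp] theorem neg_c1 (x : T3 p) : (-x).c1 = -x.c1 := rfl
@[simp] theorem neg_c2 (x : T3 p) : (-x).c2 = -x.c2 := rfl
@[simp] theorem mul_c0 (x y : T3 p) : (x * y).c0 = x.c0 * y.c0 := rfl
@[simp] theorem mul_c1 (x y : T3 p) : (x * y).c1 = x.c0 * y.c1 + x.c1 * y.c0 := rfl
@[simp] theorem mul_c2 (x y : T3 p) :
    (x * y).c2 = x.c0 * y.c2 + x.c1 * y.c1 + x.c2 * y.c0 := rfl

instance : CommRing (T3 p) where
  add_assoc x y z := by ext <;> simp [add_assoc]
  zero_add x := by ext <;> simp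
  add_zero x := by ext <;> simp
  nsmul := nsmulRec
  zsmul := zsmulRec
  neg_add_cancel x := by ext <;> simp
  add_comm x y := by ext <;> simp [add_comm]
  left_distrib x y z := by ext <;> simp <;> ring
  right_distrib x y z := by ext <;> simp <;> ring
  zero_mul x := by ext <;> simp
  mul_zero x := by ext <;> simp
  mul_assoc x y z := by ext <;> simp <;> ring
  one_mul x := by ext <;> simp
  mul_one x := by ext <;> simp
  mul_comm x y := by ext <;> simp <;> ring

@[simp] theorem sub_c0 (x y : T3 p) : (x - y).c0 = x.c0 - y.c0 := by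
  rw [sub_eq_add_neg, add_c0, neg_c0, sub_eq_add_neg]
@[simp] theorem sub_c1 (x y : T3 p) : (x - y).c1 = x.c1 - y.c1 := by
  rw [sub_eq_add_neg, add_c1, neg_c1, sub_eq_add_neg]
@[simp] theorem sub_c2 (x y : T3 p) : (x - y).c2 = x.c2 - y.c2 := by
  rw [sub_eq_add_neg, add_c2, neg_c2, sub_eq_add_neg]

@[simp] theorem natCast_c0 (n : ℕ) : ((n : T3 p)).c0 = n := by
  induction n with
  | zero => simp
  | succ n ih => simp [ih]
@[simp] theorem natCast_c1 (n : ℕ) : ((n : T3 p)).c1 = 0 := by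
  induction n with
  | zero => simp
  | succ n ih => simp [ih]
@[simp] theorem natCast_c2 (n : ℕ) : ((n : T3 p)).c2 = 0 := by
  induction n with
  | zero => simp
  | succ n ih => simp [ih]

/-- The class of `t`. -/
def t : T3 p := ⟨0, 1, 0⟩

@[simp] theorem t_c0 : (t : T3 p).c0 = 0 := rfl
@[simp] theorem t_c1 : (t : T3 p).c1 = 1 := rfl
@[simp] theorem t_c2 : (t : T3 p).c2 = 0 := rfl

theorem t_pow_three : (t : T3 p) ^ 3 = 0 := by
  ext <;> simp [pow_succ]

/-- The ring homomorphism "constant coefficient". -/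
def c0Hom : T3 p →+* ZMod p where
  toFun := c0
  map_one' := rfl
  map_mul' _ _ := rfl
  map_zero' := rfl
  map_add' _ _ := rfl

@[simp] theorem c0Hom_apply (x : T3 p) : c0Hom x = x.c0 := rfl

theorem pow_c0 (x : T3 p) (n : ℕ) : (x ^ n).c0 = x.c0 ^ n := map_pow c0Hom x n

instance [Fact p.Prime] : CharP (T3 p) p := by
  refine ⟨fun n => ?_⟩
  rw [← ZMod.natCast_eq_zero_iff]
  constructor
  · intro h
    simpa using congrArg c0 h
  · intro h
    ext <;> simp [h]

/-- `(1 + t)^a = 1 + a t + (a choose 2) t^2`. -/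
theorem one_add_t_pow (a : ℕ) : ((1 : T3 p) + t) ^ a = ⟨1, a, (a.choose 2 : ℕ)⟩ := by
  induction a with
  | zero => ext <;> simp
  | succ a ih =>
    rw [pow_succ, ih]
    ext
    · simp
    · simp [add_comm]
    · simp only [mul_c2, add_c2, one_c2, t_c2, add_c1, one_c1, t_c1, add_c0, one_c0, t_c0]
      rw [show (a + 1).choose 2 = a.choose 1 + a.choose 2 from Nat.choose_succ_succ a 1]
      push_cast
      rw [Nat.choose_one_right]
      ring

/-- `2 * (a choose 2) = a * (a - 1)` in any commutative ring. -/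
theorem two_mul_choose_two {R : Type*} [CommRing R] (a : ℕ) :
    (2 : R) * (a.choose 2 : ℕ) = a * (a - 1) := by
  induction a with
  | zero => simp
  | succ a ih =>
    rw [show (a + 1).choose 2 = a.choose 1 + a.choose 2 from Nat.choose_succ_succ a 1]
    push_cast
    rw [Nat.choose_one_right, mul_add, ih]
    ring

/-- `6 * (a choose 3) = a * (a - 1) * (a - 2)` in any commutative ring. -/
theorem six_mul_choose_three {R : Type*} [CommRing R] (a : ℕ) :
    (6 : R) * (a.choose 3 : ℕ) = a * (a - 1) * (a - 2) := by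
  induction a with
  | zero => simp
  | succ a ih =>
    rw [show (a + 1).choose 3 = a.choose 2 + a.choose 3 from Nat.choose_succ_succ a 2]
    push_cast
    have h2 := two_mul_choose_two (R := R) a
    rw [mul_add, ih]
    linear_combination 3 * h2

/-- The geometric sum `∑ i < b, (1+t)^i = b + (b choose 2) t + (b choose 3) t^2`. -/
theorem sum_one_add_t_pow (b : ℕ) :
    ∑ i ∈ Finset.range b, ((1 : T3 p) + t) ^ i = ⟨b, (b.choose 2 : ℕ), (b.choose 3 : ℕ)⟩ := by
  induction b with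
  | zero => ext <;> simp
  | succ b ih =>
    rw [Finset.sum_range_succ, ih, one_add_t_pow]
    ext
    · simp
    · simp only [add_c1]
      rw [show (b + 1).choose 2 = b.choose 1 + b.choose 2 from Nat.choose_succ_succ b 1]
      simp
      ring
    · simp only [add_c2]
      rw [show (b + 1).choose 3 = b.choose 2 + b.choose 3 from Nat.choose_succ_succ b 2]
      simp
      ring

/-- The substitution `t ↦ (1 + t)^a - 1 = a t + (a choose 2) t^2`, as a ring endomorphism. -/
def subst (a : ℕ) : T3 p →+* T3 p where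
  toFun x := ⟨x.c0, a * x.c1, (a.choose 2 : ℕ) * x.c1 + (a : ZMod p) ^ 2 * x.c2⟩
  map_one' := by ext <;> simp
  map_mul' x y := by ext <;> simp <;> ring
  map_zero' := by ext <;> simp
  map_add' x y := by ext <;> simp <;> ring

@[simp] theorem subst_c0 (a : ℕ) (x : T3 p) : (subst a x).c0 = x.c0 := rfl
@[simp] theorem subst_c1 (a : ℕ) (x : T3 p) : (subst a x).c1 = a * x.c1 := rfl
@[simp] theorem subst_c2 (a : ℕ) (x : T3 p) :
    (subst a x).c2 = (a.choose 2 : ℕ) * x.c1 + (a : ZMod p) ^ 2 * x.c2 := rfl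

theorem subst_one_add_t (a : ℕ) : subst a ((1 : T3 p) + t) = (1 + t) ^ a := by
  rw [one_add_t_pow]
  ext <;> simp

end T3

open T3

variable {p : ℕ}

section prime

variable [Fact p.Prime]

/-- The invariant `D2 (c0 + c1 t + c2 t^2) = 2 c2/c0 - (c1/c0)^2 + c1/c0`
(twice the `t^2`-coefficient plus the `t`-coefficient of the logarithm). -/
def D2 (x : T3 p) : ZMod p := 2 * (x.c2 / x.c0) - (x.c1 / x.c0) ^ 2 + x.c1 / x.c0

theorem D2_one : D2 (1 : T3 p) = 0 := by simp [D2]

theorem D2_mul (x y : T3 p) (hx : x.c0 ≠ 0) (hy : y.c0 ≠ 0) : D2 (x * y) = D2 x + D2 y := by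
  simp only [D2, mul_c0, mul_c1, mul_c2]
  field_simp
  ring

theorem D2_pow (x : T3 p) (hx : x.c0 ≠ 0) (n : ℕ) : D2 (x ^ n) = n * D2 x := by
  induction n with
  | zero => simp [D2_one]
  | succ n ih =>
    rw [pow_succ, D2_mul _ _ (by rw [pow_c0]; exact pow_ne_zero _ hx) hx, ih]
    push_cast
    ring

theorem D2_pow_p (x : T3 p) (hx : x.c0 ≠ 0) : D2 (x ^ p) = 0 := by
  rw [D2_pow x hx, ZMod.natCast_self, zero_mul]

theorem D2_prod {ι : Type*} (s : Finset ι) (f : ι → T3 p) (hf : ∀ i ∈ s, (f i).c0 ≠ 0) :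
    D2 (∏ i ∈ s, f i) = ∑ i ∈ s, D2 (f i) := by
  classical
  induction s using Finset.induction_on with
  | empty => simp [D2_one]
  | insert i s hi ih =>
    rw [Finset.prod_insert hi, Finset.sum_insert hi,
      D2_mul _ _ (hf i (Finset.mem_insert_self i s)) ?_,
      ih fun j hj => hf j (Finset.mem_insert_of_mem hj)]
    have : (∏ j ∈ s, f j).c0 = ∏ j ∈ s, (f j).c0 := map_prod c0Hom f s
    rw [this]
    exact Finset.prod_ne_zero_iff.mpr fun j hj => hf j (Finset.mem_insert_of_mem hj)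

theorem D2_subst (a : ℕ) (x : T3 p) (hx : x.c0 ≠ 0) :
    D2 (subst a x) = (a : ZMod p) ^ 2 * D2 x := by
  simp only [D2, subst_c0, subst_c1, subst_c2]
  have h2 := two_mul_choose_two (R := ZMod p) a
  field_simp
  linear_combination (x.c1 * x.c0) * h2

/-- The value of `D2` on the image of the cyclotomic unit `(1 - ζ^b)/(1 - ζ) = ∑ i < b, ζ^i`. -/
theorem D2_geom (b : ℕ) (hb : (b : ZMod p) ≠ 0) :
    12 * D2 (∑ i ∈ Finset.range b, ((1 : T3 p) + t) ^ i) = (b : ZMod p) ^ 2 - 1 := by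
  rw [sum_one_add_t_pow]
  simp only [D2]
  have h2 := two_mul_choose_two (R := ZMod p) b
  have h3 := six_mul_choose_three (R := ZMod p) b
  field_simp
  linear_combination (4 * (b : ZMod p)) * h3 +
    (-3 * (2 * ((b.choose 2 : ℕ) : ZMod p) + b * (b - 1)) + 6 * b) * h2

end prime

end Fermat.Agent.S14.H53
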