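import Mathlib
import Fermat.Agent.S14.D2_helper53

/-!
# S14, WP4a: the `D2` invariant on the ring of integers of `ℚ(ζ_p)`

For a prime `p ≥ 5`, `K` a `p`-th cyclotomic extension of `ℚ`, `ζ` a primitive `p`-th root of
unity and `π = ζ - 1`: the ring homomorphism `phi : 𝓞 K →+* T3 p = F_p[t]/(t^3)` with
`phi ζ = 1 + t`, and the invariant `D2K u = D2 (phi u)`.
-/

set_option autoImplicit false

namespace Fermat.Agent.S14.H53

open NumberField T3 Polynomial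

variable {p : ℕ} [hp : Fact p.Prime]

/-- `Φ_p(1 + t) = 0` in `F_p[t]/(t^3)` for `p ≥ 5`. -/
theorem aeval_cyclotomic_one_add_t (hp5 : 5 ≤ p) :
    aeval ((1 : T3 p) + t) (cyclotomic p ℤ) = 0 := by
  rw [cyclotomic_prime ℤ p, map_sum]
  simp only [map_pow, aeval_X]
  rw [sum_one_add_t_pow]
  have h2 : p ∣ p.choose 2 := hp.out.dvd_choose_self (by norm_num) (by omega)
  have h3 : p ∣ p.choose 3 := hp.out.dvd_choose_self (by norm_num) (by omega)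
  ext
  · simp
  · simpa using (ZMod.natCast_eq_zero_iff _ _).mpr h2
  · simpa using (ZMod.natCast_eq_zero_iff _ _).mpr h3

variable {K : Type*} [Field K] [NumberField K] [IsCyclotomicExtension {p} ℚ K] {ζ : K}

theorem aeval_minpoly_gen (hζ : IsPrimitiveRoot ζ p) (hp5 : 5 ≤ p) [NeZero p] :
    aeval ((1 : T3 p) + t) (minpoly ℤ hζ.integralPowerBasis.gen) = 0 := by
  rw [hζ.integralPowerBasis_gen, ← RingOfIntegers.minpoly_coe,
    show ((hζ.toInteger : 𝓞 K) : K) = ζ from rfl, ← cyclotomic_eq_minpoly hζ hp.out.pos]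
  exact aeval_cyclotomic_one_add_t hp5

/-- The ring homomorphism `𝓞 K → F_p[t]/(t^3)` sending `ζ` to `1 + t` (kernel `(ζ - 1)^3`). -/
noncomputable def phi (hζ : IsPrimitiveRoot ζ p) (hp5 : 5 ≤ p) : 𝓞 K →+* T3 p :=
  have : NeZero p := ⟨hp.out.ne_zero⟩
  (hζ.integralPowerBasis.lift ((1 : T3 p) + t) (aeval_minpoly_gen hζ hp5)).toRingHom

theorem phi_zeta (hζ : IsPrimitiveRoot ζ p) (hp5 : 5 ≤ p) :
    phi hζ hp5 hζ.toInteger = 1 + t := by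
  have : NeZero p := ⟨hp.out.ne_zero⟩
  have h := hζ.integralPowerBasis.lift_gen ((1 : T3 p) + t) (aeval_minpoly_gen hζ hp5)
  unfold phi
  conv_lhs => rw [← hζ.integralPowerBasis_gen]
  exact h

theorem phi_zeta_sub_one (hζ : IsPrimitiveRoot ζ p) (hp5 : 5 ≤ p) :
    phi hζ hp5 (hζ.toInteger - 1) = t := by
  rw [map_sub, phi_zeta, map_one, add_sub_cancel_left]

/-- `phi` only depends on the class modulo `π^3`. -/
theorem phi_eq_of_dvd_sub (hζ : IsPrimitiveRoot ζ p) (hp5 : 5 ≤ p) {u v : 𝓞 K}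
    (h : (hζ.toInteger - 1) ^ 3 ∣ u - v) : phi hζ hp5 u = phi hζ hp5 v := by
  obtain ⟨w, hw⟩ := h
  have := congrArg (phi hζ hp5) hw
  rw [map_sub, map_mul, map_pow, phi_zeta_sub_one, t_pow_three, zero_mul, sub_eq_zero] at this
  exact this

/-- Two ring homomorphisms out of `𝓞 K` which agree on `ζ` are equal. -/
theorem ringHom_ext_zeta (hζ : IsPrimitiveRoot ζ p) {R : Type*} [Ring R] {f g : 𝓞 K →+* R}
    (h : f hζ.toInteger = g hζ.toInteger) : f = g := by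
  have : NeZero p := ⟨hp.out.ne_zero⟩
  have h' : f.toIntAlgHom hζ.integralPowerBasis.gen = g.toIntAlgHom hζ.integralPowerBasis.gen := by
    rw [hζ.integralPowerBasis_gen]
    exact h
  have := hζ.integralPowerBasis.algHom_ext h'
  ext x
  exact DFunLike.congr_fun this x

/-- Compatibility of `phi` with an endomorphism `τ` of `𝓞 K` such that `τ ζ = ζ ^ a`. -/
theorem phi_galois (hζ : IsPrimitiveRoot ζ p) (hp5 : 5 ≤ p) (τ : 𝓞 K →+* 𝓞 K) (a : ℕ)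
    (hτ : τ hζ.toInteger = hζ.toInteger ^ a) (u : 𝓞 K) :
    phi hζ hp5 (τ u) = subst a (phi hζ hp5 u) := by
  have : (phi hζ hp5).comp τ = (subst a).comp (phi hζ hp5) := by
    apply ringHom_ext_zeta hζ
    simp only [RingHom.comp_apply]
    rw [hτ, map_pow, phi_zeta, subst_one_add_t]
  exact DFunLike.congr_fun this u

/-- The constant coefficient of `phi u` vanishes exactly when `π = ζ - 1` divides `u`. -/
theorem phi_c0_eq_zero_iff (hζ : IsPrimitiveRoot ζ p) (hp5 : 5 ≤ p) (u : 𝓞 K) :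
    (phi hζ hp5 u).c0 = 0 ↔ hζ.toInteger - 1 ∣ u := by
  have hprime : Prime (hζ.toInteger - 1) := hζ.zeta_sub_one_prime'
  set I : Ideal (𝓞 K) := Ideal.span {hζ.toInteger - 1} with hI
  have hIprime : I.IsPrime := (Ideal.span_singleton_prime hprime.ne_zero).mpr hprime
  have hI0 : I ≠ ⊥ := by
    rw [hI, Ne, Ideal.span_singleton_eq_bot]
    exact hprime.ne_zero
  have hImax : I.IsMaximal := hIprime.isMaximal hI0
  set ψ : 𝓞 K →+* ZMod p := (c0Hom).comp (phi hζ hp5) with hψ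
  have hle : I ≤ RingHom.ker ψ := by
    rw [hI, Ideal.span_singleton_le_iff_mem, RingHom.mem_ker, hψ, RingHom.comp_apply,
      phi_zeta_sub_one]
    rfl
  have hne : RingHom.ker ψ ≠ ⊤ := RingHom.ker_ne_top ψ
  have hker : I = RingHom.ker ψ := hImax.eq_of_le hne hle
  have : (phi hζ hp5 u).c0 = 0 ↔ u ∈ RingHom.ker ψ := by
    rw [RingHom.mem_ker]
    rfl
  rw [this, ← hker, hI, Ideal.mem_span_singleton]

theorem phi_c0_ne_zero (hζ : IsPrimitiveRoot ζ p) (hp5 : 5 ≤ p) {u : 𝓞 K}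
    (hu : ¬ hζ.toInteger - 1 ∣ u) : (phi hζ hp5 u).c0 ≠ 0 :=
  fun h => hu ((phi_c0_eq_zero_iff hζ hp5 u).mp h)

/-- The invariant `D2` on elements of `𝓞 K` (meaningful for `u` prime to `π`). -/
noncomputable def D2K (hζ : IsPrimitiveRoot ζ p) (hp5 : 5 ≤ p) (u : 𝓞 K) : ZMod p :=
  D2 (phi hζ hp5 u)

theorem D2K_one (hζ : IsPrimitiveRoot ζ p) (hp5 : 5 ≤ p) : D2K hζ hp5 (1 : 𝓞 K) = 0 := by
  rw [D2K, map_one, D2_one]

theorem D2K_mul (hζ : IsPrimitiveRoot ζ p) (hp5 : 5 ≤ p) {u v : 𝓞 K}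
    (hu : ¬ hζ.toInteger - 1 ∣ u) (hv : ¬ hζ.toInteger - 1 ∣ v) :
    D2K hζ hp5 (u * v) = D2K hζ hp5 u + D2K hζ hp5 v := by
  rw [D2K, map_mul, D2_mul _ _ (phi_c0_ne_zero hζ hp5 hu) (phi_c0_ne_zero hζ hp5 hv)]
  rfl

theorem D2K_pow (hζ : IsPrimitiveRoot ζ p) (hp5 : 5 ≤ p) {u : 𝓞 K}
    (hu : ¬ hζ.toInteger - 1 ∣ u) (n : ℕ) :
    D2K hζ hp5 (u ^ n) = n * D2K hζ hp5 u := by
  rw [D2K, map_pow, D2_pow _ (phi_c0_ne_zero hζ hp5 hu)]
  rfl

theorem D2K_prod (hζ : IsPrimitiveRoot ζ p) (hp5 : 5 ≤ p) {ι : Type*} (s : Finset ι)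
    (f : ι → 𝓞 K) (hf : ∀ i ∈ s, ¬ hζ.toInteger - 1 ∣ f i) :
    D2K hζ hp5 (∏ i ∈ s, f i) = ∑ i ∈ s, D2K hζ hp5 (f i) := by
  rw [D2K, map_prod, D2_prod _ _ fun i hi => phi_c0_ne_zero hζ hp5 (hf i hi)]
  rfl

/-- `D2K` only depends on the class modulo `π^3`. -/
theorem D2K_congr (hζ : IsPrimitiveRoot ζ p) (hp5 : 5 ≤ p) {u v : 𝓞 K}
    (h : (hζ.toInteger - 1) ^ 3 ∣ u - v) : D2K hζ hp5 u = D2K hζ hp5 v := by
  rw [D2K, D2K, phi_eq_of_dvd_sub hζ hp5 h]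

/-- `D2K` vanishes on elements which are `p`-th powers modulo `π^3`. -/
theorem D2K_eq_zero_of_pow (hζ : IsPrimitiveRoot ζ p) (hp5 : 5 ≤ p) {u ξ : 𝓞 K}
    (hu : ¬ hζ.toInteger - 1 ∣ u) (h : (hζ.toInteger - 1) ^ 3 ∣ u - ξ ^ p) :
    D2K hζ hp5 u = 0 := by
  have hξ : ¬ hζ.toInteger - 1 ∣ ξ := by
    intro hd
    apply hu
    have h1 : hζ.toInteger - 1 ∣ u - ξ ^ p := dvd_trans (dvd_pow_self _ (by norm_num)) h
    have h2 : hζ.toInteger - 1 ∣ ξ ^ p := dvd_pow hd hp.out.ne_zero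
    have := dvd_add h1 h2
    rwa [sub_add_cancel] at this
  rw [D2K_congr hζ hp5 h, D2K, map_pow, D2_pow_p _ (phi_c0_ne_zero hζ hp5 hξ)]

/-- Galois equivariance: if `τ ζ = ζ ^ a` then `D2K (τ u) = a^2 * D2K u`. -/
theorem D2K_galois (hζ : IsPrimitiveRoot ζ p) (hp5 : 5 ≤ p) (τ : 𝓞 K →+* 𝓞 K) (a : ℕ)
    (hτ : τ hζ.toInteger = hζ.toInteger ^ a) {u : 𝓞 K} (hu : ¬ hζ.toInteger - 1 ∣ u) :
    D2K hζ hp5 (τ u) = (a : ZMod p) ^ 2 * D2K hζ hp5 u := by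
  rw [D2K, phi_galois hζ hp5 τ a hτ, D2_subst _ _ (phi_c0_ne_zero hζ hp5 hu)]
  rfl

/-- The cyclotomic unit `(1 - ζ^b)/(1 - ζ) = ∑ i < b, ζ^i`. -/
noncomputable def cycUnit (hζ : IsPrimitiveRoot ζ p) (b : ℕ) : 𝓞 K :=
  ∑ i ∈ Finset.range b, hζ.toInteger ^ i

theorem phi_cycUnit (hζ : IsPrimitiveRoot ζ p) (hp5 : 5 ≤ p) (b : ℕ) :
    phi hζ hp5 (cycUnit hζ b) = ⟨b, (b.choose 2 : ℕ), (b.choose 3 : ℕ)⟩ := by
  rw [cycUnit, map_sum]
  simp only [map_pow, phi_zeta]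
  exact sum_one_add_t_pow b

omit [NumberField K] [IsCyclotomicExtension {p} ℚ K] in
theorem cycUnit_mul (hζ : IsPrimitiveRoot ζ p) (b : ℕ) :
    cycUnit hζ b * (hζ.toInteger - 1) = hζ.toInteger ^ b - 1 := by
  rw [cycUnit, geom_sum_mul]

theorem not_dvd_cycUnit (hζ : IsPrimitiveRoot ζ p) (hp5 : 5 ≤ p) {b : ℕ} (hb : ¬ p ∣ b) :
    ¬ hζ.toInteger - 1 ∣ cycUnit hζ b := by
  intro h
  have := (phi_c0_eq_zero_iff hζ hp5 _).mpr h
  rw [phi_cycUnit] at this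
  exact hb ((ZMod.natCast_eq_zero_iff _ _).mp this)

theorem D2K_cycUnit (hζ : IsPrimitiveRoot ζ p) (hp5 : 5 ≤ p) {b : ℕ} (hb : ¬ p ∣ b) :
    12 * D2K hζ hp5 (cycUnit hζ b) = (b : ZMod p) ^ 2 - 1 := by
  have hb' : (b : ZMod p) ≠ 0 := fun h => hb ((ZMod.natCast_eq_zero_iff _ _).mp h)
  have := D2_geom (p := p) b hb'
  rw [D2K, cycUnit, map_sum]
  simp only [map_pow, phi_zeta]
  exact this

/-- The cyclotomic unit `E = ∏_{b=1}^{p-1} ((1 - ζ^b)/(1 - ζ))^[b^(p-3)]` in the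
`ω^2`-eigenspace. -/
noncomputable def unitE (hζ : IsPrimitiveRoot ζ p) : 𝓞 K :=
  ∏ b ∈ Finset.Ico 1 p, cycUnit hζ b ^ (((b : ZMod p) ^ (p - 3)).val)

theorem not_dvd_unitE (hζ : IsPrimitiveRoot ζ p) (hp5 : 5 ≤ p) :
    ¬ hζ.toInteger - 1 ∣ unitE hζ := by
  have hprime : Prime (hζ.toInteger - 1) := hζ.zeta_sub_one_prime'
  intro h
  rw [unitE, hprime.dvd_finsetProd_iff] at h
  obtain ⟨b, hb, hdvd⟩ := h
  rw [Finset.mem_Ico] at hb
  exact not_dvd_cycUnit hζ hp5 (Nat.not_dvd_of_pos_of_lt (by omega) hb.2)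
    (hprime.dvd_of_dvd_pow hdvd)

theorem sum_Ico_pow_eq_zero (hp5 : 5 ≤ p) :
    ∑ b ∈ Finset.Ico 1 p, (b : ZMod p) ^ (p - 3) = 0 := by
  have h0 : ∑ b ∈ Finset.range p, (b : ZMod p) ^ (p - 3) = ∑ x : ZMod p, x ^ (p - 3) := by
    refine Finset.sum_nbij' (fun b => (b : ZMod p)) (fun x => x.val) ?_ ?_ ?_ ?_ ?_
    · intro b _
      exact Finset.mem_univ _
    · intro x _
      exact Finset.mem_range.mpr (ZMod.val_lt x)
    · intro b hb
      exact ZMod.val_natCast_of_lt (Finset.mem_range.mp hb)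
    · intro x _
      exact ZMod.natCast_zmod_val x
    · intro b _
      rfl
  have h1 : ∑ x : ZMod p, x ^ (p - 3) = 0 := by
    apply FiniteField.sum_pow_lt_card_sub_one
    rw [ZMod.card]
    omega
  rw [Finset.range_eq_Ico, Finset.sum_eq_sum_Ico_succ_bot hp.out.pos] at h0
  rw [← h1, ← h0]
  simp [zero_pow (show p - 3 ≠ 0 by omega)]

/-- `D2K E = -1/12`; in particular `D2K E ≠ 0`. -/
theorem D2K_unitE (hζ : IsPrimitiveRoot ζ p) (hp5 : 5 ≤ p) :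
    12 * D2K hζ hp5 (unitE hζ) = -1 := by
  have hnd : ∀ b ∈ Finset.Ico 1 p, ¬ p ∣ b := fun b hb => by
    rw [Finset.mem_Ico] at hb
    exact Nat.not_dvd_of_pos_of_lt (by omega) hb.2
  rw [unitE, D2K_prod hζ hp5 _ _ fun b hb => ?_, Finset.mul_sum]
  · have hterm : ∀ b ∈ Finset.Ico 1 p,
        12 * D2K hζ hp5 (cycUnit hζ b ^ (((b : ZMod p) ^ (p - 3)).val)) =
          1 - (b : ZMod p) ^ (p - 3) := by
      intro b hb
      have hb0 : (b : ZMod p) ≠ 0 := fun h => hnd b hb ((ZMod.natCast_eq_zero_iff _ _).mp h)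
      rw [D2K_pow hζ hp5 (not_dvd_cycUnit hζ hp5 (hnd b hb)), ZMod.natCast_zmod_val,
        mul_left_comm, D2K_cycUnit hζ hp5 (hnd b hb), mul_sub, mul_one, ← pow_add,
        show p - 3 + 2 = p - 1 by omega, ZMod.pow_card_sub_one_eq_one hb0]
    rw [Finset.sum_congr rfl hterm, Finset.sum_sub_distrib, sum_Ico_pow_eq_zero hp5, sub_zero,
      Finset.sum_const, Nat.card_Ico, nsmul_eq_mul, mul_one, Nat.cast_sub hp.out.one_le,
      ZMod.natCast_self]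
    simp
  · have hprime : Prime (hζ.toInteger - 1) := hζ.zeta_sub_one_prime'
    exact fun h => not_dvd_cycUnit hζ hp5 (hnd b hb) (hprime.dvd_of_dvd_pow h)

theorem D2K_unitE_ne_zero (hζ : IsPrimitiveRoot ζ p) (hp5 : 5 ≤ p) :
    D2K hζ hp5 (unitE hζ) ≠ 0 := by
  intro h
  have := D2K_unitE hζ hp5
  rw [h, mul_zero] at this
  have h1 : (1 : ZMod p) = 0 := by linear_combination this
  exact one_ne_zero h1

end Fermat.Agent.S14.H53
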