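import Fermat.Agent.S14.Stmts
import Fermat.Agent.S14.CycUnitE_helper91
import Fermat.Agent.S14.D2K_helper53

/-!
# S14, node (U12): the cyclotomic eigen-unit `E` and the functional `D₂`

`theorem u12 : StmtU12`, assembled from the cyclotomic unit `E` of `CycUnitE_helper91`
(eigen-relation `σ E = E ^ (a ^ 2) * η ^ p`) and the invariant `D2K` of `D2K_helper53`
(additive on elements prime to `π = ζ - 1`, zero on `p`-th powers modulo `π ^ 3`,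
`12 * D2K E = -1`).
-/

set_option autoImplicit false

namespace Fermat.Agent.S14.H91

open NumberField

section

variable {p : ℕ} [hp : Fact p.Prime]
variable {K : Type*} [Field K] [NumberField K] [IsCyclotomicExtension {p} ℚ K] {ζ : K}

/-- `π = ζ - 1` does not divide a unit. -/
theorem lam_not_dvd_of_isUnit (hζ : IsPrimitiveRoot ζ p) {u : 𝓞 K} (hu : IsUnit u) :
    ¬ hζ.toInteger - 1 ∣ u := fun h =>
  hζ.zeta_sub_one_prime'.not_isUnit (isUnit_of_dvd_unit h hu)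

omit [NumberField K] [IsCyclotomicExtension {p} ℚ K] in
/-- helper53's unit `unitE` is the element `Eelt` of `CycUnitE_helper91`. -/
theorem unitE_eq_Eelt' (hζ : IsPrimitiveRoot ζ p) (hp5 : 5 ≤ p) :
    H53.unitE hζ = Eelt hζ := by
  rw [Eelt_eq_prod_Ico hζ hp5]
  rfl

/-- The functional `D₂` on the unit group, as a homomorphism to `Multiplicative (ZMod p)`. -/
noncomputable def D2Hom (hζ : IsPrimitiveRoot ζ p) (hp5 : 5 ≤ p) :
    (𝓞 K)ˣ →* Multiplicative (ZMod p) where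
  toFun u := Multiplicative.ofAdd (H53.D2K hζ hp5 (u : 𝓞 K))
  map_one' := by
    rw [Units.val_one, H53.D2K_one, ofAdd_zero]
  map_mul' u v := by
    rw [Units.val_mul, H53.D2K_mul hζ hp5 (lam_not_dvd_of_isUnit hζ u.isUnit)
      (lam_not_dvd_of_isUnit hζ v.isUnit), ofAdd_add]

theorem D2Hom_apply (hζ : IsPrimitiveRoot ζ p) (hp5 : 5 ≤ p) (u : (𝓞 K)ˣ) :
    D2Hom hζ hp5 u = Multiplicative.ofAdd (H53.D2K hζ hp5 (u : 𝓞 K)) := rfl

/-- `D₂ E ≠ 1`. -/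
theorem D2Hom_EUnit_ne_one (hζ : IsPrimitiveRoot ζ p) (hp5 : 5 ≤ p) :
    D2Hom hζ hp5 (EUnit hζ hp5) ≠ 1 := by
  rw [D2Hom_apply, coe_EUnit, ← unitE_eq_Eelt' hζ hp5, Ne, ofAdd_eq_one]
  exact H53.D2K_unitE_ne_zero hζ hp5

/-- `D₂` kills the units which are `p`-th powers modulo `π ^ 3`. -/
theorem D2Hom_eq_one_of_pow (hζ : IsPrimitiveRoot ζ p) (hp5 : 5 ≤ p) (ε : (𝓞 K)ˣ)
    (h : ∃ ξ : 𝓞 K, (hζ.toInteger - 1) ^ 3 ∣ (ε : 𝓞 K) - ξ ^ p) : D2Hom hζ hp5 ε = 1 := by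
  obtain ⟨ξ, hξ⟩ := h
  rw [D2Hom_apply, ofAdd_eq_one]
  exact H53.D2K_eq_zero_of_pow hζ hp5 (lam_not_dvd_of_isUnit hζ ε.isUnit) hξ

omit [IsCyclotomicExtension {p} ℚ K] in
/-- `E` is an eigen-unit in the sense of `IsEigenUnit`. -/
theorem isEigenUnit_EUnit (hζ : IsPrimitiveRoot ζ p) (hp5 : 5 ≤ p) :
    IsEigenUnit p ζ (EUnit hζ hp5) := by
  intro σ a hσ
  have ha : ¬ p ∣ a := by
    intro hdvd
    have h1 : ζ ^ a = 1 := (hζ.pow_eq_one_iff_dvd a).mpr hdvd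
    rw [h1] at hσ
    have h2 : ζ = 1 := by
      have := congrArg σ.symm hσ
      rwa [AlgEquiv.symm_apply_apply, map_one] at this
    exact hζ.ne_one hp.out.one_lt h2
  exact E_eigen hζ hp5 σ a ha hσ

/-- `p` divides the sum of the exponents `b ^ (p - 3) % p`, `1 ≤ b < p`. -/
theorem prime_dvd_sum_Ico (hp5 : 5 ≤ p) : p ∣ ∑ b ∈ Finset.Ico 1 p, b ^ (p - 3) % p := by
  rw [← ZMod.natCast_eq_zero_iff, Nat.cast_sum, ← H53.sum_Ico_pow_eq_zero hp5]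
  refine Finset.sum_congr rfl fun b _ => ?_
  rw [ZMod.natCast_mod, Nat.cast_pow]

omit [NumberField K] [IsCyclotomicExtension {p} ℚ K] in
/-- The image of `cyc b` in `K`: `(1 - ζ) * cyc b = 1 - ζ ^ b`. -/
theorem one_sub_mul_cyc (hζ : IsPrimitiveRoot ζ p) (b : ℕ) :
    (1 - ζ) * ((cyc hζ b : 𝓞 K) : K) = 1 - ζ ^ b := by
  have h := congrArg (algebraMap (𝓞 K) K) (lam_mul_cyc hζ b)
  rw [map_mul, map_sub, map_sub, map_pow, map_one] at h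
  have hz : algebraMap (𝓞 K) K hζ.toInteger = ζ := rfl
  rw [hz] at h
  have hc : ((cyc hζ b : 𝓞 K) : K) = algebraMap (𝓞 K) K (cyc hζ b) := rfl
  rw [hc]
  linear_combination -h

omit [NumberField K] [IsCyclotomicExtension {p} ℚ K] in
/-- `E * ((1 - ζ) ^ M) ^ p = ∏_{b=1}^{p-1} (1 - ζ ^ b) ^ (b ^ (p - 3) % p)`, where
`p * M = ∑ b ^ (p - 3) % p`. -/
theorem EUnit_mul_pow (hζ : IsPrimitiveRoot ζ p) (hp5 : 5 ≤ p) :
    (((EUnit hζ hp5 : (𝓞 K)ˣ) : 𝓞 K) : K) *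
        ((1 - ζ) ^ ((∑ b ∈ Finset.Ico 1 p, b ^ (p - 3) % p) / p)) ^ p =
      ∏ b ∈ Finset.Ico 1 p, (1 - ζ ^ b) ^ (b ^ (p - 3) % p) := by
  have hexp : ∀ b : ℕ, ((b : ZMod p) ^ (p - 3)).val = b ^ (p - 3) % p := fun b => by
    rw [← Nat.cast_pow, ZMod.val_natCast]
  have hprod : ∏ b ∈ Finset.Ico 1 p, (1 - ζ ^ b) ^ (b ^ (p - 3) % p) =
      (1 - ζ) ^ (∑ b ∈ Finset.Ico 1 p, b ^ (p - 3) % p) *
        ∏ b ∈ Finset.Ico 1 p, ((cyc hζ b : 𝓞 K) : K) ^ (b ^ (p - 3) % p) := by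
    rw [← Finset.prod_pow_eq_pow_sum, ← Finset.prod_mul_distrib]
    refine Finset.prod_congr rfl fun b _ => ?_
    rw [← mul_pow, one_sub_mul_cyc hζ b]
  have hE : ((Eelt hζ : 𝓞 K) : K) =
      ∏ b ∈ Finset.Ico 1 p, ((cyc hζ b : 𝓞 K) : K) ^ (b ^ (p - 3) % p) := by
    rw [Eelt_eq_prod_Ico hζ hp5]
    change algebraMap (𝓞 K) K _ = _
    rw [map_prod]
    refine Finset.prod_congr rfl fun b _ => ?_
    rw [map_pow, hexp]
  rw [hprod, coe_EUnit, hE, ← pow_mul, Nat.div_mul_cancel (prime_dvd_sum_Ico hp5), mul_comm]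

end

/-- Node (U12) of the S14 plan. -/
theorem u12 : StmtU12 := by
  intro p _ hp5 K _ _ _ ζ hζ
  exact ⟨EUnit hζ hp5, D2Hom hζ hp5, (1 - ζ) ^ ((∑ b ∈ Finset.Ico 1 p, b ^ (p - 3) % p) / p),
    isEigenUnit_EUnit hζ hp5, D2Hom_EUnit_ne_one hζ hp5, D2Hom_eq_one_of_pow hζ hp5,
    EUnit_mul_pow hζ hp5⟩

end Fermat.Agent.S14.H91
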