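import Fermat.Agent.S14.Stmts

/-!
# S14, row 167: the UNIT glue (helper43)

`unit_of : StmtU12 → StmtU3 → StmtUnit`.
-/

set_option autoImplicit false

open scoped NumberField

namespace Fermat.Agent.S14.H43

/-- Every element of `Multiplicative (ZMod p)` is killed by `p`. -/
theorem pow_prime_eq_one_h43 (p : ℕ) (x : Multiplicative (ZMod p)) : x ^ p = 1 := by
  apply Multiplicative.toAdd.injective
  rw [toAdd_pow, toAdd_one, nsmul_eq_mul, ZMod.natCast_self, zero_mul]

/-- (UNIT glue) the unit lemma from the functional `D₂` / the unit `E` (U12) and the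
one-dimensionality of the eigenspace (U3). -/
theorem unit_of (h12 : StmtU12) (h3 : StmtU3) : StmtUnit := by
  intro p _ hp5 K _ _ _ ζ hζ ε hloc heig
  obtain ⟨E, D, w, hE, hDE, hD, -⟩ := h12 p hp5 K ζ hζ
  have hEnot : ¬ ∃ η : (𝓞 K)ˣ, η ^ p = E := by
    rintro ⟨η, rfl⟩
    apply hDE
    rw [map_pow, pow_prime_eq_one_h43]
  obtain ⟨j, η, hj⟩ := h3 p hp5 K ζ hζ ε E heig hE hEnot
  have h1 : D ε = 1 := hD ε hloc
  have h2 : (D E) ^ j = 1 := by
    have := congrArg D hj
    rw [map_mul, map_pow, map_pow, pow_prime_eq_one_h43, mul_one] at this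
    rw [← this, h1]
  have hpj : p ∣ j := by
    have ho : orderOf (D E) ∣ p := orderOf_dvd_of_pow_eq_one (pow_prime_eq_one_h43 p _)
    have ho' : orderOf (D E) = p := by
      rcases (Nat.dvd_prime (Fact.out : p.Prime)).1 ho with h | h
      · exact absurd (orderOf_eq_one_iff.1 h) hDE
      · exact h
    rw [← ho']
    exact orderOf_dvd_of_pow_eq_one h2
  obtain ⟨m, rfl⟩ := hpj
  exact ⟨E ^ m * η, by rw [hj, mul_pow, ← pow_mul, mul_comm m p]⟩

end Fermat.Agent.S14.H43
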