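import Fermat.Agent.S14.Stmts2
import Fermat.Agent.S14.KG_helper18
import Fermat.Agent.S14.P3_helper71
import Fermat.Agent.S14.NspGlue_helper11
import Fermat.Agent.S14.UnitGlue_helper43
import Fermat.Agent.S14.ANGlue_helper7
import Fermat.Agent.S14.AN1_helper1
import Fermat.Agent.S14.Euler_helper19
import Fermat.Agent.S14.ThaineA_helper96
import Fermat.Agent.S14.ThBridge_helper96
import Fermat.Agent.S14.GalPrimes_helper77
import Fermat.Agent.S14.OrbitDecomp_helper51
import Fermat.Agent.S14.D1_helper61
import Fermat.Agent.S14.D2_helper54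
import Fermat.Agent.S14.D3_helper56
import Fermat.Agent.S14.U12_helper91
import Fermat.Agent.S14.ClassLemma_helper93

/-!
# S14 assembly (helper12): every node except `StmtU3` and the Galois side `StmtSP`

Each line instantiates one node statement of `Stmts.lean` / `Stmts2.lean` with the theorem
delivered by its owner.  `stmtNSP_of` is the arithmetic side modulo the unit eigenspace lemma.
-/

set_option autoImplicit false
namespace Fermat.Agent.S14.H12

theorem stmtKG : StmtKG := H18.kg
theorem stmtP3 : StmtP3 := H71.stmtP3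
theorem stmtAN1a : StmtAN1a := H01.an1a
theorem stmtAN1b : StmtAN1b := H01.an1b
theorem stmtEF : StmtEulerFinite := H19.euler_finite stmtAN1a
theorem stmtEL : StmtEulerLimit := H19.euler_limit stmtAN1a
theorem stmtB : StmtB := H51.stmtB
theorem stmtD1 : StmtD1 := H61.d1
theorem stmtD2 : StmtD2 := H54.d2_of stmtB stmtAN1a stmtAN1b stmtEF stmtEL
theorem stmtD3 : StmtD3 := H56.d3_of stmtAN1a stmtAN1b stmtEL stmtEF
theorem stmtAN : StmtAN := H07.an_of stmtD1 stmtD2 stmtD3
theorem stmtU12 : StmtU12 := H91.u12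
theorem stmtThaineA : StmtThaineA := H96.thaineA
theorem stmtGalPrimes : H96.StmtGalPrimes := fun p ℓ _ hℓ hℓp K _ _ _ 𝔩 _ h𝔩 =>
  H77.gal_primes_over p ℓ hℓ hℓp K 𝔩 h𝔩
theorem stmtThaine : StmtThaine := H96.thaine_of_A_of_galPrimes stmtGalPrimes stmtThaineA
theorem stmtClass : StmtClass := H93.class_of stmtThaine stmtAN stmtU12
theorem stmtUnit_of (h3 : StmtU3) : StmtUnit := H43.unit_of stmtU12 h3
theorem stmtNSP_of (h3 : StmtU3) : StmtNSP := H11.nsp_of stmtP3 (stmtUnit_of h3) stmtClass


end Fermat.Agent.S14.H12
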