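import Mathlib
import Fermat.Prelude.Def_FLTPrelim_Ramification
import Fermat.Agent.S13.InertiaLift_helper87

set_option autoImplicit false

namespace Fermat.Agent.S14.H87

open scoped Pointwise
open Fermat.Agent.S13.H87

theorem exists_mul_mem_stabilizer_of_profinite {G B : Type*} [Group G] [CommRing B]
    [MulSemiringAction G B]
    [TopologicalSpace G] [CompactSpace G] [TotallyDisconnectedSpace G] [IsTopologicalGroup G]
    [TopologicalSpace B] [DiscreteTopology B] [ContinuousSMul G B]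
    (H : Subgroup G) [hHn : H.Normal] (hH : IsClosed (H : Set G)) (Q : Ideal B) [Q.IsPrime] (σ : G)
    (hσ : ∀ b : B, (∀ h ∈ H, h • b = b) → (σ • b ∈ Q ↔ b ∈ Q)) :
    ∃ h ∈ H, (h * σ) • Q = Q := by
  classical
  let A' := FixedPoints.subring B H
  have hcomp : CompactSpace H := isCompact_iff_compactSpace.mp hH.isCompact
  have hinv : Algebra.IsInvariant A' B H := ⟨fun b hb => ⟨⟨b, hb⟩, rfl⟩⟩
  have hfix : ∀ (g : G) (b : B), (∀ h ∈ H, h • b = b) → ∀ h ∈ H, h • (g • b) = g • b := by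
    intro g b hb h hh
    have h1 : g⁻¹ * h * g ∈ H := by
      have h2 := hHn.conj_mem h hh g⁻¹
      simpa using h2
    calc h • (g • b) = g • ((g⁻¹ * h * g) • b) := by simp [mul_smul]
      _ = g • b := by rw [hb _ h1]
  have hunder : (σ • Q).under A' = Q.under A' := by
    ext ⟨y, hy⟩
    simp only [Ideal.under_def, Ideal.mem_comap]
    show y ∈ σ • Q ↔ y ∈ Q
    rw [Ideal.mem_pointwise_smul_iff_inv_smul_mem]
    have hy' : ∀ h ∈ H, h • (σ⁻¹ • y) = σ⁻¹ • y := hfix σ⁻¹ y (fun h hh => hy ⟨h, hh⟩)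
    have h3 := hσ (σ⁻¹ • y) hy'
    rw [smul_inv_smul] at h3
    exact h3.symm
  obtain ⟨g, hg⟩ := Algebra.IsInvariant.exists_smul_of_under_eq_of_profinite (A := A') (G := H)
    (σ • Q) Q hunder
  refine ⟨g, g.2, ?_⟩
  rw [mul_smul]
  exact hg.symm

theorem mem_nonunits_iff_inv_not_mem {L : Type*} [Field L] (A : ValuationSubring L) {x : L}
    (hx : x ≠ 0) : x ∈ A.nonunits ↔ x⁻¹ ∉ A := by
  have hnon : x ∈ A.nonunits ↔ A.valuation x < 1 := Iff.rfl
  rw [hnon, ← A.valuation_le_one_iff, map_inv₀, not_le]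
  have hv : A.valuation x ≠ 0 := (Valuation.ne_zero_iff _).mpr hx
  rw [one_lt_inv₀ (zero_lt_iff.mpr hv)]

theorem mem_nonunits_iff_of_mem_decompositionSubgroup {K L : Type*} [Field K] [Field L]
    [Algebra K L] (A : ValuationSubring L) (σ : L ≃ₐ[K] L)
    (hσ : σ ∈ A.decompositionSubgroup K) (x : L) :
    σ x ∈ A.nonunits ↔ x ∈ A.nonunits := by
  have hmem : ∀ y : L, σ y ∈ A ↔ y ∈ A := by
    intro y
    have h1 : σ • A = A := hσ
    constructor
    · intro h
      have h2 : σ y ∈ σ • A := by rw [h1]; exact h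
      rw [ValuationSubring.mem_pointwise_smul_iff_inv_smul_mem] at h2
      simpa using h2
    · intro h
      rw [← h1]
      exact ValuationSubring.smul_mem_pointwise_smul σ y A h
  by_cases hx : x = 0
  · subst hx
    simp
  · have hσx : σ x ≠ 0 := by simpa using hx
    rw [mem_nonunits_iff_inv_not_mem A hx, mem_nonunits_iff_inv_not_mem A hσx, ← map_inv₀,
      hmem]

theorem sub_mem_nonunits_of_mem_inertiaSubgroupIn {K L : Type*} [Field K] [Field L]
    [Algebra K L] (A : ValuationSubring L) (σ : L ≃ₐ[K] L)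
    (hσ : σ ∈ A.inertiaSubgroupIn K) (x : L) (hx : x ∈ A) :
    σ x - x ∈ A.nonunits := by
  rw [ValuationSubring.inertiaSubgroupIn, Subgroup.mem_map] at hσ
  obtain ⟨⟨τ, hτ⟩, hker, rfl⟩ := hσ
  rw [ValuationSubring.inertiaSubgroup, MonoidHom.mem_ker] at hker
  have h1 : (⟨τ, hτ⟩ : A.decompositionSubgroup K) • IsLocalRing.residue A ⟨x, hx⟩ =
      IsLocalRing.residue A ⟨x, hx⟩ := by
    have h2 := congrArg (fun f => f (IsLocalRing.residue A ⟨x, hx⟩)) hker
    exact h2
  rw [← IsLocalRing.ResidueField.residue_smul, ← sub_eq_zero, ← map_sub,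
    IsLocalRing.residue_eq_zero_iff, ValuationSubring.valuation_lt_one_iff] at h1
  exact h1

theorem inertiaSubgroupIn_le_decompositionSubgroup {K L : Type*} [Field K] [Field L]
    [Algebra K L] (A : ValuationSubring L) :
    A.inertiaSubgroupIn K ≤ A.decompositionSubgroup K := by
  intro σ hσ
  rw [ValuationSubring.inertiaSubgroupIn, Subgroup.mem_map] at hσ
  obtain ⟨⟨τ, hτ⟩, -, rfl⟩ := hσ
  exact hτ


theorem mem_decompositionSubgroup_of_forall {L : Type*} [Field L] [Algebra ℚ L]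
    [Algebra.IsAlgebraic ℚ L] (A : ValuationSubring L) {q : ℕ} (hq : q.Prime)
    (hA : (q : L) ∈ A.nonunits) (σ : L ≃ₐ[ℚ] L)
    (h2 : ∀ b : L, IsIntegral ℤ b → (σ b ∈ A.nonunits ↔ b ∈ A.nonunits)) :
    σ ∈ A.decompositionSubgroup ℚ := by
  classical
  have : CharZero L := charZero_of_injective_algebraMap (algebraMap ℚ L).injective
  have hBA : ∀ b : L, IsIntegral ℤ b → b ∈ A := isIntegral_int_mem_valuationSubring A
  have halg : ∀ x : L, IsAlgebraic ℤ x := fun x =>
    (IsFractionRing.isAlgebraic_iff ℤ ℚ L).mpr (Algebra.IsAlgebraic.isAlgebraic x)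
  have h2' : ∀ b : L, IsIntegral ℤ b → (σ.symm b ∈ A.nonunits ↔ b ∈ A.nonunits) := by
    intro b hb
    have hc : IsIntegral ℤ (σ.symm b) := map_isIntegral_int σ.symm hb
    have h3 := h2 _ hc
    rw [AlgEquiv.apply_symm_apply] at h3
    exact h3.symm
  have hstab : ∀ τ : L ≃ₐ[ℚ] L,
      (∀ b : L, IsIntegral ℤ b → (τ b ∈ A.nonunits ↔ b ∈ A.nonunits)) →
      ∀ x ∈ A, τ x ∈ A := by
    intro τ hτ x hx
    obtain ⟨u, hu, hux, hun⟩ := exists_integral_not_mem_nonunits A q hq hA x (halg x) hx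
    have hτun : τ u ∉ A.nonunits := fun h => hun ((hτ u hu).mp h)
    have h3 : A.valuation (τ u) = 1 :=
      le_antisymm ((A.valuation_le_one_iff _).mpr (hBA _ (map_isIntegral_int τ hu)))
        (not_lt.mp hτun)
    have h6 : A.valuation (τ (u * x)) ≤ 1 :=
      (A.valuation_le_one_iff _).mpr (hBA _ (map_isIntegral_int τ hux))
    rw [map_mul, map_mul, h3, one_mul] at h6
    exact (A.valuation_le_one_iff _).mp h6
  rw [MulAction.mem_stabilizer_iff]
  ext x
  rw [ValuationSubring.mem_pointwise_smul_iff_inv_smul_mem]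
  constructor
  · intro h
    have h1 := hstab σ h2 _ h
    simpa using h1
  · intro h
    exact hstab σ.symm h2' x h

theorem exists_mul_mem_decompositionSubgroup {L : Type*} [Field L] [Algebra ℚ L] [IsGalois ℚ L]
    (F1 : IntermediateField ℚ L) (hnormal : F1.fixingSubgroup.Normal) (A : ValuationSubring L)
    {q : ℕ} (hq : q.Prime) (hA : A.LiesOverPrime q) (σ0 : L ≃ₐ[ℚ] L)
    (hσ0 : ∀ b ∈ F1, IsIntegral ℤ b → (σ0 b ∈ A.nonunits ↔ b ∈ A.nonunits)) :
    ∃ h ∈ F1.fixingSubgroup, h * σ0 ∈ A.decompositionSubgroup ℚ := by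
  classical
  have hnon : ∀ y : L, y ∈ A.nonunits ↔ A.valuation y < 1 := fun y => Iff.rfl
  have hBA : ∀ b : L, IsIntegral ℤ b → b ∈ A := isIntegral_int_mem_valuationSubring A
  let B := integralClosure ℤ L
  let ι : B →+* A :=
    { toFun := fun b => ⟨b.1, hBA b.1 b.2⟩
      map_one' := rfl
      map_mul' := fun _ _ => rfl
      map_zero' := rfl
      map_add' := fun _ _ => rfl }
  let Q : Ideal B := (IsLocalRing.maximalIdeal A).comap ι
  have hQ : ∀ b : B, b ∈ Q ↔ (b : L) ∈ A.nonunits := by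
    intro b
    rw [hnon, Ideal.mem_comap, ValuationSubring.valuation_lt_one_iff]
    exact Iff.rfl
  have hQprime : Q.IsPrime := Ideal.comap_isPrime _ _
  let _ : TopologicalSpace B := ⊥
  have hdisc : DiscreteTopology B := ⟨rfl⟩
  have hcont : ContinuousSMul (L ≃ₐ[ℚ] L) B := by
    rw [continuousSMul_iff_stabilizer_isOpen]
    intro b
    convert stabilizer_isOpen_of_isIntegral (K := ℚ) (b : L) using 1
    ext g
    change g • b = b ↔ g • (b : L) = (b : L)
    exact Subtype.ext_iff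
  have hclosed : IsClosed (F1.fixingSubgroup : Set (L ≃ₐ[ℚ] L)) :=
    InfiniteGalois.fixingSubgroup_isClosed F1
  obtain ⟨h, hh, hb⟩ := exists_mul_mem_stabilizer_of_profinite (G := L ≃ₐ[ℚ] L) (B := B)
    F1.fixingSubgroup hclosed Q σ0 (by
      intro b hfix
      rw [hQ, hQ]
      have hbF : (b : L) ∈ F1 := by
        rw [← InfiniteGalois.fixedField_fixingSubgroup F1, IntermediateField.mem_fixedField_iff]
        intro g hg
        exact congrArg Subtype.val (hfix g hg)
      exact hσ0 _ hbF b.2)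
  refine ⟨h, hh, ?_⟩
  refine mem_decompositionSubgroup_of_forall A hq hA (h * σ0) ?_
  intro b hbint
  have h1 : (h * σ0) • (⟨b, hbint⟩ : B) ∈ (h * σ0) • Q ↔ (⟨b, hbint⟩ : B) ∈ Q :=
    Ideal.smul_mem_pointwise_smul_iff
  rw [hb, hQ, hQ] at h1
  exact h1

theorem exists_valuationSubring_center {R K : Type*} [CommRing R] [Field K] (f : R →+* K)
    (𝔮 : Ideal R) [h𝔮 : 𝔮.IsMaximal] (hker : RingHom.ker f ≤ 𝔮) :
    ∃ B : ValuationSubring K, (∀ x, f x ∈ B) ∧ ∀ x, x ∈ 𝔮 ↔ f x ∈ B.nonunits := by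
  classical
  let A₀ : Subring K := f.range
  let I : Ideal A₀ := 𝔮.map f.rangeRestrict
  have hI : I ≠ ⊤ := by
    intro htop
    have h1 : (1 : A₀) ∈ I := by rw [htop]; trivial
    have hsurj : Function.Surjective f.rangeRestrict := f.rangeRestrict_surjective
    rw [Ideal.mem_map_iff_of_surjective _ hsurj] at h1
    obtain ⟨x, hx, hx1⟩ := h1
    have h2 : f x = 1 := congrArg Subtype.val hx1
    have h3 : x - 1 ∈ RingHom.ker f := by
      rw [RingHom.mem_ker, map_sub, h2, map_one, sub_self]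
    have h4 : (1 : R) ∈ 𝔮 := by
      have := 𝔮.sub_mem hx (hker h3)
      simpa using this
    exact h𝔮.ne_top ((Ideal.eq_top_iff_one _).mpr h4)
  obtain ⟨B, hle, hB⟩ := Ideal.image_subset_nonunits_valuationSubring I hI
  have hfB : ∀ x, f x ∈ B := fun x => hle ⟨x, rfl⟩
  refine ⟨B, hfB, ?_⟩
  let g : R →+* B :=
    { toFun := fun x => ⟨f x, hfB x⟩
      map_one' := Subtype.ext (map_one f)
      map_mul' := fun x y => Subtype.ext (map_mul f x y)
      map_zero' := Subtype.ext (map_zero f)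
      map_add' := fun x y => Subtype.ext (map_add f x y) }
  let J : Ideal R := (IsLocalRing.maximalIdeal B).comap g
  have hJ : ∀ x, x ∈ J ↔ f x ∈ B.nonunits := by
    intro x
    have hnon : f x ∈ B.nonunits ↔ B.valuation (f x) < 1 := Iff.rfl
    rw [hnon, Ideal.mem_comap, ValuationSubring.valuation_lt_one_iff]
    exact Iff.rfl
  have hle' : 𝔮 ≤ J := by
    intro x hx
    rw [hJ]
    exact hB ⟨f.rangeRestrict x, Ideal.mem_map_of_mem _ hx, rfl⟩
  have hJtop : J ≠ ⊤ := by
    have : J.IsPrime := Ideal.comap_isPrime _ _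
    exact this.ne_top
  have hEq : 𝔮 = J := h𝔮.eq_of_le hJtop hle'
  intro x
  rw [← hJ, hEq]


section Dictionary

open NumberField

local notation "Qb" => AlgebraicClosure ℚ

noncomputable def center (A : ValuationSubring Qb) (M : IntermediateField ℚ Qb) : Ideal (𝓞 M) :=
  (IsLocalRing.maximalIdeal A).comap
    ({ toFun := fun x => ⟨((x : M) : Qb),
          isIntegral_int_mem_valuationSubring A _ (map_isIntegral_int (algebraMap M Qb) x.2)⟩
       map_one' := rfl
       map_mul' := fun _ _ => rfl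
       map_zero' := rfl
       map_add' := fun _ _ => rfl } : 𝓞 M →+* A)

theorem mem_center_iff (A : ValuationSubring Qb) (M : IntermediateField ℚ Qb) (x : 𝓞 M) :
    x ∈ center A M ↔ ((x : M) : Qb) ∈ A.nonunits := by
  have hnon : ((x : M) : Qb) ∈ A.nonunits ↔ A.valuation ((x : M) : Qb) < 1 := Iff.rfl
  rw [hnon, center, Ideal.mem_comap, ValuationSubring.valuation_lt_one_iff]
  exact Iff.rfl

instance center_isPrime (A : ValuationSubring Qb) (M : IntermediateField ℚ Qb) :
    (center A M).IsPrime :=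
  Ideal.comap_isPrime _ _

theorem natCast_mem_center_iff (A : ValuationSubring Qb) (M : IntermediateField ℚ Qb) (q : ℕ) :
    (q : 𝓞 M) ∈ center A M ↔ A.LiesOverPrime q := by
  rw [mem_center_iff]
  have h : (((q : 𝓞 M) : M) : Qb) = (q : Qb) := by simp
  rw [h]
  exact Iff.rfl

theorem exists_center_eq (M : IntermediateField ℚ Qb) (𝔮 : Ideal (𝓞 M)) [𝔮.IsMaximal] :
    ∃ A : ValuationSubring Qb, center A M = 𝔮 := by
  obtain ⟨A, -, hA⟩ := exists_valuationSubring_center
    ((algebraMap M Qb).comp (algebraMap (𝓞 M) M)) 𝔮 (by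
      intro x hx
      rw [RingHom.mem_ker, RingHom.comp_apply] at hx
      have h1 : (algebraMap (𝓞 M) M) x = 0 :=
        (map_eq_zero_iff _ (algebraMap M Qb).injective).mp hx
      have h2 : x = 0 := RingOfIntegers.coe_eq_zero_iff.mp h1
      rw [h2]
      exact 𝔮.zero_mem)
  refine ⟨A, ?_⟩
  ext x
  rw [mem_center_iff, hA]
  exact Iff.rfl

theorem isGalois_rat_algebraicClosure : IsGalois ℚ Qb :=
  haveI : IsAlgClosure ℚ Qb := AlgebraicClosure.instIsAlgClosure ℚ
  IsAlgClosure.isGalois ℚ Qb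

theorem restrictNormalHom_eq_one (M : IntermediateField ℚ Qb) [IsGalois ℚ M] (h : Qb ≃ₐ[ℚ] Qb)
    (hh : h ∈ M.fixingSubgroup) : AlgEquiv.restrictNormalHom M h = 1 := by
  ext x
  have h5 := AlgEquiv.restrictNormal_commutes h M x
  have h6 : h (x : Qb) = x := (IntermediateField.mem_fixingSubgroup_iff M h).mp hh x x.2
  exact h5.trans h6

theorem coe_restrictNormalHom_apply (M : IntermediateField ℚ Qb) [IsGalois ℚ M]
    (σ : Qb ≃ₐ[ℚ] Qb) (x : M) : ((AlgEquiv.restrictNormalHom M σ x : M) : Qb) = σ (x : Qb) :=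
  AlgEquiv.restrictNormal_commutes σ M x

theorem map_decompositionSubgroup (A : ValuationSubring Qb) {q : ℕ} (hq : q.Prime)
    (hA : A.LiesOverPrime q) (M : IntermediateField ℚ Qb) [IsGalois ℚ M] :
    (A.decompositionSubgroup ℚ).map (AlgEquiv.restrictNormalHom M) =
      MulAction.stabilizer (M ≃ₐ[ℚ] M) (center A M) := by
  haveI := isGalois_rat_algebraicClosure
  have hnormal : M.fixingSubgroup.Normal :=
    (InfiniteGalois.normal_iff_isGalois M).mpr ‹IsGalois ℚ M›
  ext τ
  rw [Subgroup.mem_map, MulAction.mem_stabilizer_iff]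
  constructor
  · rintro ⟨σ, hσ, rfl⟩
    ext x
    rw [Ideal.mem_pointwise_smul_iff_inv_smul_mem, mem_center_iff, mem_center_iff, ← map_inv]
    have h1 : ((((AlgEquiv.restrictNormalHom M σ⁻¹) • x : 𝓞 M) : M) : Qb) = σ⁻¹ ((x : M) : Qb) :=
      coe_restrictNormalHom_apply M σ⁻¹ (x : M)
    rw [h1]
    exact mem_nonunits_iff_of_mem_decompositionSubgroup A σ⁻¹ (inv_mem hσ) _
  · intro hτ
    obtain ⟨σ0, hσ0⟩ := (AlgEquiv.restrictNormalHom_surjective (F := ℚ) (K₁ := M) Qb) τ
    obtain ⟨h, hh, hmem⟩ := exists_mul_mem_decompositionSubgroup M hnormal A hq hA σ0 (by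
      intro b hbM hbint
      have hbint' : IsIntegral ℤ (⟨b, hbM⟩ : M) :=
        (isIntegral_algebraMap_iff (algebraMap M Qb).injective).mp hbint
      let x : 𝓞 M := ⟨⟨b, hbM⟩, hbint'⟩
      have h1 : σ0 b = (((τ • x : 𝓞 M) : M) : Qb) := by
        rw [← hσ0]
        exact (coe_restrictNormalHom_apply M σ0 ⟨b, hbM⟩).symm
      have h2 : τ • x ∈ center A M ↔ x ∈ center A M := by
        have h3 : τ • x ∈ τ • center A M ↔ x ∈ center A M := Ideal.smul_mem_pointwise_smul_iff
        rw [hτ] at h3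
        exact h3
      rw [mem_center_iff, mem_center_iff] at h2
      rw [h1]
      exact h2)
    refine ⟨h * σ0, hmem, ?_⟩
    rw [map_mul, hσ0, restrictNormalHom_eq_one M h hh, one_mul]

theorem map_inertiaSubgroupIn (A : ValuationSubring Qb) {q : ℕ} (hq : q.Prime)
    (hA : A.LiesOverPrime q) (M : IntermediateField ℚ Qb) [IsGalois ℚ M] :
    (A.inertiaSubgroupIn ℚ).map (AlgEquiv.restrictNormalHom M) =
      Ideal.inertia (M ≃ₐ[ℚ] M) (center A M) := by
  haveI := isGalois_rat_algebraicClosure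
  have hnormal : M.fixingSubgroup.Normal :=
    (InfiniteGalois.normal_iff_isGalois M).mpr ‹IsGalois ℚ M›
  ext τ
  rw [Subgroup.mem_map]
  constructor
  · rintro ⟨σ, hσ, rfl⟩
    intro x
    show (AlgEquiv.restrictNormalHom M σ) • x - x ∈ center A M
    rw [mem_center_iff]
    have h1 : ((((AlgEquiv.restrictNormalHom M σ) • x - x : 𝓞 M) : M) : Qb) =
        σ ((x : M) : Qb) - ((x : M) : Qb) := by
      have h2 := coe_restrictNormalHom_apply M σ (x : M)
      rw [← h2]
      rfl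
    rw [h1]
    exact sub_mem_nonunits_of_mem_inertiaSubgroupIn A σ hσ _
      (isIntegral_int_mem_valuationSubring A _ (map_isIntegral_int (algebraMap M Qb) x.2))
  · intro hτ
    obtain ⟨σ0, hσ0⟩ := (AlgEquiv.restrictNormalHom_surjective (F := ℚ) (K₁ := M) Qb) τ
    obtain ⟨h, hh, hmem⟩ := exists_mul_mem_inertiaSubgroupIn M hnormal A hq hA σ0 (by
      intro b hbM hbint
      have hbint' : IsIntegral ℤ (⟨b, hbM⟩ : M) :=
        (isIntegral_algebraMap_iff (algebraMap M Qb).injective).mp hbint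
      let x : 𝓞 M := ⟨⟨b, hbM⟩, hbint'⟩
      have h1 : σ0 b - b = (((τ • x - x : 𝓞 M) : M) : Qb) := by
        have h2 := coe_restrictNormalHom_apply M σ0 ⟨b, hbM⟩
        rw [hσ0] at h2
        show σ0 b - b = ((τ (⟨b, hbM⟩ : M) : M) : Qb) - b
        rw [h2]
      rw [h1, ← mem_center_iff]
      exact hτ x)
    refine ⟨h * σ0, hmem, ?_⟩
    rw [map_mul, hσ0, restrictNormalHom_eq_one M h hh, one_mul]

end Dictionary

end Fermat.Agent.S14.H87
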