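/-
S14 work package WP3b (helper87): interface (I) of the S14 plan.

From a Kummer generator `β` over `ℚ(ζ_p)` inside `AlgebraicClosure ℚ` (the five clauses produced by
the Galois-side package: `β ^ p ∈ ℚ(ζ)`, `τ β = ζ β`, the eigen-relation, unramified outside `p`,
split at `p`) we produce a "singular primary" element `α` of an abstract cyclotomic field `K`:
`α` is not a `p`-th power, `(α) = I ^ p`, `α` is prime to `ζ - 1` and a `p`-th power modulo
`(ζ - 1) ^ 3`, and `σ α = α ^ (a ^ 2) * c ^ p` whenever `σ ζ = ζ ^ a`.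

Main export: `Fermat.Agent.S14.H87.exists_singular_primary`.
-/
import Mathlib
import Fermat.Prelude.Def_FLTPrelim_Ramification
import Fermat.Prelude.Def_ExtCitation_AdmissibleExtension
import Fermat.Agent.S14.LocalDict_helper87

set_option autoImplicit false

namespace Fermat.Agent.S14.H87

open scoped Pointwise Classical
open NumberField UniqueFactorizationMonoid

local notation "Qb" => AlgebraicClosure ℚ
local notation "Γ" => (AlgebraicClosure ℚ ≃ₐ[ℚ] AlgebraicClosure ℚ)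

/-- Dedekind: comparing `x` with a power of a uniformiser, up to elements outside `P`. -/
theorem exists_mul_eq_pow_mul {R : Type*} [CommRing R] [IsDedekindDomain R] (P : Ideal R)
    [P.IsMaximal] (x ϖ : R) (hx : x ≠ 0)
    (hϖ : Multiset.count P (normalizedFactors (Ideal.span {ϖ})) = 1) :
    (∃ s t : R, s ∉ P ∧
      x * s = ϖ ^ (Multiset.count P (normalizedFactors (Ideal.span {x}))) * t) ∧
    (∃ s t : R, t ∉ P ∧
      x * s = ϖ ^ (Multiset.count P (normalizedFactors (Ideal.span {x}))) * t) := by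
  have hϖ0 : Ideal.span {ϖ} ≠ ⊥ := by
    intro h
    rw [h, ← Ideal.zero_eq_bot, normalizedFactors_zero, Multiset.count_zero] at hϖ
    exact zero_ne_one hϖ
  have hx0 : Ideal.span {x} ≠ ⊥ := by
    rw [Ne, Ideal.span_singleton_eq_bot]
    exact hx
  obtain ⟨J, hJ, hxJ⟩ := Ideal.eq_prime_pow_mul_coprime hx0 P
  obtain ⟨J', hJ', hϖJ'⟩ := Ideal.eq_prime_pow_mul_coprime hϖ0 P
  rw [hϖ, pow_one] at hϖJ'
  set n := Multiset.count P (normalizedFactors (Ideal.span {x})) with hn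
  have key : Ideal.span {x} * J' ^ n = Ideal.span {ϖ ^ n} * J := by
    rw [← Ideal.span_singleton_pow, hϖJ', hxJ, mul_pow]
    ring
  have hJ'n : P ⊔ J' ^ n = ⊤ := Ideal.sup_pow_eq_top hJ'
  have hPtop : P ≠ ⊤ := Ideal.IsMaximal.ne_top inferInstance
  have ex1 : ∃ s ∈ J' ^ n, s ∉ P := by
    by_contra hcon
    push Not at hcon
    have : J' ^ n ≤ P := fun s hs => hcon s hs
    rw [sup_eq_left.mpr this] at hJ'n
    exact hPtop hJ'n
  have ex2 : ∃ t ∈ J, t ∉ P := by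
    by_contra hcon
    push Not at hcon
    have : J ≤ P := fun s hs => hcon s hs
    rw [sup_eq_left.mpr this] at hJ
    exact hPtop hJ
  constructor
  · obtain ⟨s, hs, hsP⟩ := ex1
    have h1 : x * s ∈ Ideal.span {x} * J' ^ n :=
      Ideal.mul_mem_mul (Ideal.mem_span_singleton_self x) hs
    rw [key, Ideal.mem_span_singleton_mul] at h1
    obtain ⟨t, -, ht⟩ := h1
    exact ⟨s, t, hsP, ht.symm⟩
  · obtain ⟨t, ht, htP⟩ := ex2
    have h1 : ϖ ^ n * t ∈ Ideal.span {ϖ ^ n} * J :=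
      Ideal.mul_mem_mul (Ideal.mem_span_singleton_self _) ht
    rw [← key, Ideal.mem_span_singleton_mul] at h1
    obtain ⟨s, -, hs⟩ := h1
    exact ⟨s, t, htP, hs⟩

/-- The ring homomorphism `𝓞 F → Qb`. -/
noncomputable def emb (F : IntermediateField ℚ Qb) : 𝓞 F →+* Qb :=
  (algebraMap F Qb).comp (algebraMap (𝓞 F) F)

theorem emb_apply (F : IntermediateField ℚ Qb) (x : 𝓞 F) : emb F x = ((x : F) : Qb) := rfl

theorem emb_injective (F : IntermediateField ℚ Qb) : Function.Injective (emb F) :=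
  (algebraMap F Qb).injective.comp RingOfIntegers.coe_injective

theorem emb_mem_field (F : IntermediateField ℚ Qb) (x : 𝓞 F) : emb F x ∈ F := (x : F).2

theorem isIntegral_emb (F : IntermediateField ℚ Qb) (x : 𝓞 F) : IsIntegral ℤ (emb F x) :=
  map_isIntegral_int (algebraMap F Qb) x.2

theorem emb_mem (A : ValuationSubring Qb) (F : IntermediateField ℚ Qb) (x : 𝓞 F) :
    emb F x ∈ A :=
  Fermat.Agent.S13.H87.isIntegral_int_mem_valuationSubring A _ (isIntegral_emb F x)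

/-- The integer of `F` with prescribed underlying element of `Qb`. -/
noncomputable def mkO (F : IntermediateField ℚ Qb) (x : Qb) (hx : x ∈ F)
    (hint : IsIntegral ℤ x) : 𝓞 F :=
  ⟨⟨x, hx⟩, (isIntegral_algebraMap_iff (algebraMap F Qb).injective).mp hint⟩

theorem emb_mkO (F : IntermediateField ℚ Qb) (x : Qb) (hx : x ∈ F) (hint : IsIntegral ℤ x) :
    emb F (mkO F x hx hint) = x := rfl

theorem mem_center_iff_emb (A : ValuationSubring Qb) (F : IntermediateField ℚ Qb) (x : 𝓞 F) :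
    x ∈ center A F ↔ emb F x ∈ A.nonunits :=
  mem_center_iff A F x

theorem valuation_emb_le_one (A : ValuationSubring Qb) (F : IntermediateField ℚ Qb)
    (x : 𝓞 F) : A.valuation (emb F x) ≤ 1 :=
  (A.valuation_le_one_iff _).mpr (emb_mem A F x)

theorem valuation_emb_lt_one (A : ValuationSubring Qb) (F : IntermediateField ℚ Qb)
    (x : 𝓞 F) (hx : x ∈ center A F) : A.valuation (emb F x) < 1 :=
  (mem_center_iff_emb A F x).mp hx

theorem valuation_emb_eq_one (A : ValuationSubring Qb) (F : IntermediateField ℚ Qb)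
    (x : 𝓞 F) (hx : x ∉ center A F) : A.valuation (emb F x) = 1 := by
  refine le_antisymm (valuation_emb_le_one A F x) (not_lt.mp ?_)
  intro h
  exact hx ((mem_center_iff_emb A F x).mpr h)

/-- Bridge: the valuation of `A` on `𝓞 F` is the `count` at the centre, measured with a
uniformiser. -/
theorem valuation_emb_eq_pow_count (A : ValuationSubring Qb) (F : IntermediateField ℚ Qb)
    [NumberField F] [(center A F).IsMaximal] (x ϖ : 𝓞 F) (hx : x ≠ 0)
    (hϖ : Multiset.count (center A F) (normalizedFactors (Ideal.span {ϖ})) = 1) :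
    A.valuation (emb F x) = A.valuation (emb F ϖ) ^
      (Multiset.count (center A F) (normalizedFactors (Ideal.span {x}))) := by
  obtain ⟨⟨s, t, hs, h1⟩, ⟨s', t', ht', h2⟩⟩ := exists_mul_eq_pow_mul (center A F) x ϖ hx hϖ
  set n := Multiset.count (center A F) (normalizedFactors (Ideal.span {x}))
  have e1 := congrArg (fun z => A.valuation (emb F z)) h1
  have e2 := congrArg (fun z => A.valuation (emb F z)) h2
  simp only [map_mul, map_pow] at e1 e2
  rw [valuation_emb_eq_one A F s hs, mul_one] at e1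
  rw [valuation_emb_eq_one A F t' ht', mul_one] at e2
  refine le_antisymm ?_ ?_
  · rw [e1]
    exact mul_le_of_le_one_right' (valuation_emb_le_one A F t)
  · rw [← e2]
    exact mul_le_of_le_one_right' (valuation_emb_le_one A F s')

theorem mem_of_count_eq_one {R : Type*} [CommRing R] [IsDedekindDomain R] (P : Ideal R)
    (ϖ : R) (hϖ : Multiset.count P (normalizedFactors (Ideal.span {ϖ})) = 1) :
    ϖ ≠ 0 ∧ ϖ ∈ P := by
  have hmem : P ∈ normalizedFactors (Ideal.span {ϖ}) := by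
    rw [← Multiset.count_pos, hϖ]
    exact one_pos
  have h0 : Ideal.span {ϖ} ≠ ⊥ := by
    intro h
    rw [h, ← Ideal.zero_eq_bot, normalizedFactors_zero, Multiset.count_zero] at hϖ
    exact zero_ne_one hϖ
  refine ⟨fun h => h0 (by rw [h]; exact Ideal.span_singleton_eq_bot.mpr rfl), ?_⟩
  have hdvd := dvd_of_mem_normalizedFactors hmem
  exact (Ideal.dvd_iff_le.mp hdvd) (Ideal.mem_span_singleton_self ϖ)

/-- Comparison of counts in two number fields through a common uniformiser. -/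
theorem count_eq_mul_count (A : ValuationSubring Qb) (F₁ F₂ : IntermediateField ℚ Qb)
    [NumberField F₁] [NumberField F₂] [(center A F₁).IsMaximal] [(center A F₂).IsMaximal]
    (ϖ₁ : 𝓞 F₁) (ϖ₂ : 𝓞 F₂) (hϖ : emb F₁ ϖ₁ = emb F₂ ϖ₂)
    (h₁ : Multiset.count (center A F₁) (normalizedFactors (Ideal.span {ϖ₁})) = 1)
    (h₂ : Multiset.count (center A F₂) (normalizedFactors (Ideal.span {ϖ₂})) = 1)
    (x₁ : 𝓞 F₁) (x₂ : 𝓞 F₂) (hx₁ : x₁ ≠ 0) (hx₂ : x₂ ≠ 0) (m : ℕ)
    (h : emb F₁ x₁ = emb F₂ x₂ ^ m) :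
    Multiset.count (center A F₁) (normalizedFactors (Ideal.span {x₁})) =
      m * Multiset.count (center A F₂) (normalizedFactors (Ideal.span {x₂})) := by
  have e1 := valuation_emb_eq_pow_count A F₁ x₁ ϖ₁ hx₁ h₁
  have e2 := valuation_emb_eq_pow_count A F₂ x₂ ϖ₂ hx₂ h₂
  rw [h, map_pow, e2, ← hϖ, ← pow_mul] at e1
  obtain ⟨hne, hmem⟩ := mem_of_count_eq_one (center A F₁) ϖ₁ h₁
  have hlt : A.valuation (emb F₁ ϖ₁) < 1 := valuation_emb_lt_one A F₁ ϖ₁ hmem
  have hpos : 0 < A.valuation (emb F₁ ϖ₁) := by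
    rw [Valuation.pos_iff]
    exact fun h0 => hne ((emb_injective F₁) (by rw [h0, map_zero]))
  have hinj := (pow_right_strictAnti₀ hpos hlt).injective
  have := hinj e1
  rw [← this, mul_comm]

theorem center_ne_bot (A : ValuationSubring Qb) (F : IntermediateField ℚ Qb)
    {q : ℕ} (hq : q.Prime) (hA : A.LiesOverPrime q) : center A F ≠ ⊥ := by
  intro h
  have h1 : (q : 𝓞 F) ∈ center A F := (natCast_mem_center_iff A F q).mpr hA
  rw [h, Ideal.mem_bot] at h1
  exact hq.ne_zero (by exact_mod_cast h1)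

theorem center_isMaximal (A : ValuationSubring Qb) (F : IntermediateField ℚ Qb) [NumberField F]
    {q : ℕ} (hq : q.Prime) (hA : A.LiesOverPrime q) : (center A F).IsMaximal :=
  Ideal.IsPrime.isMaximal inferInstance (center_ne_bot A F hq hA)

theorem center_liesOver (A : ValuationSubring Qb) (F : IntermediateField ℚ Qb)
    {q : ℕ} (hq : q.Prime) (hA : A.LiesOverPrime q) :
    (center A F).LiesOver (Ideal.span {(q : ℤ)}) := by
  constructor
  haveI : Fact q.Prime := ⟨hq⟩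
  have hmax : (Ideal.span {(q : ℤ)}).IsMaximal := Int.ideal_span_isMaximal_of_prime q
  refine hmax.eq_of_le ?_ ?_
  · intro h
    have h1 : (1 : ℤ) ∈ (center A F).under ℤ := by rw [h]; trivial
    rw [Ideal.under_def, Ideal.mem_comap, map_one] at h1
    exact (center_isPrime A F).ne_top ((Ideal.eq_top_iff_one _).mpr h1)
  · rw [Ideal.span_singleton_le_iff_mem, Ideal.under_def, Ideal.mem_comap]
    have := (natCast_mem_center_iff A F q).mpr hA
    simpa using this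

theorem map_span_natCast (F : IntermediateField ℚ Qb) (q : ℕ) :
    (Ideal.span {(q : ℤ)}).map (algebraMap ℤ (𝓞 F)) = Ideal.span {(q : 𝓞 F)} := by
  rw [Ideal.map_span, Set.image_singleton]
  simp

theorem count_natCast_eq_one_of_inertia (A : ValuationSubring Qb) (F : IntermediateField ℚ Qb)
    [NumberField F] [IsGalois ℚ F] {q : ℕ} (hq : q.Prime) (hA : A.LiesOverPrime q)
    (h : ∀ σ ∈ A.inertiaSubgroupIn ℚ, ∀ x ∈ F, σ x = x) :
    Multiset.count (center A F) (normalizedFactors (Ideal.span {(q : 𝓞 F)})) = 1 := by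
  haveI := center_liesOver A F hq hA
  haveI : Fact q.Prime := ⟨hq⟩
  have hbot : Ideal.inertia (F ≃ₐ[ℚ] F) (center A F) = ⊥ := by
    rw [← map_inertiaSubgroupIn A hq hA F, eq_bot_iff]
    rintro _ ⟨σ, hσ, rfl⟩
    rw [Subgroup.mem_bot]
    exact restrictNormalHom_eq_one F σ ((IntermediateField.mem_fixingSubgroup_iff F σ).mpr (h σ hσ))
  have h1 := Ideal.card_inertia_eq_ramificationIdxIn (G := F ≃ₐ[ℚ] F) (Ideal.span {(q : ℤ)})
    (center A F)
  rw [hbot, Subgroup.card_bot,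
    Ideal.ramificationIdxIn_eq_ramificationIdx (Ideal.span {(q : ℤ)}) (center A F) (F ≃ₐ[ℚ] F),
    Ideal.IsDedekindDomain.ramificationIdx_eq_normalizedFactors_count (Ideal.span {(q : ℤ)})
      (center A F) (by
        rw [map_span_natCast, Ne, Ideal.span_singleton_eq_bot]
        exact_mod_cast hq.ne_zero), map_span_natCast] at h1
  exact h1.symm

theorem liesOverPrime_unique (A : ValuationSubring Qb) {q q' : ℕ} (hq : q.Prime)
    (hq' : q'.Prime) (h : A.LiesOverPrime q) (h' : A.LiesOverPrime q') : q = q' := by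
  by_contra hne
  have hcop : IsCoprime (q : ℤ) (q' : ℤ) :=
    Nat.isCoprime_iff_coprime.mpr ((Nat.coprime_primes hq hq').mpr hne)
  obtain ⟨a, b, hab⟩ := hcop
  let F : IntermediateField ℚ Qb := ⊥
  have h1 : (q : 𝓞 F) ∈ center A F := (natCast_mem_center_iff A F q).mpr h
  have h2 : (q' : 𝓞 F) ∈ center A F := (natCast_mem_center_iff A F q').mpr h'
  have h3 : ((a : 𝓞 F) * (q : 𝓞 F) + (b : 𝓞 F) * (q' : 𝓞 F)) ∈ center A F :=
    Ideal.add_mem _ (Ideal.mul_mem_left _ _ h1) (Ideal.mul_mem_left _ _ h2)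
  have h4 : ((a : 𝓞 F) * (q : 𝓞 F) + (b : 𝓞 F) * (q' : 𝓞 F)) = 1 := by
    have := congrArg (fun z : ℤ => (z : 𝓞 F)) hab
    simpa using this
  rw [h4] at h3
  exact (center_isPrime A F).ne_top ((Ideal.eq_top_iff_one _).mpr h3)

/-- `p = (ζ - 1)^(p-1) * u` with `u` a polynomial expression in `ζ`. -/
theorem natCast_eq_sub_one_pow_mul {p : ℕ} (hp : p.Prime) {ζ : Qb} (hζ : IsPrimitiveRoot ζ p) :
    (p : Qb) = (ζ - 1) ^ (p - 1) *
      ((-1) ^ (p - 1) * ∏ k ∈ Finset.range (p - 1), ∑ i ∈ Finset.range (k + 1), ζ ^ i) := by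
  obtain ⟨n, rfl⟩ : ∃ n, p = n + 1 := ⟨p - 1, (Nat.sub_add_cancel hp.one_le).symm⟩
  have h1 := hζ.prod_one_sub_pow_eq_order
  have h2 : ∀ k ∈ Finset.range n, (1 - ζ ^ (k + 1)) =
      (1 - ζ) * ∑ i ∈ Finset.range (k + 1), ζ ^ i := by
    intro k _
    rw [mul_comm, geom_sum_mul_neg]
  rw [Finset.prod_congr rfl h2, Finset.prod_mul_distrib, Finset.prod_const,
    Finset.card_range] at h1
  rw [Nat.add_sub_cancel]
  have h3 : (ζ - 1) ^ n * (-1) ^ n = (1 - ζ) ^ n := by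
    rw [← mul_pow]
    ring
  rw [← mul_assoc, h3, h1]
  push_cast
  ring

theorem isIntegral_unitFactor {p : ℕ} {ζ : Qb} (hζ : IsPrimitiveRoot ζ p) (hp : p.Prime) :
    IsIntegral ℤ ((-1 : Qb) ^ (p - 1) *
      ∏ k ∈ Finset.range (p - 1), ∑ i ∈ Finset.range (k + 1), ζ ^ i) := by
  have hζint : IsIntegral ℤ ζ := hζ.isIntegral hp.pos
  refine IsIntegral.mul ?_ ?_
  · exact IsIntegral.pow (IsIntegral.neg isIntegral_one) _
  · exact IsIntegral.prod _ fun k _ => IsIntegral.sum _ fun i _ => hζint.pow i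

theorem unitFactor_mem {p : ℕ} {ζ : Qb} (F : IntermediateField ℚ Qb) (hζF : ζ ∈ F) :
    ((-1 : Qb) ^ (p - 1) *
      ∏ k ∈ Finset.range (p - 1), ∑ i ∈ Finset.range (k + 1), ζ ^ i) ∈ F := by
  refine mul_mem (pow_mem (neg_mem (one_mem F)) _) ?_
  exact prod_mem fun k _ => sum_mem fun i _ => pow_mem hζF i

/-- Above `p`, `ζ - 1` is a non-unit. -/
theorem sub_one_mem_nonunits (A : ValuationSubring Qb) {p : ℕ} (hp : p.Prime)
    (hA : A.LiesOverPrime p) {ζ : Qb} (hζ : IsPrimitiveRoot ζ p) : ζ - 1 ∈ A.nonunits := by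
  have hζint : IsIntegral ℤ ζ := hζ.isIntegral hp.pos
  have hζA : ζ ∈ A := Fermat.Agent.S13.H87.isIntegral_int_mem_valuationSubring A _ hζint
  obtain ⟨r, hr⟩ := exists_add_pow_prime_eq hp (⟨ζ, hζA⟩ : A) (-1)
  have hr' := congrArg (fun z : A => (z : Qb)) hr
  beta_reduce at hr'
  push_cast at hr'
  rw [hζ.pow_eq_one] at hr'
  have key : A.valuation ((ζ - 1) ^ p) < 1 := by
    have hpv : A.valuation (p : Qb) < 1 := hA
    have hrv : A.valuation (r : Qb) ≤ 1 := (A.valuation_le_one_iff _).mpr r.2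
    have hζv : A.valuation ζ ≤ 1 := (A.valuation_le_one_iff _).mpr hζA
    rcases hp.eq_two_or_odd' with h2 | hodd
    · subst h2
      have e : (ζ - 1) ^ 2 = (2 : Qb) * (1 - ζ * r) := by
        have : (ζ + -1) ^ 2 = 1 + (-1) ^ 2 + ((2 : ℕ) : Qb) * ζ * -1 * (r : Qb) := hr'
        rw [sub_eq_add_neg, this]
        push_cast
        ring
      rw [e, map_mul]
      have h1 : A.valuation (1 - ζ * (r : Qb)) ≤ 1 := by
        rw [A.valuation_le_one_iff]
        exact sub_mem A.one_mem (mul_mem hζA r.2)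
      have h2' : A.valuation (2 : Qb) < 1 := by exact_mod_cast hpv
      exact lt_of_le_of_lt (mul_le_of_le_one_right' h1) h2'
    · have e : (ζ - 1) ^ p = (p : Qb) * (-(ζ * r)) := by
        rw [sub_eq_add_neg, hr', hodd.neg_one_pow]
        ring
      rw [e, map_mul]
      have h1 : A.valuation (-(ζ * (r : Qb))) ≤ 1 := by
        rw [A.valuation_le_one_iff]
        exact neg_mem (mul_mem hζA r.2)
      exact lt_of_le_of_lt (mul_le_of_le_one_right' h1) hpv
  rw [map_pow] at key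
  show A.valuation (ζ - 1) < 1
  by_contra hcon
  push Not at hcon
  exact absurd key (not_lt.mpr (one_le_pow₀ hcon))

/-- Away from `p`, inertia fixes the `p`-th roots of unity. -/
theorem inertia_fixes_zeta (A : ValuationSubring Qb) {p ℓ : ℕ} (hp : p.Prime) (hℓ : ℓ.Prime)
    (hne : ℓ ≠ p) (hA : A.LiesOverPrime ℓ) {ζ : Qb} (hζ : IsPrimitiveRoot ζ p)
    (σ : Qb ≃ₐ[ℚ] Qb) (hσ : σ ∈ A.inertiaSubgroupIn ℚ) : σ ζ = ζ := by
  by_contra hcon
  have hζint : IsIntegral ℤ ζ := hζ.isIntegral hp.pos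
  have hζA : ζ ∈ A := Fermat.Agent.S13.H87.isIntegral_int_mem_valuationSubring A _ hζint
  have hζ0 : ζ ≠ 0 := hζ.ne_zero hp.ne_zero
  have h1 : σ ζ - ζ ∈ A.nonunits := sub_mem_nonunits_of_mem_inertiaSubgroupIn A σ hσ ζ hζA
  set ζ' : Qb := σ ζ * ζ⁻¹ with hζ'
  have hpow : ζ' ^ p = 1 := by
    rw [hζ', mul_pow, ← map_pow, inv_pow, hζ.pow_eq_one, map_one, inv_one, mul_one]
  have hne1 : ζ' ≠ 1 := by
    intro h
    apply hcon
    rw [hζ'] at h
    field_simp at h
    exact h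
  have hprim : IsPrimitiveRoot ζ' p := by
    have hord : orderOf ζ' = p := by
      rcases (Nat.dvd_prime hp).mp (orderOf_dvd_of_pow_eq_one hpow) with h | h
      · exact absurd (orderOf_eq_one_iff.mp h) hne1
      · exact h
    rw [← hord]
    exact IsPrimitiveRoot.orderOf ζ'
  have hsub : ζ' - 1 = (σ ζ - ζ) * ζ⁻¹ := by
    rw [hζ']
    field_simp
  have hinvA : ζ⁻¹ ∈ A :=
    Fermat.Agent.S13.H87.isIntegral_int_mem_valuationSubring A _ ((hζ.inv).isIntegral hp.pos)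
  have hv : A.valuation (ζ' - 1) < 1 := by
    rw [hsub, map_mul]
    exact lt_of_le_of_lt (mul_le_of_le_one_right' ((A.valuation_le_one_iff _).mpr hinvA)) h1
  have hp' : A.LiesOverPrime p := by
    show A.valuation (p : Qb) < 1
    rw [natCast_eq_sub_one_pow_mul hp hprim, map_mul, map_pow]
    have hu : A.valuation ((-1 : Qb) ^ (p - 1) *
        ∏ k ∈ Finset.range (p - 1), ∑ i ∈ Finset.range (k + 1), ζ' ^ i) ≤ 1 :=
      (A.valuation_le_one_iff _).mpr
        (Fermat.Agent.S13.H87.isIntegral_int_mem_valuationSubring A _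
          (isIntegral_unitFactor hprim hp))
    have hpow1 : A.valuation (ζ' - 1) ^ (p - 1) < 1 :=
      pow_lt_one₀ zero_le hv (Nat.sub_ne_zero_of_lt hp.one_lt)
    exact lt_of_le_of_lt (mul_le_of_le_one_right' hu) hpow1
  exact hne (liesOverPrime_unique A hℓ hp hA hp')

/-- `P ^ k ∣ I ↔ k ≤ count P I` for a nonzero prime `P` of a Dedekind domain. -/
theorem pow_dvd_iff_le_count {R : Type*} [CommRing R] [IsDedekindDomain R] (P : Ideal R)
    [P.IsPrime] (hP : P ≠ ⊥) (I : Ideal R) (hI : I ≠ ⊥) (k : ℕ) :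
    P ^ k ∣ I ↔ k ≤ Multiset.count P (normalizedFactors I) := by
  have hirr : Irreducible P := (Ideal.prime_of_isPrime hP inferInstance).irreducible
  rw [pow_dvd_iff_le_emultiplicity, emultiplicity_eq_count_normalizedFactors hirr hI,
    normalize_eq]
  exact Nat.cast_le

theorem card_stabilizer_le (A : ValuationSubring Qb) (F : IntermediateField ℚ Qb)
    [NumberField F] [IsGalois ℚ F] {p : ℕ} (hp : p.Prime) (hA : A.LiesOverPrime p)
    {ζ : Qb} (hζ : IsPrimitiveRoot ζ p) (hζF : ζ ∈ F)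
    (h : ∀ σ ∈ A.decompositionSubgroup ℚ, σ ζ = ζ → ∀ x ∈ F, σ x = x) :
    Nat.card (MulAction.stabilizer (F ≃ₐ[ℚ] F) (center A F)) ≤ p - 1 := by
  let zF : F := ⟨ζ, hζF⟩
  have hzF : IsPrimitiveRoot zF p :=
    IsPrimitiveRoot.of_map_of_injective (f := algebraMap F Qb) hζ (algebraMap F Qb).injective
  haveI : NeZero p := ⟨hp.ne_zero⟩
  let f : MulAction.stabilizer (F ≃ₐ[ℚ] F) (center A F) → {x : F // x ∈ primitiveRoots p F} :=
    fun g => ⟨g.1 zF, (mem_primitiveRoots hp.pos).mpr (hzF.map_of_injective g.1.injective)⟩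
  have hf : Function.Injective f := by
    intro g g' hgg'
    have h1 : g.1 zF = g'.1 zF := congrArg Subtype.val hgg'
    have h2 : (g.1⁻¹ * g'.1) zF = zF := by
      rw [AlgEquiv.mul_apply, ← h1]
      exact g.1.symm_apply_apply zF
    have h3 : (g.1⁻¹ * g'.1) ∈
        (A.decompositionSubgroup ℚ).map (AlgEquiv.restrictNormalHom F) := by
      rw [map_decompositionSubgroup A hp hA F]
      exact (g⁻¹ * g').2
    obtain ⟨σ, hσ, hσeq⟩ := h3
    have h4 : σ ζ = ζ := by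
      have := coe_restrictNormalHom_apply F σ zF
      rw [hσeq, h2] at this
      exact this.symm
    have h5 : AlgEquiv.restrictNormalHom F σ = 1 :=
      restrictNormalHom_eq_one F σ ((IntermediateField.mem_fixingSubgroup_iff F σ).mpr (h σ hσ h4))
    rw [h5] at hσeq
    have h6 : g.1⁻¹ * g'.1 = 1 := hσeq.symm
    exact Subtype.ext (inv_mul_eq_one.mp h6)
  have hcard := Nat.card_le_card_of_injective f hf
  rw [Nat.card_eq_fintype_card (α := {x : F // x ∈ primitiveRoots p F}), Fintype.card_coe,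
    hzF.card_primitiveRoots, Nat.totient_prime hp] at hcard
  exact hcard

/-- At `p`: if the decomposition group acts on `F` through its action on `ζ`, then `ζ - 1` is a
uniformiser at the centre and the residue field is `𝔽_p`. -/
theorem split_at_p (A : ValuationSubring Qb) (F : IntermediateField ℚ Qb)
    [NumberField F] [IsGalois ℚ F] {p : ℕ} (hp : p.Prime) (hA : A.LiesOverPrime p)
    {ζ : Qb} (hζ : IsPrimitiveRoot ζ p) (hζF : ζ ∈ F)
    (h : ∀ σ ∈ A.decompositionSubgroup ℚ, σ ζ = ζ → ∀ x ∈ F, σ x = x) :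
    Multiset.count (center A F) (normalizedFactors (Ideal.span
      {mkO F (ζ - 1) (sub_mem hζF (one_mem F)) ((hζ.isIntegral hp.pos).sub isIntegral_one)})) = 1 ∧
    ∀ x : 𝓞 F, ∃ a : ℤ, x - (a : 𝓞 F) ∈ center A F := by
  haveI := center_liesOver A F hp hA
  haveI := center_isMaximal A F hp hA
  haveI : Fact p.Prime := ⟨hp⟩
  have hPbot := center_ne_bot A F hp hA
  set P := center A F with hPdef
  set πF : 𝓞 F := mkO F (ζ - 1) (sub_mem hζF (one_mem F))
    ((hζ.isIntegral hp.pos).sub isIntegral_one) with hπF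
  let uF : 𝓞 F := mkO F _ (unitFactor_mem (p := p) F hζF) (isIntegral_unitFactor hζ hp)
  have hpeq : (p : 𝓞 F) = πF ^ (p - 1) * uF := by
    apply emb_injective F
    rw [map_mul, map_pow, map_natCast]
    exact natCast_eq_sub_one_pow_mul hp hζ
  have hp0 : (p : 𝓞 F) ≠ 0 := by exact_mod_cast hp.ne_zero
  have hπ0 : πF ≠ 0 := by
    intro h0
    rw [h0, zero_pow (Nat.sub_ne_zero_of_lt hp.one_lt), zero_mul] at hpeq
    exact hp0 hpeq
  have hu0 : uF ≠ 0 := by
    intro h0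
    rw [h0, mul_zero] at hpeq
    exact hp0 hpeq
  have hπP : πF ∈ P := by
    rw [hPdef, mem_center_iff_emb]
    exact sub_one_mem_nonunits A hp hA hζ
  -- count of `p`
  have hcount : Multiset.count P (normalizedFactors (Ideal.span {(p : 𝓞 F)})) =
      (p - 1) * Multiset.count P (normalizedFactors (Ideal.span {πF})) +
        Multiset.count P (normalizedFactors (Ideal.span {uF})) := by
    rw [hpeq, ← Ideal.span_singleton_mul_span_singleton, ← Ideal.span_singleton_pow,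
      normalizedFactors_mul, normalizedFactors_pow, Multiset.count_add, Multiset.count_nsmul]
    · exact pow_ne_zero _ (by rwa [Ne, Ideal.zero_eq_bot, Ideal.span_singleton_eq_bot])
    · rwa [Ne, Ideal.zero_eq_bot, Ideal.span_singleton_eq_bot]
  have hc1 : 1 ≤ Multiset.count P (normalizedFactors (Ideal.span {πF})) := by
    rw [← pow_dvd_iff_le_count P hPbot _ (by rwa [Ne, Ideal.span_singleton_eq_bot]), pow_one,
      Ideal.dvd_iff_le, Ideal.span_singleton_le_iff_mem]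
    exact hπP
  -- the stabiliser
  have hstab := card_stabilizer_le A F hp hA hζ hζF h
  have hef := Ideal.card_stabilizer_eq (G := F ≃ₐ[ℚ] F) (Ideal.span {(p : ℤ)}) P
  rw [hef, Ideal.ramificationIdxIn_eq_ramificationIdx (Ideal.span {(p : ℤ)}) P (F ≃ₐ[ℚ] F),
    Ideal.inertiaDegIn_eq_inertiaDeg (Ideal.span {(p : ℤ)}) P (F ≃ₐ[ℚ] F),
    Ideal.IsDedekindDomain.ramificationIdx_eq_normalizedFactors_count (Ideal.span {(p : ℤ)})
      P (by
        rw [map_span_natCast, Ne, Ideal.span_singleton_eq_bot]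
        exact hp0), map_span_natCast, hcount] at hstab
  have hfpos : 0 < P.inertiaDeg ℤ := Ideal.inertiaDeg_pos P ℤ
  have hp1 : 0 < p - 1 := Nat.sub_pos_of_lt hp.one_lt
  set c := Multiset.count P (normalizedFactors (Ideal.span {πF}))
  set d := Multiset.count P (normalizedFactors (Ideal.span {uF}))
  set f := P.inertiaDeg ℤ with hfdef
  have hc : c = 1 := by
    by_contra hne
    have hc2 : 2 ≤ c := by omega
    have : (p - 1) * 2 * 1 ≤ ((p - 1) * c + d) * f :=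
      Nat.mul_le_mul (le_trans (Nat.mul_le_mul_left _ hc2) (Nat.le_add_right _ _)) hfpos
    omega
  have hf : f = 1 := by
    by_contra hne
    have hf2 : 2 ≤ f := by omega
    have : (p - 1) * 1 * 2 ≤ ((p - 1) * c + d) * f :=
      Nat.mul_le_mul (le_trans (Nat.mul_le_mul_left _ hc1) (Nat.le_add_right _ _)) hf2
    omega
  refine ⟨hc, ?_⟩
  intro x
  haveI hmaxp : (Ideal.span {(p : ℤ)}).IsMaximal := Int.ideal_span_isMaximal_of_prime p
  have hfin : Module.finrank (ℤ ⧸ Ideal.span {(p : ℤ)}) (𝓞 F ⧸ P) = 1 := by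
    rw [← Ideal.inertiaDeg_eq_of_isMaximal (Ideal.span {(p : ℤ)}) P]
    exact hf
  letI : Field (ℤ ⧸ Ideal.span {(p : ℤ)}) := Ideal.Quotient.field _
  letI : Field (𝓞 F ⧸ P) := Ideal.Quotient.field _
  obtain ⟨cq, hcq⟩ := (finrank_eq_one_iff_of_nonzero' (1 : 𝓞 F ⧸ P) one_ne_zero).mp hfin
    (Ideal.Quotient.mk P x)
  obtain ⟨a, rfl⟩ := Ideal.Quotient.mk_surjective cq
  refine ⟨a, ?_⟩
  rw [← Ideal.Quotient.eq, ← hcq, Algebra.smul_def, mul_one]
  rfl

/-- Approximation modulo `P ^ 3` by integer polynomials in a uniformiser, when the residue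
field is prime. -/
theorem exists_approx_mod_pow_three {R : Type*} [CommRing R] [IsDedekindDomain R] (P : Ideal R)
    [P.IsMaximal] (π : R)
    (hπ : Multiset.count P (normalizedFactors (Ideal.span {π})) = 1)
    (hres : ∀ x : R, ∃ a : ℤ, x - (a : R) ∈ P) (x : R) :
    ∃ a0 a1 a2 : ℤ, x - ((a0 : R) + (a1 : R) * π + (a2 : R) * π ^ 2) ∈ P ^ 3 := by
  obtain ⟨hπ0, hπP⟩ := mem_of_count_eq_one P π hπ
  have hspan : Ideal.span {π} ≠ ⊥ := by
    rwa [Ne, Ideal.span_singleton_eq_bot]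
  obtain ⟨J, hJ, hπJ⟩ := Ideal.eq_prime_pow_mul_coprime hspan P
  rw [hπ, pow_one] at hπJ
  have hstep : ∀ y ∈ P, ∃ z, y - π * z ∈ P ^ 3 := by
    intro y hy
    have h1 : P ^ 2 ⊔ J = ⊤ := Ideal.pow_sup_eq_top hJ
    have h2 : (1 : R) ∈ P ^ 2 ⊔ J := by rw [h1]; trivial
    obtain ⟨q, hq, j, hj, hqj⟩ := Submodule.mem_sup.mp h2
    have h3 : y * j ∈ Ideal.span {π} := by
      rw [hπJ]
      exact Ideal.mul_mem_mul hy hj
    obtain ⟨z, hz⟩ := Ideal.mem_span_singleton.mp h3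
    refine ⟨z, ?_⟩
    have h4 : y - π * z = y * q := by
      rw [← hz]
      have : y = y * (q + j) := by rw [hqj, mul_one]
      nth_rw 1 [this]
      ring
    rw [h4, pow_succ']
    exact Ideal.mul_mem_mul hy hq
  obtain ⟨a0, h0⟩ := hres x
  obtain ⟨z1, hz1⟩ := hstep _ h0
  obtain ⟨a1, h1⟩ := hres z1
  obtain ⟨z2, hz2⟩ := hstep _ h1
  obtain ⟨a2, h2⟩ := hres z2
  refine ⟨a0, a1, a2, ?_⟩
  have e : x - ((a0 : R) + (a1 : R) * π + (a2 : R) * π ^ 2) =
      ((x - a0) - π * z1) + π * ((z1 - a1) - π * z2) + π ^ 2 * (z2 - a2) := by ring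
  rw [e]
  refine Ideal.add_mem _ (Ideal.add_mem _ hz1 (Ideal.mul_mem_left _ _ hz2)) ?_
  rw [pow_succ (P) 2]
  exact Ideal.mul_mem_mul (Ideal.pow_mem_pow hπP 2) h2

theorem fixes_adjoin_of_fixes (σ : Qb ≃ₐ[ℚ] Qb) (S : Set Qb) (hS : ∀ s ∈ S, σ s = s) :
    ∀ x ∈ IntermediateField.adjoin ℚ S, σ x = x := by
  intro x hx
  induction hx using IntermediateField.adjoin_induction with
  | mem x hx => exact hS x hx
  | algebraMap x => exact σ.commutes x
  | add x y _ _ hx hy => rw [map_add, hx, hy]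
  | inv x _ hx => rw [map_inv₀, hx]
  | mul x y _ _ hx hy => rw [map_mul, hx, hy]

theorem map_mem_adjoin_of_map_mem (σ : Qb ≃ₐ[ℚ] Qb) (S : Set Qb)
    (hS : ∀ s ∈ S, σ s ∈ IntermediateField.adjoin ℚ S) :
    ∀ x ∈ IntermediateField.adjoin ℚ S, σ x ∈ IntermediateField.adjoin ℚ S := by
  intro x hx
  induction hx using IntermediateField.adjoin_induction with
  | mem x hx => exact hS x hx
  | algebraMap x => rw [σ.commutes x]; exact IntermediateField.algebraMap_mem _ x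
  | add x y _ _ hx hy => rw [map_add]; exact add_mem hx hy
  | inv x _ hx => rw [map_inv₀]; exact inv_mem hx
  | mul x y _ _ hx hy => rw [map_mul]; exact mul_mem hx hy

theorem isGalois_of_map_mem (M : IntermediateField ℚ Qb)
    (h : ∀ σ : Qb ≃ₐ[ℚ] Qb, ∀ x ∈ M, σ x ∈ M) : IsGalois ℚ M := by
  haveI := isGalois_rat_algebraicClosure
  refine (InfiniteGalois.normal_iff_isGalois M).mp ⟨?_⟩
  intro n hn g
  rw [IntermediateField.mem_fixingSubgroup_iff] at hn ⊢
  intro x hx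
  show g (n (g⁻¹ x)) = x
  rw [hn _ (h g⁻¹ x hx)]
  exact g.apply_symm_apply x

theorem mem_adjoin_simple_of_fixed (ζ x : Qb)
    (h : ∀ σ : Qb ≃ₐ[ℚ] Qb, σ ζ = ζ → σ x = x) : x ∈ IntermediateField.adjoin ℚ {ζ} := by
  haveI := isGalois_rat_algebraicClosure
  rw [← InfiniteGalois.fixedField_fixingSubgroup (IntermediateField.adjoin ℚ {ζ}),
    IntermediateField.mem_fixedField_iff]
  intro σ hσ
  apply h
  exact (IntermediateField.mem_fixingSubgroup_iff _ σ).mp hσ ζ
    (IntermediateField.subset_adjoin ℚ _ (Set.mem_singleton ζ))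

theorem cycloExp_spec_aux {p : ℕ} [Fact p.Prime] (σ : Qb ≃ₐ[ℚ] Qb) {ζ : Qb}
    (hζ : ζ ^ p = 1) : σ ζ = ζ ^ ExtCitation.cycloExp p σ := by
  haveI : NeZero p := ⟨(Fact.out : p.Prime).ne_zero⟩
  have hζ0 : ζ ≠ 0 := by
    intro h
    rw [h, zero_pow (Fact.out : p.Prime).ne_zero] at hζ
    exact zero_ne_one hζ
  have ht : Units.mk0 ζ hζ0 ∈ rootsOfUnity p Qb := by
    rw [mem_rootsOfUnity]
    ext
    simpa using hζ
  have := modularCyclotomicCharacter.spec Qb (ExtCitation.card_rootsOfUnity_eq_self p)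
    (σ : Qb ≃+* Qb) ht
  simpa [ExtCitation.cycloExp] using this

theorem isIntegral_rat_algebraicClosure : Algebra.IsIntegral ℚ Qb := by
  haveI : IsAlgClosure ℚ Qb := AlgebraicClosure.instIsAlgClosure ℚ
  haveI : Algebra.IsAlgebraic ℚ Qb := IsAlgClosure.isAlgebraic
  infer_instance

theorem numberField_adjoin (S : Set Qb) (hS : S.Finite) :
    NumberField (IntermediateField.adjoin ℚ S) := by
  haveI : Finite S := hS
  haveI := isIntegral_rat_algebraicClosure
  have h : FiniteDimensional ℚ (IntermediateField.adjoin ℚ S) :=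
    IntermediateField.finiteDimensional_adjoin (fun x _ => Algebra.IsIntegral.isIntegral x)
  exact { to_charZero := inferInstance, to_finiteDimensional := h }

theorem isCyclotomicExtension_adjoin {p : ℕ} [Fact p.Prime] {ζ : Qb} (hζ : IsPrimitiveRoot ζ p) :
    IsCyclotomicExtension {p} ℚ (IntermediateField.adjoin ℚ {ζ}) := by
  haveI : NeZero p := ⟨(Fact.out : p.Prime).ne_zero⟩
  haveI := isIntegral_rat_algebraicClosure
  exact hζ.intermediateField_adjoin_isCyclotomicExtension ℚ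

/-- Above `p`, the centre on `ℚ(ζ)` is generated by `ζ - 1`. -/
theorem center_adjoin_eq_span {p : ℕ} [Fact p.Prime] {ζ : Qb} (hζ : IsPrimitiveRoot ζ p)
    (A : ValuationSubring Qb) (hA : A.LiesOverPrime p)
    (hζK : ζ ∈ IntermediateField.adjoin ℚ {ζ}) (hint : IsIntegral ℤ (ζ - 1)) :
    haveI := numberField_adjoin {ζ} (Set.finite_singleton ζ)
    center A (IntermediateField.adjoin ℚ {ζ}) =
      Ideal.span {mkO (IntermediateField.adjoin ℚ {ζ}) (ζ - 1) (sub_mem hζK (one_mem _)) hint} ∧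
    Prime (mkO (IntermediateField.adjoin ℚ {ζ}) (ζ - 1) (sub_mem hζK (one_mem _)) hint) := by
  have hp : p.Prime := Fact.out
  haveI := numberField_adjoin {ζ} (Set.finite_singleton ζ)
  haveI := isCyclotomicExtension_adjoin hζ
  set K := IntermediateField.adjoin ℚ {ζ} with hK
  let zK : K := ⟨ζ, hζK⟩
  have hzK : IsPrimitiveRoot zK p :=
    IsPrimitiveRoot.of_map_of_injective (f := algebraMap K Qb) hζ (algebraMap K Qb).injective
  have hprime := hzK.zeta_sub_one_prime'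
  have heq : hzK.toInteger - 1 = mkO K (ζ - 1) (sub_mem hζK (one_mem _)) hint := by
    apply emb_injective K
    rfl
  rw [heq] at hprime
  refine ⟨?_, hprime⟩
  have hmax : (Ideal.span {mkO K (ζ - 1) (sub_mem hζK (one_mem _)) hint}).IsMaximal :=
    Ideal.IsPrime.isMaximal ((Ideal.span_singleton_prime hprime.ne_zero).mpr hprime)
      (by rw [Ne, Ideal.span_singleton_eq_bot]; exact hprime.ne_zero)
  symm
  refine hmax.eq_of_le (center_isPrime A K).ne_top ?_
  rw [Ideal.span_singleton_le_iff_mem, mem_center_iff_emb]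
  exact sub_one_mem_nonunits A hp hA hζ

theorem exists_prime_liesOver_of_natCast (A : ValuationSubring Qb) (n : ℕ) (hn : n ≠ 0)
    (h : A.valuation (n : Qb) < 1) : ∃ ℓ : ℕ, ℓ.Prime ∧ A.LiesOverPrime ℓ := by
  induction n using Nat.strong_induction_on with
  | _ n ih =>
    have hn1 : n ≠ 1 := by
      rintro rfl
      rw [Nat.cast_one, map_one] at h
      exact lt_irrefl _ h
    obtain ⟨ℓ, hℓ, m, rfl⟩ := Nat.exists_prime_and_dvd hn1
    by_cases hv : A.valuation (ℓ : Qb) < 1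
    · exact ⟨ℓ, hℓ, hv⟩
    · have hle : A.valuation (ℓ : Qb) ≤ 1 := (A.valuation_le_one_iff _).mpr (natCast_mem A ℓ)
      have heq : A.valuation (ℓ : Qb) = 1 := le_antisymm hle (not_lt.mp hv)
      rw [Nat.cast_mul, map_mul, heq, one_mul] at h
      have hm0 : m ≠ 0 := by
        rintro rfl
        exact hn (mul_zero ℓ)
      have hlt : m < ℓ * m := by
        have := hℓ.two_le
        nlinarith [Nat.pos_of_ne_zero hm0]
      exact ih m hlt hm0 h

theorem exists_prime_liesOver (A : ValuationSubring Qb) (F : IntermediateField ℚ Qb)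
    [NumberField F] (h : center A F ≠ ⊥) : ∃ ℓ : ℕ, ℓ.Prime ∧ A.LiesOverPrime ℓ := by
  have h1 : (Ideal.absNorm (center A F) : 𝓞 F) ∈ center A F := Ideal.absNorm_mem _
  have h2 : Ideal.absNorm (center A F) ≠ 0 := by
    rw [Ne, Ideal.absNorm_eq_zero_iff]
    exact h
  exact exists_prime_liesOver_of_natCast A _ h2 ((natCast_mem_center_iff A F _).mp h1)

theorem exists_liesOverPrime (p : ℕ) (hp : p.Prime) :
    ∃ A : ValuationSubring Qb, A.LiesOverPrime p := by
  haveI : Fact p.Prime := ⟨hp⟩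
  haveI hmax : (Ideal.span {(p : ℤ)}).IsMaximal := Int.ideal_span_isMaximal_of_prime p
  obtain ⟨A, -, hA⟩ := exists_valuationSubring_center (Int.castRingHom Qb)
    (Ideal.span {(p : ℤ)}) (by
      intro x hx
      rw [RingHom.mem_ker, eq_intCast, Int.cast_eq_zero] at hx
      rw [hx]
      exact Ideal.zero_mem _)
  refine ⟨A, ?_⟩
  have h1 := (hA (p : ℤ)).mp (Ideal.mem_span_singleton_self _)
  have h2 : (Int.castRingHom Qb) (p : ℤ) = (p : Qb) := by simp
  rw [h2] at h1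
  exact h1

theorem span_singleton_pow_dvd_iff {R : Type*} [CommRing R] [IsDedekindDomain R] (π x : R)
    (k : ℕ) : Ideal.span {π} ^ k ∣ Ideal.span {x} ↔ π ^ k ∣ x := by
  rw [Ideal.span_singleton_pow, Ideal.dvd_iff_le, Ideal.span_singleton_le_span_singleton]

theorem count_self_eq_one {R : Type*} [CommRing R] [IsDedekindDomain R] (P : Ideal R)
    [P.IsPrime] (hP : P ≠ ⊥) : Multiset.count P (normalizedFactors P) = 1 := by
  have hirr : Irreducible P := (Ideal.prime_of_isPrime hP inferInstance).irreducible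
  rw [normalizedFactors_irreducible hirr, normalize_eq, Multiset.count_singleton_self]

/-- Normalisation at `p` and the congruence modulo `(ζ - 1)^3`. -/
theorem normalise_at_p {p : ℕ} [Fact p.Prime] {ζ β : Qb} (hζ : IsPrimitiveRoot ζ p)
    (hβ : β ≠ 0) (hβint : IsIntegral ℤ β)
    (K M : IntermediateField ℚ Qb) (hK : K = IntermediateField.adjoin ℚ {ζ})
    [NumberField K] [NumberField M] [IsGalois ℚ M]
    (hζK : ζ ∈ K) (hζM : ζ ∈ M) (hβM : β ∈ M) (hβK : β ^ p ∈ K)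
    (h5 : ∀ A : ValuationSubring Qb, A.LiesOverPrime p →
      ∀ σ ∈ A.decompositionSubgroup ℚ, σ ζ = ζ → ∀ x ∈ M, σ x = x)
    (hint : IsIntegral ℤ (ζ - 1)) :
    ∃ (j : ℕ) (α' : 𝓞 K), emb K α' = (β / (ζ - 1) ^ j) ^ p ∧
      ¬ mkO K (ζ - 1) (sub_mem hζK (one_mem K)) hint ∣ α' ∧
      ∃ ξ : 𝓞 K, mkO K (ζ - 1) (sub_mem hζK (one_mem K)) hint ^ 3 ∣ α' - ξ ^ p := by
  subst hK
  have hp : p.Prime := Fact.out
  obtain ⟨A, hA⟩ := exists_liesOverPrime p hp
  set K := IntermediateField.adjoin ℚ {ζ} with hKdef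
  haveI := center_isMaximal A K hp hA
  haveI := center_isMaximal A M hp hA
  have hPKbot := center_ne_bot A K hp hA
  have hPMbot := center_ne_bot A M hp hA
  obtain ⟨hcK, hprime⟩ := center_adjoin_eq_span hζ A hA hζK hint
  set πK : 𝓞 K := mkO K (ζ - 1) (sub_mem hζK (one_mem K)) hint with hπK
  have hπK0 : πK ≠ 0 := hprime.ne_zero
  have hζ1 : ζ - 1 ≠ 0 := by
    intro h0
    apply hπK0
    apply emb_injective K
    rw [map_zero]
    exact h0
  have h1K : Multiset.count (center A K) (normalizedFactors (Ideal.span {πK})) = 1 := by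
    rw [← hcK]
    exact count_self_eq_one _ hPKbot
  obtain ⟨h1M, hres⟩ := split_at_p A M hp hA hζ hζM (h5 A hA)
  set πM : 𝓞 M := mkO M (ζ - 1) (sub_mem hζM (one_mem M))
    ((hζ.isIntegral hp.pos).sub isIntegral_one) with hπM
  let αK : 𝓞 K := mkO K (β ^ p) hβK (hβint.pow p)
  let βM : 𝓞 M := mkO M β hβM hβint
  have hαK0 : αK ≠ 0 := by
    intro h0
    have : emb K αK = 0 := by rw [h0, map_zero]
    exact pow_ne_zero p hβ this
  have hβM0 : βM ≠ 0 := by
    intro h0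
    have : emb M βM = 0 := by rw [h0, map_zero]
    exact hβ this
  have hk : Multiset.count (center A K) (normalizedFactors (Ideal.span {αK})) =
      p * Multiset.count (center A M) (normalizedFactors (Ideal.span {βM})) :=
    count_eq_mul_count A K M πK πM rfl h1K h1M αK βM hαK0 hβM0 p rfl
  set j := Multiset.count (center A M) (normalizedFactors (Ideal.span {βM})) with hj
  have hspanα : Ideal.span {αK} ≠ ⊥ := by rwa [Ne, Ideal.span_singleton_eq_bot]
  have hdvd : πK ^ (p * j) ∣ αK := by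
    rw [← span_singleton_pow_dvd_iff, ← hcK, pow_dvd_iff_le_count _ hPKbot _ hspanα, hk]
  obtain ⟨α', hα'⟩ := hdvd
  have hembα : emb K α' = (β / (ζ - 1) ^ j) ^ p := by
    have h1 : emb K αK = emb K πK ^ (p * j) * emb K α' := by
      rw [hα', map_mul, map_pow]
    have h2 : β ^ p = (ζ - 1) ^ (p * j) * emb K α' := h1
    rw [div_pow, h2, ← pow_mul, mul_comm j p]
    field_simp
  have hα'0 : α' ≠ 0 := by
    intro h0
    rw [h0, mul_zero] at hα'
    exact hαK0 hα'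
  have hndvd : ¬ πK ∣ α' := by
    intro hd
    have h1 : πK ^ (p * j + 1) ∣ αK := by
      rw [hα', pow_succ]
      exact mul_dvd_mul_left _ hd
    rw [← span_singleton_pow_dvd_iff, ← hcK, pow_dvd_iff_le_count _ hPKbot _ hspanα, hk] at h1
    omega
  refine ⟨j, α', hembα, hndvd, ?_⟩
  -- the congruence
  set β' : Qb := β / (ζ - 1) ^ j with hβ'
  have hβ'int : IsIntegral ℤ β' := by
    refine IsIntegral.of_pow hp.pos ?_
    rw [← hembα]
    exact isIntegral_emb K α'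
  have hβ'M : β' ∈ M := div_mem hβM (pow_mem (sub_mem hζM (one_mem M)) j)
  let β'M : 𝓞 M := mkO M β' hβ'M hβ'int
  obtain ⟨a0, a1, a2, happ⟩ := exists_approx_mod_pow_three (center A M) πM h1M hres β'M
  let ξ : 𝓞 K := (a0 : 𝓞 K) + (a1 : 𝓞 K) * πK + (a2 : 𝓞 K) * πK ^ 2
  set ξM : 𝓞 M := (a0 : 𝓞 M) + (a1 : 𝓞 M) * πM + (a2 : 𝓞 M) * πM ^ 2 with hξM
  have hξ : emb K ξ = emb M ξM := by
    simp only [ξ, hξM, map_add, map_mul, map_pow, map_intCast]
    rfl
  refine ⟨ξ, ?_⟩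
  by_cases hy : α' - ξ ^ p = 0
  · rw [hy]
    exact dvd_zero _
  · let yM : 𝓞 M := β'M ^ p - ξM ^ p
    have hyy : emb K (α' - ξ ^ p) = emb M yM ^ 1 := by
      rw [pow_one, map_sub, map_sub, map_pow, map_pow, hξ, hembα]
      rfl
    have hyM0 : yM ≠ 0 := by
      intro h0
      apply hy
      apply emb_injective K
      rw [hyy, h0, map_zero, pow_one, map_zero]
    have hyMmem : yM ∈ center A M ^ 3 := by
      obtain ⟨c, hc⟩ := sub_dvd_pow_sub_pow β'M ξM p
      show β'M ^ p - ξM ^ p ∈ center A M ^ 3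
      rw [hc]
      exact Ideal.mul_mem_right _ _ happ
    have h3 : 3 ≤ Multiset.count (center A M) (normalizedFactors (Ideal.span {yM})) := by
      rw [← pow_dvd_iff_le_count _ hPMbot _ (by rwa [Ne, Ideal.span_singleton_eq_bot]),
        Ideal.dvd_iff_le, Ideal.span_singleton_le_iff_mem]
      exact hyMmem
    have hcnt := count_eq_mul_count A K M πK πM rfl h1K h1M (α' - ξ ^ p) yM hy hyM0 1 hyy
    rw [one_mul] at hcnt
    rw [← span_singleton_pow_dvd_iff, ← hcK,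
      pow_dvd_iff_le_count _ hPKbot _ (by rwa [Ne, Ideal.span_singleton_eq_bot]), hcnt]
    exact h3

theorem center_eq_span_of_eq_adjoin {p : ℕ} [Fact p.Prime] {ζ : Qb} (hζ : IsPrimitiveRoot ζ p)
    (K : IntermediateField ℚ Qb) (hK : K = IntermediateField.adjoin ℚ {ζ}) [NumberField K]
    (A : ValuationSubring Qb) (hA : A.LiesOverPrime p)
    (hζK : ζ ∈ K) (hint : IsIntegral ℤ (ζ - 1)) :
    center A K = Ideal.span {mkO K (ζ - 1) (sub_mem hζK (one_mem _)) hint} ∧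
      Prime (mkO K (ζ - 1) (sub_mem hζK (one_mem _)) hint) := by
  subst hK
  exact center_adjoin_eq_span hζ A hA hζK hint

/-- Away from `p` the extension is unramified, hence the ideal of `α'` is a `p`-th power. -/
theorem span_eq_pow_of_unramified {p : ℕ} [Fact p.Prime] {ζ : Qb} (hζ : IsPrimitiveRoot ζ p)
    (K M : IntermediateField ℚ Qb) (hK : K = IntermediateField.adjoin ℚ {ζ})
    [NumberField K] [NumberField M] [IsGalois ℚ K] [IsGalois ℚ M] (hKM : K ≤ M)
    (hζK : ζ ∈ K) (hint : IsIntegral ℤ (ζ - 1))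
    (h4 : ∀ ℓ : ℕ, ℓ.Prime → ℓ ≠ p → ∀ A : ValuationSubring Qb, A.LiesOverPrime ℓ →
      ∀ σ ∈ A.inertiaSubgroupIn ℚ, ∀ x ∈ M, σ x = x)
    (α' : 𝓞 K) (β'M : 𝓞 M) (hα'0 : α' ≠ 0) (hαβ : emb K α' = emb M β'M ^ p)
    (hndvd : ¬ mkO K (ζ - 1) (sub_mem hζK (one_mem K)) hint ∣ α') :
    ∃ I : Ideal (𝓞 K), Ideal.span {α'} = I ^ p := by
  have hp : p.Prime := Fact.out
  have hspan : Ideal.span {α'} ≠ ⊥ := by rwa [Ne, Ideal.span_singleton_eq_bot]
  have hβ'0 : β'M ≠ 0 := by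
    intro h0
    rw [h0, map_zero, zero_pow hp.ne_zero] at hαβ
    apply hα'0
    apply emb_injective K
    rw [hαβ, map_zero]
  have key : ∀ 𝔮 ∈ normalizedFactors (Ideal.span {α'}),
      p ∣ Multiset.count 𝔮 (normalizedFactors (Ideal.span {α'})) := by
    intro 𝔮 h𝔮
    have hprime𝔮 : Prime 𝔮 := prime_of_normalized_factor 𝔮 h𝔮
    haveI : 𝔮.IsPrime := Ideal.isPrime_of_prime hprime𝔮
    have h𝔮0 : 𝔮 ≠ ⊥ := hprime𝔮.ne_zero
    haveI : 𝔮.IsMaximal := Ideal.IsPrime.isMaximal inferInstance h𝔮0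
    obtain ⟨A, hA⟩ := exists_center_eq K 𝔮
    obtain ⟨ℓ, hℓ, hAℓ⟩ := exists_prime_liesOver A K (by rw [hA]; exact h𝔮0)
    have hne : ℓ ≠ p := by
      intro hℓp
      rw [hℓp] at hAℓ
      obtain ⟨hcK, -⟩ := center_eq_span_of_eq_adjoin hζ K hK A hAℓ hζK hint
      apply hndvd
      rw [← Ideal.mem_span_singleton, ← hcK, hA]
      exact Ideal.dvd_iff_le.mp (dvd_of_mem_normalizedFactors h𝔮)
        (Ideal.mem_span_singleton_self α')
    haveI := center_isMaximal A K hℓ hAℓ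
    haveI := center_isMaximal A M hℓ hAℓ
    have hM := count_natCast_eq_one_of_inertia A M hℓ hAℓ (h4 ℓ hℓ hne A hAℓ)
    have hK' := count_natCast_eq_one_of_inertia A K hℓ hAℓ
      (fun σ hσ x hx => h4 ℓ hℓ hne A hAℓ σ hσ x (hKM hx))
    have hcnt := count_eq_mul_count A K M (ℓ : 𝓞 K) (ℓ : 𝓞 M)
      (by rw [map_natCast, map_natCast]) hK' hM α' β'M hα'0 hβ'0 p hαβ
    rw [hA] at hcnt
    exact ⟨_, hcnt⟩
  obtain ⟨u, hu⟩ := Multiset.exists_smul_of_dvd_count _ key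
  refine ⟨u.prod, ?_⟩
  rw [← Multiset.prod_nsmul, ← hu, Ideal.prod_normalizedFactors_eq_self hspan]

/-- Interface (I) of the S14 plan, for an integral Kummer generator. -/
theorem exists_singular_primary_of_integral {p : ℕ} [Fact p.Prime] (ζ β : Qb)
    (hζ : IsPrimitiveRoot ζ p) (hβ : β ≠ 0) (hβint : IsIntegral ℤ β)
    (h1 : ∀ σ : Γ, σ ζ = ζ → σ (β ^ p) = β ^ p)
    (h2 : ∃ τ : Γ, τ ζ = ζ ∧ τ β = ζ * β)
    (h3 : ∀ δ : Γ, ∃ c : Qb, (∀ σ : Γ, σ ζ = ζ → σ c = c) ∧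
      δ β = β ^ (ExtCitation.cycloExp p δ ^ 2) * c)
    (h4 : ∀ ℓ : ℕ, ℓ.Prime → ℓ ≠ p → ∀ A : ValuationSubring Qb, A.LiesOverPrime ℓ →
      ∀ σ ∈ A.inertiaSubgroupIn ℚ, σ β = β)
    (h5 : ∀ A : ValuationSubring Qb, A.LiesOverPrime p →
      ∀ σ ∈ A.decompositionSubgroup ℚ, σ ζ = ζ → σ β = β) :
    ∃ (K : Type) (_ : Field K) (_ : NumberField K) (_ : IsCyclotomicExtension {p} ℚ K)
      (z : K) (hz : IsPrimitiveRoot z p) (α : 𝓞 K),
      α ≠ 0 ∧ (¬ ∃ x : K, x ^ p = (α : K)) ∧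
      (∃ I : Ideal (𝓞 K), Ideal.span {α} = I ^ p) ∧
      ¬ (hz.toInteger - 1) ∣ α ∧ (∃ ξ : 𝓞 K, (hz.toInteger - 1) ^ 3 ∣ α - ξ ^ p) ∧
      ∀ (σ : K ≃ₐ[ℚ] K) (a : ℕ), σ z = z ^ a →
        ∃ c : K, σ (α : K) = (α : K) ^ (a ^ 2) * c ^ p := by
  have hp : p.Prime := Fact.out
  haveI := isGalois_rat_algebraicClosure
  have hζint : IsIntegral ℤ ζ := hζ.isIntegral hp.pos
  have hint : IsIntegral ℤ (ζ - 1) := hζint.sub isIntegral_one
  obtain ⟨K, hK⟩ : ∃ K : IntermediateField ℚ Qb, K = IntermediateField.adjoin ℚ {ζ} := ⟨_, rfl⟩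
  obtain ⟨M, hM⟩ : ∃ M : IntermediateField ℚ Qb, M = IntermediateField.adjoin ℚ {ζ, β} :=
    ⟨_, rfl⟩
  have hζK : ζ ∈ K := by
    rw [hK]; exact IntermediateField.subset_adjoin ℚ _ (Set.mem_singleton ζ)
  have hζM : ζ ∈ M := by
    rw [hM]; exact IntermediateField.subset_adjoin ℚ _ (Set.mem_insert ζ _)
  have hβM : β ∈ M := by
    rw [hM]
    exact IntermediateField.subset_adjoin ℚ _ (Set.mem_insert_of_mem ζ (Set.mem_singleton β))
  have hKM : K ≤ M := by
    rw [hK, hM]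
    exact IntermediateField.adjoin.mono ℚ _ _ (Set.singleton_subset_iff.mpr (Set.mem_insert ζ _))
  have hfixK : ∀ σ : Γ, σ ζ = ζ → ∀ x ∈ K, σ x = x := by
    intro σ hσ
    rw [hK]
    refine fixes_adjoin_of_fixes σ {ζ} ?_
    intro s hs
    rw [Set.mem_singleton_iff.mp hs]
    exact hσ
  have hmemK : ∀ x : Qb, (∀ σ : Γ, σ ζ = ζ → σ x = x) → x ∈ K := by
    intro x hx
    rw [hK]
    exact mem_adjoin_simple_of_fixed ζ x hx
  have hβK : β ^ p ∈ K := hmemK _ h1
  haveI : NumberField K := by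
    rw [hK]; exact numberField_adjoin {ζ} (Set.finite_singleton ζ)
  haveI : NumberField M := by
    rw [hM]; exact numberField_adjoin {ζ, β} (Set.toFinite _)
  have hσζ : ∀ σ : Γ, σ ζ = ζ ^ ExtCitation.cycloExp p σ :=
    fun σ => cycloExp_spec_aux σ hζ.pow_eq_one
  have hmapK : ∀ σ : Γ, ∀ x ∈ K, σ x ∈ K := by
    intro σ
    have hgen : ∀ s ∈ ({ζ} : Set Qb), σ s ∈ K := by
      intro s hs
      rw [Set.mem_singleton_iff.mp hs, hσζ σ]
      exact pow_mem hζK _
    rw [hK] at hgen ⊢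
    exact map_mem_adjoin_of_map_mem σ {ζ} hgen
  have hmapM : ∀ σ : Γ, ∀ x ∈ M, σ x ∈ M := by
    intro σ
    have hgen : ∀ s ∈ ({ζ, β} : Set Qb), σ s ∈ M := by
      intro s hs
      rcases hs with hs | hs
      · rw [hs, hσζ σ]
        exact pow_mem hζM _
      · obtain ⟨c, hc, hδ⟩ := h3 σ
        rw [Set.mem_singleton_iff.mp hs, hδ]
        exact mul_mem (pow_mem hβM _) (hKM (hmemK c hc))
    rw [hM] at hgen ⊢
    exact map_mem_adjoin_of_map_mem σ {ζ, β} hgen
  haveI : IsGalois ℚ K := isGalois_of_map_mem K hmapK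
  haveI : IsGalois ℚ M := isGalois_of_map_mem M hmapM
  have h4' : ∀ ℓ : ℕ, ℓ.Prime → ℓ ≠ p → ∀ A : ValuationSubring Qb, A.LiesOverPrime ℓ →
      ∀ σ ∈ A.inertiaSubgroupIn ℚ, ∀ x ∈ M, σ x = x := by
    intro ℓ hℓ hne A hA σ hσ
    rw [hM]
    refine fixes_adjoin_of_fixes σ {ζ, β} ?_
    intro s hs
    rcases hs with hs | hs
    · rw [hs]
      exact inertia_fixes_zeta A hp hℓ hne hA hζ σ hσ
    · rw [Set.mem_singleton_iff.mp hs]
      exact h4 ℓ hℓ hne A hA σ hσ
  have h5' : ∀ A : ValuationSubring Qb, A.LiesOverPrime p →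
      ∀ σ ∈ A.decompositionSubgroup ℚ, σ ζ = ζ → ∀ x ∈ M, σ x = x := by
    intro A hA σ hσ hσζ'
    rw [hM]
    refine fixes_adjoin_of_fixes σ {ζ, β} ?_
    intro s hs
    rcases hs with hs | hs
    · rw [hs]
      exact hσζ'
    · rw [Set.mem_singleton_iff.mp hs]
      exact h5 A hA σ hσ hσζ'
  obtain ⟨j, α', hembα, hndvd, ξ, hξ⟩ :=
    normalise_at_p hζ hβ hβint K M hK hζK hζM hβM hβK h5' hint
  obtain ⟨β', hβ'⟩ : ∃ β' : Qb, β' = β / (ζ - 1) ^ j := ⟨_, rfl⟩
  rw [← hβ'] at hembα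
  have hζ1 : ζ - 1 ≠ 0 := sub_ne_zero.mpr (hζ.ne_one hp.one_lt)
  have hβ'0 : β' ≠ 0 := by
    rw [hβ']; exact div_ne_zero hβ (pow_ne_zero _ hζ1)
  have hβ'int : IsIntegral ℤ β' :=
    IsIntegral.of_pow hp.pos (by rw [← hembα]; exact isIntegral_emb K α')
  have hβ'M : β' ∈ M := by
    rw [hβ']; exact div_mem hβM (pow_mem (sub_mem hζM (one_mem M)) j)
  have hββ' : β = β' * (ζ - 1) ^ j := by
    rw [hβ']; field_simp
  have hα'0 : α' ≠ 0 := by
    intro h0
    rw [h0, map_zero] at hembα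
    exact pow_ne_zero p hβ'0 hembα.symm
  obtain ⟨I, hI⟩ := span_eq_pow_of_unramified hζ K M hK hKM hζK hint h4' α'
    (mkO M β' hβ'M hβ'int) hα'0 hembα hndvd
  let zK : K := ⟨ζ, hζK⟩
  have hzK : IsPrimitiveRoot zK p :=
    IsPrimitiveRoot.of_map_of_injective (f := algebraMap K Qb) hζ (algebraMap K Qb).injective
  have hcyc : IsCyclotomicExtension {p} ℚ K := by
    rw [hK]; exact isCyclotomicExtension_adjoin hζ
  have hπeq : hzK.toInteger - 1 = mkO K (ζ - 1) (sub_mem hζK (one_mem K)) hint := by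
    apply emb_injective K
    rfl
  refine ⟨K, inferInstance, inferInstance, hcyc, zK, hzK, α', hα'0, ?_, ⟨I, hI⟩, ?_, ⟨ξ, ?_⟩, ?_⟩
  · -- (i)
    rintro ⟨x, hx⟩
    have hx' : (x : Qb) ^ p = β' ^ p := by
      have h : ((x ^ p : K) : Qb) = ((α' : K) : Qb) := congrArg (fun y : K => (y : Qb)) hx
      rw [IntermediateField.coe_pow] at h
      rw [← hembα]
      exact h
    have hx0 : (x : Qb) ≠ 0 := by
      intro h0
      rw [h0, zero_pow hp.ne_zero] at hx'
      exact pow_ne_zero p hβ'0 hx'.symm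
    have h1' : (β' / (x : Qb)) ^ p = 1 := by
      rw [div_pow, ← hx', div_self (pow_ne_zero p hx0)]
    obtain ⟨i, -, hi⟩ := hζ.eq_pow_of_pow_eq_one h1'
    have hβ'K : β' ∈ K := by
      have : β' = ζ ^ i * (x : Qb) := by
        rw [hi]; field_simp
      rw [this]
      exact mul_mem (pow_mem hζK i) x.2
    have hβK' : β ∈ K := by
      rw [hββ']
      exact mul_mem hβ'K (pow_mem (sub_mem hζK (one_mem K)) j)
    obtain ⟨τ, hτζ, hτβ⟩ := h2
    have hfix := hfixK τ hτζ β hβK'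
    rw [hτβ] at hfix
    exact hζ.ne_one hp.one_lt (mul_right_cancel₀ hβ (by rw [hfix, one_mul]))
  · rw [hπeq]; exact hndvd
  · rw [hπeq]; exact hξ
  · -- (iv)
    intro σ a hσa
    obtain ⟨δ, hδ⟩ := AlgEquiv.restrictNormalHom_surjective (F := ℚ) (K₁ := K) Qb σ
    have hδζ : δ ζ = ζ ^ a := by
      have h := coe_restrictNormalHom_apply K δ zK
      rw [hδ, hσa] at h
      rw [← h]
      simp [zK]
    obtain ⟨e, he⟩ : ∃ e : ℕ, e = ExtCitation.cycloExp p δ := ⟨_, rfl⟩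
    have hδζe : δ ζ = ζ ^ e := by rw [he]; exact hσζ δ
    have hae : ζ ^ a = ζ ^ e := by rw [← hδζ, hδζe]
    have hζ0 : ζ ≠ 0 := hζ.ne_zero hp.ne_zero
    have hz : ζ ^ ((e : ℤ) - (a : ℤ)) = 1 := by
      rw [zpow_sub₀ hζ0, zpow_natCast, zpow_natCast, hae, div_self (pow_ne_zero _ hζ0)]
    have hmod : a ≡ e [MOD p] :=
      Nat.modEq_iff_dvd.mpr ((hζ.zpow_eq_one_iff_dvd _).mp hz)
    obtain ⟨c, hc, hδβ⟩ := h3 δ
    rw [← he] at hδβ
    have hcK : c ∈ K := hmemK c hc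
    have hδπ : δ (ζ - 1) = ζ ^ e - 1 := by rw [map_sub, map_one, hδζe]
    have hδπ0 : ζ ^ e - 1 ≠ 0 := by
      rw [← hδπ]
      exact (map_ne_zero δ).mpr hζ1
    obtain ⟨c₁, hc₁⟩ : ∃ c₁ : Qb, c₁ = c * (ζ - 1) ^ (j * e ^ 2) / (ζ ^ e - 1) ^ j := ⟨_, rfl⟩
    have hc₁K : c₁ ∈ K := by
      rw [hc₁]
      exact div_mem (mul_mem hcK (pow_mem (sub_mem hζK (one_mem K)) _))
        (pow_mem (sub_mem (pow_mem hζK e) (one_mem K)) j)
    have hδβ' : δ β' = β' ^ (e ^ 2) * c₁ := by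
      rw [hβ', map_div₀, map_pow, hδπ, hδβ, hc₁, div_pow, ← pow_mul]
      field_simp
    have hδα : δ (emb K α') = emb K α' ^ (e ^ 2) * c₁ ^ p := by
      rw [hembα, map_pow, hδβ', mul_pow, ← pow_mul, ← pow_mul, mul_comm p]
    have hmod2 : a ^ 2 ≡ e ^ 2 [MOD p] := hmod.pow 2
    obtain ⟨k, hk⟩ : ∃ k : ℤ, ((e ^ 2 : ℕ) : ℤ) = ((a ^ 2 : ℕ) : ℤ) + k * p := by
      obtain ⟨k, hk⟩ := (Nat.modEq_iff_dvd.mp hmod2)
      exact ⟨k, by linarith⟩
    have hx0 : emb K α' ≠ 0 := by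
      rw [hembα]; exact pow_ne_zero p hβ'0
    have hexp : emb K α' ^ (e ^ 2) = emb K α' ^ (a ^ 2) * (emb K α' ^ k) ^ p := by
      rw [← zpow_natCast (emb K α') (e ^ 2), hk, zpow_add₀ hx0, zpow_natCast, zpow_mul,
        zpow_natCast]
    let aK : K := (α' : K)
    refine ⟨aK ^ k * ⟨c₁, hc₁K⟩, ?_⟩
    apply (algebraMap K Qb).injective
    have hL : ((σ aK : K) : Qb) = δ (emb K α') := by
      rw [← hδ]
      exact coe_restrictNormalHom_apply K δ aK
    show ((σ aK : K) : Qb) = ((aK ^ (a ^ 2) * (aK ^ k * ⟨c₁, hc₁K⟩) ^ p : K) : Qb)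
    rw [hL, hδα, hexp]
    push_cast
    have haK : ((aK : K) : Qb) = emb K α' := rfl
    have hzk : ((aK ^ k : K) : Qb) = emb K α' ^ k := map_zpow₀ (algebraMap K Qb) aK k
    rw [haK, hzk, mul_pow]
    ring

/-- Interface (I) of the S14 plan: from a Kummer generator (the five clauses of
`exists_kummer_generator`) to a singular primary element of an abstract cyclotomic field. -/
theorem exists_singular_primary {p : ℕ} [Fact p.Prime] (ζ β : Qb)
    (hζ : IsPrimitiveRoot ζ p) (hβ : β ≠ 0)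
    (h1 : ∀ σ : Γ, σ ζ = ζ → σ (β ^ p) = β ^ p)
    (h2 : ∃ τ : Γ, τ ζ = ζ ∧ τ β = ζ * β)
    (h3 : ∀ δ : Γ, ∃ c : Qb, (∀ σ : Γ, σ ζ = ζ → σ c = c) ∧
      δ β = β ^ (ExtCitation.cycloExp p δ ^ 2) * c)
    (h4 : ∀ ℓ : ℕ, ℓ.Prime → ℓ ≠ p → ∀ A : ValuationSubring Qb, A.LiesOverPrime ℓ →
      ∀ σ ∈ A.inertiaSubgroupIn ℚ, σ β = β)
    (h5 : ∀ A : ValuationSubring Qb, A.LiesOverPrime p →
      ∀ σ ∈ A.decompositionSubgroup ℚ, σ ζ = ζ → σ β = β) :
    ∃ (K : Type) (_ : Field K) (_ : NumberField K) (_ : IsCyclotomicExtension {p} ℚ K)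
      (z : K) (hz : IsPrimitiveRoot z p) (α : 𝓞 K),
      α ≠ 0 ∧ (¬ ∃ x : K, x ^ p = (α : K)) ∧
      (∃ I : Ideal (𝓞 K), Ideal.span {α} = I ^ p) ∧
      ¬ (hz.toInteger - 1) ∣ α ∧ (∃ ξ : 𝓞 K, (hz.toInteger - 1) ^ 3 ∣ α - ξ ^ p) ∧
      ∀ (σ : K ≃ₐ[ℚ] K) (a : ℕ), σ z = z ^ a →
        ∃ c : K, σ (α : K) = (α : K) ^ (a ^ 2) * c ^ p := by
  haveI := isIntegral_rat_algebraicClosure
  have halg : IsAlgebraic ℤ β :=
    (IsFractionRing.isAlgebraic_iff ℤ ℚ Qb).mpr (Algebra.IsAlgebraic.isAlgebraic β)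
  obtain ⟨y, hy0, hyint⟩ := halg.exists_integral_multiple
  have hy0' : (y : Qb) ≠ 0 := Int.cast_ne_zero.mpr hy0
  have hsmul : y • β = (y : Qb) * β := zsmul_eq_mul β y
  rw [hsmul] at hyint
  refine exists_singular_primary_of_integral ζ ((y : Qb) * β) hζ (mul_ne_zero hy0' hβ) hyint
    ?_ ?_ ?_ ?_ ?_
  · intro σ hσ
    rw [mul_pow, map_mul, map_pow, map_intCast, h1 σ hσ]
  · obtain ⟨τ, hτζ, hτβ⟩ := h2
    refine ⟨τ, hτζ, ?_⟩
    rw [map_mul, map_intCast, hτβ]
    ring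
  · intro δ
    obtain ⟨c, hc, hδ⟩ := h3 δ
    refine ⟨c * (y : Qb) / (y : Qb) ^ (ExtCitation.cycloExp p δ ^ 2), ?_, ?_⟩
    · intro σ hσ
      rw [map_div₀, map_mul, map_pow, map_intCast, hc σ hσ]
    · rw [map_mul, map_intCast, hδ, mul_pow]
      field_simp
  · intro ℓ hℓ hne A hA σ hσ
    rw [map_mul, map_intCast, h4 ℓ hℓ hne A hA σ hσ]
  · intro A hA σ hσ hσζ
    rw [map_mul, map_intCast, h5 A hA σ hσ hσζ]

end Fermat.Agent.S14.H87
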