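import Fermat.Agent.S14.Stmts

/-!
# S14: node statements, second batch (helper12)

Shapes adopted from the seats who started before the skeleton was up:
`StmtKG` (helper65's Kummer generator, board #816), `StmtSP` (helper87's singular primary number,
board #859), `StmtThaineA` (helper96's valuation form of Thaine's relation, board #758).
-/

set_option autoImplicit false

open scoped NumberField nonZeroDivisors IntermediateField
open ExtCitation UniqueFactorizationMonoid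

namespace Fermat.Agent.S14

/-- The Kummer-generator clauses for a pair `ζ β` in `ℚ̄`. -/
def KGClauses (p : ℕ) [Fact p.Prime] (ζ β : AlgebraicClosure ℚ) : Prop :=
  IsPrimitiveRoot ζ p ∧ β ≠ 0 ∧
  (∀ σ : AlgebraicClosure ℚ ≃ₐ[ℚ] AlgebraicClosure ℚ, σ ζ = ζ → σ (β ^ p) = β ^ p) ∧
  (∃ τ : AlgebraicClosure ℚ ≃ₐ[ℚ] AlgebraicClosure ℚ, τ ζ = ζ ∧ τ β = ζ * β) ∧
  (∀ δ : AlgebraicClosure ℚ ≃ₐ[ℚ] AlgebraicClosure ℚ, ∃ c : AlgebraicClosure ℚ,
    (∀ σ : AlgebraicClosure ℚ ≃ₐ[ℚ] AlgebraicClosure ℚ, σ ζ = ζ → σ c = c) ∧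
      δ β = β ^ (cycloExp p δ ^ 2) * c) ∧
  (∀ ℓ : ℕ, ℓ.Prime → ℓ ≠ p → ∀ A : ValuationSubring (AlgebraicClosure ℚ), A.LiesOverPrime ℓ →
    ∀ σ ∈ A.inertiaSubgroupIn ℚ, σ β = β) ∧
  (∀ A : ValuationSubring (AlgebraicClosure ℚ), A.LiesOverPrime p →
    ∀ σ ∈ A.decompositionSubgroup ℚ, σ ζ = ζ → σ β = β)

/-- (KG) GALOIS SIDE, group theory + Kummer generator (helper65's shape). -/
def StmtKG : Prop :=
  ∀ (p : ℕ) [Fact p.Prime], 3 ≤ p →
    ∀ (V : Type) [AddCommGroup V] [Module (ZMod p) V]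
      [DistribMulAction (AlgebraicClosure ℚ ≃ₐ[ℚ] AlgebraicClosure ℚ) V]
      [SMulCommClass (AlgebraicClosure ℚ ≃ₐ[ℚ] AlgebraicClosure ℚ) (ZMod p) V]
      (C : Submodule (ZMod p) V), IsAdmissibleExtensionCts p V C → ¬ SplitsGlobally C →
      ∃ ζ β : AlgebraicClosure ℚ, KGClauses p ζ β

/-- (SP) GALOIS SIDE, ramification: the Kummer-generator clauses give a singular primary number
in some (abstract) model `K` of `ℚ(ζ_p)`. -/
def StmtSP : Prop :=
  ∀ (p : ℕ) [Fact p.Prime], 3 ≤ p →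
    ∀ ζ β : AlgebraicClosure ℚ, KGClauses p ζ β →
      ∃ (K : Type) (_ : Field K) (_ : NumberField K) (_ : IsCyclotomicExtension {p} ℚ K)
        (z : K) (hz : IsPrimitiveRoot z p) (α : 𝓞 K), IsSingularPrimary p hz α

/-- The frozen statement S14 from `StmtKG`, `StmtSP`, `StmtNSP`. -/
theorem goal_of2 (hA : StmtKG) (hB : StmtSP) (hN : StmtNSP) {p : ℕ} [Fact p.Prime]
    (h3 : 3 ≤ p) : ExtCitation.ExtVanishingCts p := by
  intro V _ _ _ _ C hadm
  by_contra hns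
  obtain ⟨ζ, β, h⟩ := hA p h3 V C hadm hns
  obtain ⟨K, _, _, _, z, hz, α, hα⟩ := hB p h3 ζ β h
  exact hN p h3 K z hz α hα

/-- (THA) THAINE'S RELATION, valuation form (helper96's Form A): for `ℓ ≡ 1 mod p` and a
primitive root `s` modulo `ℓ` there is `a ≠ 0` in `𝓞 K` whose valuation at every prime not above
`ℓ` is divisible by `ℓ - 1`, and whose valuation `m` at a prime `P` above `ℓ` satisfies
`1 - ζ ≡ s ^ m mod P`. -/
def StmtThaineA : Prop :=
  ∀ (p l : ℕ) [Fact p.Prime] [Fact l.Prime], l % p = 1 →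
    ∀ (K : Type) [Field K] [NumberField K] [IsCyclotomicExtension {p} ℚ K]
      (ζ : 𝓞 K), IsPrimitiveRoot ζ p → ∀ s : ℕ, orderOf (s : ZMod l) = l - 1 →
      ∃ a : 𝓞 K, a ≠ 0 ∧ ∀ P : Ideal (𝓞 K), P.IsPrime → P ≠ ⊥ →
        ((l : 𝓞 K) ∉ P → (l - 1) ∣ Multiset.count P (normalizedFactors (Ideal.span {a}))) ∧
        ((l : 𝓞 K) ∈ P →
          (1 - ζ) - (s : 𝓞 K) ^ Multiset.count P (normalizedFactors (Ideal.span {a})) ∈ P)

end Fermat.Agent.S14
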