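/-
S14 node (SP) (helper87): the Kummer-generator clauses give a singular primary number.
Glue between `Stmts2.StmtSP` and `H87.exists_singular_primary` (SingPrimary_helper87).
-/
import Fermat.Agent.S14.Stmts2
import Fermat.Agent.S14.SingPrimary_helper87

set_option autoImplicit false

namespace Fermat.Agent.S14.H87

theorem stmtSP : StmtSP := by
  intro p _ _ ζ β h
  obtain ⟨hζ, hβ, h1, h2, h3, h4, h5⟩ := h
  obtain ⟨K, i1, i2, i3, z, hz, α, -, hnp, hI, hcop, hloc, heig⟩ :=
    exists_singular_primary ζ β hζ hβ h1 h2 h3 h4 h5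
  exact ⟨K, i1, i2, i3, z, hz, α, ⟨hnp, hI, hcop, hloc, heig⟩⟩

end Fermat.Agent.S14.H87
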