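import Mathlib

set_option autoImplicit false
set_option maxSynthPendingDepth 2

open NumberField NumberField.Units NumberField.InfinitePlace Module
open NumberField.Units.dirichletUnitTheorem

namespace Fermat.Agent.S14.H17

section general

variable {K : Type*} [Field K] [NumberField K]

/-- The action of a field automorphism on the units of the ring of integers. -/
noncomputable def uMap (σ : K ≃ₐ[ℚ] K) : (𝓞 K)ˣ ≃* (𝓞 K)ˣ :=
  Units.mapEquiv (RingOfIntegers.mapRingEquiv (σ : K ≃+* K)).toMulEquiv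

theorem uMap_coe (σ : K ≃ₐ[ℚ] K) (u : (𝓞 K)ˣ) :
    ((uMap σ u : (𝓞 K)ˣ) : K) = σ (u : K) := rfl

theorem place_uMap (σ : K ≃ₐ[ℚ] K) (u : (𝓞 K)ˣ) (w : InfinitePlace K) :
    w ((uMap σ u : (𝓞 K)ˣ) : K) = (σ⁻¹ • w) (u : K) := by
  rw [uMap_coe, InfinitePlace.smul_apply]
  rfl

theorem mult_smul' (σ : K ≃ₐ[ℚ] K) (w : InfinitePlace K) : mult (σ • w) = mult w := by
  rw [mult, mult, isReal_smul_iff]

theorem uMap_mem_torsion (σ : K ≃ₐ[ℚ] K) {u : (𝓞 K)ˣ} (hu : u ∈ torsion K) :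
    uMap σ u ∈ torsion K := by
  rw [mem_torsion] at hu ⊢
  intro w
  rw [place_uMap]
  exact hu _

/-- If `σ` fixes every infinite place, then `σ u / u` is a root of unity for every unit `u`. -/
theorem uMap_div_mem_torsion (σ : K ≃ₐ[ℚ] K) (hσ : ∀ w : InfinitePlace K, σ • w = w)
    (u : (𝓞 K)ˣ) : uMap σ u * u⁻¹ ∈ torsion K := by
  rw [mem_torsion]
  intro w
  have h1 : σ⁻¹ • w = w := by
    conv_lhs => rw [← hσ w]
    rw [inv_smul_smul]
  have h2 : w ((uMap σ u : (𝓞 K)ˣ) : K) = w (u : K) := by rw [place_uMap, h1]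
  have h3 : w (u : K) ≠ 0 := by
    have := Units.pos_at_place u w
    exact this.ne'
  have h4 : ((u⁻¹ : (𝓞 K)ˣ) : K) = (u : K)⁻¹ := by
    rw [← zpow_neg_one, coe_zpow, zpow_neg_one]
  rw [coe_mul, map_mul, h4, map_inv₀, h2, mul_inv_cancel₀ h3]

/-- The endomorphism of `(𝓞 K)ˣ ⧸ torsion` (as an additive group) induced by `σ`. -/
noncomputable def sL (σ : K ≃ₐ[ℚ] K) :
    Additive ((𝓞 K)ˣ ⧸ torsion K) →ₗ[ℤ] Additive ((𝓞 K)ˣ ⧸ torsion K) :=
  (MonoidHom.toAdditive (QuotientGroup.map (torsion K) (torsion K) (uMap σ).toMonoidHom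
    (fun _ hu => uMap_mem_torsion σ hu))).toIntLinearMap

theorem sL_mk (σ : K ≃ₐ[ℚ] K) (u : (𝓞 K)ˣ) :
    sL σ (Additive.ofMul (QuotientGroup.mk u)) = Additive.ofMul (QuotientGroup.mk (uMap σ u)) :=
  rfl

theorem sL_eq_id (σ : K ≃ₐ[ℚ] K) (hσ : ∀ w : InfinitePlace K, σ • w = w) :
    sL σ = LinearMap.id := by
  ext x
  obtain ⟨u, rfl⟩ : ∃ u : (𝓞 K)ˣ, Additive.ofMul (QuotientGroup.mk u) = x := by
    obtain ⟨u, hu⟩ := QuotientGroup.mk_surjective (Additive.toMul x)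
    exact ⟨u, by rw [hu]; rfl⟩
  rw [sL_mk, LinearMap.id_apply]
  have h3 : (QuotientGroup.mk (uMap σ u) : (𝓞 K)ˣ ⧸ torsion K) = QuotientGroup.mk u := by
    rw [QuotientGroup.eq]
    have := uMap_div_mem_torsion σ hσ u
    have h2 := (torsion K).inv_mem this
    rwa [mul_inv_rev, inv_inv, mul_comm] at h2
  rw [h3]

open scoped Classical in
/-- Extension of a vector of the log space to all infinite places (sum zero). -/
noncomputable def extL : logSpace K →ₗ[ℝ] (InfinitePlace K → ℝ) where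
  toFun x w := if h : w = w₀ then - ∑ v, x v else x ⟨w, h⟩
  map_add' x y := by
    funext w
    by_cases h : w = w₀
    · simp [h, Finset.sum_add_distrib]; ring
    · simp [h]
  map_smul' c x := by
    funext w
    by_cases h : w = w₀
    · simp [h, Finset.mul_sum]
    · simp [h]

theorem extL_logEmbedding (u : (𝓞 K)ˣ) (w : InfinitePlace K) :
    extL (logEmbedding K (Additive.ofMul u)) w = mult w * Real.log (w (u : K)) := by
  classical
  by_cases h : w = w₀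
  · subst h
    simp only [extL, LinearMap.coe_mk, AddHom.coe_mk, dif_pos]
    rw [sum_logEmbedding_component]
    ring
  · simp only [extL, LinearMap.coe_mk, AddHom.coe_mk, dif_neg h]
    rfl

/-- The real operator on the log space induced by `σ`. -/
noncomputable def SL (σ : K ≃ₐ[ℚ] K) : logSpace K →ₗ[ℝ] logSpace K :=
  (LinearMap.funLeft ℝ ℝ (fun v : {w : InfinitePlace K // w ≠ w₀} => σ⁻¹ • v.1)) ∘ₗ extL

theorem SL_apply (σ : K ≃ₐ[ℚ] K) (x : logSpace K) (v : {w : InfinitePlace K // w ≠ w₀}) :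
    SL σ x v = extL x (σ⁻¹ • v.1) := rfl

theorem SL_logEmbedding (σ : K ≃ₐ[ℚ] K) (u : (𝓞 K)ˣ) :
    SL σ (logEmbedding K (Additive.ofMul u)) = logEmbedding K (Additive.ofMul (uMap σ u)) := by
  funext v
  rw [SL_apply, extL_logEmbedding, logEmbedding_component, place_uMap, mult_smul']


theorem trace_SL_of_free (σ : K ≃ₐ[ℚ] K) (hσ : ∀ w : InfinitePlace K, σ • w ≠ w) :
    LinearMap.trace ℝ (logSpace K) (SL σ) = -1 := by
  classical
  rw [LinearMap.trace_eq_matrix_trace ℝ (Pi.basisFun ℝ _), Matrix.trace]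
  simp only [Matrix.diag_apply, LinearMap.toMatrix_apply, Pi.basisFun_apply, Pi.basisFun_repr]
  have key : ∀ v : {w : InfinitePlace K // w ≠ w₀},
      SL σ (Pi.single v 1) v = if σ⁻¹ • v.1 = w₀ then -1 else 0 := by
    intro v
    rw [SL_apply]
    by_cases h : σ⁻¹ • v.1 = w₀
    · simp [extL, h]
    · have hne : (⟨σ⁻¹ • v.1, h⟩ : {w : InfinitePlace K // w ≠ w₀}) ≠ v := by
        intro h2
        have h3 : σ⁻¹ • v.1 = v.1 := congrArg Subtype.val h2
        apply hσ v.1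
        conv_lhs => rw [← h3]
        rw [smul_inv_smul]
      simp [extL, h, hne]
  simp_rw [key]
  have hw : σ • (w₀ : InfinitePlace K) ≠ w₀ := hσ _
  rw [Finset.sum_eq_single (⟨σ • w₀, hw⟩ : {w : InfinitePlace K // w ≠ w₀})]
  · simp
  · intro v _ hv
    rw [if_neg]
    intro h
    apply hv
    apply Subtype.ext
    simp only
    exact (smul_inv_smul σ v.1).symm.trans (congrArg (σ • ·) h)
  · simp

theorem trace_sL_eq (σ : K ≃ₐ[ℚ] K) :
    ((LinearMap.trace ℤ _ (sL σ) : ℤ) : ℝ) = LinearMap.trace ℝ (logSpace K) (SL σ) := by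
  classical
  set b := basisModTorsion K with hb
  set B := (basisUnitLattice K).ofZLatticeBasis ℝ (unitLattice K) with hB
  rw [LinearMap.trace_eq_matrix_trace ℤ b, LinearMap.trace_eq_matrix_trace ℝ B, Matrix.trace,
    Matrix.trace]
  push_cast
  refine Finset.sum_congr rfl fun i _ => ?_
  simp only [Matrix.diag_apply, LinearMap.toMatrix_apply]
  have h1 : B i = logEmbedding K (Additive.ofMul (fundSystem K i)) := by
    rw [hB, Basis.ofZLatticeBasis_apply, logEmbedding_fundSystem]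
  have h2 : SL σ (B i) = ((logEmbeddingEquiv K (sL σ (b i)) : unitLattice K) : logSpace K) := by
    rw [h1, SL_logEmbedding, hb, ← fundSystem_mk, sL_mk, logEmbeddingEquiv_apply]
  rw [h2, hB, Basis.ofZLatticeBasis_repr_apply]
  congr 1
  simp [basisUnitLattice, hb]

theorem uMap_one (u : (𝓞 K)ˣ) : uMap (1 : K ≃ₐ[ℚ] K) u = u :=
  coe_injective K rfl

theorem uMap_mul (σ τ : K ≃ₐ[ℚ] K) (u : (𝓞 K)ˣ) : uMap (σ * τ) u = uMap σ (uMap τ u) :=
  coe_injective K rfl

theorem exists_mk_eq (x : Additive ((𝓞 K)ˣ ⧸ torsion K)) :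
    ∃ u : (𝓞 K)ˣ, Additive.ofMul (QuotientGroup.mk u) = x := by
  obtain ⟨u, hu⟩ := QuotientGroup.mk_surjective (Additive.toMul x)
  exact ⟨u, by rw [hu]; rfl⟩

theorem sL_one : sL (1 : K ≃ₐ[ℚ] K) = 1 := by
  ext x
  obtain ⟨u, rfl⟩ := exists_mk_eq x
  rw [sL_mk, uMap_one]
  rfl

theorem sL_mul (σ τ : K ≃ₐ[ℚ] K) : sL (σ * τ) = sL σ * sL τ := by
  ext x
  obtain ⟨u, rfl⟩ := exists_mk_eq x
  rw [sL_mk, uMap_mul, Module.End.mul_apply, sL_mk, sL_mk]

theorem sL_pow (σ : K ≃ₐ[ℚ] K) (j : ℕ) : sL (σ ^ j) = sL σ ^ j := by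
  induction j with
  | zero => rw [pow_zero, pow_zero, sL_one]
  | succ j ih => rw [pow_succ, pow_succ, sL_mul, ih]

theorem trace_sL_of_free (σ : K ≃ₐ[ℚ] K) (hσ : ∀ w : InfinitePlace K, σ • w ≠ w) :
    LinearMap.trace ℤ _ (sL σ) = -1 := by
  have h := trace_sL_eq σ
  rw [trace_SL_of_free σ hσ] at h
  exact_mod_cast h

end general

section linalg

open TensorProduct

variable {p : ℕ} [Fact p.Prime] {L : Type*} [AddCommGroup L] [Module.Free ℤ L]
  [Module.Finite ℤ L]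

theorem tmul_eq_zero_iff (y : L) :
    (1 : ZMod p) ⊗ₜ[ℤ] y = 0 ↔ ∃ y' : L, y = (p : ℤ) • y' := by
  classical
  constructor
  · intro h
    set b := Module.Free.chooseBasis ℤ L with hb
    have h1 : ∀ i, (p : ℤ) ∣ b.repr y i := by
      intro i
      have h2 := congrArg (fun t => (Algebra.TensorProduct.basis (ZMod p) b).repr t i) h
      simp only [Algebra.TensorProduct.basis_repr_tmul, map_zero, Finsupp.coe_zero,
        Pi.zero_apply, one_smul] at h2
      rwa [Finsupp.mapRange_apply, eq_intCast, ZMod.intCast_zmod_eq_zero_iff_dvd] at h2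
    choose k hk using h1
    refine ⟨∑ i, k i • b i, ?_⟩
    conv_lhs => rw [← b.sum_repr y]
    rw [Finset.smul_sum]
    refine Finset.sum_congr rfl fun i _ => ?_
    rw [hk i, mul_smul]
  · rintro ⟨y', rfl⟩
    rw [← TensorProduct.smul_tmul]
    have : ((p : ℤ) • (1 : ZMod p)) = 0 := by
      rw [zsmul_eq_mul, mul_one]
      simp
    rw [this, TensorProduct.zero_tmul]

theorem finrank_eigen_eq_one (s : L →ₗ[ℤ] L) (n : ℕ) (hn : 0 < n) (hnp : n < p)
    (hrank : Module.finrank ℤ L + 1 = n) (hsn : s ^ n = 1)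
    (htr : ∀ j, 0 < j → j < n → LinearMap.trace ℤ L (s ^ j) = -1)
    (h : ZMod p) (hh1 : h ≠ 1) (hhn : h ^ n = 1) :
    Module.finrank (ZMod p) (LinearMap.ker (s.baseChange (ZMod p) -
      h • (1 : Module.End (ZMod p) (ZMod p ⊗[ℤ] L)))) = 1 := by
  classical
  set f : Module.End (ZMod p) (ZMod p ⊗[ℤ] L) := s.baseChange (ZMod p) with hf
  have hfn : f ^ n = 1 := by
    rw [hf, ← LinearMap.baseChange_pow, hsn, LinearMap.baseChange_one]
  have hftr : ∀ j, 0 < j → j < n → LinearMap.trace (ZMod p) _ (f ^ j) = -1 := by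
    intro j hj hjn
    rw [hf, ← LinearMap.baseChange_pow, LinearMap.trace_baseChange, htr j hj hjn]
    simp
  have hn0 : (n : ZMod p) ≠ 0 := by
    intro h0
    rw [ZMod.natCast_eq_zero_iff] at h0
    exact absurd (Nat.le_of_dvd hn h0) (not_le.mpr hnp)
  have hh0 : h ≠ 0 := by
    intro h0
    rw [h0, zero_pow hn.ne'] at hhn
    exact zero_ne_one hhn
  have hhinv : (h⁻¹) ^ n = 1 := by rw [inv_pow, hhn, inv_one]
  have hhinv1 : h⁻¹ ≠ 1 := by
    intro h1
    apply hh1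
    rw [← inv_inv h, h1, inv_one]
  obtain ⟨m, rfl⟩ : ∃ m, n = m + 1 := ⟨n - 1, by omega⟩
  set g : ℕ → Module.End (ZMod p) (ZMod p ⊗[ℤ] L) := fun j => (h⁻¹ ^ j) • f ^ j with hg
  set e : Module.End (ZMod p) (ZMod p ⊗[ℤ] L) :=
    ((m + 1 : ℕ) : ZMod p)⁻¹ • ∑ j ∈ Finset.range (m + 1), g j with he
  have hg0 : g 0 = 1 := by simp [hg]
  have hgn : g (m + 1) = 1 := by simp only [hg]; rw [hhinv, hfn, one_smul]
  have hfg : ∀ j, f * g j = h • g (j + 1) := by
    intro j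
    simp only [hg]
    rw [mul_smul_comm, smul_smul, pow_succ, pow_succ', ← mul_assoc, mul_comm h, mul_assoc,
      mul_inv_cancel₀ hh0, mul_one]
  -- (a)
  have ha : f * e = h • e := by
    rw [he, mul_smul_comm, Finset.mul_sum, smul_comm h]
    congr 1
    simp_rw [hfg]
    rw [← Finset.smul_sum]
    congr 1
    rw [Finset.sum_range_succ (fun j => g (j + 1)), Finset.sum_range_succ' g, hgn, hg0]
  -- (b)
  have hpow : ∀ x, f x = h • x → ∀ j, (f ^ j) x = h ^ j • x := by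
    intro x hx j
    induction j with
    | zero => simp
    | succ j ih => rw [pow_succ', Module.End.mul_apply, ih, map_smul, hx, smul_smul, pow_succ]
  have hb : ∀ x, f x = h • x → e x = x := by
    intro x hx
    rw [he, LinearMap.smul_apply, LinearMap.sum_apply]
    have : ∀ j ∈ Finset.range (m + 1), g j x = x := by
      intro j _
      simp only [hg, LinearMap.smul_apply]
      rw [hpow x hx j, smul_smul, ← mul_pow, inv_mul_cancel₀ hh0, one_pow, one_smul]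
    rw [Finset.sum_congr rfl this, Finset.sum_const, Finset.card_range, ← Nat.cast_smul_eq_nsmul (ZMod p),
      smul_smul, inv_mul_cancel₀ hn0, one_smul]
  have hker : ∀ x, x ∈ LinearMap.ker (f - h • (1 : Module.End (ZMod p) (ZMod p ⊗[ℤ] L))) ↔
      f x = h • x := by
    intro x
    rw [LinearMap.mem_ker, LinearMap.sub_apply, LinearMap.smul_apply, Module.End.one_apply,
      sub_eq_zero]
  have hproj : LinearMap.IsProj (LinearMap.ker (f - h • (1 : Module.End (ZMod p) (ZMod p ⊗[ℤ] L)))) e := by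
    refine ⟨fun x => ?_, fun x hx => hb x ((hker x).mp hx)⟩
    rw [hker, ← Module.End.mul_apply, ha, LinearMap.smul_apply]
  have htrace := hproj.trace
  -- (d)
  have hgeom : ∑ j ∈ Finset.range (m + 1), (h⁻¹) ^ j = 0 := by
    rw [geom_sum_eq hhinv1, hhinv, sub_self, zero_div]
  have hsum : ∑ j ∈ Finset.range m, (h⁻¹) ^ (j + 1) = -1 := by
    rw [Finset.sum_range_succ', pow_zero] at hgeom
    linear_combination hgeom
  have htr_e : LinearMap.trace (ZMod p) _ e = 1 := by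
    rw [he, map_smul, map_sum, Finset.sum_range_succ', hg0, LinearMap.trace_one]
    have h1 : ∀ j ∈ Finset.range m, LinearMap.trace (ZMod p) _ (g (j + 1)) = - (h⁻¹) ^ (j + 1) := by
      intro j hj
      simp only [hg]
      rw [map_smul, hftr (j + 1) (Nat.succ_pos j) (by have := Finset.mem_range.mp hj; omega)]
      simp
    rw [Finset.sum_congr rfl h1, Finset.sum_neg_distrib, hsum, Module.finrank_baseChange, smul_eq_mul]
    have h2 : (Module.finrank ℤ L : ZMod p) = ((m + 1 : ℕ) : ZMod p) - 1 := by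
      rw [← hrank]; push_cast; ring
    rw [h2]
    field_simp
    ring
  rw [htr_e] at htrace
  have hle : Module.finrank (ZMod p) (LinearMap.ker (f - h • (1 : Module.End (ZMod p) (ZMod p ⊗[ℤ] L)))) ≤ m := by
    have := Submodule.finrank_le (LinearMap.ker (f - h • (1 : Module.End (ZMod p) (ZMod p ⊗[ℤ] L))))
    rw [Module.finrank_baseChange] at this
    omega
  set d := Module.finrank (ZMod p) (LinearMap.ker (f - h • (1 : Module.End (ZMod p) (ZMod p ⊗[ℤ] L)))) with hd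
  have hd1 : ((d : ℕ) : ZMod p) = ((1 : ℕ) : ZMod p) := by rw [← htrace]; simp
  rw [ZMod.natCast_eq_natCast_iff'] at hd1
  have hp1 : 1 < p := (Fact.out : p.Prime).one_lt
  rw [Nat.mod_eq_of_lt (by omega), Nat.mod_eq_of_lt hp1] at hd1
  exact hd1

theorem one_tmul_zsmul (c : ℤ) (z : L) :
    (1 : ZMod p) ⊗ₜ[ℤ] (c • z) = (c : ZMod p) • ((1 : ZMod p) ⊗ₜ[ℤ] z) := by
  rw [TensorProduct.tmul_smul, TensorProduct.smul_tmul', TensorProduct.smul_tmul', zsmul_eq_mul,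
    mul_one, smul_eq_mul, mul_one]

theorem eigen_le_one (s : L →ₗ[ℤ] L) (n : ℕ) (hn : 0 < n) (hnp : n < p)
    (hrank : Module.finrank ℤ L + 1 = n) (hsn : s ^ n = 1)
    (htr : ∀ j, 0 < j → j < n → LinearMap.trace ℤ L (s ^ j) = -1)
    (c : ℤ) (hc1 : (c : ZMod p) ≠ 1) (hcn : (c : ZMod p) ^ n = 1)
    (x y : L) (hx : ∃ x', s x = c • x + (p : ℤ) • x') (hy : ∃ y', s y = c • y + (p : ℤ) • y')
    (hy0 : ¬ ∃ y', y = (p : ℤ) • y') :
    ∃ (j : ℕ) (x' : L), x = j • y + (p : ℤ) • x' := by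
  classical
  haveI : NeZero p := ⟨(Fact.out : p.Prime).ne_zero⟩
  have hfin := finrank_eigen_eq_one s n hn hnp hrank hsn htr (c : ZMod p) hc1 hcn
  set E := LinearMap.ker (s.baseChange (ZMod p) -
    (c : ZMod p) • (1 : Module.End (ZMod p) (ZMod p ⊗[ℤ] L))) with hE
  have hmem : ∀ z : L, (∃ z', s z = c • z + (p : ℤ) • z') → (1 : ZMod p) ⊗ₜ[ℤ] z ∈ E := by
    rintro z ⟨z', hz⟩
    rw [hE, LinearMap.mem_ker, LinearMap.sub_apply, LinearMap.baseChange_tmul, hz,
      TensorProduct.tmul_add, LinearMap.smul_apply, Module.End.one_apply]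
    have h1 : (1 : ZMod p) ⊗ₜ[ℤ] ((p : ℤ) • z') = 0 := (tmul_eq_zero_iff _).mpr ⟨z', rfl⟩
    rw [h1, one_tmul_zsmul, add_zero, sub_self]
  have hX := hmem x hx
  have hY := hmem y hy
  have hY0 : (⟨_, hY⟩ : E) ≠ 0 := by
    intro h0
    apply hy0
    exact (tmul_eq_zero_iff y).mp (congrArg Subtype.val h0)
  obtain ⟨a, ha⟩ := (finrank_eq_one_iff_of_nonzero' (⟨_, hY⟩ : E) hY0).mp hfin ⟨_, hX⟩
  have ha' : (a : ZMod p) • ((1 : ZMod p) ⊗ₜ[ℤ] y) = (1 : ZMod p) ⊗ₜ[ℤ] x :=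
    congrArg Subtype.val ha
  have h3 : (1 : ZMod p) ⊗ₜ[ℤ] (x - ((a.val : ℕ) : ℤ) • y) = 0 := by
    rw [TensorProduct.tmul_sub, one_tmul_zsmul, ← ha', Int.cast_natCast, ZMod.natCast_zmod_val,
      sub_self]
  obtain ⟨x', hx'⟩ := (tmul_eq_zero_iff _).mp h3
  refine ⟨a.val, x', ?_⟩
  rw [← hx', natCast_zsmul]
  abel

end linalg

section cyclo

variable {p : ℕ} [Fact p.Prime] {K : Type*} [Field K] [NumberField K]
  [IsCyclotomicExtension {p} ℚ K]

theorem pow_apply_zeta {ζ : K} (σ : K ≃ₐ[ℚ] K) (g : ℕ) (hσ : σ ζ = ζ ^ g) (j : ℕ) :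
    (σ ^ j) ζ = ζ ^ (g ^ j) := by
  induction j with
  | zero => simp
  | succ j ih =>
    rw [pow_succ', AlgEquiv.mul_apply, ih, map_pow, hσ, ← pow_mul, pow_succ']

omit [NumberField K] [IsCyclotomicExtension {p} ℚ K] in
theorem zeta_pow_eq_iff {ζ : K} (hζ : IsPrimitiveRoot ζ p) (a b : ℕ) :
    ζ ^ a = ζ ^ b ↔ (a : ZMod p) = (b : ZMod p) := by
  have hζ0 : ζ ≠ 0 := hζ.ne_zero (Fact.out : p.Prime).ne_zero
  have h := pow_eq_pow_iff_modEq (x := Units.mk0 ζ hζ0) (n := a) (m := b)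
  have ho : orderOf (Units.mk0 ζ hζ0) = p := by
    rw [← orderOf_units, Units.val_mk0, ← hζ.eq_orderOf]
  rw [ho] at h
  rw [ZMod.natCast_eq_natCast_iff, ← h, ← Units.val_inj]
  simp

/-- An automorphism which is neither the identity nor complex conjugation fixes no infinite
place. -/
theorem smul_ne_of {ζ : K} (hζ : IsPrimitiveRoot ζ p) (τ : K ≃ₐ[ℚ] K) (k : ℕ)
    (hτ : τ ζ = ζ ^ k) (h1 : (k : ZMod p) ≠ 1) (h2 : (k : ZMod p) ≠ -1)
    (w : InfinitePlace K) : τ • w ≠ w := by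
  intro h
  have hp0 : p ≠ 0 := (Fact.out : p.Prime).ne_zero
  rw [← mk_embedding w, smul_mk, mk_eq_iff] at h
  rcases h with h | h
  · have h3 := RingHom.congr_fun h (τ ζ)
    simp only [RingHom.coe_comp, Function.comp_apply, RingHom.coe_coe,
      AlgEquiv.symm_apply_apply] at h3
    have h4 : ζ ^ 1 = ζ ^ k := by
      rw [pow_one, ← hτ]
      exact w.embedding.injective h3
    rw [zeta_pow_eq_iff hζ] at h4
    exact h1 (by rw [← h4]; simp)
  · have h3 := RingHom.congr_fun h (τ ζ)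
    simp only [ComplexEmbedding.conjugate_coe_eq, RingHom.coe_comp, Function.comp_apply,
      RingHom.coe_coe, AlgEquiv.symm_apply_apply] at h3
    have hn : ‖w.embedding ζ‖ = 1 := by
      apply Complex.norm_eq_one_of_pow_eq_one (n := p) _ hp0
      rw [← map_pow, hζ.pow_eq_one, map_one]
    rw [← Complex.inv_eq_conj hn, hτ, map_pow] at h3
    have h5 : w.embedding ζ ≠ 0 := by
      intro h0
      rw [h0, norm_zero] at hn
      exact zero_ne_one hn
    have h6 : w.embedding (ζ ^ (k + 1)) = w.embedding (ζ ^ 0) := by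
      rw [pow_zero, map_one, map_pow, pow_succ, ← h3, inv_mul_cancel₀ h5]
    have h7 := w.embedding.injective h6
    rw [zeta_pow_eq_iff hζ] at h7
    apply h2
    push_cast at h7
    linear_combination h7

/-- Complex conjugation fixes every infinite place. -/
theorem smul_eq_of {ζ : K} (hζ : IsPrimitiveRoot ζ p) (τ : K ≃ₐ[ℚ] K) (k : ℕ)
    (hτ : τ ζ = ζ ^ k) (h2 : (k : ZMod p) = -1) (w : InfinitePlace K) : τ • w = w := by
  have hp0 : p ≠ 0 := (Fact.out : p.Prime).ne_zero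
  haveI : NeZero p := ⟨hp0⟩
  rw [← mk_embedding w, smul_mk, mk_eq_iff]
  right
  have hn : ‖w.embedding ζ‖ = 1 := by
    apply Complex.norm_eq_one_of_pow_eq_one (n := p) _ hp0
    rw [← map_pow, hζ.pow_eq_one, map_one]
  have h5 : w.embedding ζ ≠ 0 := by
    intro h0
    rw [h0, norm_zero] at hn
    exact zero_ne_one hn
  have hk1 : ζ ^ (k + 1) = 1 := by
    have : ζ ^ (k + 1) = ζ ^ 0 := by
      rw [zeta_pow_eq_iff hζ]; push_cast; rw [h2]; ring
    rwa [pow_zero] at this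
  have hkk : ζ ^ (k * k) = ζ := by
    have : ζ ^ (k * k) = ζ ^ 1 := by
      rw [zeta_pow_eq_iff hζ]; push_cast; rw [h2]; ring
    rwa [pow_one] at this
  have hsymm : τ.symm ζ = ζ ^ k := by
    rw [AlgEquiv.symm_apply_eq, map_pow, hτ, ← pow_mul, hkk]
  have key : (ComplexEmbedding.conjugate (w.embedding.comp (τ.symm : K →+* K))).toRatAlgHom =
      w.embedding.toRatAlgHom := by
    apply AlgHom.ext_of_adjoin_eq_top (IsCyclotomicExtension.adjoin_primitive_root_eq_top hζ)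
    intro x hx
    rw [Set.mem_singleton_iff] at hx
    rw [hx]
    simp only [RingHom.toRatAlgHom_apply, ComplexEmbedding.conjugate_coe_eq, RingHom.coe_comp,
      Function.comp_apply, RingHom.coe_coe]
    rw [hsymm, map_pow, map_pow, ← Complex.inv_eq_conj hn]
    have h6 : w.embedding ζ ^ (k + 1) = 1 := by rw [← map_pow, hk1, map_one]
    rw [inv_pow]
    rw [pow_succ] at h6
    exact inv_eq_of_mul_eq_one_right h6
  ext x
  exact AlgHom.congr_fun key x

omit [IsCyclotomicExtension {p} ℚ K] [Fact p.Prime] in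
theorem coe_inv' (u : (𝓞 K)ˣ) : ((u⁻¹ : (𝓞 K)ˣ) : K) = (u : K)⁻¹ := by
  rw [← zpow_neg_one, coe_zpow, zpow_neg_one]

/-- If a power of `ζ` is a `p`-th power of a unit, the exponent is divisible by `p`. -/
theorem dvd_of_zeta_pow_eq {ζ : K} (hζ : IsPrimitiveRoot ζ p) (hp2 : p ≠ 2) (m : ℕ)
    (W : (𝓞 K)ˣ) (h : ζ ^ m = (W : K) ^ p) : p ∣ m := by
  have hp := (Fact.out : p.Prime)
  haveI : NeZero p := ⟨hp.ne_zero⟩
  have hodd : Odd p := hp.odd_of_ne_two hp2
  have hfin : IsOfFinOrder (W : K) := by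
    rw [isOfFinOrder_iff_pow_eq_one]
    refine ⟨p * p, Nat.mul_pos hp.pos hp.pos, ?_⟩
    rw [pow_mul, ← h, ← pow_mul, mul_comm, pow_mul, hζ.pow_eq_one, one_pow]
  obtain ⟨r, -, hr⟩ := hζ.exists_pow_or_neg_mul_pow_of_isOfFinOrder hodd hfin
  have hWp : (W : K) ^ p = 1 ∨ (W : K) ^ p = -1 := by
    rcases hr with hr | hr
    · left
      rw [hr, ← pow_mul, mul_comm, pow_mul, hζ.pow_eq_one, one_pow]
    · right
      rw [hr, neg_pow, ← pow_mul, mul_comm r, pow_mul, hζ.pow_eq_one, one_pow, mul_one,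
        hodd.neg_one_pow]
  rcases hWp with h1 | h1
  · rw [h1] at h
    exact hζ.dvd_of_pow_eq_one _ h
  · exfalso
    rw [h1] at h
    have h2 : (ζ ^ m) ^ p = 1 := by rw [← pow_mul, mul_comm, pow_mul, hζ.pow_eq_one, one_pow]
    rw [h, hodd.neg_one_pow] at h2
    have : (2 : K) = 0 := by linear_combination -h2
    exact two_ne_zero this

theorem torsion_eq {ζ : K} (hζ : IsPrimitiveRoot ζ p) (hp2 : p ≠ 2) (t : (𝓞 K)ˣ)
    (ht : t ∈ torsion K) : ∃ (i : ℕ) (e : (𝓞 K)ˣ), (t : K) = ζ ^ i * (e : K) ^ p := by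
  have hp := (Fact.out : p.Prime)
  haveI : NeZero p := ⟨hp.ne_zero⟩
  have hodd : Odd p := hp.odd_of_ne_two hp2
  have hfin : IsOfFinOrder (t : K) := by
    have h1 : IsOfFinOrder t := (CommGroup.mem_torsion t).mp ht
    rw [isOfFinOrder_iff_pow_eq_one] at h1 ⊢
    obtain ⟨n, hn, h⟩ := h1
    exact ⟨n, hn, by rw [← coe_pow, h, coe_one]⟩
  obtain ⟨r, -, hr⟩ := hζ.exists_pow_or_neg_mul_pow_of_isOfFinOrder hodd hfin
  rcases hr with hr | hr
  · exact ⟨r, 1, by rw [hr, coe_one, one_pow, mul_one]⟩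
  · exact ⟨r, -1, by rw [hr, coe_neg_one, hodd.neg_one_pow]; ring⟩

/-- A unit of the shape `ζ ^ i * B ^ p` in the `g ^ 2`-eigenspace is a `p`-th power. -/
theorem eigen_torsion_free {ζ : K} (hζ : IsPrimitiveRoot ζ p) (hp2 : p ≠ 2) (σ : K ≃ₐ[ℚ] K)
    (g c : ℕ) (hσ : σ ζ = ζ ^ g) (hg0 : (g : ZMod p) ≠ 0) (hg1 : (g : ZMod p) ≠ 1)
    (hc : (c : ZMod p) = (g : ZMod p) ^ 2) (z B a : (𝓞 K)ˣ) (i : ℕ)
    (hz : (z : K) = ζ ^ i * (B : K) ^ p) (hza : σ (z : K) = (z : K) ^ c * (a : K) ^ p) :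
    z = B ^ p := by
  have hp := (Fact.out : p.Prime)
  have h1 := hza
  rw [hz, map_mul, map_pow, map_pow, hσ] at h1
  set W : (𝓞 K)ˣ := B ^ c * a * (uMap σ B)⁻¹ with hW
  have hσB : σ (B : K) ≠ 0 := by rw [← uMap_coe]; exact coe_ne_zero _
  have hWc : (W : K) * σ (B : K) = (B : K) ^ c * (a : K) := by
    rw [hW, coe_mul, coe_mul, coe_pow, coe_inv', uMap_coe, inv_mul_cancel_right₀ hσB]
  have h2 : ζ ^ (g * i + (p - 1) * (i * c)) = (W : K) ^ p := by
    have h3 : (W : K) ^ p * σ (B : K) ^ p = ((B : K) ^ c * (a : K)) ^ p := by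
      rw [← mul_pow, hWc]
    have h4 : ζ ^ (p * (i * c)) = 1 := by rw [pow_mul, hζ.pow_eq_one, one_pow]
    have h5 : ζ ^ (g * i + (p - 1) * (i * c)) * σ (B : K) ^ p = (W : K) ^ p * σ (B : K) ^ p := by
      rw [h3]
      have h6 : (p - 1) * (i * c) + i * c = p * (i * c) := by
        have : p - 1 + 1 = p := Nat.sub_add_cancel hp.one_lt.le
        nth_rewrite 2 [← this]
        ring
      calc ζ ^ (g * i + (p - 1) * (i * c)) * σ (B : K) ^ p
          = ζ ^ ((p - 1) * (i * c)) * ((ζ ^ g) ^ i * σ (B : K) ^ p) := by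
            rw [pow_add, pow_mul]; ring
        _ = ζ ^ ((p - 1) * (i * c)) * ((ζ ^ i * (B : K) ^ p) ^ c * (a : K) ^ p) := by rw [h1]
        _ = ζ ^ ((p - 1) * (i * c) + i * c) * ((B : K) ^ c * (a : K)) ^ p := by
            rw [pow_add, pow_mul ζ i c]; ring
        _ = ((B : K) ^ c * (a : K)) ^ p := by rw [h6, h4, one_mul]
    exact mul_right_cancel₀ (pow_ne_zero _ hσB) h5
  have h7 := dvd_of_zeta_pow_eq hζ hp2 _ W h2
  have h8 : ((g * i + (p - 1) * (i * c) : ℕ) : ZMod p) = 0 :=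
    (ZMod.natCast_eq_zero_iff _ _).mpr h7
  have h9 : (i : ZMod p) = 0 := by
    have hp1 : ((p - 1 : ℕ) : ZMod p) = -1 := by
      rw [Nat.cast_sub hp.one_lt.le, ZMod.natCast_self]; simp
    push_cast at h8
    rw [hp1, hc] at h8
    have h10 : (i : ZMod p) * ((g : ZMod p) * (1 - (g : ZMod p))) = 0 := by
      linear_combination h8
    rcases mul_eq_zero.mp h10 with h | h
    · exact h
    · exfalso
      rcases mul_eq_zero.mp h with h | h
      · exact hg0 h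
      · exact hg1 (by linear_combination -h)
  have h11 : p ∣ i := (ZMod.natCast_eq_zero_iff _ _).mp h9
  obtain ⟨q, rfl⟩ := h11
  apply coe_injective K
  show (z : K) = ((B ^ p : (𝓞 K)ˣ) : K)
  rw [hz, pow_mul, hζ.pow_eq_one, one_pow, one_mul, coe_pow]

omit [IsCyclotomicExtension {p} ℚ K] [Fact p.Prime] in
theorem mk_zsmul_add (u a : (𝓞 K)ˣ) (c q : ℕ) :
    (Additive.ofMul (QuotientGroup.mk (u ^ c * a ^ q)) : Additive ((𝓞 K)ˣ ⧸ torsion K)) =
      ((c : ℕ) : ℤ) • Additive.ofMul (QuotientGroup.mk u) +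
        ((q : ℕ) : ℤ) • Additive.ofMul (QuotientGroup.mk a) := by
  rw [natCast_zsmul, natCast_zsmul, QuotientGroup.mk_mul, QuotientGroup.mk_pow,
    QuotientGroup.mk_pow, ofMul_mul, ofMul_pow, ofMul_pow]

/-- **Unit eigenspace lemma.** In `ℚ(ζ_p)`, `p ≥ 5`, the `g²`-eigenspace of `σ_g` on units modulo
`p`-th powers is at most one-dimensional: if `v` lies in it and is not a `p`-th power, every `u`
in it is of the form `v ^ j * w ^ p`. -/
theorem unit_eigen_le_one (hp5 : 5 ≤ p) {ζ : K} (hζ : IsPrimitiveRoot ζ p) (σ : K ≃ₐ[ℚ] K)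
    (g c : ℕ) (hσ : σ ζ = ζ ^ g) (hg : orderOf (g : ZMod p) = p - 1)
    (hc : (c : ZMod p) = (g : ZMod p) ^ 2) (u v : (𝓞 K)ˣ)
    (hu : ∃ a : (𝓞 K)ˣ, σ (u : K) = (u : K) ^ c * (a : K) ^ p)
    (hv : ∃ b : (𝓞 K)ˣ, σ (v : K) = (v : K) ^ c * (b : K) ^ p)
    (hv' : ¬ ∃ w : (𝓞 K)ˣ, v = w ^ p) :
    ∃ (j : ℕ) (w : (𝓞 K)ˣ), u = v ^ j * w ^ p := by
  have hp := (Fact.out : p.Prime)
  have hp2 : p ≠ 2 := by omega
  haveI : NeZero p := ⟨hp.ne_zero⟩
  obtain ⟨a, ha⟩ := hu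
  obtain ⟨b, hb⟩ := hv
  have hodd : Odd p := hp.odd_of_ne_two hp2
  obtain ⟨n, hn2⟩ : ∃ n, 2 * n = p - 1 := by
    obtain ⟨k, hk⟩ := hodd
    exact ⟨k, by omega⟩
  have hgpow : (g : ZMod p) ^ (p - 1) = 1 := by rw [← hg]; exact pow_orderOf_eq_one _
  have hg0 : (g : ZMod p) ≠ 0 := by
    intro h0
    rw [h0, zero_pow (by omega)] at hgpow
    exact zero_ne_one hgpow
  have hgj : ∀ j, 0 < j → j < p - 1 → (g : ZMod p) ^ j ≠ 1 := by
    intro j hj hjn h1
    have := orderOf_dvd_of_pow_eq_one h1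
    rw [hg] at this
    exact absurd (Nat.le_of_dvd hj this) (by omega)
  have hg1 : (g : ZMod p) ≠ 1 := by
    have := hgj 1 (by omega) (by omega)
    rwa [pow_one] at this
  have hgn : (g : ZMod p) ^ n = -1 := by
    have h1 : ((g : ZMod p) ^ n) ^ 2 = 1 := by rw [← pow_mul, mul_comm, hn2, hgpow]
    have h2 : (g : ZMod p) ^ n ≠ 1 := hgj n (by omega) (by omega)
    rcases sq_eq_one_iff.mp h1 with h | h
    · exact absurd h h2
    · exact h
  have hrank : Module.finrank ℤ (Additive ((𝓞 K)ˣ ⧸ torsion K)) + 1 = n := by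
    rw [finrank_modTorsion, Units.rank, card_eq_nrRealPlaces_add_nrComplexPlaces,
      IsCyclotomicExtension.Rat.nrRealPlaces_eq_zero K (n := p) (by omega),
      IsCyclotomicExtension.Rat.nrComplexPlaces_eq_totient_div_two p K, Nat.totient_prime hp,
      zero_add]
    omega
  have hsn : sL σ ^ n = 1 := by
    rw [← sL_pow]
    exact sL_eq_id _ (fun w => smul_eq_of hζ (σ ^ n) (g ^ n) (pow_apply_zeta σ g hσ n)
      (by push_cast; exact hgn) w)
  have htr : ∀ j, 0 < j → j < n → LinearMap.trace ℤ _ (sL σ ^ j) = -1 := by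
    intro j hj hjn
    rw [← sL_pow]
    apply trace_sL_of_free
    intro w
    apply smul_ne_of hζ (σ ^ j) (g ^ j) (pow_apply_zeta σ g hσ j)
    · push_cast
      exact hgj j hj (by omega)
    · push_cast
      intro h1
      have h2 : (g : ZMod p) ^ (2 * j) = 1 := by rw [mul_comm, pow_mul, h1]; simp
      exact hgj (2 * j) (by omega) (by omega) h2
  have hc1 : (((c : ℕ) : ℤ) : ZMod p) ≠ 1 := by
    rw [Int.cast_natCast, hc]
    exact hgj 2 (by omega) (by omega)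
  have hcn : (((c : ℕ) : ℤ) : ZMod p) ^ n = 1 := by
    rw [Int.cast_natCast, hc, ← pow_mul, hn2, hgpow]
  have hua : uMap σ u = u ^ c * a ^ p :=
    coe_injective K (by
      show ((uMap σ u : (𝓞 K)ˣ) : K) = ((u ^ c * a ^ p : (𝓞 K)ˣ) : K)
      rw [uMap_coe, ha, coe_mul, coe_pow, coe_pow])
  have hvb : uMap σ v = v ^ c * b ^ p :=
    coe_injective K (by
      show ((uMap σ v : (𝓞 K)ˣ) : K) = ((v ^ c * b ^ p : (𝓞 K)ˣ) : K)
      rw [uMap_coe, hb, coe_mul, coe_pow, coe_pow])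
  have hx : ∃ x', sL σ (Additive.ofMul (QuotientGroup.mk u)) =
      ((c : ℕ) : ℤ) • (Additive.ofMul (QuotientGroup.mk u) : Additive ((𝓞 K)ˣ ⧸ torsion K)) +
        (p : ℤ) • x' :=
    ⟨Additive.ofMul (QuotientGroup.mk a), by rw [sL_mk, hua, mk_zsmul_add]⟩
  have hy : ∃ y', sL σ (Additive.ofMul (QuotientGroup.mk v)) =
      ((c : ℕ) : ℤ) • (Additive.ofMul (QuotientGroup.mk v) : Additive ((𝓞 K)ˣ ⧸ torsion K)) +
        (p : ℤ) • y' :=
    ⟨Additive.ofMul (QuotientGroup.mk b), by rw [sL_mk, hvb, mk_zsmul_add]⟩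
  have hy0 : ¬ ∃ y', (Additive.ofMul (QuotientGroup.mk v) : Additive ((𝓞 K)ˣ ⧸ torsion K)) =
      (p : ℤ) • y' := by
    rintro ⟨y', hy'⟩
    obtain ⟨b', rfl⟩ := exists_mk_eq y'
    have h1 : (QuotientGroup.mk v : (𝓞 K)ˣ ⧸ torsion K) = QuotientGroup.mk (b' ^ p) := by
      have h := congrArg Additive.toMul hy'
      rw [natCast_zsmul, ← ofMul_pow, ← QuotientGroup.mk_pow] at h
      exact h
    rw [QuotientGroup.eq] at h1
    obtain ⟨i, e, hie⟩ := torsion_eq hζ hp2 _ ((torsion K).inv_mem h1)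
    have hvK : (v : K) = ζ ^ i * ((b' * e : (𝓞 K)ˣ) : K) ^ p := by
      rw [coe_inv', coe_mul, coe_inv', coe_pow] at hie
      have hv0 : (v : K) ≠ 0 := coe_ne_zero _
      have hb0 : (b' : K) ≠ 0 := coe_ne_zero _
      rw [coe_mul, mul_pow]
      have h2 : (v : K) = ((v : K)⁻¹ * (b' : K) ^ p)⁻¹ * (b' : K) ^ p := by
        field_simp
      rw [h2, hie]
      ring
    exact hv' ⟨b' * e, eigen_torsion_free hζ hp2 σ g c hσ hg0 hg1 hc v (b' * e) b i hvK hb⟩
  obtain ⟨j, x', hjx⟩ := eigen_le_one (sL σ) n (by omega) (by omega) hrank hsn htr c hc1 hcn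
    _ _ hx hy hy0
  obtain ⟨w₀, rfl⟩ := exists_mk_eq x'
  have h1 : (QuotientGroup.mk u : (𝓞 K)ˣ ⧸ torsion K) = QuotientGroup.mk (v ^ j * w₀ ^ p) := by
    have h := congrArg Additive.toMul hjx
    rw [natCast_zsmul, ← ofMul_pow, ← ofMul_pow, ← ofMul_mul, ← QuotientGroup.mk_pow,
      ← QuotientGroup.mk_pow, ← QuotientGroup.mk_mul] at h
    exact h
  rw [QuotientGroup.eq] at h1
  obtain ⟨i, e, hie⟩ := torsion_eq hζ hp2 _ ((torsion K).inv_mem h1)
  rw [coe_inv', coe_mul, coe_inv', coe_mul, coe_pow, coe_pow] at hie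
  have hu0 : (u : K) ≠ 0 := coe_ne_zero _
  have hv0 : (v : K) ≠ 0 := coe_ne_zero _
  have hw0 : (w₀ : K) ≠ 0 := coe_ne_zero _
  have hb0 : (b : K) ≠ 0 := coe_ne_zero _
  have huK : (u : K) = ζ ^ i * (e : K) ^ p * ((v : K) ^ j * (w₀ : K) ^ p) := by
    rw [← hie]
    field_simp
  set z : (𝓞 K)ˣ := u * (v ^ j)⁻¹ with hz
  have hzK : (z : K) = ζ ^ i * ((w₀ * e : (𝓞 K)ˣ) : K) ^ p := by
    rw [hz, coe_mul, coe_inv', coe_pow, coe_mul, mul_pow, huK]
    field_simp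
  have hza : σ (z : K) = (z : K) ^ c * ((a * (b ^ j)⁻¹ : (𝓞 K)ˣ) : K) ^ p := by
    rw [hz, coe_mul, coe_inv', coe_pow, coe_mul, coe_inv', coe_pow, map_mul, map_inv₀, map_pow,
      ha, hb]
    ring
  have hzB := eigen_torsion_free hζ hp2 σ g c hσ hg0 hg1 hc z (w₀ * e) _ i hzK hza
  refine ⟨j, w₀ * e, ?_⟩
  rw [← hzB, hz, mul_comm, inv_mul_cancel_right]

end cyclo

end Fermat.Agent.S14.H17
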