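import Fermat.Agent.S14.Stmts
import Fermat.Agent.S14.UnitEigen_helper17

set_option autoImplicit false
set_option maxSynthPendingDepth 2

open NumberField

namespace Fermat.Agent.S14.H17

/-- In a `p`-th cyclotomic extension of `ℚ` there is an automorphism `ζ ↦ ζ ^ g` for every `g`
prime to `p`. -/
theorem exists_aut_pow {p : ℕ} [Fact p.Prime] {K : Type*} [Field K] [NumberField K]
    [IsCyclotomicExtension {p} ℚ K] {ζ : K} (hζ : IsPrimitiveRoot ζ p) (g : ℕ)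
    (hg : g.Coprime p) : ∃ σ : K ≃ₐ[ℚ] K, σ ζ = ζ ^ g := by
  have hp := (Fact.out : p.Prime)
  haveI : NeZero p := ⟨hp.ne_zero⟩
  have hirr : Irreducible (Polynomial.cyclotomic p ℚ) :=
    Polynomial.cyclotomic.irreducible_rat hp.pos
  set σ₁ := IsCyclotomicExtension.fromZetaAut (L := K) hζ hirr with h1
  set σ₂ := IsCyclotomicExtension.fromZetaAut (L := K) (hζ.pow_of_coprime g hg) hirr with h2
  refine ⟨σ₂ * σ₁⁻¹, ?_⟩
  have e1 : σ₁ (IsCyclotomicExtension.zeta p ℚ K) = ζ :=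
    IsCyclotomicExtension.fromZetaAut_spec hζ hirr
  have e2 : σ₂ (IsCyclotomicExtension.zeta p ℚ K) = ζ ^ g :=
    IsCyclotomicExtension.fromZetaAut_spec (hζ.pow_of_coprime g hg) hirr
  have e3 : σ₁⁻¹ ζ = IsCyclotomicExtension.zeta p ℚ K := by
    rw [← e1]
    exact AlgEquiv.symm_apply_apply σ₁ _
  rw [AlgEquiv.mul_apply, e3, e2]

/-- Node (U3) of the S14 skeleton. -/
theorem stmtU3 : StmtU3 := by
  intro p _ hp5 K _ _ _ ζ hζ ε₁ ε₂ h1 h2 hnot
  have hp := (Fact.out : p.Prime)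
  haveI : NeZero p := ⟨hp.ne_zero⟩
  obtain ⟨t, ht⟩ := IsCyclic.exists_generator (α := (ZMod p)ˣ)
  have hord : orderOf t = p - 1 := by
    rw [orderOf_eq_card_of_forall_mem_zpowers ht, Nat.card_eq_fintype_card,
      ZMod.card_units_eq_totient, Nat.totient_prime hp]
  set g : ℕ := (t : ZMod p).val with hgdef
  have hgt : ((g : ℕ) : ZMod p) = (t : ZMod p) := ZMod.natCast_zmod_val _
  have hg : orderOf ((g : ℕ) : ZMod p) = p - 1 := by rw [hgt, orderOf_units, hord]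
  have hcop : g.Coprime p := ZMod.val_coe_unit_coprime t
  obtain ⟨σ, hσ⟩ := exists_aut_pow hζ g hcop
  obtain ⟨a, ha⟩ := h1 σ g hσ
  obtain ⟨b, hb⟩ := h2 σ g hσ
  refine unit_eigen_le_one hp5 hζ σ g (g ^ 2) hσ hg (by push_cast; rfl) ε₁ ε₂ ⟨a, ha⟩ ⟨b, hb⟩ ?_
  rintro ⟨w, hw⟩
  exact hnot ⟨w, hw.symm⟩

end Fermat.Agent.S14.H17
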