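import Mathlib

/-!
# S14 / WP8 (bound B): comparison of a sum over a group with a sum over a finite-index subgroup

If `∑_{h ∈ H} |F (h + r) - F h| ≤ B r` for every translation `r`, then
`|∑_G F - [G : H] ∑_H F| ≤ ∑_{q ∈ G/H} B (rep q)`.
-/

namespace Fermat.Agent.S14.H29

/-- The decomposition of an additive group into the cosets of a subgroup, using the
representatives `Quotient.out`. -/
noncomputable def cosetEquiv {G : Type*} [AddCommGroup G] (H : AddSubgroup G) :
    (G ⧸ H) × H ≃ G where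
  toFun qh := Quotient.out qh.1 + qh.2
  invFun g := ((g : G ⧸ H), ⟨-Quotient.out (g : G ⧸ H) + g,
    QuotientAddGroup.eq.mp (QuotientAddGroup.out_eq' (g : G ⧸ H))⟩)
  left_inv := by
    rintro ⟨q, h⟩
    have h1 : ((Quotient.out q + (h : G) : G) : G ⧸ H) = q := by
      rw [QuotientAddGroup.mk_add_of_mem _ h.2, QuotientAddGroup.out_eq']
    ext
    · exact h1
    · simp only [h1]
      abel
  right_inv := by
    intro g
    simp

theorem cosetEquiv_apply {G : Type*} [AddCommGroup G] (H : AddSubgroup G) (qh : (G ⧸ H) × H) :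
    cosetEquiv H qh = Quotient.out qh.1 + qh.2 := rfl

/-- Comparison of the sum over `G` with `[G : H]` times the sum over `H`. -/
theorem abs_tsum_sub_index_mul_tsum_le {G : Type*} [AddCommGroup G] (H : AddSubgroup G)
    [Fintype (G ⧸ H)] (f : G → ℝ) (hf : Summable f) (Bd : G → ℝ)
    (hB : ∀ r : G, Summable (fun h : H ↦ |f ((h : G) + r) - f h|) ∧
      ∑' h : H, |f ((h : G) + r) - f h| ≤ Bd r) :
    |∑' g, f g - (H.index : ℝ) * ∑' h : H, f h| ≤ ∑ q : G ⧸ H, Bd (Quotient.out q) := by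
  have hfe : Summable (f ∘ cosetEquiv H) := (cosetEquiv H).summable_iff.mpr hf
  have hfH : Summable (fun h : H ↦ f h) := hf.subtype _
  have hq : ∀ q : G ⧸ H, Summable (fun h : H ↦ f (Quotient.out q + h)) := fun q ↦
    hfe.prod_factor q
  have h1 : ∑' g, f g = ∑ q : G ⧸ H, ∑' h : H, f (Quotient.out q + h) := by
    rw [← (cosetEquiv H).tsum_eq f]
    have := hfe.tsum_prod
    simp only [Function.comp_apply] at this
    rw [this, tsum_fintype]
    rfl
  have h2 : (H.index : ℝ) * ∑' h : H, f h = ∑ q : G ⧸ H, ∑' h : H, f h := by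
    rw [Finset.sum_const, Finset.card_univ, nsmul_eq_mul, AddSubgroup.index_eq_card,
      Nat.card_eq_fintype_card]
  rw [h1, h2, ← Finset.sum_sub_distrib]
  refine (Finset.abs_sum_le_sum_abs _ _).trans (Finset.sum_le_sum fun q _ ↦ ?_)
  rw [← (hq q).tsum_sub hfH]
  obtain ⟨hs, hle⟩ := hB (Quotient.out q)
  have hs' : Summable (fun h : H ↦ ‖f (Quotient.out q + h) - f h‖) := by
    simpa [Real.norm_eq_abs, add_comm] using hs
  refine (norm_tsum_le_tsum_norm hs').trans ?_
  simpa [Real.norm_eq_abs, add_comm] using hle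

/-- Uniform version for a family `F s`, `s ∈ (1, 2)`. -/
theorem coset_compare {G : Type*} [AddCommGroup G] (H : AddSubgroup G) [H.FiniteIndex]
    (F : ℝ → G → ℝ) (hF : ∀ s : ℝ, 1 < s → s < 2 → Summable (F s))
    (hL : ∀ r : G, ∃ B : ℝ, ∀ s : ℝ, 1 < s → s < 2 →
      Summable (fun h : H ↦ |F s ((h : G) + r) - F s h|) ∧
        ∑' h : H, |F s ((h : G) + r) - F s h| ≤ B) :
    ∃ B : ℝ, ∀ s : ℝ, 1 < s → s < 2 →
      |∑' g, F s g - (H.index : ℝ) * ∑' h : H, F s h| ≤ B := by
  classical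
  let _ : Fintype (G ⧸ H) := H.fintypeQuotientOfFiniteIndex
  choose Bd hBd using hL
  exact ⟨∑ q : G ⧸ H, Bd (Quotient.out q), fun s hs1 hs2 ↦
    abs_tsum_sub_index_mul_tsum_le H (F s) (hF s hs1 hs2) Bd fun r ↦ hBd r s hs1 hs2⟩

end Fermat.Agent.S14.H29
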