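import Mathlib

/-!
# S14 / WP8 (bound B), piece 8-ANA-W: a Lipschitz partition of unity over unit orbits

`W K : 𝓞 K → ℝ` is a product of tent functions in the coordinates of the logarithmic vector of
`x` with respect to a basis of the unit lattice.  It satisfies `0 ≤ W ≤ 1`, the orbit sums
`∑_{u ∈ (𝓞 K)ˣ} W (u * x)` are all equal to the number of roots of unity, all archimedean
absolute values are comparable on its support, and it is Lipschitz in the log-coordinates.
-/

namespace Fermat.Agent.S14.H29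

open NumberField NumberField.InfinitePlace NumberField.mixedEmbedding NumberField.Units
  NumberField.Units.dirichletUnitTheorem

/-! ### The tent function -/

/-- The tent function `t ↦ max 0 (1 - |t|)`. -/
noncomputable def tent (t : ℝ) : ℝ := max 0 (1 - |t|)

theorem tent_nonneg (t : ℝ) : 0 ≤ tent t := le_max_left _ _

theorem tent_le_one (t : ℝ) : tent t ≤ 1 :=
  max_le zero_le_one (by linarith [abs_nonneg t])

theorem tent_lip (t t' : ℝ) : |tent t' - tent t| ≤ |t' - t| := by
  unfold tent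
  rw [max_comm 0, max_comm 0]
  calc |max (1 - |t'|) 0 - max (1 - |t|) 0| ≤ |(1 - |t'|) - (1 - |t|)| :=
        abs_max_sub_max_le_abs _ _ _
    _ = |(|t| - |t'|)| := by ring_nf
    _ ≤ |t - t'| := abs_abs_sub_abs_le_abs_sub _ _
    _ = |t' - t| := abs_sub_comm _ _

theorem tent_eq_zero {t : ℝ} (h : 1 ≤ |t|) : tent t = 0 :=
  max_eq_left (by linarith)

theorem abs_lt_one_of_tent_ne_zero {t : ℝ} (h : tent t ≠ 0) : |t| < 1 := by
  by_contra h'
  exact h (tent_eq_zero (not_lt.mp h'))

/-- The two integer translates of `t` at which the tent function may be nonzero. -/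
noncomputable def tentSupp (t : ℝ) : Finset ℤ := {-⌊t⌋, -⌊t⌋ - 1}

theorem tent_add_eq_zero_of_notMem (t : ℝ) {k : ℤ} (hk : k ∉ tentSupp t) : tent (t + k) = 0 := by
  apply tent_eq_zero
  simp only [tentSupp, Finset.mem_insert, Finset.mem_singleton, not_or] at hk
  obtain ⟨h1, h2⟩ := hk
  have hf := Int.floor_le t
  have hf' := Int.lt_floor_add_one t
  rcases lt_trichotomy k (-⌊t⌋ - 1) with h | h | h
  · have : (k : ℝ) ≤ -⌊t⌋ - 2 := by
      have : k ≤ -⌊t⌋ - 2 := by omega
      exact_mod_cast this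
    rw [le_abs]; right; linarith
  · exact absurd h h2
  · have : k ≥ -⌊t⌋ + 1 := by omega
    have : (k : ℝ) ≥ -⌊t⌋ + 1 := by exact_mod_cast this
    rw [le_abs]; left; linarith

theorem sum_tentSupp (t : ℝ) : ∑ k ∈ tentSupp t, tent (t + k) = 1 := by
  have hf := Int.floor_le t
  have hf' := Int.lt_floor_add_one t
  rw [tentSupp, Finset.sum_pair (by omega)]
  unfold tent
  push_cast
  rw [max_eq_right, max_eq_right, abs_of_nonneg (by linarith : (0:ℝ) ≤ t + -(⌊t⌋:ℝ)),
    abs_of_nonpos (by linarith : t + (-(⌊t⌋:ℝ) - 1) ≤ 0)]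
  · ring
  · rw [abs_of_nonpos (by linarith : t + (-(⌊t⌋:ℝ) - 1) ≤ 0)]; linarith
  · rw [abs_of_nonneg (by linarith : (0:ℝ) ≤ t + -(⌊t⌋:ℝ))]; linarith

/-! ### Products of tents in the coordinates of a basis -/

/-- The product of the tent functions of the coordinates of `t` in the basis `b`. -/
noncomputable def tentProd {ι F : Type*} [Fintype ι] [AddCommGroup F] [Module ℝ F]
    (b : Module.Basis ι ℝ F) (t : F) : ℝ := ∏ i, tent (b.repr t i)

section tentProd

variable {ι F : Type*} [Fintype ι]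

section algebraic

variable [AddCommGroup F] [Module ℝ F] (b : Module.Basis ι ℝ F)

theorem tentProd_nonneg (t : F) : 0 ≤ tentProd b t :=
  Finset.prod_nonneg fun _ _ ↦ tent_nonneg _

theorem tentProd_le_one (t : F) : tentProd b t ≤ 1 :=
  Finset.prod_le_one (fun _ _ ↦ tent_nonneg _) fun _ _ ↦ tent_le_one _

theorem abs_repr_lt_one_of_tentProd_ne_zero {t : F} (h : tentProd b t ≠ 0) (i : ι) :
    |b.repr t i| < 1 := by
  apply abs_lt_one_of_tent_ne_zero
  intro h0
  exact h (Finset.prod_eq_zero (Finset.mem_univ i) h0)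

theorem tentProd_add_sum (t : F) (k : ι → ℤ) :
    tentProd b (t + ∑ i, (k i : ℝ) • b i) = ∏ i, tent (b.repr t i + k i) := by
  unfold tentProd
  refine Finset.prod_congr rfl fun i _ ↦ ?_
  rw [map_add, Finsupp.add_apply, b.repr_sum_self]

open scoped Classical in
/-- The finite set of integer translates at which `tentProd` may be nonzero. -/
noncomputable def tentProdSupp (t : F) : Finset (ι → ℤ) :=
  Fintype.piFinset fun i ↦ tentSupp (b.repr t i)

theorem tentProd_eq_zero_of_notMem (t : F) {k : ι → ℤ} (hk : k ∉ tentProdSupp b t) :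
    tentProd b (t + ∑ i, (k i : ℝ) • b i) = 0 := by
  classical
  rw [tentProd_add_sum]
  simp only [tentProdSupp, Fintype.mem_piFinset, not_forall] at hk
  obtain ⟨i, hi⟩ := hk
  exact Finset.prod_eq_zero (Finset.mem_univ i) (tent_add_eq_zero_of_notMem _ hi)

theorem sum_tentProdSupp (t : F) :
    ∑ k ∈ tentProdSupp b t, tentProd b (t + ∑ i, (k i : ℝ) • b i) = 1 := by
  classical
  simp_rw [tentProd_add_sum]
  rw [tentProdSupp, ← Finset.prod_univ_sum (fun i ↦ tentSupp (b.repr t i))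
    (fun i (j : ℤ) ↦ tent (b.repr t i + j))]
  simp [sum_tentSupp]

theorem tentProd_hasSum (t : F) :
    HasSum (fun k : ι → ℤ ↦ tentProd b (t + ∑ i, (k i : ℝ) • b i)) 1 := by
  have : HasSum (fun k : ι → ℤ ↦ tentProd b (t + ∑ i, (k i : ℝ) • b i))
      (∑ k ∈ tentProdSupp b t, tentProd b (t + ∑ i, (k i : ℝ) • b i)) :=
    hasSum_sum_of_ne_finset_zero fun k hk ↦ tentProd_eq_zero_of_notMem b t hk
  rwa [sum_tentProdSupp] at this

end algebraic

/-- Difference of two products of numbers in `[0,1]`. -/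
theorem abs_prod_sub_prod_le {ι : Type*} (s : Finset ι) (f g : ι → ℝ)
    (hf0 : ∀ i, 0 ≤ f i) (hf1 : ∀ i, f i ≤ 1) (hg0 : ∀ i, 0 ≤ g i) (hg1 : ∀ i, g i ≤ 1) :
    |∏ i ∈ s, f i - ∏ i ∈ s, g i| ≤ ∑ i ∈ s, |f i - g i| := by
  classical
  induction s using Finset.induction_on with
  | empty => simp
  | insert a s ha ih =>
    rw [Finset.prod_insert ha, Finset.prod_insert ha, Finset.sum_insert ha]
    have h1 : |∏ i ∈ s, f i| ≤ 1 := by
      rw [abs_of_nonneg (Finset.prod_nonneg fun i _ ↦ hf0 i)]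
      exact Finset.prod_le_one (fun i _ ↦ hf0 i) fun i _ ↦ hf1 i
    have h2 : |g a| ≤ 1 := by rw [abs_of_nonneg (hg0 a)]; exact hg1 a
    calc |f a * ∏ i ∈ s, f i - g a * ∏ i ∈ s, g i|
        = |(f a - g a) * ∏ i ∈ s, f i + g a * (∏ i ∈ s, f i - ∏ i ∈ s, g i)| := by ring_nf
      _ ≤ |f a - g a| * |∏ i ∈ s, f i| + |g a| * |∏ i ∈ s, f i - ∏ i ∈ s, g i| := by
          rw [← abs_mul, ← abs_mul]; exact abs_add_le _ _
      _ ≤ |f a - g a| * 1 + 1 * ∑ i ∈ s, |f i - g i| := by
          gcongr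
      _ = |f a - g a| + ∑ i ∈ s, |f i - g i| := by ring

section normed

variable [NormedAddCommGroup F] [NormedSpace ℝ F] (b : Module.Basis ι ℝ F)

theorem tentProd_lipschitz :
    ∃ L : ℝ, 0 ≤ L ∧ ∀ t t' : F, |tentProd b t' - tentProd b t| ≤ L * ‖t' - t‖ := by
  have : FiniteDimensional ℝ F := Module.Finite.of_basis b
  refine ⟨∑ i, ‖LinearMap.toContinuousLinearMap (b.coord i)‖,
    Finset.sum_nonneg fun _ _ ↦ norm_nonneg _, fun t t' ↦ ?_⟩
  unfold tentProd
  refine (abs_prod_sub_prod_le _ _ _ (fun _ ↦ tent_nonneg _) (fun _ ↦ tent_le_one _)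
    (fun _ ↦ tent_nonneg _) (fun _ ↦ tent_le_one _)).trans ?_
  rw [Finset.sum_mul]
  refine Finset.sum_le_sum fun i _ ↦ (tent_lip _ _).trans ?_
  have := (LinearMap.toContinuousLinearMap (b.coord i)).le_opNorm (t' - t)
  simpa [Real.norm_eq_abs] using this

theorem tentProd_support :
    ∃ T : ℝ, 0 ≤ T ∧ ∀ t : F, tentProd b t ≠ 0 → ‖t‖ ≤ T := by
  refine ⟨∑ i, ‖b i‖, Finset.sum_nonneg fun _ _ ↦ norm_nonneg _, fun t ht ↦ ?_⟩
  calc ‖t‖ = ‖∑ i, b.repr t i • b i‖ := by rw [b.sum_repr]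
    _ ≤ ∑ i, ‖b.repr t i • b i‖ := norm_sum_le _ _
    _ ≤ ∑ i, ‖b i‖ := by
        refine Finset.sum_le_sum fun i _ ↦ ?_
        rw [_root_.norm_smul, Real.norm_eq_abs]
        calc |b.repr t i| * ‖b i‖ ≤ 1 * ‖b i‖ := by
              gcongr
              exact (abs_repr_lt_one_of_tentProd_ne_zero b ht i).le
          _ = ‖b i‖ := one_mul _

end normed

end tentProd

/-! ### The weight on `𝓞 K` -/

section numberField

variable (K : Type*) [Field K] [NumberField K]

open scoped Classical in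
/-- The real basis of `logSpace K` coming from the basis of the unit lattice. -/
noncomputable def logBasis : Module.Basis (Fin (rank K)) ℝ (logSpace K) :=
  (basisUnitLattice K).ofZLatticeBasis ℝ (unitLattice K)

open scoped Classical in
theorem logBasis_apply (i : Fin (rank K)) :
    logBasis K i = (basisUnitLattice K i : logSpace K) :=
  Module.Basis.ofZLatticeBasis_apply ℝ (unitLattice K) (basisUnitLattice K) i

open scoped Classical in
/-- The Lipschitz partition of unity over unit orbits: the product of the tent functions of the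
coordinates of the logarithmic vector of `x` in a basis of the unit lattice (`0` at `x = 0`). -/
noncomputable def W (x : 𝓞 K) : ℝ :=
  if x = 0 then 0 else tentProd (logBasis K) (logMap (mixedEmbedding K (x : K)))

theorem W_nonneg (x : 𝓞 K) : 0 ≤ W K x := by
  unfold W
  split_ifs
  · exact le_rfl
  · exact tentProd_nonneg _ _

theorem W_le_one (x : 𝓞 K) : W K x ≤ 1 := by
  unfold W
  split_ifs
  · exact zero_le_one
  · exact tentProd_le_one _ _

theorem W_zero : W K 0 = 0 := by simp [W]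

theorem ne_zero_of_W_ne_zero {x : 𝓞 K} (h : W K x ≠ 0) : x ≠ 0 := by
  rintro rfl
  exact h (W_zero K)

theorem norm_mixedEmbedding_ne_zero {x : 𝓞 K} (hx : x ≠ 0) :
    mixedEmbedding.norm (mixedEmbedding K (x : K)) ≠ 0 := by
  rw [mixedEmbedding.norm_ne_zero_iff]
  intro w
  rw [normAtPlace_apply]
  exact (map_ne_zero w).mpr (RingOfIntegers.coe_ne_zero_iff.mpr hx)

theorem log_norm_eq {x : 𝓞 K} (hx : x ≠ 0) :
    Real.log (mixedEmbedding.norm (mixedEmbedding K (x : K))) =
      ∑ w : InfinitePlace K, (mult w : ℝ) * Real.log (w (x : K)) := by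
  rw [mixedEmbedding.norm_apply, Real.log_prod]
  · refine Finset.sum_congr rfl fun w _ ↦ ?_
    rw [Real.log_pow, normAtPlace_apply]
  · intro w _
    refine pow_ne_zero _ ?_
    rw [normAtPlace_apply]
    exact (map_ne_zero w).mpr (RingOfIntegers.coe_ne_zero_iff.mpr hx)

/-- The units of `𝓞 K` are parametrised by a root of unity and the exponents on the fundamental
system of units. -/
noncomputable def unitsEquiv : torsion K × (Fin (rank K) → ℤ) ≃ (𝓞 K)ˣ :=
  Equiv.ofBijective (fun ζe ↦ (ζe.1 : (𝓞 K)ˣ) * ∏ i, fundSystem K i ^ ζe.2 i) (by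
    rw [Function.bijective_iff_existsUnique]
    intro x
    obtain ⟨ζe, h, huniq⟩ := exist_unique_eq_mul_prod K x
    exact ⟨ζe, h.symm, fun y hy ↦ huniq y hy.symm⟩)

theorem unitsEquiv_apply (ζe : torsion K × (Fin (rank K) → ℤ)) :
    unitsEquiv K ζe = (ζe.1 : (𝓞 K)ˣ) * ∏ i, fundSystem K i ^ ζe.2 i := rfl

theorem logEmbedding_unitsEquiv (ζe : torsion K × (Fin (rank K) → ℤ)) :
    logEmbedding K (Additive.ofMul (unitsEquiv K ζe)) = ∑ i, (ζe.2 i : ℝ) • logBasis K i := by
  rw [unitsEquiv_apply, ofMul_mul, map_add, (logEmbedding_eq_zero_iff).mpr ζe.1.2, zero_add,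
    ofMul_prod, map_sum]
  refine Finset.sum_congr rfl fun i _ ↦ ?_
  rw [ofMul_zpow, map_zsmul, logEmbedding_fundSystem, logBasis_apply, Int.cast_smul_eq_zsmul]

theorem W_unit_mul (x : 𝓞 K) (hx : x ≠ 0) (u : (𝓞 K)ˣ) :
    W K (u * x) = tentProd (logBasis K)
      (logMap (mixedEmbedding K (x : K)) + logEmbedding K (Additive.ofMul u)) := by
  have hux : (u : 𝓞 K) * x ≠ 0 := mul_ne_zero (Units.ne_zero u) hx
  rw [W, if_neg hux]
  congr 1
  have h : mixedEmbedding K (((u : 𝓞 K) * x : 𝓞 K) : K) = u • mixedEmbedding K (x : K) := by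
    rw [unitSMul_smul, ← map_mul]
    rfl
  rw [h, logMap_unit_smul u (norm_mixedEmbedding_ne_zero K hx), add_comm]

/-- **Partition of unity over unit orbits.** -/
theorem W_hasSum (x : 𝓞 K) (hx : x ≠ 0) :
    HasSum (fun u : (𝓞 K)ˣ ↦ W K (u * x)) (torsionOrder K) := by
  classical
  let _ : Fintype (torsion K) := Fintype.ofFinite _
  rw [← (unitsEquiv K).hasSum_iff]
  have h2 : ((fun u : (𝓞 K)ˣ ↦ W K (u * x)) ∘ (unitsEquiv K)) =
      fun ζe : torsion K × (Fin (rank K) → ℤ) ↦ tentProd (logBasis K)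
        (logMap (mixedEmbedding K (x : K)) + ∑ i, (ζe.2 i : ℝ) • logBasis K i) := by
    funext ζe
    simp only [Function.comp_apply]
    rw [W_unit_mul K x hx, logEmbedding_unitsEquiv]
  rw [h2]
  have h3 : HasSum (fun ζe : torsion K × (Fin (rank K) → ℤ) ↦ tentProd (logBasis K)
        (logMap (mixedEmbedding K (x : K)) + ∑ i, (ζe.2 i : ℝ) • logBasis K i))
      (∑ ζe ∈ (Finset.univ : Finset (torsion K)) ×ˢ
          tentProdSupp (logBasis K) (logMap (mixedEmbedding K (x : K))),
        tentProd (logBasis K)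
          (logMap (mixedEmbedding K (x : K)) + ∑ i, (ζe.2 i : ℝ) • logBasis K i)) :=
    hasSum_sum_of_ne_finset_zero fun ζe hζe ↦
      tentProd_eq_zero_of_notMem _ _ (by simpa using hζe)
  rw [Finset.sum_product] at h3
  simp only [sum_tentProdSupp, Finset.sum_const, Finset.card_univ, nsmul_eq_mul, mul_one] at h3
  rwa [torsionOrder, Nat.card_eq_fintype_card]

/-- On the support of `W` all archimedean absolute values are comparable. -/
theorem W_cone : ∃ c : ℝ, 0 < c ∧ ∀ x : 𝓞 K, W K x ≠ 0 →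
    ∀ w w' : InfinitePlace K, c * w' (x : K) ≤ w (x : K) := by
  classical
  obtain ⟨T, hT0, hT⟩ := tentProd_support (logBasis K)
  set n : ℝ := (Fintype.card (InfinitePlace K) : ℝ) with hn
  have hn1 : (1 : ℝ) ≤ n := by
    rw [hn]
    exact_mod_cast Fintype.card_pos
  refine ⟨Real.exp (-(2 * (n * T))), Real.exp_pos _, fun x hx w w' ↦ ?_⟩
  have hx0 : x ≠ 0 := ne_zero_of_W_ne_zero K hx
  rw [W, if_neg hx0] at hx
  have hnorm := hT _ hx
  have hd : (Module.finrank ℚ K : ℝ) ≠ 0 := Nat.cast_ne_zero.mpr Module.finrank_pos.ne'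
  set a : InfinitePlace K → ℝ := fun w ↦ Real.log (w (x : K)) -
    Real.log (mixedEmbedding.norm (mixedEmbedding K (x : K))) * (Module.finrank ℚ K : ℝ)⁻¹ with ha
  have hcoord : ∀ w : {w : InfinitePlace K // w ≠ w₀}, |(mult w.1 : ℝ) * a w.1| ≤ T := by
    intro w
    have := (norm_le_pi_norm (logMap (mixedEmbedding K (x : K))) w).trans hnorm
    rwa [logMap_apply, normAtPlace_apply, Real.norm_eq_abs] at this
  have hsum : ∑ w : InfinitePlace K, (mult w : ℝ) * a w = 0 := by
    simp only [ha, mul_sub, Finset.sum_sub_distrib]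
    rw [← log_norm_eq K hx0, ← Finset.sum_mul, ← Nat.cast_sum, sum_mult_eq]
    field_simp
    ring
  have hmult : ∀ w : InfinitePlace K, (1 : ℝ) ≤ mult w := fun w ↦ one_le_mult
  have ha_of : ∀ w : InfinitePlace K, |(mult w : ℝ) * a w| ≤ n * T → |a w| ≤ n * T := by
    intro w h
    refine le_trans ?_ h
    rw [abs_mul, abs_of_nonneg (by linarith [hmult w] : (0 : ℝ) ≤ mult w)]
    exact le_mul_of_one_le_left (abs_nonneg _) (hmult w)
  have ha_le : ∀ w : InfinitePlace K, |a w| ≤ n * T := by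
    intro w
    apply ha_of
    by_cases hw : w = w₀
    · subst hw
      rw [Fintype.sum_eq_add_sum_subtype_ne _ w₀, add_eq_zero_iff_eq_neg] at hsum
      rw [hsum, abs_neg]
      refine (Finset.abs_sum_le_sum_abs _ _).trans ?_
      refine (Finset.sum_le_sum fun w _ ↦ hcoord w).trans ?_
      rw [Finset.sum_const, nsmul_eq_mul, Finset.card_univ]
      gcongr
      rw [hn]
      exact_mod_cast Fintype.card_subtype_le _
    · exact (hcoord ⟨w, hw⟩).trans (le_mul_of_one_le_left hT0 hn1)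
  have hw_pos : ∀ w : InfinitePlace K, 0 < w (x : K) := fun w ↦
    InfinitePlace.pos_iff.mpr (RingOfIntegers.coe_ne_zero_iff.mpr hx0)
  have hdiff : Real.log (w' (x : K)) - Real.log (w (x : K)) ≤ 2 * (n * T) := by
    have h1 := abs_le.mp (ha_le w)
    have h2 := abs_le.mp (ha_le w')
    have : Real.log (w' (x : K)) - Real.log (w (x : K)) = a w' - a w := by simp [ha]
    rw [this]
    linarith
  calc Real.exp (-(2 * (n * T))) * w' (x : K)
      = Real.exp (-(2 * (n * T))) * Real.exp (Real.log (w' (x : K))) := by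
        rw [Real.exp_log (hw_pos w')]
    _ = Real.exp (-(2 * (n * T)) + Real.log (w' (x : K))) := by rw [Real.exp_add]
    _ ≤ Real.exp (Real.log (w (x : K))) := Real.exp_le_exp.mpr (by linarith)
    _ = w (x : K) := Real.exp_log (hw_pos w)

/-- `W` is Lipschitz in the logarithmic coordinates (with a nonnegative constant). -/
theorem W_lip' : ∃ L : ℝ, 0 ≤ L ∧ ∀ x y : 𝓞 K, x ≠ 0 → y ≠ 0 →
    |W K x - W K y| ≤
      L * ∑ w : InfinitePlace K, |Real.log (w (x : K)) - Real.log (w (y : K))| := by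
  classical
  obtain ⟨L, hL0, hL⟩ := tentProd_lipschitz (logBasis K)
  refine ⟨L * 6, by positivity, fun x y hx hy ↦ ?_⟩
  rw [W, W, if_neg hx, if_neg hy]
  refine (hL _ _).trans ?_
  rw [mul_assoc]
  refine mul_le_mul_of_nonneg_left ?_ hL0
  set S : ℝ := ∑ w : InfinitePlace K, |Real.log (w (x : K)) - Real.log (w (y : K))| with hS
  have hS0 : 0 ≤ S := Finset.sum_nonneg fun _ _ ↦ abs_nonneg _
  have hterm : ∀ w : InfinitePlace K, |Real.log (w (x : K)) - Real.log (w (y : K))| ≤ S :=
    fun w ↦ Finset.single_le_sum (f := fun w : InfinitePlace K ↦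
      |Real.log (w (x : K)) - Real.log (w (y : K))|) (fun _ _ ↦ abs_nonneg _) (Finset.mem_univ w)
  have hmult : ∀ w : InfinitePlace K, (mult w : ℝ) ≤ 2 := fun w ↦ by
    rw [mult]
    split_ifs <;> norm_num
  have hmult0 : ∀ w : InfinitePlace K, (0 : ℝ) ≤ mult w := fun w ↦ Nat.cast_nonneg _
  have hN : |Real.log (mixedEmbedding.norm (mixedEmbedding K (x : K))) -
      Real.log (mixedEmbedding.norm (mixedEmbedding K (y : K)))| ≤ 2 * S := by
    rw [log_norm_eq K hx, log_norm_eq K hy, ← Finset.sum_sub_distrib, hS, Finset.mul_sum]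
    refine (Finset.abs_sum_le_sum_abs _ _).trans (Finset.sum_le_sum fun w _ ↦ ?_)
    rw [← mul_sub, abs_mul, abs_of_nonneg (hmult0 w)]
    exact mul_le_mul_of_nonneg_right (hmult w) (abs_nonneg _)
  have hd1 : (1 : ℝ) ≤ (Module.finrank ℚ K : ℝ) := by
    exact_mod_cast Module.finrank_pos
  have hdinv : |((Module.finrank ℚ K : ℝ))⁻¹| ≤ 1 := by
    rw [abs_of_nonneg (by positivity)]
    exact inv_le_one_of_one_le₀ hd1
  rw [pi_norm_le_iff_of_nonneg (by positivity)]
  intro w
  rw [Pi.sub_apply, logMap_apply, logMap_apply, Real.norm_eq_abs, normAtPlace_apply,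
    normAtPlace_apply]
  set A := Real.log (w.1 (x : K)) - Real.log (w.1 (y : K)) with hA
  set B := Real.log (mixedEmbedding.norm (mixedEmbedding K (x : K))) -
      Real.log (mixedEmbedding.norm (mixedEmbedding K (y : K))) with hB
  have hAle : |A| ≤ S := hterm w.1
  have hBd : |B * ((Module.finrank ℚ K : ℝ))⁻¹| ≤ 2 * S := by
    rw [abs_mul]
    calc |B| * |((Module.finrank ℚ K : ℝ))⁻¹| ≤ (2 * S) * 1 :=
          mul_le_mul hN hdinv (abs_nonneg _) (by positivity)
      _ = 2 * S := mul_one _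
  have heq : (mult w.1 : ℝ) * (Real.log (w.1 (x : K)) -
        Real.log (mixedEmbedding.norm (mixedEmbedding K (x : K))) *
          ((Module.finrank ℚ K : ℝ))⁻¹) -
      (mult w.1 : ℝ) * (Real.log (w.1 (y : K)) -
        Real.log (mixedEmbedding.norm (mixedEmbedding K (y : K))) *
          ((Module.finrank ℚ K : ℝ))⁻¹) =
      (mult w.1 : ℝ) * (A - B * ((Module.finrank ℚ K : ℝ))⁻¹) := by
    rw [hA, hB]; ring
  rw [heq, abs_mul, abs_of_nonneg (hmult0 w.1)]
  calc (mult w.1 : ℝ) * |A - B * ((Module.finrank ℚ K : ℝ))⁻¹|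
      ≤ 2 * (S + 2 * S) := by
        refine mul_le_mul (hmult w.1) ((abs_sub _ _).trans (add_le_add hAle hBd))
          (abs_nonneg _) (by norm_num)
    _ = 6 * S := by ring

/-- `W` is Lipschitz in the logarithmic coordinates. -/
theorem W_lip : ∃ L : ℝ, ∀ x y : 𝓞 K, x ≠ 0 → y ≠ 0 →
    |W K x - W K y| ≤
      L * ∑ w : InfinitePlace K, |Real.log (w (x : K)) - Real.log (w (y : K))| := by
  obtain ⟨L, -, hL⟩ := W_lip' K
  exact ⟨L, hL⟩

end numberField

end Fermat.Agent.S14.H29
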