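import Fermat.Agent.S14.Stmts
import Fermat.Agent.S14.UnitWeight_helper29
import Fermat.Agent.S14.CosetCompare_helper29

/-!
# S14 / WP8 (bound B): assembly

`stmtB_of`: the bound `|Z_C(s) - Z_C'(s)| ≤ B` on `(1, 2)` from
* the orbit decomposition `Z_C(s) = N(J)^s / w * ∑_{γ ∈ J} W γ |N γ|^(-s)`,
* the translation bound `∑_{γ ∈ J} |F_s (γ + r) - F_s γ| ≤ B(J, r)`,
* the boundedness of `(s - 1) ζ_K(s)` on `(1, 2)`.
-/

set_option autoImplicit false

open NumberField NumberField.Units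
open scoped nonZeroDivisors

namespace Fermat.Agent.S14.H29

variable (K : Type*) [Field K] [NumberField K]

/-- `F s γ = W γ * |N γ| ^ (-s)`. -/
noncomputable def wF (s : ℝ) (γ : 𝓞 K) : ℝ := W K γ * |(Algebra.norm ℤ γ : ℝ)| ^ (-s)

theorem wF_nonneg (s : ℝ) (γ : 𝓞 K) : 0 ≤ wF K s γ :=
  mul_nonneg (W_nonneg K γ) (Real.rpow_nonneg (abs_nonneg _) _)

/-- The orbit decomposition (to be supplied). -/
def OrbitDecomp : Prop :=
  ∀ (C : ClassGroup (𝓞 K)) (J : (Ideal (𝓞 K))⁰), ClassGroup.mk0 J = C⁻¹ → ∀ s : ℝ, 1 < s →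
    Summable (fun γ : (J : Ideal (𝓞 K)) => wF K s γ) ∧
    partialZeta K C s = (Ideal.absNorm (J : Ideal (𝓞 K)) : ℝ) ^ s / (torsionOrder K : ℝ) *
      ∑' γ : (J : Ideal (𝓞 K)), wF K s γ

/-- The translation bound (to be supplied). -/
def TransBd : Prop :=
  ∀ (J : Ideal (𝓞 K)) (r : 𝓞 K), ∃ B : ℝ, ∀ s : ℝ, 1 < s → s < 2 →
    Summable (fun γ : J => |wF K s ((γ : 𝓞 K) + r) - wF K s γ|) ∧
      ∑' γ : J, |wF K s ((γ : 𝓞 K) + r) - wF K s γ| ≤ B

variable {K}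

theorem summable_wF (hA : OrbitDecomp K) {s : ℝ} (hs : 1 < s) : Summable (wF K s) := by
  have h := (hA 1 1 (by simp) s hs).1
  have h1 : ((1 : (Ideal (𝓞 K))⁰) : Ideal (𝓞 K)) = ⊤ := by simp [Ideal.one_eq_top]
  have h2 : Summable (fun γ : (⊤ : Ideal (𝓞 K)) => wF K s γ) := by
    rw [h1] at h
    exact h
  exact (Submodule.topEquiv (R := 𝓞 K) (M := 𝓞 K)).toEquiv.summable_iff.mp h2

theorem partialZeta_one (hA : OrbitDecomp K) {s : ℝ} (hs : 1 < s) :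
    partialZeta K 1 s = (∑' γ : 𝓞 K, wF K s γ) / (torsionOrder K : ℝ) := by
  have h := (hA 1 1 (by simp) s hs).2
  rw [h]
  have h2 : ∑' γ : ((1 : (Ideal (𝓞 K))⁰) : Ideal (𝓞 K)), wF K s γ = ∑' γ : 𝓞 K, wF K s γ := by
    have : ((1 : (Ideal (𝓞 K))⁰) : Ideal (𝓞 K)) = ⊤ := by simp [Ideal.one_eq_top]
    rw [this]
    exact (Submodule.topEquiv (R := 𝓞 K) (M := 𝓞 K)).toEquiv.tsum_eq (wF K s)
  rw [h2]
  simp only [Submonoid.coe_one, Ideal.one_eq_top, Ideal.absNorm_top, Nat.cast_one, Real.one_rpow]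
  ring

theorem partialZeta_le_idealZeta
    (hZs : ∀ s : ℝ, 1 < s →
      Summable (fun I : (Ideal (𝓞 K))⁰ => (Ideal.absNorm (I : Ideal (𝓞 K)) : ℝ) ^ (-s)))
    (C : ClassGroup (𝓞 K)) {s : ℝ} (hs : 1 < s) : partialZeta K C s ≤ idealZeta K s :=
  (hZs s hs).tsum_subtype_le _ {I : (Ideal (𝓞 K))⁰ | ClassGroup.mk0 I = C}
    (fun _ ↦ Real.rpow_nonneg (Nat.cast_nonneg _) _)

/-- Each partial zeta function is within `O(1)` of `(∑_{γ ∈ 𝓞 K} F_s γ) / w`. -/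
theorem exists_bound_partialZeta_sub (hA : OrbitDecomp K) (hL : TransBd K)
    (hZs : ∀ s : ℝ, 1 < s →
      Summable (fun I : (Ideal (𝓞 K))⁰ => (Ideal.absNorm (I : Ideal (𝓞 K)) : ℝ) ^ (-s)))
    (hZ : ∃ B : ℝ, ∀ s : ℝ, 1 < s → s < 2 → (s - 1) * idealZeta K s ≤ B)
    (C : ClassGroup (𝓞 K)) :
    ∃ B : ℝ, ∀ s : ℝ, 1 < s → s < 2 →
      |partialZeta K C s - (∑' γ : 𝓞 K, wF K s γ) / (torsionOrder K : ℝ)| ≤ B := by
  obtain ⟨J, hJ⟩ := ClassGroup.mk0_surjective C⁻¹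
  obtain ⟨Bz, hBz⟩ := hZ
  set H : AddSubgroup (𝓞 K) := (J : Ideal (𝓞 K)).toAddSubgroup with hH
  have hidx : H.index = Ideal.absNorm (J : Ideal (𝓞 K)) := by
    rw [AddSubgroup.index_eq_card, Ideal.absNorm_apply, Submodule.cardQuot_apply]
    rfl
  have hN0 : Ideal.absNorm (J : Ideal (𝓞 K)) ≠ 0 := Ideal.absNorm_ne_zero_of_nonZeroDivisors J
  have : H.FiniteIndex := ⟨by rw [hidx]; exact hN0⟩
  obtain ⟨B₁, hB₁⟩ := coset_compare H (wF K) (fun s hs _ ↦ summable_wF hA hs)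
    (fun r ↦ hL (J : Ideal (𝓞 K)) r)
  set N : ℝ := (Ideal.absNorm (J : Ideal (𝓞 K)) : ℝ) with hN
  have hN1 : 1 ≤ N := by
    rw [hN]
    exact_mod_cast Nat.one_le_iff_ne_zero.mpr hN0
  set w : ℝ := (torsionOrder K : ℝ) with hw
  have hw0 : 0 < w := by
    rw [hw]
    exact_mod_cast torsionOrder_pos K
  refine ⟨N / w * B₁ + (N - 1) * max Bz 0, fun s hs1 hs2 ↦ ?_⟩
  set T : ℝ := ∑' γ : 𝓞 K, wF K s γ with hT
  set S : ℝ := ∑' γ : (J : Ideal (𝓞 K)), wF K s γ with hS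
  have hcmp : |T - N * S| ≤ B₁ := by
    have := hB₁ s hs1 hs2
    rw [hidx] at this
    exact this
  have hZC : partialZeta K C s = N ^ s / w * S := (hA C J hJ s hs1).2
  have hT0 : 0 ≤ T := tsum_nonneg fun γ ↦ wF_nonneg K s γ
  have hTle : T ≤ w * idealZeta K s := by
    have h1 := partialZeta_one hA hs1
    have h2 := partialZeta_le_idealZeta hZs (1 : ClassGroup (𝓞 K)) hs1
    rw [h1, div_le_iff₀ hw0] at h2
    linarith
  have hNs : N ^ s = N ^ (s - 1) * N := by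
    rw [← Real.rpow_add_one (by linarith), sub_add_cancel]
  have hp1 : 1 ≤ N ^ (s - 1) := Real.one_le_rpow hN1 (by linarith)
  have hpN : N ^ (s - 1) ≤ N := by
    calc N ^ (s - 1) ≤ N ^ (1 : ℝ) := Real.rpow_le_rpow_of_exponent_le hN1 (by linarith)
      _ = N := Real.rpow_one N
  have hbern : N ^ (s - 1) - 1 ≤ (s - 1) * (N - 1) := by
    have := rpow_one_add_le_one_add_mul_self (s := N - 1) (by linarith)
      (p := s - 1) (by linarith) (by linarith)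
    rw [add_sub_cancel] at this
    linarith
  have hzeta : (s - 1) * idealZeta K s ≤ max Bz 0 := (hBz s hs1 hs2).trans (le_max_left _ _)
  have hzeta0 : 0 ≤ idealZeta K s := tsum_nonneg fun I ↦ Real.rpow_nonneg (Nat.cast_nonneg _) _
  have heq : partialZeta K C s - T / w =
      N ^ (s - 1) / w * (N * S - T) + (N ^ (s - 1) - 1) / w * T := by
    rw [hZC, hNs]
    field_simp
    ring
  rw [heq]
  have hterm1 : |N ^ (s - 1) / w * (N * S - T)| ≤ N / w * B₁ := by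
    rw [abs_mul, abs_of_nonneg (by positivity), abs_sub_comm]
    have hB₁0 : 0 ≤ B₁ := (abs_nonneg _).trans hcmp
    exact mul_le_mul (div_le_div_of_nonneg_right hpN hw0.le) hcmp (abs_nonneg _) (by positivity)
  have hterm2 : |(N ^ (s - 1) - 1) / w * T| ≤ (N - 1) * max Bz 0 := by
    rw [abs_of_nonneg (mul_nonneg (div_nonneg (by linarith) hw0.le) hT0)]
    calc (N ^ (s - 1) - 1) / w * T ≤ (N ^ (s - 1) - 1) / w * (w * idealZeta K s) :=
          mul_le_mul_of_nonneg_left hTle (div_nonneg (by linarith) hw0.le)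
      _ = (N ^ (s - 1) - 1) * idealZeta K s := by field_simp
      _ ≤ (s - 1) * (N - 1) * idealZeta K s := mul_le_mul_of_nonneg_right hbern hzeta0
      _ = (N - 1) * ((s - 1) * idealZeta K s) := by ring
      _ ≤ (N - 1) * max Bz 0 := mul_le_mul_of_nonneg_left hzeta (by linarith)
  exact (abs_add_le _ _).trans (add_le_add hterm1 hterm2)

/-- **The bound B**, from the orbit decomposition, the translation bound and the pole of the
zeta function. -/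
theorem stmtB_of (hA : OrbitDecomp K) (hL : TransBd K)
    (hZs : ∀ s : ℝ, 1 < s →
      Summable (fun I : (Ideal (𝓞 K))⁰ => (Ideal.absNorm (I : Ideal (𝓞 K)) : ℝ) ^ (-s)))
    (hZ : ∃ B : ℝ, ∀ s : ℝ, 1 < s → s < 2 → (s - 1) * idealZeta K s ≤ B) :
    ∃ B : ℝ, ∀ s ∈ Set.Ioo (1 : ℝ) 2, ∀ C C' : ClassGroup (𝓞 K),
      |partialZeta K C s - partialZeta K C' s| ≤ B := by
  classical
  choose Bd hBd using exists_bound_partialZeta_sub hA hL hZs hZ
  refine ⟨2 * ∑ C : ClassGroup (𝓞 K), |Bd C|, fun s hs C C' ↦ ?_⟩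
  have hle : ∀ C : ClassGroup (𝓞 K), Bd C ≤ ∑ C : ClassGroup (𝓞 K), |Bd C| := fun C ↦
    (le_abs_self _).trans (Finset.single_le_sum (f := fun C ↦ |Bd C|)
      (fun _ _ ↦ abs_nonneg _) (Finset.mem_univ C))
  have h1 := (hBd C s hs.1 hs.2).trans (hle C)
  have h2 := (hBd C' s hs.1 hs.2).trans (hle C')
  calc |partialZeta K C s - partialZeta K C' s|
      = |(partialZeta K C s - (∑' γ : 𝓞 K, wF K s γ) / (torsionOrder K : ℝ)) -
          (partialZeta K C' s - (∑' γ : 𝓞 K, wF K s γ) / (torsionOrder K : ℝ))| := by ring_nf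
    _ ≤ |partialZeta K C s - (∑' γ : 𝓞 K, wF K s γ) / (torsionOrder K : ℝ)| +
          |partialZeta K C' s - (∑' γ : 𝓞 K, wF K s γ) / (torsionOrder K : ℝ)| := abs_sub _ _
    _ ≤ 2 * ∑ C : ClassGroup (𝓞 K), |Bd C| := by linarith

end Fermat.Agent.S14.H29
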