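import Mathlib

/-!
# S14, SP-a: generic Dedekind lemmas (helper86)

For an extension `A ⊆ B` of Dedekind domains and a prime `Q` of `B` over the nonzero prime
`q = Q ∩ A`:

* `count_span_algebraMap` : `v_Q(a) = e(Q|q) * v_q(a)` for `a ∈ A`;
* `dvd_count_of_pow_eq` (D4) : if `e = 1` and `a = b ^ p` in `B` then `p ∣ v_q(a)`;
* `mem_pow_under_of_mem_pow` (D2) : if `e = 1` then `Q ^ n ∩ A = q ^ n`;
* `exists_sub_mem_pow` (D1) : if `e = f = 1` then `A` is dense in `B` for the `Q`-adic topology;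
* `exists_eq_pow_of_dvd_count` (D3) : an ideal all of whose multiplicities are divisible by `p`
  is a `p`-th power.
-/

set_option autoImplicit false

namespace Fermat.Agent.S14.H86

open UniqueFactorizationMonoid Ideal

section Single

variable {R : Type*} [CommRing R] [IsDedekindDomain R]

/-- `P ^ n ∣ I ↔ n ≤ v_P(I)`. -/
theorem pow_dvd_iff_le_count (P : Ideal R) [hP : P.IsPrime] (hP0 : P ≠ ⊥) (I : Ideal R)
    (hI : I ≠ ⊥) (n : ℕ) :
    P ^ n ∣ I ↔ n ≤ Multiset.count P (normalizedFactors I) := by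
  have hirr : Irreducible P := (Ideal.prime_of_isPrime hP0 hP).irreducible
  rw [dvd_iff_normalizedFactors_le_normalizedFactors (pow_ne_zero n hP0) hI,
    normalizedFactors_pow, normalizedFactors_irreducible hirr, normalize_eq,
    Multiset.nsmul_singleton, ← Multiset.le_count_iff_replicate_le]

/-- `x ∈ P ^ n ↔ n ≤ v_P(x)` for `x ≠ 0`. -/
theorem mem_pow_iff_le_count (P : Ideal R) [P.IsPrime] (hP0 : P ≠ ⊥) (x : R) (hx : x ≠ 0)
    (n : ℕ) :
    x ∈ P ^ n ↔ n ≤ Multiset.count P (normalizedFactors (Ideal.span {x})) := by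
  rw [← pow_dvd_iff_le_count P hP0 _ (by simpa using hx), Ideal.dvd_span_singleton]

/-- (D3) an ideal all of whose multiplicities are divisible by `p` is a `p`-th power. -/
theorem exists_eq_pow_of_dvd_count (I : Ideal R) (hI : I ≠ ⊥) (p : ℕ)
    (h : ∀ q : Ideal R, q.IsPrime → q ≠ ⊥ → p ∣ Multiset.count q (normalizedFactors I)) :
    ∃ J : Ideal R, I = J ^ p := by
  obtain ⟨u, hu⟩ := Multiset.exists_smul_of_dvd_count (normalizedFactors I) (k := p)
    (fun q hq => h q (Ideal.isPrime_of_prime (prime_of_normalized_factor q hq))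
      (prime_of_normalized_factor q hq).ne_zero)
  refine ⟨u.prod, ?_⟩
  rw [← Multiset.prod_nsmul, ← hu, Ideal.prod_normalizedFactors_eq_self hI]

end Single

variable {A B : Type*} [CommRing A] [IsDedekindDomain A] [CommRing B] [IsDedekindDomain B]
  [Algebra A B] [Module.IsTorsionFree A B]

omit [Module.IsTorsionFree A B] in
/-- A prime of `B` over `P` does not divide the extension of a prime `P' ≠ P`. -/
theorem count_map_of_ne (P : Ideal A) [P.IsPrime] (Q : Ideal B) [Q.IsPrime]
    [Q.LiesOver P] (P' : Ideal A) (hP' : P'.IsPrime) (hP'0 : P' ≠ ⊥) (hne : P' ≠ P) :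
    Multiset.count Q (normalizedFactors (P'.map (algebraMap A B))) = 0 := by
  rw [Multiset.count_eq_zero]
  intro hmem
  have hle : P'.map (algebraMap A B) ≤ Q :=
    Ideal.le_of_dvd (dvd_of_mem_normalizedFactors hmem)
  have h1 : P' ≤ Q.comap (algebraMap A B) := Ideal.map_le_iff_le_comap.mp hle
  have h2 : Q.comap (algebraMap A B) = P := (Q.over_def P).symm
  rw [h2] at h1
  have hmax : P'.IsMaximal := hP'.isMaximal hP'0
  exact hne (hmax.eq_of_le (Ideal.IsPrime.ne_top inferInstance) h1)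

/-- Valuation bridge, ideal form: `v_Q(I B) = e(Q|P) * v_P(I)`. -/
theorem count_map (P : Ideal A) [P.IsPrime] (Q : Ideal B) [Q.IsPrime]
    [Q.LiesOver P] (I : Ideal A) (hI : I ≠ ⊥) :
    Multiset.count Q (normalizedFactors (I.map (algebraMap A B))) =
      Q.ramificationIdx A * Multiset.count P (normalizedFactors I) := by
  induction I using UniqueFactorizationMonoid.induction_on_prime with
  | h₁ => exact absurd rfl hI
  | h₂ I hu =>
    have hI1 : I = ⊤ := Ideal.isUnit_iff.mp hu
    subst hI1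
    rw [Ideal.map_top]
    have h1 : normalizedFactors (⊤ : Ideal B) = 0 := by
      rw [← Ideal.one_eq_top]; exact normalizedFactors_one
    have h2 : normalizedFactors (⊤ : Ideal A) = 0 := by
      rw [← Ideal.one_eq_top]; exact normalizedFactors_one
    rw [h1, h2]; simp
  | h₃ I P' hI0 hP' ih =>
    have hP'0 : P' ≠ ⊥ := hP'.ne_zero
    have hP'prime : P'.IsPrime := Ideal.isPrime_of_prime hP'
    have hmapP' : P'.map (algebraMap A B) ≠ ⊥ := Ideal.map_ne_bot_of_ne_bot hP'0
    have hmapI : I.map (algebraMap A B) ≠ ⊥ := Ideal.map_ne_bot_of_ne_bot hI0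
    rw [Ideal.map_mul, normalizedFactors_mul hmapP' hmapI, normalizedFactors_mul hP'0 hI0,
      Multiset.count_add, Multiset.count_add, ih hI0, mul_add]
    congr 1
    by_cases hne : P' = P
    · subst hne
      rw [normalizedFactors_irreducible hP'.irreducible, normalize_eq,
        Multiset.count_singleton_self, mul_one]
      exact (IsDedekindDomain.ramificationIdx_eq_normalizedFactors_count P' Q hmapP').symm
    · rw [count_map_of_ne P Q P' hP'prime hP'0 hne,
        normalizedFactors_irreducible hP'.irreducible, normalize_eq]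
      rw [Multiset.count_singleton, if_neg (fun h => hne h.symm), mul_zero]

/-- Valuation bridge for elements: `v_Q(a) = e(Q|P) * v_P(a)`. -/
theorem count_span_algebraMap (P : Ideal A) [P.IsPrime] (Q : Ideal B) [Q.IsPrime]
    [Q.LiesOver P] (a : A) (ha : a ≠ 0) :
    Multiset.count Q (normalizedFactors (Ideal.span {algebraMap A B a})) =
      Q.ramificationIdx A * Multiset.count P (normalizedFactors (Ideal.span {a})) := by
  have h : Ideal.span {algebraMap A B a} = (Ideal.span {a}).map (algebraMap A B) := by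
    rw [Ideal.map_span, Set.image_singleton]
  rw [h]
  exact count_map P Q (Ideal.span {a}) (by simpa using ha)

theorem ne_bot_of_under_ne_bot (Q : Ideal B) (hq : Q.under A ≠ ⊥) : Q ≠ ⊥ := by
  rintro rfl
  apply hq
  rw [eq_bot_iff]
  intro x hx
  rw [Ideal.under_def, Ideal.mem_comap, Ideal.mem_bot] at hx
  rw [Ideal.mem_bot]
  exact (FaithfulSMul.algebraMap_injective A B) (by rw [hx, map_zero])

/-- (D4) `e = 1` and `a = b ^ p` in `B`: `p ∣ v_q(a)`. -/
theorem dvd_count_of_pow_eq (Q : Ideal B) [Q.IsPrime] (_hq : Q.under A ≠ ⊥)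
    (he : Q.ramificationIdx A = 1) (p : ℕ) (a : A) (ha : a ≠ 0) (b : B)
    (hab : algebraMap A B a = b ^ p) :
    p ∣ Multiset.count (Q.under A) (normalizedFactors (Ideal.span {a})) := by
  have h1 := count_span_algebraMap (Q.under A) Q a ha
  rw [he, one_mul] at h1
  rw [← h1, hab, ← Ideal.span_singleton_pow, normalizedFactors_pow, Multiset.count_nsmul]
  exact dvd_mul_right _ _

/-- (D2) `e = 1`: `Q ^ n ∩ A = (Q ∩ A) ^ n`. -/
theorem mem_pow_under_of_mem_pow (Q : Ideal B) [Q.IsPrime] (hq : Q.under A ≠ ⊥)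
    (he : Q.ramificationIdx A = 1) (n : ℕ) (a : A) (ha : algebraMap A B a ∈ Q ^ n) :
    a ∈ (Q.under A) ^ n := by
  by_cases ha0 : a = 0
  · rw [ha0]; exact Ideal.zero_mem _
  have hQ : Q ≠ ⊥ := ne_bot_of_under_ne_bot Q hq
  have ha0' : algebraMap A B a ≠ 0 := fun h =>
    ha0 ((FaithfulSMul.algebraMap_injective A B) (by rw [h, map_zero]))
  rw [mem_pow_iff_le_count Q hQ _ ha0', count_span_algebraMap (Q.under A) Q a ha0, he,
    one_mul] at ha
  exact (mem_pow_iff_le_count (Q.under A) hq a ha0 n).mpr ha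

/-- `e = 1`: `(Q ∩ A) ^ n = Q ^ n ∩ A` as ideals. -/
theorem comap_pow_eq (Q : Ideal B) [Q.IsPrime] (hq : Q.under A ≠ ⊥)
    (he : Q.ramificationIdx A = 1) (n : ℕ) :
    (Q ^ n).comap (algebraMap A B) = (Q.under A) ^ n := by
  apply le_antisymm
  · intro a ha
    exact mem_pow_under_of_mem_pow Q hq he n a ha
  · intro a ha
    rw [Ideal.mem_comap]
    have h1 : Ideal.map (algebraMap A B) ((Q.under A) ^ n) ≤ Q ^ n := by
      rw [Ideal.map_pow]
      exact Ideal.pow_right_mono (Ideal.map_comap_le) n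
    exact h1 (Ideal.mem_map_of_mem _ ha)

/-- `f = 1`: `A → B ⧸ Q` is surjective. -/
theorem exists_sub_mem (Q : Ideal B) [Q.IsPrime] (hq : Q.under A ≠ ⊥)
    (hf : Q.inertiaDeg A = 1) (x : B) : ∃ y : A, x - algebraMap A B y ∈ Q := by
  have hQ : Q ≠ ⊥ := ne_bot_of_under_ne_bot Q hq
  have : (Q.under A).IsMaximal := Ideal.IsPrime.isMaximal inferInstance hq
  have : Q.IsMaximal := Ideal.IsPrime.isMaximal inferInstance hQ
  rw [Ideal.inertiaDeg_eq_of_isMaximal (Q.under A) Q] at hf
  let _ : Field (A ⧸ Q.under A) := Ideal.Quotient.field _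
  let _ : Field (B ⧸ Q) := Ideal.Quotient.field _
  have h1 : (⊥ : Subalgebra (A ⧸ Q.under A) (B ⧸ Q)) = ⊤ :=
    Subalgebra.bot_eq_top_of_finrank_eq_one hf
  have h2 : Ideal.Quotient.mk Q x ∈ (⊥ : Subalgebra (A ⧸ Q.under A) (B ⧸ Q)) := by
    rw [h1]; trivial
  obtain ⟨w, hw⟩ := Algebra.mem_bot.mp h2
  obtain ⟨y, rfl⟩ := Ideal.Quotient.mk_surjective w
  refine ⟨y, ?_⟩
  rw [← Ideal.Quotient.eq_zero_iff_mem, map_sub, ← hw]
  exact sub_eq_zero.mpr rfl

/-- (D1) `e = f = 1`: `A` is dense in `B` for the `Q`-adic topology. -/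
theorem exists_sub_mem_pow (Q : Ideal B) [Q.IsPrime] (hq : Q.under A ≠ ⊥)
    (he : Q.ramificationIdx A = 1) (hf : Q.inertiaDeg A = 1) (n : ℕ) (x : B) :
    ∃ y : A, x - algebraMap A B y ∈ Q ^ n := by
  have hQ : Q ≠ ⊥ := ne_bot_of_under_ne_bot Q hq
  induction n with
  | zero => exact ⟨0, by simp⟩
  | succ n ih =>
    obtain ⟨y, hy⟩ := ih
    have hq1 : Q.under A ≠ ⊤ := Ideal.IsPrime.ne_top inferInstance
    obtain ⟨s, hs, hs'⟩ := Ideal.exists_mem_pow_notMem_pow_succ (Q.under A) hq hq1 n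
    have hs0 : s ≠ 0 := by
      rintro rfl
      exact hs' (Ideal.zero_mem _)
    have hs0' : algebraMap A B s ≠ 0 := fun h =>
      hs0 ((FaithfulSMul.algebraMap_injective A B) (by rw [h, map_zero]))
    have hcount : Multiset.count Q (normalizedFactors (Ideal.span {algebraMap A B s})) =
        Multiset.count (Q.under A) (normalizedFactors (Ideal.span {s})) := by
      rw [count_span_algebraMap (Q.under A) Q s hs0, he, one_mul]
    have hsQ : algebraMap A B s ∈ Q ^ n := by
      rw [mem_pow_iff_le_count Q hQ _ hs0', hcount]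
      exact (mem_pow_iff_le_count (Q.under A) hq s hs0 n).mp hs
    have hsQ' : algebraMap A B s ∉ Q ^ (n + 1) := by
      rw [mem_pow_iff_le_count Q hQ _ hs0', hcount]
      exact fun h => hs' ((mem_pow_iff_le_count (Q.under A) hq s hs0 (n + 1)).mpr h)
    obtain ⟨d, e, he', hde⟩ := Ideal.exists_mul_add_mem_pow_succ hQ (algebraMap A B s)
      (x - algebraMap A B y) hsQ hsQ' hy
    obtain ⟨d', hd'⟩ := exists_sub_mem Q hq hf d
    refine ⟨y + s * d', ?_⟩
    have e1 : x - algebraMap A B (y + s * d') =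
        algebraMap A B s * (d - algebraMap A B d') + e := by
      rw [map_add, map_mul]
      linear_combination -hde
    rw [e1]
    refine Ideal.add_mem _ ?_ he'
    rw [pow_succ]
    exact Ideal.mul_mem_mul hsQ hd'

end Fermat.Agent.S14.H86
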