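import Mathlib
import Fermat.Agent.S14.LocalDict_helper87
import Fermat.Agent.S14.Dedekind_helper86

/-!
# S14 / SP-c: local facts about `ℚ(ζ_p) ⊆ ℚ̄` in the valuation-subring language (helper45)

* `inertia_apply_root_eq`: an inertia group over `ℓ ≠ p` fixes the `p`-th roots of unity;
* `center_eq_span_zeta_sub_one`: the centre on `ℚ⟮ζ⟯` of a valuation subring over `p` is the
  prime `(ζ - 1)`;
* normalisation lemmas (`exists_pow_mul_not_dvd`, `exists_nat_mul_isIntegral`).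
-/

set_option autoImplicit false

open scoped NumberField IntermediateField

namespace Fermat.Agent.S14.H45

local notation "Qb" => AlgebraicClosure ℚ
local notation "Γ" => (AlgebraicClosure ℚ ≃ₐ[ℚ] AlgebraicClosure ℚ)

theorem isAlgebraic_Qb : Algebra.IsAlgebraic ℚ Qb := AlgebraicClosure.isAlgebraic ℚ

theorem isIntegral_Qb (x : Qb) : IsIntegral ℚ x :=
  (isAlgebraic_Qb.isAlgebraic x).isIntegral

/-! ## Generic valuation-subring lemmas -/

section Generic

variable {L : Type*} [Field L]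

theorem mem_nonunits_iff_valuation_lt_one (A : ValuationSubring L) (x : L) :
    x ∈ A.nonunits ↔ A.valuation x < 1 := Iff.rfl

/-- A root of unity lies in every valuation subring. -/
theorem mem_of_pow_eq_one (A : ValuationSubring L) {ζ : L} {n : ℕ} (hn : n ≠ 0)
    (hζ : ζ ^ n = 1) : ζ ∈ A := by
  rw [← A.valuation_le_one_iff]
  by_contra h
  rw [not_le] at h
  have h1 : 1 < A.valuation ζ ^ n := one_lt_pow₀ h hn
  rw [← map_pow, hζ, map_one] at h1
  exact lt_irrefl _ h1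

theorem intCast_mem_valuationSubring (A : ValuationSubring L) (a : ℤ) : (a : L) ∈ A :=
  _root_.intCast_mem A a

/-- Multiplying a nonunit by an element of `A` gives a nonunit. -/
theorem mul_mem_nonunits (A : ValuationSubring L) {a x : L} (ha : a ∈ A)
    (hx : x ∈ A.nonunits) : a * x ∈ A.nonunits := by
  rw [mem_nonunits_iff_valuation_lt_one] at hx ⊢
  rw [map_mul]
  have h1 : A.valuation a ≤ 1 := (A.valuation_le_one_iff a).mpr ha
  exact lt_of_le_of_lt (mul_le_of_le_one_left' h1) hx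

theorem add_mem_nonunits (A : ValuationSubring L) {x y : L} (hx : x ∈ A.nonunits)
    (hy : y ∈ A.nonunits) : x + y ∈ A.nonunits := by
  rw [mem_nonunits_iff_valuation_lt_one] at hx hy ⊢
  exact Valuation.map_add_lt _ hx hy

theorem one_not_mem_nonunits (A : ValuationSubring L) : (1 : L) ∉ A.nonunits := by
  rw [mem_nonunits_iff_valuation_lt_one, map_one]
  exact lt_irrefl _

/-- A valuation subring lies over at most one prime. -/
theorem natCast_not_mem_nonunits_of_ne (A : ValuationSubring L) {p ℓ : ℕ} (hp : p.Prime)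
    (hℓ : ℓ.Prime) (hne : ℓ ≠ p) (hA : (ℓ : L) ∈ A.nonunits) : (p : L) ∉ A.nonunits := by
  intro hpA
  have hcop : IsCoprime (p : ℤ) (ℓ : ℤ) :=
    Nat.isCoprime_iff_coprime.mpr ((Nat.coprime_primes hp hℓ).mpr (Ne.symm hne))
  obtain ⟨a, b, hab⟩ := hcop
  have h1 : (1 : L) = (a : L) * (p : L) + (b : L) * (ℓ : L) := by
    have := congrArg (Int.cast : ℤ → L) hab
    push_cast at this
    exact this.symm
  apply one_not_mem_nonunits A
  rw [h1]
  exact add_mem_nonunits A (mul_mem_nonunits A (intCast_mem_valuationSubring A a) hpA)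
    (mul_mem_nonunits A (intCast_mem_valuationSubring A b) hA)

/-- If `p` is a unit of `A` then `1 - ζ` is a unit of `A` for a primitive `p`-th root `ζ`. -/
theorem one_sub_root_not_mem_nonunits (A : ValuationSubring L) {p : ℕ} (hp : p.Prime)
    (hpA : (p : L) ∉ A.nonunits) {ζ : L} (hζ : IsPrimitiveRoot ζ p) : 1 - ζ ∉ A.nonunits := by
  classical
  intro h
  apply hpA
  have : Fact p.Prime := ⟨hp⟩
  have hprod : (p : L) = ∏ μ ∈ primitiveRoots p L, (1 - μ) := by
    have h1 := Polynomial.cyclotomic_eq_prod_X_sub_primitiveRoots (K := L) hζ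
    have h2 := congrArg (Polynomial.eval 1) h1
    rw [Polynomial.eval_one_cyclotomic_prime, Polynomial.eval_prod] at h2
    simpa using h2
  have hmem : ζ ∈ primitiveRoots p L := (mem_primitiveRoots hp.pos).mpr hζ
  rw [hprod, ← Finset.mul_prod_erase _ _ hmem, mul_comm]
  refine mul_mem_nonunits A (Subring.prod_mem _ fun μ hμ => ?_) h
  have hμ' : IsPrimitiveRoot μ p :=
    (mem_primitiveRoots hp.pos).mp (Finset.mem_of_mem_erase hμ)
  exact A.sub_mem A.one_mem (mem_of_pow_eq_one A hp.ne_zero hμ'.pow_eq_one)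

end Generic

/-! ## (c1) inertia over `ℓ ≠ p` fixes the `p`-th roots of unity -/

section Inertia

variable {K L : Type*} [Field K] [Field L] [Algebra K L]

/-- Generic form of (c1). -/
theorem inertia_apply_root_eq_of_unit (A : ValuationSubring L) {p : ℕ} (hp : p.Prime)
    (hpA : (p : L) ∉ A.nonunits) (σ : L ≃ₐ[K] L) (hσ : σ ∈ A.inertiaSubgroupIn K) {ζ : L}
    (hζ : ζ ^ p = 1) : σ ζ = ζ := by
  have : Fact p.Prime := ⟨hp⟩
  by_contra hne
  have hζA : ζ ∈ A := mem_of_pow_eq_one A hp.ne_zero hζ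
  have h1 : σ ζ - ζ ∈ A.nonunits :=
    H87.sub_mem_nonunits_of_mem_inertiaSubgroupIn A σ hσ ζ hζA
  have hζ0 : ζ ≠ 0 := by
    rintro rfl
    rw [zero_pow hp.ne_zero] at hζ
    exact zero_ne_one hζ
  -- `ξ = σ ζ / ζ` is a primitive `p`-th root of unity
  set ξ : L := σ ζ * ζ⁻¹ with hξ
  have hξp : ξ ^ p = 1 := by
    rw [hξ, mul_pow, ← map_pow, hζ, map_one, one_mul, inv_pow, hζ, inv_one]
  have hξ1 : ξ ≠ 1 := by
    intro h
    apply hne
    rw [hξ] at h
    field_simp at h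
    exact h
  have hξprim : IsPrimitiveRoot ξ p := by
    have := IsPrimitiveRoot.orderOf ξ
    rwa [orderOf_eq_prime hξp hξ1] at this
  apply one_sub_root_not_mem_nonunits A hp hpA hξprim
  have h2 : 1 - ξ = (-ζ⁻¹) * (σ ζ - ζ) := by
    rw [hξ]
    field_simp
    ring
  rw [h2]
  refine mul_mem_nonunits A (A.neg_mem _ ?_) h1
  have h3 : ζ⁻¹ = ζ ^ (p - 1) := by
    rw [eq_comm, ← mul_eq_one_iff_eq_inv₀ hζ0, ← pow_succ, Nat.sub_add_cancel hp.one_le, hζ]
  rw [h3]
  exact A.pow_mem hζA _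

end Inertia

/-- **(c1)** An inertia group over `ℓ ≠ p` fixes every `p`-th root of unity. -/
theorem inertia_apply_root_eq {p ℓ : ℕ} [Fact p.Prime] (hℓ : ℓ.Prime) (hℓp : ℓ ≠ p)
    (A : ValuationSubring Qb) (hA : A.LiesOverPrime ℓ) (σ : Γ)
    (hσ : σ ∈ A.inertiaSubgroupIn ℚ) {ζ : Qb} (hζ : ζ ^ p = 1) : σ ζ = ζ :=
  inertia_apply_root_eq_of_unit A (Fact.out : p.Prime)
    (natCast_not_mem_nonunits_of_ne A Fact.out hℓ hℓp hA) σ hσ hζ

/-- `σ` fixes `ℚ⟮ζ, β⟯` pointwise iff it fixes `ζ` and `β`. -/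
theorem mem_fixingSubgroup_adjoin_pair_iff (ζ β : Qb) (σ : Γ) :
    σ ∈ (IntermediateField.adjoin ℚ {ζ, β}).fixingSubgroup ↔ σ ζ = ζ ∧ σ β = β := by
  rw [IntermediateField.mem_fixingSubgroup_iff]
  constructor
  · intro h
    exact ⟨h ζ (IntermediateField.subset_adjoin ℚ _ (by simp)),
      h β (IntermediateField.subset_adjoin ℚ _ (by simp))⟩
  · rintro ⟨h1, h2⟩ x hx
    induction hx using IntermediateField.adjoin_induction with
    | mem x hx =>
      rcases hx with rfl | rfl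
      · exact h1
      · exact h2
    | algebraMap x => exact σ.commutes x
    | add x y _ _ hx hy => rw [map_add, hx, hy]
    | inv x _ hx => rw [map_inv₀, hx]
    | mul x y _ _ hx hy => rw [map_mul, hx, hy]

/-- **(c1')** an inertia element over `ℓ ≠ p` fixing `β` fixes `ℚ⟮ζ, β⟯` pointwise. -/
theorem inertia_mem_fixingSubgroup_adjoin {p ℓ : ℕ} [Fact p.Prime] (hℓ : ℓ.Prime) (hℓp : ℓ ≠ p)
    (A : ValuationSubring Qb) (hA : A.LiesOverPrime ℓ) (σ : Γ)
    (hσ : σ ∈ A.inertiaSubgroupIn ℚ) {ζ β : Qb} (hζ : ζ ^ p = 1) (hβ : σ β = β) :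
    σ ∈ (IntermediateField.adjoin ℚ {ζ, β}).fixingSubgroup :=
  (mem_fixingSubgroup_adjoin_pair_iff ζ β σ).mpr
    ⟨inertia_apply_root_eq hℓ hℓp A hA σ hσ hζ, hβ⟩

/-! ## (c2) the field `ℚ⟮ζ⟯ ⊆ ℚ̄` and its prime over `p`, in the centre language -/

section Cyclo

open UniqueFactorizationMonoid

variable {p : ℕ} [Fact p.Prime] {ζ : Qb}

theorem numberField_adjoin_root (ζ : Qb) : NumberField ℚ⟮ζ⟯ := by
  have : FiniteDimensional ℚ ℚ⟮ζ⟯ :=
    IntermediateField.adjoin.finiteDimensional (isIntegral_Qb ζ)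
  exact ⟨⟩

theorem isCyclotomicExtension_adjoin_root (hζ : IsPrimitiveRoot ζ p) :
    IsCyclotomicExtension {p} ℚ ℚ⟮ζ⟯ := by
  have : Algebra.IsAlgebraic ℚ Qb := isAlgebraic_Qb
  exact hζ.intermediateField_adjoin_isCyclotomicExtension ℚ

/-- `ζ` as an element of `ℚ⟮ζ⟯`. -/
def zK (ζ : Qb) : ℚ⟮ζ⟯ := ⟨ζ, IntermediateField.mem_adjoin_simple_self ℚ ζ⟩

@[simp] theorem coe_zK (ζ : Qb) : ((zK ζ : ℚ⟮ζ⟯) : Qb) = ζ := rfl

omit [Fact p.Prime] in
theorem isPrimitiveRoot_zK (hζ : IsPrimitiveRoot ζ p) : IsPrimitiveRoot (zK ζ) p :=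
  IsPrimitiveRoot.coe_submonoidClass_iff.mp hζ

/-- Elementwise: for `A` over the prime `ℓ`, `ζ - 1` is a nonunit of `A` iff `ℓ = p`. -/
theorem zeta_sub_one_mem_nonunits_iff (hζ : IsPrimitiveRoot ζ p) {ℓ : ℕ} (hℓ : ℓ.Prime)
    (A : ValuationSubring Qb) (hA : A.LiesOverPrime ℓ) : ζ - 1 ∈ A.nonunits ↔ ℓ = p := by
  classical
  have hp : p.Prime := Fact.out
  have hneg : ζ - 1 ∈ A.nonunits ↔ 1 - ζ ∈ A.nonunits := by
    rw [mem_nonunits_iff_valuation_lt_one, mem_nonunits_iff_valuation_lt_one,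
      ← Valuation.map_neg, neg_sub]
  constructor
  · intro h
    by_contra hne
    exact one_sub_root_not_mem_nonunits A hp (natCast_not_mem_nonunits_of_ne A hp hℓ hne hA) hζ
      (hneg.mp h)
  · rintro rfl
    rw [hneg]
    -- `p = ∏ (1 - μ)` is a nonunit, so some `1 - μ` is, and `1 - ζ` is a multiple of it in `A`
    have hprod : (ℓ : Qb) = ∏ μ ∈ primitiveRoots ℓ Qb, (1 - μ) := by
      have h1 := Polynomial.cyclotomic_eq_prod_X_sub_primitiveRoots (K := Qb) hζ
      have h2 := congrArg (Polynomial.eval 1) h1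
      rw [Polynomial.eval_one_cyclotomic_prime, Polynomial.eval_prod] at h2
      simpa using h2
    have hex : ∃ μ ∈ primitiveRoots ℓ Qb, 1 - μ ∈ A.nonunits := by
      by_contra hcon
      rw [not_exists] at hcon
      have h1 : A.valuation (∏ μ ∈ primitiveRoots ℓ Qb, (1 - μ)) = 1 := by
        rw [map_prod]
        refine Finset.prod_eq_one fun μ hμ => ?_
        have hμ' : IsPrimitiveRoot μ ℓ := (mem_primitiveRoots hp.pos).mp hμ
        have hle : A.valuation (1 - μ) ≤ 1 := (A.valuation_le_one_iff _).mpr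
          (A.sub_mem A.one_mem (mem_of_pow_eq_one A hp.ne_zero hμ'.pow_eq_one))
        have hnl : ¬ A.valuation (1 - μ) < 1 := fun hlt => hcon μ ⟨hμ, hlt⟩
        exact le_antisymm hle (not_lt.mp hnl)
      have h2 : A.valuation (ℓ : Qb) < 1 := hA
      rw [hprod, h1] at h2
      exact lt_irrefl _ h2
    obtain ⟨μ, hμ, hμA⟩ := hex
    have hμ' : IsPrimitiveRoot μ ℓ := (mem_primitiveRoots hp.pos).mp hμ
    obtain ⟨i, -, hi⟩ := hμ'.eq_pow_of_pow_eq_one hζ.pow_eq_one
    have hμmem : μ ∈ A := mem_of_pow_eq_one A hp.ne_zero hμ'.pow_eq_one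
    have hgeom : 1 - ζ = (∑ j ∈ Finset.range i, μ ^ j) * (1 - μ) := by
      rw [← hi, geom_sum_mul_neg]
    rw [hgeom]
    exact mul_mem_nonunits A (Subring.sum_mem _ fun j _ => A.pow_mem hμmem j) hμA

/-- **(c2)** the centre on `ℚ⟮ζ⟯` of a valuation subring over `p` is the prime `(ζ - 1)`. -/
theorem center_eq_span_zeta_sub_one (hζ : IsPrimitiveRoot ζ p) (A : ValuationSubring Qb)
    (hA : A.LiesOverPrime p) :
    H87.center A ℚ⟮ζ⟯ = Ideal.span {(isPrimitiveRoot_zK hζ).toInteger - 1} := by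
  have := numberField_adjoin_root ζ
  have := isCyclotomicExtension_adjoin_root hζ
  have hlo : (H87.center A ℚ⟮ζ⟯).LiesOver (Ideal.span {(p : ℤ)}) := by
    rw [Ideal.liesOver_iff]
    refine Ideal.IsMaximal.eq_of_le (Int.ideal_span_isMaximal_of_prime p) Ideal.IsPrime.ne_top' ?_
    rw [Ideal.span_singleton_le_iff_mem, Ideal.under, Ideal.mem_comap, algebraMap_int_eq,
      eq_intCast, Int.cast_natCast]
    exact (H87.natCast_mem_center_iff A _ p).mpr hA
  exact IsCyclotomicExtension.Rat.eq_span_zeta_sub_one_of_liesOver' p ℚ⟮ζ⟯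
    (isPrimitiveRoot_zK hζ) (H87.center A ℚ⟮ζ⟯)

/-- `ζ - 1` is not in the centre of a valuation subring over `ℓ ≠ p`. -/
theorem zeta_sub_one_not_mem_center (hζ : IsPrimitiveRoot ζ p) {ℓ : ℕ} (hℓ : ℓ.Prime)
    (hℓp : ℓ ≠ p) (A : ValuationSubring Qb) (hA : A.LiesOverPrime ℓ) :
    (isPrimitiveRoot_zK hζ).toInteger - 1 ∉ H87.center A ℚ⟮ζ⟯ := by
  rw [H87.mem_center_iff]
  intro h
  have h1 : ((((isPrimitiveRoot_zK hζ).toInteger - 1 : 𝓞 ℚ⟮ζ⟯) : ℚ⟮ζ⟯) : Qb) = ζ - 1 := rfl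
  rw [h1] at h
  exact hℓp ((zeta_sub_one_mem_nonunits_iff hζ hℓ A hA).mp h)

end Cyclo

/-! ## Abstract cyclotomic field: the unique prime over `p`, normalisation -/

section Abstract

open UniqueFactorizationMonoid

variable {p : ℕ} [Fact p.Prime] {K : Type*} [Field K] [NumberField K]
  [IsCyclotomicExtension {p} ℚ K] {z : K} (hz : IsPrimitiveRoot z p)

include hz in
/-- The unique prime of `𝓞 K` containing `p` is `(ζ - 1)`. -/
theorem eq_span_of_natCast_mem (P : Ideal (𝓞 K)) [P.IsPrime] (hP : (p : 𝓞 K) ∈ P) :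
    P = Ideal.span {hz.toInteger - 1} := by
  have hlo : P.LiesOver (Ideal.span {(p : ℤ)}) := by
    rw [Ideal.liesOver_iff]
    refine Ideal.IsMaximal.eq_of_le (Int.ideal_span_isMaximal_of_prime p) Ideal.IsPrime.ne_top' ?_
    rw [Ideal.span_singleton_le_iff_mem, Ideal.under, Ideal.mem_comap, algebraMap_int_eq,
      eq_intCast, Int.cast_natCast]
    exact hP
  exact IsCyclotomicExtension.Rat.eq_span_zeta_sub_one_of_liesOver' p K hz P

theorem span_zeta_sub_one_ne_bot : Ideal.span {hz.toInteger - 1} ≠ (⊥ : Ideal (𝓞 K)) := by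
  rw [Ne, Ideal.span_singleton_eq_bot]
  exact hz.zeta_sub_one_prime'.ne_zero

/-- **(c3)** extracting the exact power of `π = ζ - 1`. -/
theorem exists_pow_mul_not_dvd (α : 𝓞 K) (hα : α ≠ 0) :
    ∃ (k : ℕ) (α' : 𝓞 K), α = (hz.toInteger - 1) ^ k * α' ∧ ¬ (hz.toInteger - 1) ∣ α' ∧
      k = Multiset.count (Ideal.span {hz.toInteger - 1})
        (normalizedFactors (Ideal.span {α})) := by
  obtain ⟨k, α', hnd, hk⟩ := WfDvdMonoid.max_power_factor hα hz.zeta_sub_one_prime'.irreducible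
  refine ⟨k, α', hk, hnd, ?_⟩
  have hP0 := span_zeta_sub_one_ne_bot hz
  have h1 : ∀ n : ℕ, α ∈ Ideal.span {hz.toInteger - 1} ^ n ↔
      n ≤ Multiset.count (Ideal.span {hz.toInteger - 1}) (normalizedFactors (Ideal.span {α})) :=
    fun n => H86.mem_pow_iff_le_count _ hP0 α hα n
  have h2 : ∀ n : ℕ, α ∈ Ideal.span {hz.toInteger - 1} ^ n ↔ (hz.toInteger - 1) ^ n ∣ α := by
    intro n
    rw [Ideal.span_singleton_pow, Ideal.mem_span_singleton]
  apply le_antisymm
  · rw [← h1, h2]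
    exact ⟨α', hk⟩
  · by_contra hlt
    rw [not_le] at hlt
    have h3 : (hz.toInteger - 1) ^ (k + 1) ∣ α := (h2 _).mp ((h1 _).mpr hlt)
    rw [hk, pow_succ] at h3
    exact hnd ((mul_dvd_mul_iff_left (pow_ne_zero k hz.zeta_sub_one_prime'.ne_zero)).mp h3)

end Abstract

/-- Clearing denominators by a positive integer. -/
theorem exists_nat_mul_isIntegral (β : Qb) : ∃ n : ℕ, 0 < n ∧ IsIntegral ℤ ((n : Qb) * β) := by
  have halg : IsAlgebraic ℤ β :=
    (IsFractionRing.isAlgebraic_iff ℤ ℚ Qb).mpr (isAlgebraic_Qb.isAlgebraic β)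
  obtain ⟨y, hy0, hy⟩ := halg.exists_integral_multiple
  refine ⟨y.natAbs, Int.natAbs_pos.mpr hy0, ?_⟩
  have hcast : ((y.natAbs : ℕ) : Qb) = ((y.natAbs : ℤ) : Qb) := (Int.cast_natCast _).symm
  rcases Int.natAbs_eq y with h | h
  · have h' : ((y.natAbs : ℕ) : Qb) * β = y • β := by
      rw [zsmul_eq_mul, hcast, ← h]
    rw [h']
    exact hy
  · have h' : ((y.natAbs : ℕ) : Qb) * β = -(y • β) := by
      have h2 : ((y.natAbs : ℤ) : Qb) = -(y : Qb) := by
        have h3 : (y.natAbs : ℤ) = -y := by omega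
        rw [h3]; push_cast; rfl
      rw [zsmul_eq_mul, hcast, h2, neg_mul]
    rw [h']
    exact hy.neg

end Fermat.Agent.S14.H45
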