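import Fermat.Agent.S14.Stmts

/-!
# S14, task 179: (D2)

Primes whose class lies in a subgroup `H` of index `p` of the class group have "density" at most
`1/p`: from the bound (B) on differences of partial zeta functions, the asymptotics of the ideal
zeta function and the Euler product limit.

For a character `ψ` of order `p` of the class group, trivial on `H`, and
`L_j(s) = ∑ ψ^j([I]) N(I)^(-s)`: `∏_{j<p} (1 - ψ(𝔭)^j x) = (1 - x)^p` or `1 - x^p`, so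
`1/2 ≤ ∏_j ‖L_j‖ * ∏_{𝔭 ∈ T} (1 - x_𝔭)^p`, while `‖L_j‖ ≤ h B` for `j ≠ 0` and `L_0 = ζ_F`.
-/

set_option autoImplicit false

open scoped NumberField nonZeroDivisors

namespace Fermat.Agent.S14.H54

/-! ### Roots of unity and characters -/

theorem prod_one_sub_pow_mul {ω : ℂ} {p : ℕ} (hp : 0 < p) (hω : IsPrimitiveRoot ω p) (x : ℂ) :
    ∏ j ∈ Finset.range p, (1 - ω ^ j * x) = 1 - x ^ p := by
  have : NeZero p := ⟨hp.ne'⟩
  have h := hω.pow_sub_pow_eq_prod_sub_mul (1 : ℂ) x hp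
  rw [one_pow] at h
  rw [h]
  refine Finset.prod_bij (fun j _ => ω ^ j) ?_ ?_ ?_ ?_
  · intro j _
    rw [Polynomial.mem_nthRootsFinset hp, ← pow_mul, mul_comm, pow_mul, hω.pow_eq_one, one_pow]
  · intro i hi j hj hij
    exact hω.pow_inj (Finset.mem_range.mp hi) (Finset.mem_range.mp hj) hij
  · intro ζ hζ
    rw [Polynomial.mem_nthRootsFinset hp] at hζ
    obtain ⟨i, hi, rfl⟩ := hω.eq_pow_of_pow_eq_one hζ
    exact ⟨i, Finset.mem_range.mpr hi, rfl⟩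
  · intro j _
    rfl

theorem sum_char_eq_zero {G : Type*} [CommGroup G] [Fintype G] (χ : G →* ℂˣ) {g : G}
    (hg : χ g ≠ 1) : ∑ c : G, ((χ c : ℂˣ) : ℂ) = 0 := by
  have h1 : ((χ g : ℂˣ) : ℂ) * ∑ c : G, ((χ c : ℂˣ) : ℂ) = ∑ c : G, ((χ c : ℂˣ) : ℂ) := by
    rw [Finset.mul_sum]
    refine Fintype.sum_equiv (Equiv.mulLeft g) _ _ fun c => ?_
    simp
  have h2 : (((χ g : ℂˣ) : ℂ) - 1) * ∑ c : G, ((χ c : ℂˣ) : ℂ) = 0 := by
    rw [sub_mul, h1, one_mul, sub_self]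
  rcases mul_eq_zero.mp h2 with h | h
  · exfalso
    apply hg
    ext
    simpa [sub_eq_zero] using h
  · exact h

/-- A character of order `p` which is trivial on a subgroup of index `p`. -/
theorem exists_char {G : Type*} [CommGroup G] [Finite G] {p : ℕ} (hp : p.Prime)
    (H : Subgroup G) (hH : H.index = p) :
    ∃ ψ : G →* ℂˣ, (∀ c ∈ H, ψ c = 1) ∧ (∀ c, ψ c ^ p = 1) ∧ ∃ c₀, ψ c₀ ≠ 1 := by
  have hcard : Nat.card (G ⧸ H) = p := hH
  have hnt : Nontrivial (G ⧸ H) := by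
    rw [← Finite.one_lt_card_iff_nontrivial, hcard]
    exact hp.one_lt
  obtain ⟨a, ha⟩ := exists_ne (1 : G ⧸ H)
  obtain ⟨φ, hφ⟩ := CommGroup.exists_apply_ne_one_of_hasEnoughRootsOfUnity (G ⧸ H) ℂ ha
  refine ⟨φ.comp (QuotientGroup.mk' H), fun c hc => ?_, fun c => ?_, ?_⟩
  · simp [(QuotientGroup.eq_one_iff c).mpr hc]
  · rw [MonoidHom.comp_apply, ← map_pow, ← hcard, pow_card_eq_one', map_one]
  · obtain ⟨c₀, rfl⟩ := QuotientGroup.mk_surjective a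
    exact ⟨c₀, hφ⟩

/-! ### Norm terms and twisted multiplicative functions -/

section Main

variable {F : Type} [Field F] [NumberField F]

/-- The term `N(I)^(-s)`. -/
noncomputable def nrm (s : ℝ) (I : (Ideal (𝓞 F))⁰) : ℝ :=
  (Ideal.absNorm (I : Ideal (𝓞 F)) : ℝ) ^ (-s)

theorem nrm_nonneg (s : ℝ) (I : (Ideal (𝓞 F))⁰) : 0 ≤ nrm s I :=
  Real.rpow_nonneg (Nat.cast_nonneg _) _

theorem nrm_one (s : ℝ) : nrm s (1 : (Ideal (𝓞 F))⁰) = 1 := by
  simp [nrm]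

theorem nrm_mul (s : ℝ) (I J : (Ideal (𝓞 F))⁰) : nrm s (I * J) = nrm s I * nrm s J := by
  simp only [nrm, Submonoid.coe_mul, map_mul, Nat.cast_mul]
  exact Real.mul_rpow (Nat.cast_nonneg _) (Nat.cast_nonneg _)

theorem nrm_lt_one {s : ℝ} (hs : 1 < s) {𝔭 : (Ideal (𝓞 F))⁰}
    (h𝔭 : (𝔭 : Ideal (𝓞 F)).IsPrime) : nrm s 𝔭 < 1 := by
  have h2 : 2 ≤ Ideal.absNorm (𝔭 : Ideal (𝓞 F)) := by
    have h0 : Ideal.absNorm (𝔭 : Ideal (𝓞 F)) ≠ 0 := by
      rw [Ne, Ideal.absNorm_eq_zero_iff]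
      exact nonZeroDivisors.coe_ne_zero 𝔭
    have h1 : Ideal.absNorm (𝔭 : Ideal (𝓞 F)) ≠ 1 := by
      rw [Ne, Ideal.absNorm_eq_one_iff]
      exact h𝔭.ne_top
    omega
  exact Real.rpow_lt_one_of_one_lt_of_neg (by exact_mod_cast h2) (by linarith)

/-- The completely multiplicative function `I ↦ ψ([I])^j N(I)^(-s)`. -/
noncomputable def twist (ψ : ClassGroup (𝓞 F) →* ℂˣ) (j : ℕ) (s : ℝ) : (Ideal (𝓞 F))⁰ →* ℂ where
  toFun I := ((ψ (ClassGroup.mk0 I) : ℂˣ) : ℂ) ^ j * ((nrm s I : ℝ) : ℂ)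
  map_one' := by simp [nrm_one]
  map_mul' I J := by
    simp only [map_mul, Units.val_mul, nrm_mul, Complex.ofReal_mul, mul_pow]
    ring

theorem twist_apply (ψ : ClassGroup (𝓞 F) →* ℂˣ) (j : ℕ) (s : ℝ) (I : (Ideal (𝓞 F))⁰) :
    twist ψ j s I = ((ψ (ClassGroup.mk0 I) : ℂˣ) : ℂ) ^ j * ((nrm s I : ℝ) : ℂ) := rfl

omit [NumberField F] in
theorem norm_char_eq_one {p : ℕ} (hp : p ≠ 0) (ψ : ClassGroup (𝓞 F) →* ℂˣ)
    (hψp : ∀ c, ψ c ^ p = 1) (c : ClassGroup (𝓞 F)) : ‖((ψ c : ℂˣ) : ℂ)‖ = 1 := by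
  refine Complex.norm_eq_one_of_pow_eq_one (n := p) ?_ hp
  rw [← Units.val_pow_eq_pow_val, hψp c, Units.val_one]

theorem norm_twist {p : ℕ} (hp : p ≠ 0) (ψ : ClassGroup (𝓞 F) →* ℂˣ)
    (hψp : ∀ c, ψ c ^ p = 1) (j : ℕ) (s : ℝ) (I : (Ideal (𝓞 F))⁰) :
    ‖twist ψ j s I‖ = nrm s I := by
  rw [twist_apply, norm_mul, norm_pow, norm_char_eq_one hp ψ hψp, one_pow, one_mul,
    Complex.norm_real, Real.norm_of_nonneg (nrm_nonneg s I)]

/-- Decomposition of the twisted Dirichlet series into partial zeta functions. -/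
theorem tsum_twist_eq {p : ℕ} (hp : p ≠ 0) (ψ : ClassGroup (𝓞 F) →* ℂˣ)
    (hψp : ∀ c, ψ c ^ p = 1) (j : ℕ) {s : ℝ}
    (hsum : Summable (fun I : (Ideal (𝓞 F))⁰ => nrm s I)) :
    ∑' I, twist ψ j s I =
      ∑ C : ClassGroup (𝓞 F), ((ψ C : ℂˣ) : ℂ) ^ j * ((partialZeta F C s : ℝ) : ℂ) := by
  classical
  have hg : Summable (fun I => twist ψ j s I) :=
    Summable.of_norm (by simpa [norm_twist hp ψ hψp] using hsum)
  have h1 : ∀ I, twist ψ j s I = ∑ C : ClassGroup (𝓞 F),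
      Set.indicator {I | ClassGroup.mk0 I = C} (fun I => twist ψ j s I) I := by
    intro I
    simp [Set.indicator_apply]
  calc ∑' I, twist ψ j s I
      = ∑' I, ∑ C : ClassGroup (𝓞 F),
          Set.indicator {I | ClassGroup.mk0 I = C} (fun I => twist ψ j s I) I := tsum_congr h1
    _ = ∑ C : ClassGroup (𝓞 F), ∑' I,
          Set.indicator {I | ClassGroup.mk0 I = C} (fun I => twist ψ j s I) I :=
        Summable.tsum_finsetSum (fun C _ => hg.indicator _)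
    _ = ∑ C : ClassGroup (𝓞 F), ((ψ C : ℂˣ) : ℂ) ^ j * ((partialZeta F C s : ℝ) : ℂ) := by
        refine Finset.sum_congr rfl fun C _ => ?_
        rw [← tsum_subtype]
        unfold partialZeta
        rw [Complex.ofReal_tsum, ← tsum_mul_left]
        refine tsum_congr fun I => ?_
        have hI : ClassGroup.mk0 (I : (Ideal (𝓞 F))⁰) = C := I.2
        rw [twist_apply, hI]
        rfl

/-- The twisted series for a nontrivial power of the character is bounded by `h * B`. -/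
theorem norm_tsum_twist_le {p : ℕ} (hp : p.Prime) (ψ : ClassGroup (𝓞 F) →* ℂˣ)
    (hψp : ∀ c, ψ c ^ p = 1) {c₀ : ClassGroup (𝓞 F)} (hc₀ : ψ c₀ ≠ 1) {j : ℕ} (hj0 : 0 < j)
    (hjp : j < p) {s : ℝ} (hsum : Summable (fun I : (Ideal (𝓞 F))⁰ => nrm s I)) {B : ℝ}
    (hB : ∀ C C' : ClassGroup (𝓞 F), |partialZeta F C s - partialZeta F C' s| ≤ B) :
    ‖∑' I, twist ψ j s I‖ ≤ (Fintype.card (ClassGroup (𝓞 F)) : ℝ) * B := by
  rw [tsum_twist_eq hp.ne_zero ψ hψp j hsum]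
  have hpf : Fact p.Prime := ⟨hp⟩
  have hχ : (ψ ^ j) c₀ ≠ 1 := by
    rw [MonoidHom.pow_apply]
    intro h
    have ho : orderOf (ψ c₀) = p := orderOf_eq_prime (hψp c₀) hc₀
    have hd := orderOf_dvd_of_pow_eq_one h
    rw [ho] at hd
    exact absurd (Nat.le_of_dvd hj0 hd) (not_le.mpr hjp)
  have h0 : ∑ C : ClassGroup (𝓞 F), ((ψ C : ℂˣ) : ℂ) ^ j = 0 := by
    have := sum_char_eq_zero (ψ ^ j) hχ
    simpa [MonoidHom.pow_apply] using this
  have h1 : ∑ C : ClassGroup (𝓞 F), ((ψ C : ℂˣ) : ℂ) ^ j * ((partialZeta F C s : ℝ) : ℂ) =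
      ∑ C : ClassGroup (𝓞 F), ((ψ C : ℂˣ) : ℂ) ^ j *
        ((partialZeta F C s - partialZeta F 1 s : ℝ) : ℂ) := by
    have h2 : ∑ C : ClassGroup (𝓞 F), ((ψ C : ℂˣ) : ℂ) ^ j *
        ((partialZeta F C s - partialZeta F 1 s : ℝ) : ℂ) =
        ∑ C : ClassGroup (𝓞 F), ((ψ C : ℂˣ) : ℂ) ^ j * ((partialZeta F C s : ℝ) : ℂ) -
          (∑ C : ClassGroup (𝓞 F), ((ψ C : ℂˣ) : ℂ) ^ j) * ((partialZeta F 1 s : ℝ) : ℂ) := by
      rw [Finset.sum_mul, ← Finset.sum_sub_distrib]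
      refine Finset.sum_congr rfl fun C _ => ?_
      push_cast
      ring
    rw [h2, h0, zero_mul, sub_zero]
  rw [h1]
  calc ‖∑ C : ClassGroup (𝓞 F), ((ψ C : ℂˣ) : ℂ) ^ j *
        ((partialZeta F C s - partialZeta F 1 s : ℝ) : ℂ)‖
      ≤ ∑ C : ClassGroup (𝓞 F), ‖((ψ C : ℂˣ) : ℂ) ^ j *
        ((partialZeta F C s - partialZeta F 1 s : ℝ) : ℂ)‖ := norm_sum_le _ _
    _ ≤ ∑ _C : ClassGroup (𝓞 F), B := by
        refine Finset.sum_le_sum fun C _ => ?_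
        rw [norm_mul, norm_pow, norm_char_eq_one hp.ne_zero ψ hψp, one_pow, one_mul,
          Complex.norm_real]
        exact hB C 1
    _ = (Fintype.card (ClassGroup (𝓞 F)) : ℝ) * B := by simp

end Main

/-- (D2) from the bound (B), the ideal zeta asymptotics and the Euler limit. -/
theorem d2_of' (hB : StmtB) (h1a : StmtAN1a) (h1b : StmtAN1b) (hEL : StmtEulerLimit) :
    StmtD2 := by
  intro F _ _ p _ H hH
  classical
  have hp : p.Prime := Fact.out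
  have hp0 : (0 : ℝ) < p := by exact_mod_cast hp.pos
  have hp1 : (1 : ℝ) ≤ p := by exact_mod_cast hp.one_lt.le
  obtain ⟨ψ, hψH, hψp, c₀, hψc₀⟩ := exists_char hp H hH
  obtain ⟨B, hB'⟩ := hB F
  obtain ⟨C1, hC1⟩ := h1b F
  set M : ℝ := max ((Fintype.card (ClassGroup (𝓞 F)) : ℝ) * B) 1 with hM
  have hM1 : 1 ≤ M := le_max_right _ _
  refine ⟨(C1 + Real.log 2 + ((p - 1 : ℕ) : ℝ) * Real.log M) / p, ?_⟩
  intro s hs T hT
  have hs1 : 1 < s := hs.1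
  have hsum : Summable (fun I : (Ideal (𝓞 F))⁰ => nrm s I) := h1a F s hs1
  have hε : (0 : ℝ) < 1 / (2 * p) := by positivity
  have hε1 : 1 / (2 * (p : ℝ)) ≤ 1 := by
    rw [div_le_one (by positivity)]
    linarith
  have hEL' := fun j : ℕ => hEL F s hs1 (twist ψ j s)
    (fun I => (norm_twist hp.ne_zero ψ hψp j s I).le) (1 / (2 * p)) hε
  choose T0 hT0prime hT0 using hEL'
  set T' : Finset (Ideal (𝓞 F))⁰ := T ∪ (Finset.range p).biUnion T0 with hT'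
  have hT'prime : ∀ 𝔭 ∈ T', (𝔭 : Ideal (𝓞 F)).IsPrime := by
    intro 𝔭 h𝔭
    rcases Finset.mem_union.mp h𝔭 with h | h
    · exact (hT 𝔭 h).1
    · obtain ⟨j, _, hj⟩ := Finset.mem_biUnion.mp h
      exact hT0prime j 𝔭 hj
  set L : ℕ → ℂ := fun j => ∑' I, twist ψ j s I with hL
  -- each factor is close to `1`
  have hlow : ∀ j ∈ Finset.range p,
      1 - 1 / (2 * (p : ℝ)) ≤ ‖L j * ∏ 𝔭 ∈ T', (1 - twist ψ j s 𝔭)‖ := by
    intro j hj
    have h1 := hT0 j T'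
      (fun 𝔭 h => Finset.mem_union_right _ (Finset.mem_biUnion.mpr ⟨j, hj, h⟩)) hT'prime
    have h2 : ‖(1 : ℂ)‖ ≤ ‖L j * ∏ 𝔭 ∈ T', (1 - twist ψ j s 𝔭)‖ +
        ‖L j * ∏ 𝔭 ∈ T', (1 - twist ψ j s 𝔭) - 1‖ := by
      have := norm_sub_le (L j * ∏ 𝔭 ∈ T', (1 - twist ψ j s 𝔭))
        (L j * ∏ 𝔭 ∈ T', (1 - twist ψ j s 𝔭) - 1)
      simpa using this
    rw [norm_one] at h2
    linarith
  have hhalf : (1 / 2 : ℝ) ≤ ∏ j ∈ Finset.range p, ‖L j * ∏ 𝔭 ∈ T', (1 - twist ψ j s 𝔭)‖ := by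
    have hb : (1 / 2 : ℝ) ≤ (1 - 1 / (2 * (p : ℝ))) ^ p := by
      have h3 := one_add_mul_le_pow (a := -(1 / (2 * (p : ℝ)))) (by linarith) p
      have h4 : 1 + (p : ℝ) * -(1 / (2 * (p : ℝ))) = 1 / 2 := by
        field_simp
        ring
      rw [h4] at h3
      simpa [sub_eq_add_neg] using h3
    calc (1 / 2 : ℝ) ≤ (1 - 1 / (2 * (p : ℝ))) ^ p := hb
      _ = ∏ _j ∈ Finset.range p, (1 - 1 / (2 * (p : ℝ))) := by simp
      _ ≤ _ := Finset.prod_le_prod (fun _ _ => by linarith) hlow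
  -- rearrange the double product
  set R : (Ideal (𝓞 F))⁰ → ℝ := fun 𝔭 => ‖∏ j ∈ Finset.range p, (1 - twist ψ j s 𝔭)‖ with hR
  have hre : ∏ j ∈ Finset.range p, ‖L j * ∏ 𝔭 ∈ T', (1 - twist ψ j s 𝔭)‖ =
      (∏ j ∈ Finset.range p, ‖L j‖) * ∏ 𝔭 ∈ T', R 𝔭 := by
    simp only [norm_mul, norm_prod, hR]
    rw [Finset.prod_mul_distrib, Finset.prod_comm]
  -- the local factors
  have hRval : ∀ 𝔭 : (Ideal (𝓞 F))⁰, (𝔭 : Ideal (𝓞 F)).IsPrime →
      0 ≤ R 𝔭 ∧ R 𝔭 ≤ 1 ∧ (ψ (ClassGroup.mk0 𝔭) = 1 → R 𝔭 = (1 - nrm s 𝔭) ^ p) := by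
    intro 𝔭 h𝔭
    have hx0 := nrm_nonneg s 𝔭
    have hx1 := nrm_lt_one hs1 h𝔭
    have hform : ∏ j ∈ Finset.range p, (1 - twist ψ j s 𝔭) =
        ∏ j ∈ Finset.range p,
          (1 - ((ψ (ClassGroup.mk0 𝔭) : ℂˣ) : ℂ) ^ j * ((nrm s 𝔭 : ℝ) : ℂ)) := rfl
    by_cases h1 : ψ (ClassGroup.mk0 𝔭) = 1
    · have hval : R 𝔭 = (1 - nrm s 𝔭) ^ p := by
        simp only [hR, hform, h1, Units.val_one, one_pow, one_mul, Finset.prod_const,
          Finset.card_range]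
        rw [norm_pow, ← Complex.ofReal_one, ← Complex.ofReal_sub, Complex.norm_real,
          Real.norm_of_nonneg (by linarith)]
      refine ⟨norm_nonneg _, ?_, fun _ => hval⟩
      rw [hval]
      exact pow_le_one₀ (by linarith) (by linarith)
    · have hprim : IsPrimitiveRoot ((ψ (ClassGroup.mk0 𝔭) : ℂˣ) : ℂ) p := by
        have ho : orderOf (ψ (ClassGroup.mk0 𝔭)) = p := orderOf_eq_prime (hψp _) h1
        have h2 := IsPrimitiveRoot.orderOf (ψ (ClassGroup.mk0 𝔭))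
        rw [ho] at h2
        exact IsPrimitiveRoot.coe_units_iff.mpr h2
      have hval : R 𝔭 = 1 - nrm s 𝔭 ^ p := by
        simp only [hR, hform]
        rw [prod_one_sub_pow_mul hp.pos hprim, ← Complex.ofReal_pow, ← Complex.ofReal_one,
          ← Complex.ofReal_sub, Complex.norm_real, Real.norm_of_nonneg]
        have := pow_le_one₀ hx0 hx1.le (n := p)
        linarith
      refine ⟨norm_nonneg _, ?_, fun h => absurd h h1⟩
      rw [hval]
      have := pow_nonneg hx0 p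
      linarith
  -- bounds for the `L j`
  have hζ0 : 0 ≤ idealZeta F s := tsum_nonneg fun I => nrm_nonneg s I
  have hL0 : ‖L 0‖ = idealZeta F s := by
    have h0 : L 0 = ((idealZeta F s : ℝ) : ℂ) := by
      simp only [hL, twist_apply, pow_zero, one_mul]
      rw [← Complex.ofReal_tsum]
      rfl
    rw [h0, Complex.norm_real, Real.norm_of_nonneg hζ0]
  have hLj : ∀ j ∈ Finset.range (p - 1), ‖L (j + 1)‖ ≤ M := by
    intro j hj
    have hjp : j + 1 < p := by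
      have := Finset.mem_range.mp hj
      omega
    exact (norm_tsum_twist_le hp ψ hψp hψc₀ (Nat.succ_pos j) hjp hsum (hB' s hs)).trans
      (le_max_left _ _)
  have hLprod : ∏ j ∈ Finset.range p, ‖L j‖ ≤ idealZeta F s * M ^ (p - 1) := by
    have hpp : Finset.range p = Finset.range ((p - 1) + 1) := by
      rw [Nat.sub_add_cancel hp.pos]
    rw [hpp, Finset.prod_range_succ', hL0, mul_comm]
    refine mul_le_mul_of_nonneg_left ?_ hζ0
    calc ∏ j ∈ Finset.range (p - 1), ‖L (j + 1)‖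
        ≤ ∏ _j ∈ Finset.range (p - 1), M :=
          Finset.prod_le_prod (fun _ _ => norm_nonneg _) hLj
      _ = M ^ (p - 1) := by simp
  -- the product over the primes
  have hRprod : ∏ 𝔭 ∈ T', R 𝔭 ≤ Real.exp (-(p * ∑ 𝔩 ∈ T, nrm s 𝔩)) := by
    calc ∏ 𝔭 ∈ T', R 𝔭 ≤ ∏ 𝔭 ∈ T, R 𝔭 :=
          Finset.prod_le_prod_of_subset_of_le_one Finset.subset_union_left
            (fun 𝔭 h => (hRval 𝔭 (hT'prime 𝔭 h)).1) (fun 𝔭 h _ => (hRval 𝔭 (hT'prime 𝔭 h)).2.1)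
      _ ≤ ∏ 𝔭 ∈ T, Real.exp (-(p * nrm s 𝔭)) := by
          refine Finset.prod_le_prod (fun 𝔭 h => (hRval 𝔭 (hT 𝔭 h).1).1) fun 𝔭 h => ?_
          rw [(hRval 𝔭 (hT 𝔭 h).1).2.2 (hψH _ (hT 𝔭 h).2)]
          have hx1 := nrm_lt_one hs1 (hT 𝔭 h).1
          calc (1 - nrm s 𝔭) ^ p ≤ Real.exp (-nrm s 𝔭) ^ p :=
                pow_le_pow_left₀ (by linarith) (Real.one_sub_le_exp_neg _) p
            _ = Real.exp (-(p * nrm s 𝔭)) := by
                rw [← Real.exp_nat_mul]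
                ring_nf
      _ = Real.exp (-(p * ∑ 𝔩 ∈ T, nrm s 𝔩)) := by
          rw [← Real.exp_sum, Finset.mul_sum, Finset.sum_neg_distrib]
  -- conclusion
  set Sx : ℝ := ∑ 𝔩 ∈ T, nrm s 𝔩 with hSx
  have hMpow : 0 < M ^ (p - 1) := pow_pos (by linarith) _
  have hmain : (1 / 2 : ℝ) ≤ idealZeta F s * M ^ (p - 1) * Real.exp (-(p * Sx)) := by
    calc (1 / 2 : ℝ) ≤ (∏ j ∈ Finset.range p, ‖L j‖) * ∏ 𝔭 ∈ T', R 𝔭 := hre ▸ hhalf
      _ ≤ idealZeta F s * M ^ (p - 1) * Real.exp (-(p * Sx)) :=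
          mul_le_mul hLprod hRprod
            (Finset.prod_nonneg fun 𝔭 h => (hRval 𝔭 (hT'prime 𝔭 h)).1)
            (mul_nonneg hζ0 hMpow.le)
  have hexp : Real.exp (p * Sx) ≤ 2 * idealZeta F s * M ^ (p - 1) := by
    have h1 : Real.exp (-(p * Sx)) * Real.exp (p * Sx) = 1 := by
      rw [← Real.exp_add]
      simp
    have h2 := mul_le_mul_of_nonneg_right hmain (Real.exp_pos (p * Sx)).le
    rw [mul_assoc, h1, mul_one] at h2
    linarith
  have hζpos : 0 < idealZeta F s := by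
    by_contra hneg
    have hz : idealZeta F s = 0 := le_antisymm (not_lt.mp hneg) hζ0
    rw [hz] at hexp
    have := Real.exp_pos (p * Sx)
    simp at hexp
    linarith
  have hlog : p * Sx ≤ Real.log 2 + Real.log (idealZeta F s) + ((p - 1 : ℕ) : ℝ) * Real.log M := by
    have h1 := Real.log_le_log (Real.exp_pos _) hexp
    rw [Real.log_exp, Real.log_mul (by positivity) hMpow.ne', Real.log_mul (by norm_num) hζpos.ne',
      Real.log_pow] at h1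
    exact h1
  have hζlog : Real.log (idealZeta F s) ≤ Real.log (1 / (s - 1)) + C1 := by
    have := (abs_le.mp (hC1 s hs)).2
    linarith
  show Sx ≤ 1 / (p : ℝ) * Real.log (1 / (s - 1)) +
    (C1 + Real.log 2 + ((p - 1 : ℕ) : ℝ) * Real.log M) / p
  rw [← sub_nonneg]
  have h5 : 1 / (p : ℝ) * Real.log (1 / (s - 1)) +
      (C1 + Real.log 2 + ((p - 1 : ℕ) : ℝ) * Real.log M) / p - Sx =
      (Real.log (1 / (s - 1)) + C1 + Real.log 2 + ((p - 1 : ℕ) : ℝ) * Real.log M - p * Sx) / p := by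
    field_simp
    ring
  rw [h5]
  apply div_nonneg _ hp0.le
  linarith

/-- Task 179: (D2) in the stated shape (the finite Euler factor extraction is not needed). -/
theorem d2_of (hB : StmtB) (h1a : StmtAN1a) (h1b : StmtAN1b) (_hEF : StmtEulerFinite)
    (hEL : StmtEulerLimit) : StmtD2 :=
  d2_of' hB h1a h1b hEL

end Fermat.Agent.S14.H54
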