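import Mathlib
import Fermat.Prelude.Def_ExtCitation_AdmissibleExtension_v2
import Fermat.Prelude.Def_ClassGroup_GaloisAction

set_option autoImplicit false

open scoped NumberField nonZeroDivisors IntermediateField

namespace Fermat.Agent.S14

section Arith

variable (p : ℕ) [Fact p.Prime] {K : Type*} [Field K] [NumberField K]

/-- A "singular primary number" in the `a ↦ a ^ 2` eigenspace of `K = ℚ(ζ_p)`:
not a `p`-th power, generating the `p`-th power of an ideal, a `p`-th power modulo `(ζ - 1) ^ 3`,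
and with `σ α = α ^ (a ^ 2)` up to `p`-th powers whenever `σ ζ = ζ ^ a`. -/
structure IsSingularPrimary {ζ : K} (hζ : IsPrimitiveRoot ζ p) (α : 𝓞 K) : Prop where
  not_pow : ¬ ∃ β : K, β ^ p = (α : K)
  ideal_pow : ∃ I : Ideal (𝓞 K), Ideal.span {α} = I ^ p
  coprime : ¬ (hζ.toInteger - 1) ∣ α
  local_pow : ∃ ξ : 𝓞 K, (hζ.toInteger - 1) ^ 3 ∣ α - ξ ^ p
  eigen : ∀ (σ : K ≃ₐ[ℚ] K) (a : ℕ), σ ζ = ζ ^ a →
    ∃ c : K, σ (α : K) = (α : K) ^ (a ^ 2) * c ^ p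

/-- The action of `Gal(K/ℚ)` on the class group of `𝓞 K`:
`clAct σ (ClassGroup.mk0 I) = ClassGroup.mk0 (I.map σ)` (see `ClassGroup.mulEquiv_mk0`). -/
noncomputable def clAct (σ : K ≃ₐ[ℚ] K) : ClassGroup (𝓞 K) ≃* ClassGroup (𝓞 K) :=
  ClassGroup.mulEquiv (galRestrictionDatum ℤ ℚ K (𝓞 K) σ)

/-- The relation defining a unit in the `a ↦ a ^ 2` eigenspace modulo `p`-th powers. -/
def IsEigenUnit (ζ : K) (ε : (𝓞 K)ˣ) : Prop :=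
  ∀ (σ : K ≃ₐ[ℚ] K) (a : ℕ), σ ζ = ζ ^ a →
    ∃ η : (𝓞 K)ˣ, σ ((ε : 𝓞 K) : K) = ((ε : 𝓞 K) : K) ^ (a ^ 2) * ((η : 𝓞 K) : K) ^ p

end Arith

section Analytic

variable (K : Type*) [Field K] [NumberField K]

/-- `∑ N(I)^(-s)` over the nonzero ideals of `𝓞 K` (real `s`). -/
noncomputable def idealZeta (s : ℝ) : ℝ :=
  ∑' I : (Ideal (𝓞 K))⁰, (Ideal.absNorm (I : Ideal (𝓞 K)) : ℝ) ^ (-s)

/-- `∑ N(I)^(-s)` over the nonzero ideals of `𝓞 K` in the ideal class `C` (real `s`). -/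
noncomputable def partialZeta (C : ClassGroup (𝓞 K)) (s : ℝ) : ℝ :=
  ∑' I : {I : (Ideal (𝓞 K))⁰ // ClassGroup.mk0 I = C},
    (Ideal.absNorm ((I : (Ideal (𝓞 K))⁰) : Ideal (𝓞 K)) : ℝ) ^ (-s)

end Analytic

section Galois

/-- The output of the Galois-theoretic part: a Kummer generator `β` over `ℚ(ζ)` inside `ℚ̄`. -/
structure IsKummerDatum (p : ℕ) (ζ β : AlgebraicClosure ℚ) : Prop where
  prim : IsPrimitiveRoot ζ p
  ne_zero : β ≠ 0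
  pow_mem : β ^ p ∈ ℚ⟮ζ⟯
  not_mem : β ∉ ℚ⟮ζ⟯
  eigen : ∀ (σ : AlgebraicClosure ℚ ≃ₐ[ℚ] AlgebraicClosure ℚ) (a : ℕ), σ ζ = ζ ^ a →
    ∃ c ∈ ℚ⟮ζ⟯, σ β = β ^ (a ^ 2) * c
  unram : ∀ ℓ : ℕ, ℓ.Prime → ℓ ≠ p →
    ∀ A : ValuationSubring (AlgebraicClosure ℚ), A.LiesOverPrime ℓ →
      ∀ σ ∈ A.inertiaSubgroupIn ℚ, σ ζ = ζ ∧ σ β = β
  split : ∀ A : ValuationSubring (AlgebraicClosure ℚ), A.LiesOverPrime p →
    ∀ σ ∈ A.decompositionSubgroup ℚ, σ ζ = ζ → σ β = β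

end Galois

end Fermat.Agent.S14
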