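import Fermat.Agent.S14.Defs

/-!
# S14, node (U3): torsion bookkeeping for eigen-units

`K = ℚ(ζ_p)`, `p ≥ 3` prime.  Closure properties of `IsEigenUnit`, and:

* `eigenUnit_pow_of_torsion`: an eigen-unit of the form `(root of unity) * η ^ p` is a `p`-th
  power of a unit;
* `eigen_line_of_torsion`: if `ε₁ = ε₂ ^ j * t * z ^ p` with `j : ℤ` and `t` a root of unity,
  and `ε₁`, `ε₂` are eigen-units, then `ε₁ = ε₂ ^ j' * η ^ p` with `j' : ℕ` (the conclusion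
  of `StmtU3`);
* the same statements in the quotient `(𝓞 K)ˣ ⧸ torsion K`.
-/

set_option autoImplicit false

namespace Fermat.Agent.S14.H91

open NumberField NumberField.Units

variable {p : ℕ} {K : Type*} [Field K] [NumberField K]

section CommGroupAux

variable {G : Type*} [CommGroup G]

theorem cgAux_conj (a t z : G) : a * t * z * a⁻¹ = t * z := by
  have h : ∀ x y w : Additive G, x + y + w + -x = y + w := fun x y w => by abel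
  exact h (Additive.ofMul a) (Additive.ofMul t) (Additive.ofMul z)

theorem cgAux_mul_inv (e a : G) : e = a * (e * a⁻¹) := by
  have h : ∀ x y : Additive G, x = y + (x + -y) := fun x y => by abel
  exact h (Additive.ofMul e) (Additive.ofMul a)

theorem cgAux_three (e a b : G) : e = a * (e⁻¹ * (a * b))⁻¹ * b := by
  have h : ∀ x y w : Additive G, x = y + -(-x + (y + w)) + w := fun x y w => by abel
  exact h (Additive.ofMul e) (Additive.ofMul a) (Additive.ofMul b)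

theorem cgAux_two (e b : G) : e = (e⁻¹ * b)⁻¹ * b := by
  have h : ∀ x w : Additive G, x = -(-x + w) + w := fun x w => by abel
  exact h (Additive.ofMul e) (Additive.ofMul b)

end CommGroupAux

/-- The coercion `(𝓞 K)ˣ → K` as a monoid homomorphism. -/
noncomputable def unitVal (K : Type*) [Field K] : (𝓞 K)ˣ →* K :=
  ((algebraMap (𝓞 K) K : 𝓞 K →+* K) : 𝓞 K →* K).comp (Units.coeHom (𝓞 K))

omit [NumberField K] in
theorem unitVal_apply (u : (𝓞 K)ˣ) : unitVal K u = ((u : 𝓞 K) : K) := rfl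

omit [NumberField K] in
theorem unitVal_injective : Function.Injective (unitVal K) := fun _ _ h =>
  Units.ext (RingOfIntegers.coe_injective h)

omit [NumberField K] in
theorem unitVal_ne_zero (u : (𝓞 K)ˣ) : unitVal K u ≠ 0 :=
  ((Group.isUnit u).map (unitVal K)).ne_zero

omit [NumberField K] in
theorem unitVal_inv (u : (𝓞 K)ˣ) : unitVal K u⁻¹ = (unitVal K u)⁻¹ := by
  apply eq_inv_of_mul_eq_one_left
  rw [← map_mul, inv_mul_cancel, map_one]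

/-- The action of an automorphism of `K` on the unit group of `𝓞 K`. -/
noncomputable def unitAut (σ : K ≃ₐ[ℚ] K) : (𝓞 K)ˣ →* (𝓞 K)ˣ :=
  Units.map ((RingOfIntegers.mapRingEquiv (σ : K ≃+* K) : 𝓞 K ≃+* 𝓞 K) : 𝓞 K →* 𝓞 K)

theorem unitVal_unitAut (σ : K ≃ₐ[ℚ] K) (u : (𝓞 K)ˣ) :
    unitVal K (unitAut σ u) = σ (unitVal K u) := rfl

/-- `IsEigenUnit` in terms of `unitVal`. -/
theorem isEigenUnit_iff_unitVal {ζ : K} {ε : (𝓞 K)ˣ} :
    IsEigenUnit p ζ ε ↔ ∀ (σ : K ≃ₐ[ℚ] K) (a : ℕ), σ ζ = ζ ^ a →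
      ∃ η : (𝓞 K)ˣ, σ (unitVal K ε) = unitVal K ε ^ (a ^ 2) * unitVal K η ^ p := Iff.rfl

/-- `IsEigenUnit` as a relation in the unit group. -/
theorem isEigenUnit_iff_unitAut {ζ : K} {ε : (𝓞 K)ˣ} :
    IsEigenUnit p ζ ε ↔ ∀ (σ : K ≃ₐ[ℚ] K) (a : ℕ), σ ζ = ζ ^ a →
      ∃ η : (𝓞 K)ˣ, unitAut σ ε = ε ^ (a ^ 2) * η ^ p := by
  rw [isEigenUnit_iff_unitVal]
  refine forall₃_congr fun σ a _ => exists_congr fun η => ?_
  rw [← unitVal_unitAut, ← map_pow, ← map_pow, ← map_mul]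
  exact unitVal_injective.eq_iff

theorem isEigenUnit_one (ζ : K) : IsEigenUnit p ζ (1 : (𝓞 K)ˣ) := by
  rw [isEigenUnit_iff_unitAut]
  intro σ a _
  exact ⟨1, by rw [map_one, one_pow, one_pow, mul_one]⟩

theorem isEigenUnit_mul {ζ : K} {ε₁ ε₂ : (𝓞 K)ˣ} (h1 : IsEigenUnit p ζ ε₁)
    (h2 : IsEigenUnit p ζ ε₂) : IsEigenUnit p ζ (ε₁ * ε₂) := by
  rw [isEigenUnit_iff_unitAut] at h1 h2 ⊢
  intro σ a hσ
  obtain ⟨η₁, e1⟩ := h1 σ a hσ
  obtain ⟨η₂, e2⟩ := h2 σ a hσ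
  refine ⟨η₁ * η₂, ?_⟩
  rw [map_mul, e1, e2, mul_pow, mul_pow, mul_mul_mul_comm]

theorem isEigenUnit_inv {ζ : K} {ε : (𝓞 K)ˣ} (h : IsEigenUnit p ζ ε) :
    IsEigenUnit p ζ ε⁻¹ := by
  rw [isEigenUnit_iff_unitAut] at h ⊢
  intro σ a hσ
  obtain ⟨η, e⟩ := h σ a hσ
  refine ⟨η⁻¹, ?_⟩
  rw [map_inv, e, mul_inv, inv_pow, inv_pow]

theorem isEigenUnit_pow {ζ : K} {ε : (𝓞 K)ˣ} (h : IsEigenUnit p ζ ε) (n : ℕ) :
    IsEigenUnit p ζ (ε ^ n) := by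
  induction n with
  | zero => rw [pow_zero]; exact isEigenUnit_one ζ
  | succ n ih => rw [pow_succ]; exact isEigenUnit_mul ih h

theorem isEigenUnit_zpow {ζ : K} {ε : (𝓞 K)ˣ} (h : IsEigenUnit p ζ ε) (j : ℤ) :
    IsEigenUnit p ζ (ε ^ j) := by
  cases j with
  | ofNat n => rw [Int.ofNat_eq_natCast, zpow_natCast]; exact isEigenUnit_pow h n
  | negSucc n => rw [zpow_negSucc]; exact isEigenUnit_inv (isEigenUnit_pow h (n + 1))

/-- A `p`-th power of a unit is an eigen-unit. -/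
theorem isEigenUnit_pow_prime (ζ : K) (η : (𝓞 K)ˣ) : IsEigenUnit p ζ (η ^ p) := by
  rw [isEigenUnit_iff_unitAut]
  intro σ a _
  refine ⟨unitAut σ η * (η ^ (a ^ 2))⁻¹, ?_⟩
  rw [map_pow, mul_pow, inv_pow, ← pow_mul, ← pow_mul, mul_comm p (a ^ 2), mul_comm,
    inv_mul_cancel_right]

/-- The eigen-relation in the quotient by torsion, for the action `unitAut σ`. -/
theorem isEigenUnit_quotient {ζ : K} {ε : (𝓞 K)ˣ} (hε : IsEigenUnit p ζ ε) (σ : K ≃ₐ[ℚ] K)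
    (a : ℕ) (hσ : σ ζ = ζ ^ a) :
    ∃ q : (𝓞 K)ˣ ⧸ torsion K, (QuotientGroup.mk (unitAut σ ε) : (𝓞 K)ˣ ⧸ torsion K) =
      (QuotientGroup.mk ε) ^ (a ^ 2) * q ^ p := by
  obtain ⟨η, hη⟩ := isEigenUnit_iff_unitAut.mp hε σ a hσ
  exact ⟨QuotientGroup.mk η, by rw [hη]; rfl⟩

variable [hp : Fact p.Prime]

/-- In `ℚ(ζ_p)`, `p` odd, the roots of unity have order dividing `2 * p`. -/
theorem torsion_pow_two_mul_prime [IsCyclotomicExtension {p} ℚ K] (hp2 : p ≠ 2) {t : (𝓞 K)ˣ}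
    (ht : t ∈ torsion K) : t ^ (2 * p) = 1 := by
  have : NeZero p := ⟨hp.out.ne_zero⟩
  have hodd : ¬ Even p := fun h => hp2 ((Nat.Prime.even_iff hp.out).mp h)
  have h1 : torsionOrder K = 2 * p := by
    rw [IsCyclotomicExtension.Rat.torsionOrder_eq (n := p) (K := K), if_neg hodd]
  rw [← rootsOfUnity_eq_torsion, mem_rootsOfUnity, h1] at ht
  exact ht

/-- For every `g` prime to `p` there is an automorphism of `K = ℚ(ζ_p)` raising the `p`-th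
roots of unity to the power `g`. -/
theorem exists_galois_pow [IsCyclotomicExtension {p} ℚ K] (g : ℕ) (hg : ¬ p ∣ g) :
    ∃ σ : K ≃ₐ[ℚ] K, ∀ x : K, x ^ p = 1 → σ x = x ^ g := by
  have : NeZero p := ⟨hp.out.ne_zero⟩
  have hcop : Nat.Coprime g p := ((Nat.Prime.coprime_iff_not_dvd hp.out).mpr hg).symm
  refine ⟨(IsCyclotomicExtension.Rat.galEquivZMod p K).symm (ZMod.unitOfCoprime g hcop), ?_⟩
  intro x hx
  rw [IsCyclotomicExtension.Rat.galEquivZMod_apply_of_pow_eq p K _ hx, MulEquiv.apply_symm_apply,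
    ZMod.coe_unitOfCoprime]
  have h1 : ((g : ZMod p).val) % p = g % p := by
    rw [ZMod.val_natCast, Nat.mod_mod]
  rw [pow_eq_pow_mod ((g : ZMod p).val) hx, h1]
  exact (pow_eq_pow_mod g hx).symm

/-- **Torsion step of (U3).** An eigen-unit of the form `(root of unity) * η ^ p` is a `p`-th
power of a unit. -/
theorem eigenUnit_pow_of_torsion [IsCyclotomicExtension {p} ℚ K] (hp3 : 3 ≤ p) {ζ : K}
    (hζ : IsPrimitiveRoot ζ p) {ε : (𝓞 K)ˣ} (hε : IsEigenUnit p ζ ε) {t η : (𝓞 K)ˣ}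
    (ht : t ∈ torsion K) (h : ε = t * η ^ p) : ∃ η' : (𝓞 K)ˣ, η' ^ p = ε := by
  have hp2 : p ≠ 2 := by omega
  obtain ⟨m, hm⟩ : ∃ m, p = 2 * m + 1 := hp.out.odd_of_ne_two hp2
  have hpp : p * p = p + 2 * p * m := by
    have h' : p * p = p * (2 * m + 1) := congrArg (fun x => p * x) hm
    rw [h']
    ring
  have ht2 : t ^ (2 * p) = 1 := torsion_pow_two_mul_prime hp2 ht
  -- `t = t ^ p * v` with `v ^ p = 1`
  obtain ⟨v, hvp, htv⟩ : ∃ v : (𝓞 K)ˣ, v ^ p = 1 ∧ t = t ^ p * v := by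
    refine ⟨(t ^ (2 * m))⁻¹, ?_, ?_⟩
    · rw [inv_pow, ← pow_mul, show 2 * m * p = 2 * p * m by ring, pow_mul, ht2, one_pow, inv_one]
    · rw [eq_mul_inv_iff_mul_eq, ← pow_succ', ← hm]
  obtain ⟨T, hT⟩ : ∃ T : (𝓞 K)ˣ, T = t * η := ⟨_, rfl⟩
  have hε' : ε = T ^ p * v := by
    rw [hT, mul_pow, mul_right_comm, ← htv, h]
  -- the automorphism `σ₂`
  have h2 : ¬ p ∣ 2 := fun hd => by
    have := Nat.le_of_dvd (by norm_num) hd
    omega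
  obtain ⟨σ, hσ⟩ := exists_galois_pow (K := K) 2 h2
  obtain ⟨θ, hθ⟩ := isEigenUnit_iff_unitAut.mp hε σ 2 (hσ ζ hζ.pow_eq_one)
  have hθ' : unitAut σ ε = ε ^ 4 * θ ^ p := hθ
  have hσv : unitAut σ v = v ^ 2 := by
    apply unitVal_injective
    rw [unitVal_unitAut, map_pow]
    exact hσ _ (by rw [← map_pow, hvp, map_one])
  have hL : unitAut σ ε = unitAut σ T ^ p * v ^ 2 := by
    rw [hε', map_mul, map_pow, hσv]
  have hstar : unitAut σ T ^ p * v ^ 2 = (T ^ 4 * θ) ^ p * v ^ 4 := by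
    rw [← hL, hθ', hε', mul_pow, mul_pow, ← pow_mul, ← pow_mul, mul_comm p 4,
      mul_right_comm (T ^ (4 * p)) (v ^ 4) (θ ^ p)]
  have hv4 : v ^ 4 = v ^ 2 * v ^ 2 := pow_add v 2 2
  -- `v ^ 2` is a `p`-th power `ρ ^ p`
  obtain ⟨ρ, hρ⟩ : ∃ ρ : (𝓞 K)ˣ, ρ ^ p = v ^ 2 := by
    refine ⟨unitAut σ T * (T ^ 4 * θ)⁻¹, ?_⟩
    rw [mul_pow, inv_pow, mul_inv_eq_iff_eq_mul]
    apply mul_right_cancel (b := v ^ 2)
    rw [hstar, hv4, mul_comm (v ^ 2) ((T ^ 4 * θ) ^ p), mul_assoc]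
  have hρpp : ρ ^ (p * p) = 1 := by
    rw [pow_mul, hρ, ← pow_mul, mul_comm, pow_mul, hvp, one_pow]
  have hρt : ρ ∈ torsion K := by
    rw [torsion, CommGroup.mem_torsion, isOfFinOrder_iff_pow_eq_one]
    exact ⟨p * p, Nat.mul_pos hp.out.pos hp.out.pos, hρpp⟩
  have hρ2 : ρ ^ (2 * p) = 1 := torsion_pow_two_mul_prime hp2 hρt
  have hρp : ρ ^ p = 1 := by
    rw [hpp, pow_add, pow_mul, hρ2, one_pow, mul_one] at hρpp
    exact hρpp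
  have hv2 : v ^ 2 = 1 := by rw [← hρ, hρp]
  have hv1 : v = 1 := by
    have h5 : v ^ p = (v ^ 2) ^ m * v := by rw [← pow_mul, ← pow_succ, ← hm]
    rw [hvp, hv2, one_pow, one_mul] at h5
    exact h5.symm
  exact ⟨T, by rw [hε', hv1, mul_one]⟩

/-- Contrapositive form: an eigen-unit which is not a `p`-th power is not
`(root of unity) * (p-th power)`. -/
theorem not_torsion_mul_pow [IsCyclotomicExtension {p} ℚ K] (hp3 : 3 ≤ p) {ζ : K}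
    (hζ : IsPrimitiveRoot ζ p) {ε : (𝓞 K)ˣ} (hε : IsEigenUnit p ζ ε)
    (hnot : ¬ ∃ η : (𝓞 K)ˣ, η ^ p = ε) :
    ¬ ∃ t ∈ torsion K, ∃ z : (𝓞 K)ˣ, ε = t * z ^ p := by
  rintro ⟨t, ht, z, h⟩
  exact hnot (eigenUnit_pow_of_torsion hp3 hζ hε ht h)

/-- **Last step of (U3).** If `ε₁ = ε₂ ^ j * t * z ^ p` with `j : ℤ` and `t` a root of unity,
and `ε₁`, `ε₂` are eigen-units, then `ε₁ = ε₂ ^ j' * η ^ p` for a natural number `j'`. -/
theorem eigen_line_of_torsion [IsCyclotomicExtension {p} ℚ K] (hp3 : 3 ≤ p) {ζ : K}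
    (hζ : IsPrimitiveRoot ζ p) {ε₁ ε₂ : (𝓞 K)ˣ} (h1 : IsEigenUnit p ζ ε₁)
    (h2 : IsEigenUnit p ζ ε₂) {j : ℤ} {t z : (𝓞 K)ˣ} (ht : t ∈ torsion K)
    (h : ε₁ = ε₂ ^ j * t * z ^ p) : ∃ (j' : ℕ) (η : (𝓞 K)ˣ), ε₁ = ε₂ ^ j' * η ^ p := by
  have h3 : IsEigenUnit p ζ (ε₁ * (ε₂ ^ j)⁻¹) :=
    isEigenUnit_mul h1 (isEigenUnit_inv (isEigenUnit_zpow h2 j))
  have h4 : ε₁ * (ε₂ ^ j)⁻¹ = t * z ^ p := by
    rw [h]
    exact cgAux_conj _ _ _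
  obtain ⟨η, hη⟩ := eigenUnit_pow_of_torsion hp3 hζ h3 ht h4
  have h5 : ε₁ = ε₂ ^ j * η ^ p := by
    rw [hη]
    exact cgAux_mul_inv _ _
  have hnn : 0 ≤ j % (p : ℤ) := Int.emod_nonneg _ (by exact_mod_cast hp.out.ne_zero)
  refine ⟨(j % (p : ℤ)).toNat, ε₂ ^ (j / (p : ℤ)) * η, ?_⟩
  have h6 : ε₂ ^ j = ε₂ ^ (j % (p : ℤ)).toNat * (ε₂ ^ (j / (p : ℤ))) ^ p := by
    rw [← zpow_natCast ε₂ (j % (p : ℤ)).toNat, Int.toNat_of_nonneg hnn,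
      ← zpow_natCast (ε₂ ^ (j / (p : ℤ))) p, ← zpow_mul, ← zpow_add,
      mul_comm (j / (p : ℤ)) (p : ℤ), Int.emod_add_mul_ediv]
  rw [mul_pow, ← mul_assoc, ← h6]
  exact h5

/-- The same in the quotient by the torsion subgroup: if the class of `ε₁` is
`(class of ε₂) ^ j * q ^ p`, then `ε₁ = ε₂ ^ j' * η ^ p`. -/
theorem eigen_line_of_quotient [IsCyclotomicExtension {p} ℚ K] (hp3 : 3 ≤ p) {ζ : K}
    (hζ : IsPrimitiveRoot ζ p) {ε₁ ε₂ : (𝓞 K)ˣ} (h1 : IsEigenUnit p ζ ε₁)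
    (h2 : IsEigenUnit p ζ ε₂) (j : ℤ) (q : (𝓞 K)ˣ ⧸ torsion K)
    (h : (QuotientGroup.mk ε₁ : (𝓞 K)ˣ ⧸ torsion K) = (QuotientGroup.mk ε₂) ^ j * q ^ p) :
    ∃ (j' : ℕ) (η : (𝓞 K)ˣ), ε₁ = ε₂ ^ j' * η ^ p := by
  obtain ⟨z, rfl⟩ := QuotientGroup.mk_surjective q
  rw [← QuotientGroup.mk_zpow, ← QuotientGroup.mk_pow, ← QuotientGroup.mk_mul,
    QuotientGroup.eq] at h
  -- `h : ε₁⁻¹ * (ε₂ ^ j * z ^ p) ∈ torsion K`
  exact eigen_line_of_torsion hp3 hζ h1 h2 (j := j) (t := (ε₁⁻¹ * (ε₂ ^ j * z ^ p))⁻¹) (z := z)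
    (inv_mem h) (cgAux_three _ _ _)

/-- The same for classes: an eigen-unit which is not a `p`-th power has a class in
`(𝓞 K)ˣ ⧸ torsion K` which is not a `p`-th power. -/
theorem not_pow_quotient [IsCyclotomicExtension {p} ℚ K] (hp3 : 3 ≤ p) {ζ : K}
    (hζ : IsPrimitiveRoot ζ p) {ε : (𝓞 K)ˣ} (hε : IsEigenUnit p ζ ε)
    (hnot : ¬ ∃ η : (𝓞 K)ˣ, η ^ p = ε) :
    ¬ ∃ q : (𝓞 K)ˣ ⧸ torsion K, (QuotientGroup.mk ε : (𝓞 K)ˣ ⧸ torsion K) = q ^ p := by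
  rintro ⟨q, h⟩
  obtain ⟨z, rfl⟩ := QuotientGroup.mk_surjective q
  rw [← QuotientGroup.mk_pow, QuotientGroup.eq] at h
  exact not_torsion_mul_pow hp3 hζ hε hnot ⟨(ε⁻¹ * z ^ p)⁻¹, inv_mem h, z, cgAux_two _ _⟩

end Fermat.Agent.S14.H91
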