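import Fermat.Agent.S14.Stmts
import Fermat.Agent.S14.KummerGen_helper18

/-!
S14 node (GSA) (helper18): `gsa : StmtGSA`, the Galois side, group theory + Kummer generator,
from `H18.exists_kummer_generator`.
-/

set_option autoImplicit false

open scoped NumberField nonZeroDivisors IntermediateField
open ExtCitation

namespace Fermat.Agent.S14.H18

/-- powers of `β` with exponents congruent modulo `p` differ by an element of `ℚ(ζ)` -/
theorem pow_eq_pow_mul_of_modEq {p : ℕ} {ζ β : Qb} (hβ : β ≠ 0) (hpow : β ^ p ∈ ℚ⟮ζ⟯)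
    {m n : ℕ} (h : m ≡ n [MOD p]) : ∃ c ∈ ℚ⟮ζ⟯, β ^ m = β ^ n * c := by
  rcases le_total n m with hnm | hmn
  · obtain ⟨k, hk⟩ := (Nat.modEq_iff_dvd' hnm).mp h.symm
    refine ⟨(β ^ p) ^ k, pow_mem hpow k, ?_⟩
    rw [← pow_mul, ← pow_add, ← hk, Nat.add_sub_cancel' hnm]
  · obtain ⟨k, hk⟩ := (Nat.modEq_iff_dvd' hmn).mp h
    refine ⟨((β ^ p) ^ k)⁻¹, inv_mem (pow_mem hpow k), ?_⟩
    have hne : (β ^ p) ^ k ≠ 0 := pow_ne_zero _ (pow_ne_zero _ hβ)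
    rw [eq_mul_inv_iff_mul_eq₀ hne, ← pow_mul, ← pow_add, ← hk, Nat.add_sub_cancel' hmn]

/-- **(GSA)**: a non-split admissible extension gives a Kummer datum. -/
theorem gsa : StmtGSA := by
  intro p _ h3 V _ _ _ _ C hadm hns
  have hp : p.Prime := Fact.out
  have : NeZero ((p : ℕ) : Qb) := ⟨Nat.cast_ne_zero.mpr hp.ne_zero⟩
  obtain ⟨ζ, hζ⟩ := HasEnoughRootsOfUnity.exists_primitiveRoot Qb p
  obtain ⟨β, hβ0, hpow, hnot, heig, -, -, -, hunr, hsplit⟩ :=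
    exists_kummer_generator h3 V C hadm hns ζ hζ
  refine ⟨ζ, β, hζ, hβ0, hpow, hnot, ?_, hunr, hsplit⟩
  intro σ a ha
  obtain ⟨c0, hc0, hσ⟩ := heig σ
  have h1 : σ ζ = ζ ^ cycloExp p σ := apply_root σ hζ.pow_eq_one
  rw [h1, pow_eq_pow_iff hζ, ZMod.natCast_eq_natCast_iff] at ha
  have h2 : cycloExp p σ ^ 2 ≡ a ^ 2 [MOD p] := ha.pow 2
  obtain ⟨c', hc', hcc⟩ := pow_eq_pow_mul_of_modEq hβ0 hpow h2
  refine ⟨c' * c0, mul_mem hc' hc0, ?_⟩
  rw [hσ, hcc]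
  ring

end Fermat.Agent.S14.H18
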