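import Fermat.Agent.S14.Defs

/-!
# S14: the node statements as `Prop`s (helper12)

Every work package proves one of these (`theorem foo : StmtFoo`) or an implication between them
(`theorem bar (h : StmtFoo) : StmtBar`).  No proofs here.
-/

set_option autoImplicit false

open scoped NumberField nonZeroDivisors IntermediateField
open ExtCitation

namespace Fermat.Agent.S14

/-! ## Top level -/

/-- (GSA) GALOIS SIDE, group theory + Kummer generator. -/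
def StmtGSA : Prop :=
  ∀ (p : ℕ) [Fact p.Prime], 3 ≤ p →
    ∀ (V : Type) [AddCommGroup V] [Module (ZMod p) V]
      [DistribMulAction (AlgebraicClosure ℚ ≃ₐ[ℚ] AlgebraicClosure ℚ) V]
      [SMulCommClass (AlgebraicClosure ℚ ≃ₐ[ℚ] AlgebraicClosure ℚ) (ZMod p) V]
      (C : Submodule (ZMod p) V), IsAdmissibleExtensionCts p V C → ¬ SplitsGlobally C →
      ∃ ζ β : AlgebraicClosure ℚ, IsKummerDatum p ζ β

/-- (GSB) GALOIS SIDE, ramification: a Kummer datum gives a singular primary number. -/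
def StmtGSB : Prop :=
  ∀ (p : ℕ) [Fact p.Prime], 3 ≤ p →
    ∀ ζ β : AlgebraicClosure ℚ, IsKummerDatum p ζ β →
      ∃ (K : IntermediateField ℚ (AlgebraicClosure ℚ)) (_ : NumberField K)
        (_ : IsCyclotomicExtension {p} ℚ K) (ζ' : K) (hζ : IsPrimitiveRoot ζ' p) (α : 𝓞 K),
        IsSingularPrimary p hζ α

/-- (NSP) ARITHMETIC SIDE. There is no singular primary number. -/
def StmtNSP : Prop :=
  ∀ (p : ℕ) [Fact p.Prime], 3 ≤ p →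
    ∀ (K : Type) [Field K] [NumberField K] [IsCyclotomicExtension {p} ℚ K]
      (ζ : K) (hζ : IsPrimitiveRoot ζ p) (α : 𝓞 K), ¬ IsSingularPrimary p hζ α

/-- The frozen statement S14 from the three top-level nodes. -/
theorem goal_of (hA : StmtGSA) (hB : StmtGSB) (hN : StmtNSP) {p : ℕ} [Fact p.Prime]
    (h3 : 3 ≤ p) : ExtCitation.ExtVanishingCts p := by
  intro V _ _ _ _ C hadm
  by_contra hns
  obtain ⟨ζ, β, h⟩ := hA p h3 V C hadm hns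
  obtain ⟨K, _, _, ζ', hζ, α, hα⟩ := hB p h3 ζ β h
  exact hN p h3 K ζ' hζ α hα

/-! ## Arithmetic side -/

/-- (P3) the case `p = 3`. -/
def StmtP3 : Prop :=
  ∀ (K : Type) [Field K] [NumberField K] [IsCyclotomicExtension {3} ℚ K]
    (ζ : K) (hζ : IsPrimitiveRoot ζ 3) (α : 𝓞 K),
    ¬ @IsSingularPrimary 3 ⟨Nat.prime_three⟩ K _ _ ζ hζ α

/-- (UNIT) UNIT LEMMA. A unit in the `a ^ 2`-eigenspace modulo `p`-th powers which is a `p`-th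
power modulo `(ζ - 1) ^ 3` is a `p`-th power. -/
def StmtUnit : Prop :=
  ∀ (p : ℕ) [Fact p.Prime], 5 ≤ p →
    ∀ (K : Type) [Field K] [NumberField K] [IsCyclotomicExtension {p} ℚ K]
      (ζ : K) (hζ : IsPrimitiveRoot ζ p) (ε : (𝓞 K)ˣ),
      (∃ ξ : 𝓞 K, (hζ.toInteger - 1) ^ 3 ∣ (ε : 𝓞 K) - ξ ^ p) → IsEigenUnit p ζ ε →
      ∃ η : (𝓞 K)ˣ, η ^ p = ε

/-- (CLASS) CLASS LEMMA. The `p`-torsion of the `a ^ 2`-eigenspace of the class group is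
trivial. -/
def StmtClass : Prop :=
  ∀ (p : ℕ) [Fact p.Prime], 5 ≤ p →
    ∀ (K : Type) [Field K] [NumberField K] [IsCyclotomicExtension {p} ℚ K]
      (ζ : K), IsPrimitiveRoot ζ p → ∀ c : ClassGroup (𝓞 K), c ^ p = 1 →
      (∀ (σ : K ≃ₐ[ℚ] K) (a : ℕ), σ ζ = ζ ^ a → clAct σ c = c ^ (a ^ 2)) → c = 1

/-- (U3) the eigenspace of units is at most one-dimensional over `𝔽_p`. -/
def StmtU3 : Prop :=
  ∀ (p : ℕ) [Fact p.Prime], 5 ≤ p →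
    ∀ (K : Type) [Field K] [NumberField K] [IsCyclotomicExtension {p} ℚ K]
      (ζ : K), IsPrimitiveRoot ζ p → ∀ ε₁ ε₂ : (𝓞 K)ˣ,
      IsEigenUnit p ζ ε₁ → IsEigenUnit p ζ ε₂ → (¬ ∃ η : (𝓞 K)ˣ, η ^ p = ε₂) →
      ∃ (j : ℕ) (η : (𝓞 K)ˣ), ε₁ = ε₂ ^ j * η ^ p

/-- (U12) the cyclotomic eigen-unit `E` and the functional `D₂`: there is an eigen-unit `E`
and a homomorphism `D : (𝓞 K)ˣ →* Multiplicative (ZMod p)` that kills units congruent to a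
`p`-th power modulo `(ζ - 1) ^ 3` and does not kill `E`; moreover `E` is, up to a `p`-th power,
`∏_{b=1}^{p-1} (1 - ζ^b) ^ (b^(p-3) mod p)`. -/
def StmtU12 : Prop :=
  ∀ (p : ℕ) [Fact p.Prime], 5 ≤ p →
    ∀ (K : Type) [Field K] [NumberField K] [IsCyclotomicExtension {p} ℚ K]
      (ζ : K) (hζ : IsPrimitiveRoot ζ p),
      ∃ (E : (𝓞 K)ˣ) (D : (𝓞 K)ˣ →* Multiplicative (ZMod p)) (w : K),
        IsEigenUnit p ζ E ∧ D E ≠ 1 ∧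
        (∀ ε : (𝓞 K)ˣ, (∃ ξ : 𝓞 K, (hζ.toInteger - 1) ^ 3 ∣ (ε : 𝓞 K) - ξ ^ p) → D ε = 1) ∧
        ((E : 𝓞 K) : K) * w ^ p = ∏ b ∈ Finset.Ico 1 p, (1 - ζ ^ b) ^ (b ^ (p - 3) % p)

/-- (TH) THAINE'S RELATION. `ℓ ≡ 1 mod p` prime, `𝔩` a prime of `K` over `ℓ`, `g` a primitive
root modulo `ℓ`, and `k σ` a discrete logarithm of `1 - σ ζ` modulo `𝔩` in base `g`. Then the
class `∏ σ, (σ⁻¹ [𝔩]) ^ k σ` is a `p`-th power. -/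
def StmtThaine : Prop :=
  ∀ (p : ℕ) [Fact p.Prime], p ≠ 2 →
    ∀ (K : Type) [Field K] [NumberField K] [IsCyclotomicExtension {p} ℚ K]
      (ζ : K) (hζ : IsPrimitiveRoot ζ p) (ℓ : ℕ), ℓ.Prime → ℓ % p = 1 →
      ∀ 𝔩 : (Ideal (𝓞 K))⁰, (𝔩 : Ideal (𝓞 K)).IsPrime → (ℓ : 𝓞 K) ∈ (𝔩 : Ideal (𝓞 K)) →
      ∀ g : ℕ, orderOf (g : ZMod ℓ) = ℓ - 1 → ∀ k : (K ≃ₐ[ℚ] K) → ℕ,
      (∀ σ : K ≃ₐ[ℚ] K,
        (1 - galRestrict ℤ ℚ K (𝓞 K) σ hζ.toInteger) - (g : 𝓞 K) ^ (k σ) ∈ (𝔩 : Ideal (𝓞 K))) →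
      ∃ d : ClassGroup (𝓞 K),
        ∏ σ : K ≃ₐ[ℚ] K, (clAct σ⁻¹ (ClassGroup.mk0 𝔩)) ^ (k σ) = d ^ p

/-- (AN) ANALYTIC INPUT. For an index-`p` subgroup `H` of the class group and a unit `E` which is
not a `p`-th power, some degree-one prime `𝔩` (not over `p`) has class outside `H` while `E` is
not a `p`-th power modulo `𝔩`. -/
def StmtAN : Prop :=
  ∀ (p : ℕ) [Fact p.Prime], p ≠ 2 →
    ∀ (K : Type) [Field K] [NumberField K] [IsCyclotomicExtension {p} ℚ K]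
      (ζ : K), IsPrimitiveRoot ζ p → ∀ E : (𝓞 K)ˣ, (¬ ∃ x : K, x ^ p = ((E : 𝓞 K) : K)) →
      ∀ H : Subgroup (ClassGroup (𝓞 K)), H.index = p →
      ∃ 𝔩 : (Ideal (𝓞 K))⁰, (𝔩 : Ideal (𝓞 K)).IsPrime ∧
        (Ideal.absNorm (𝔩 : Ideal (𝓞 K))).Prime ∧ Ideal.absNorm (𝔩 : Ideal (𝓞 K)) ≠ p ∧
        ClassGroup.mk0 𝔩 ∉ H ∧ ¬ ∃ x : 𝓞 K, x ^ p - (E : 𝓞 K) ∈ (𝔩 : Ideal (𝓞 K))

/-! ## Analytic side (general number field `F`) -/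

/-- (AN1a) -/
def StmtAN1a : Prop :=
  ∀ (F : Type) [Field F] [NumberField F] (s : ℝ), 1 < s →
    Summable (fun I : (Ideal (𝓞 F))⁰ => (Ideal.absNorm (I : Ideal (𝓞 F)) : ℝ) ^ (-s))

/-- (AN1b) `log ζ_F(s) = log (1/(s-1)) + O(1)` on `(1, 2)`. -/
def StmtAN1b : Prop :=
  ∀ (F : Type) [Field F] [NumberField F],
    ∃ C : ℝ, ∀ s ∈ Set.Ioo (1 : ℝ) 2,
      |Real.log (idealZeta F s) - Real.log (1 / (s - 1))| ≤ C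

/-- (EF) FINITE EULER FACTOR EXTRACTION for a completely multiplicative function on ideals. -/
def StmtEulerFinite : Prop :=
  ∀ (F : Type) [Field F] [NumberField F] (s : ℝ), 1 < s → ∀ f : (Ideal (𝓞 F))⁰ →* ℂ,
    (∀ I : (Ideal (𝓞 F))⁰, ‖f I‖ ≤ (Ideal.absNorm (I : Ideal (𝓞 F)) : ℝ) ^ (-s)) →
    ∀ T : Finset (Ideal (𝓞 F))⁰, (∀ 𝔭 ∈ T, (𝔭 : Ideal (𝓞 F)).IsPrime) →
    (∑' I : (Ideal (𝓞 F))⁰, f I) * ∏ 𝔭 ∈ T, (1 - f 𝔭) =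
      ∑' I : {I : (Ideal (𝓞 F))⁰ // ∀ 𝔭 ∈ T, ¬ ((𝔭 : Ideal (𝓞 F)) ∣ (I : Ideal (𝓞 F)))}, f I

/-- (EL) the Euler product as a limit along finite sets of primes. -/
def StmtEulerLimit : Prop :=
  ∀ (F : Type) [Field F] [NumberField F] (s : ℝ), 1 < s → ∀ f : (Ideal (𝓞 F))⁰ →* ℂ,
    (∀ I : (Ideal (𝓞 F))⁰, ‖f I‖ ≤ (Ideal.absNorm (I : Ideal (𝓞 F)) : ℝ) ^ (-s)) →
    ∀ ε : ℝ, 0 < ε →
    ∃ T₀ : Finset (Ideal (𝓞 F))⁰, (∀ 𝔭 ∈ T₀, (𝔭 : Ideal (𝓞 F)).IsPrime) ∧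
      ∀ T : Finset (Ideal (𝓞 F))⁰, T₀ ⊆ T → (∀ 𝔭 ∈ T, (𝔭 : Ideal (𝓞 F)).IsPrime) →
        ‖(∑' I : (Ideal (𝓞 F))⁰, f I) * ∏ 𝔭 ∈ T, (1 - f 𝔭) - 1‖ ≤ ε

/-- (B) THE BOUND: differences of partial zeta functions of ideal classes are bounded near 1. -/
def StmtB : Prop :=
  ∀ (F : Type) [Field F] [NumberField F],
    ∃ B : ℝ, ∀ s ∈ Set.Ioo (1 : ℝ) 2, ∀ C C' : ClassGroup (𝓞 F),
      |partialZeta F C s - partialZeta F C' s| ≤ B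

/-- (D3) degree-one primes (not over `p`) carry all the mass. -/
def StmtD3 : Prop :=
  ∀ (F : Type) [Field F] [NumberField F] (p : ℕ),
    ∃ C : ℝ, ∀ s ∈ Set.Ioo (1 : ℝ) 2, ∃ T : Finset (Ideal (𝓞 F))⁰,
      (∀ 𝔩 ∈ T, (𝔩 : Ideal (𝓞 F)).IsPrime ∧ (Ideal.absNorm (𝔩 : Ideal (𝓞 F))).Prime ∧
        Ideal.absNorm (𝔩 : Ideal (𝓞 F)) ≠ p) ∧
      Real.log (1 / (s - 1)) - C ≤ ∑ 𝔩 ∈ T, (Ideal.absNorm (𝔩 : Ideal (𝓞 F)) : ℝ) ^ (-s)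

/-- (D2) primes whose class lies in a subgroup of index `p` have density at most `1/p`. -/
def StmtD2 : Prop :=
  ∀ (F : Type) [Field F] [NumberField F] (p : ℕ) [Fact p.Prime]
    (H : Subgroup (ClassGroup (𝓞 F))), H.index = p →
    ∃ C : ℝ, ∀ s ∈ Set.Ioo (1 : ℝ) 2, ∀ T : Finset (Ideal (𝓞 F))⁰,
      (∀ 𝔩 ∈ T, (𝔩 : Ideal (𝓞 F)).IsPrime ∧ ClassGroup.mk0 𝔩 ∈ H) →
      ∑ 𝔩 ∈ T, (Ideal.absNorm (𝔩 : Ideal (𝓞 F)) : ℝ) ^ (-s) ≤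
        (1 / p) * Real.log (1 / (s - 1)) + C

/-- (D1) degree-one primes modulo which `E` is a `p`-th power have density at most `1/p`. -/
def StmtD1 : Prop :=
  ∀ (F : Type) [Field F] [NumberField F] (p : ℕ) [Fact p.Prime] (ζ : F), IsPrimitiveRoot ζ p →
    ∀ E : (𝓞 F)ˣ, (¬ ∃ x : F, x ^ p = ((E : 𝓞 F) : F)) →
    ∃ C : ℝ, ∀ s ∈ Set.Ioo (1 : ℝ) 2, ∀ T : Finset (Ideal (𝓞 F))⁰,
      (∀ 𝔩 ∈ T, (𝔩 : Ideal (𝓞 F)).IsPrime ∧ (Ideal.absNorm (𝔩 : Ideal (𝓞 F))).Prime ∧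
        Ideal.absNorm (𝔩 : Ideal (𝓞 F)) ≠ p ∧ ∃ x : 𝓞 F, x ^ p - (E : 𝓞 F) ∈ (𝔩 : Ideal (𝓞 F))) →
      ∑ 𝔩 ∈ T, (Ideal.absNorm (𝔩 : Ideal (𝓞 F)) : ℝ) ^ (-s) ≤
        (1 / p) * Real.log (1 / (s - 1)) + C

end Fermat.Agent.S14
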