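import Mathlib
import Fermat.Agent.S14.Stmts

/-!
# S14, node (GSA): the Galois side up to the Kummer generator (helper97)

`gsa : StmtGSA`.  From a non-split admissible extension `0 → C → V → μ_p → 0` we produce a
primitive `p`-th root of unity `ζ` and a Kummer generator `β` (a Lagrange resolvent) with
`τ β = ζ ^ b(τ) * β` for all `τ` fixing `ζ`, where `b` is the cocycle of the extension.
-/

set_option autoImplicit false

open scoped IntermediateField
open ExtCitation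

namespace Fermat.Agent.S14.H97

local notation "Qb" => AlgebraicClosure ℚ
local notation "Γ" => (AlgebraicClosure ℚ ≃ₐ[ℚ] AlgebraicClosure ℚ)

theorem isGalois_Qb : IsGalois ℚ Qb :=
  haveI : IsAlgClosure ℚ Qb := AlgebraicClosure.instIsAlgClosure ℚ
  IsAlgClosure.isGalois ℚ Qb

section Chi

variable (p : ℕ) [Fact p.Prime]

/-- The mod `p` cyclotomic character as a monoid hom into `(ZMod p)ˣ`. -/
noncomputable def chiU : Γ →* (ZMod p)ˣ :=
  haveI : NeZero p := ⟨(Fact.out : p.Prime).ne_zero⟩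
  (modularCyclotomicCharacter Qb (card_rootsOfUnity_eq_self p)).comp
    (MulSemiringAction.toRingAut Γ Qb)

/-- The mod `p` cyclotomic character with values in `ZMod p`, in the Prelude's normal form. -/
noncomputable def chi (σ : Γ) : ZMod p := ((cycloExp p σ : ℕ) : ZMod p)

theorem chi_eq (σ : Γ) : chi p σ = (chiU p σ : ZMod p) := by
  have : NeZero p := ⟨(Fact.out : p.Prime).ne_zero⟩
  unfold chi cycloExp chiU
  simp only [MonoidHom.comp_apply]
  exact ZMod.natCast_zmod_val _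

theorem chi_mul (σ τ : Γ) : chi p (σ * τ) = chi p σ * chi p τ := by
  simp only [chi_eq, map_mul, Units.val_mul]

theorem chi_one : chi p (1 : Γ) = 1 := by
  simp only [chi_eq, map_one, Units.val_one]

theorem chi_ne_zero (σ : Γ) : chi p σ ≠ 0 := by
  rw [chi_eq]; exact Units.ne_zero _

theorem chi_inv (σ : Γ) : chi p σ⁻¹ = (chi p σ)⁻¹ := by
  have h : chi p σ⁻¹ * chi p σ = 1 := by rw [← chi_mul, inv_mul_cancel, chi_one]
  exact eq_inv_of_mul_eq_one_left h

theorem chi_pow (σ : Γ) (n : ℕ) : chi p (σ ^ n) = chi p σ ^ n := by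
  simp only [chi_eq, map_pow, Units.val_pow_eq_pow_val]

theorem map_root (σ : Γ) {ζ : Qb} (hζ : ζ ^ p = 1) : σ ζ = ζ ^ cycloExp p σ := by
  have : NeZero p := ⟨(Fact.out : p.Prime).ne_zero⟩
  have h := modularCyclotomicCharacter.spec Qb (card_rootsOfUnity_eq_self p)
    (σ : Qb ≃+* Qb) (t := (rootsOfUnity.mkOfPowEq ζ hζ : Qbˣ)) (SetLike.coe_mem _)
  simpa [cycloExp] using h

theorem pow_eq_pow_iff {ζ : Qb} (hζ : IsPrimitiveRoot ζ p) (m n : ℕ) :
    ζ ^ m = ζ ^ n ↔ (m : ZMod p) = (n : ZMod p) := by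
  have hz : ζ ≠ 0 := hζ.ne_zero (Fact.out : p.Prime).ne_zero
  rw [ZMod.natCast_eq_natCast_iff, Nat.modEq_iff_dvd, ← hζ.zpow_eq_one_iff_dvd,
    zpow_sub₀ hz, zpow_natCast, zpow_natCast, div_eq_one_iff_eq (pow_ne_zero _ hz)]
  exact eq_comm

theorem chi_eq_of_map {ζ : Qb} (hζ : IsPrimitiveRoot ζ p) (σ : Γ) (a : ℕ) (h : σ ζ = ζ ^ a) :
    chi p σ = (a : ZMod p) := by
  have h1 := map_root p σ hζ.pow_eq_one
  rw [h] at h1
  exact ((pow_eq_pow_iff p hζ _ _).mp h1).symm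

theorem map_of_chi_eq {ζ : Qb} (hζ : IsPrimitiveRoot ζ p) (σ : Γ) (a : ℕ)
    (h : chi p σ = (a : ZMod p)) : σ ζ = ζ ^ a := by
  rw [map_root p σ hζ.pow_eq_one]
  exact (pow_eq_pow_iff p hζ _ _).mpr h

theorem chi_eq_one_iff {ζ : Qb} (hζ : IsPrimitiveRoot ζ p) (σ : Γ) :
    chi p σ = 1 ↔ σ ζ = ζ := by
  constructor
  · intro h
    have := map_of_chi_eq p hζ σ 1 (by simpa using h)
    simpa using this
  · intro h
    have := chi_eq_of_map p hζ σ 1 (by simpa using h)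
    simpa using this

end Chi

section VSide

variable {p : ℕ} [Fact p.Prime] {V : Type} [AddCommGroup V] [Module (ZMod p) V]
  [DistribMulAction Γ V] [SMulCommClass Γ (ZMod p) V] {C : Submodule (ZMod p) V}

/-- The defect `σ • x - χ(σ) • x`, which lies in `C`. -/
noncomputable def dfc (p : ℕ) [Fact p.Prime] {V : Type} [AddCommGroup V] [Module (ZMod p) V]
    [DistribMulAction Γ V] (x : V) (σ : Γ) : V := σ • x - chi p σ • x

omit [SMulCommClass Γ (ZMod p) V] in
theorem dfc_mem (h : IsAdmissibleExtension p V C) (x : V) (σ : Γ) : dfc p x σ ∈ C :=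
  h.cyclo_quot σ x

omit [SMulCommClass Γ (ZMod p) V] in
theorem smul_eq (x : V) (σ : Γ) : σ • x = chi p σ • x + dfc p x σ := by
  unfold dfc; abel

theorem dfc_mul (h : IsAdmissibleExtension p V C) (x : V) (σ τ : Γ) :
    dfc p x (σ * τ) = chi p τ • dfc p x σ + dfc p x τ := by
  have h1 : σ • dfc p x τ = dfc p x τ := h.fixed_sub σ _ (dfc_mem h x τ)
  have h2 : (σ * τ) • x = chi p τ • (σ • x) + dfc p x τ := by
    rw [mul_smul, smul_eq (p := p) x τ, smul_add, h1, smul_comm]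
  unfold dfc at h2 ⊢
  rw [h2, chi_mul, smul_sub, mul_smul, smul_comm (chi p τ) (chi p σ) x]
  abel

omit [SMulCommClass Γ (ZMod p) V] in
theorem dfc_one (x : V) : dfc p x (1 : Γ) = 0 := by
  unfold dfc; rw [chi_one, one_smul, one_smul, sub_self]

theorem dfc_mul_of_chi (h : IsAdmissibleExtension p V C) (x : V) (σ : Γ) {τ : Γ}
    (hτ : chi p τ = 1) : dfc p x (σ * τ) = dfc p x σ + dfc p x τ := by
  rw [dfc_mul h, hτ, one_smul]

theorem dfc_inv (h : IsAdmissibleExtension p V C) (x : V) {σ : Γ} (hσ : chi p σ = 1) :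
    dfc p x σ⁻¹ = - dfc p x σ := by
  have h1 := dfc_mul_of_chi h x σ⁻¹ hσ
  rw [inv_mul_cancel, dfc_one] at h1
  exact eq_neg_of_add_eq_zero_left h1.symm

theorem dfc_pow (h : IsAdmissibleExtension p V C) (x : V) {σ : Γ} (hσ : chi p σ = 1) (n : ℕ) :
    dfc p x (σ ^ n) = (n : ZMod p) • dfc p x σ := by
  induction n with
  | zero => simp [dfc_one]
  | succ n ih =>
    rw [pow_succ, dfc_mul_of_chi h x _ hσ, ih, Nat.cast_succ, add_smul, one_smul]

theorem dfc_conj (h : IsAdmissibleExtension p V C) (x : V) (σ : Γ) {τ : Γ} (hτ : chi p τ = 1) :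
    dfc p x (σ⁻¹ * τ * σ) = chi p σ • dfc p x τ := by
  have h0 : chi p σ • dfc p x σ⁻¹ + dfc p x σ = 0 := by
    rw [← dfc_mul h, inv_mul_cancel, dfc_one]
  rw [dfc_mul h, dfc_mul h, hτ, one_smul, smul_add, add_assoc, add_comm (chi p σ • dfc p x τ),
    ← add_assoc, h0, zero_add]

omit [SMulCommClass Γ (ZMod p) V] in
theorem chi_eq_one_of_smul_eq (h : IsAdmissibleExtension p V C) {v0 : V} (hv0 : v0 ∉ C) {σ : Γ}
    (hσ : σ • v0 = v0) : chi p σ = 1 := by
  by_contra hne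
  have h1 : dfc p v0 σ ∈ C := dfc_mem h v0 σ
  have h2 : dfc p v0 σ = (1 - chi p σ) • v0 := by
    unfold dfc; rw [hσ, sub_smul, one_smul]
  rw [h2] at h1
  have h3 : (1 - chi p σ) ≠ 0 := sub_ne_zero.mpr (Ne.symm hne)
  have h4 : v0 = (1 - chi p σ)⁻¹ • ((1 - chi p σ) • v0) := by
    rw [smul_smul, inv_mul_cancel₀ h3, one_smul]
  exact hv0 (h4 ▸ C.smul_mem _ h1)

omit [SMulCommClass Γ (ZMod p) V] in
theorem finite_V (h : IsAdmissibleExtension p V C) : Finite V :=
  Nat.finite_of_card_ne_zero (h.card_total ▸ pow_ne_zero 2 (Fact.out : p.Prime).ne_zero)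

omit [SMulCommClass Γ (ZMod p) V] in
theorem finrank_V (h : IsAdmissibleExtension p V C) : Module.finrank (ZMod p) V = 2 := by
  haveI := finite_V h
  have h1 := Module.natCard_eq_pow_finrank (K := ZMod p) (V := V)
  rw [h.card_total, Nat.card_zmod] at h1
  exact (Nat.pow_right_injective (Fact.out : p.Prime).two_le h1).symm

omit [SMulCommClass Γ (ZMod p) V] in
theorem finrank_C (h : IsAdmissibleExtension p V C) : Module.finrank (ZMod p) C = 1 := by
  haveI := finite_V h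
  have h1 := Module.natCard_eq_pow_finrank (K := ZMod p) (V := C)
  rw [h.card_sub, Nat.card_zmod] at h1
  have h2 : p ^ 1 = p ^ Module.finrank (ZMod p) C := by rw [pow_one]; exact h1
  exact (Nat.pow_right_injective (Fact.out : p.Prime).two_le h2).symm

omit [SMulCommClass Γ (ZMod p) V] in
theorem exists_not_mem (h : IsAdmissibleExtension p V C) : ∃ v0 : V, v0 ∉ C := by
  by_contra hall
  push Not at hall
  have htop : C = ⊤ := Submodule.eq_top_iff'.mpr hall
  have h1 := finrank_C h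
  rw [htop, finrank_top, finrank_V h] at h1
  omega

omit [SMulCommClass Γ (ZMod p) V] in
theorem sup_span_eq_top (h : IsAdmissibleExtension p V C) {w : V} (hw : w ∉ C) :
    C ⊔ Submodule.span (ZMod p) {w} = ⊤ := by
  haveI := finite_V h
  apply Submodule.eq_top_of_finrank_eq
  rw [finrank_V h]
  have hlt : C < C ⊔ Submodule.span (ZMod p) {w} := by
    refine lt_of_le_of_ne le_sup_left (fun heq => hw ?_)
    rw [heq]
    exact Submodule.mem_sup_right (Submodule.mem_span_singleton_self w)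
  have h1 := Submodule.finrank_lt_finrank_of_lt hlt
  rw [finrank_C h] at h1
  have h2 := Submodule.finrank_le (C ⊔ Submodule.span (ZMod p) {w})
  rw [finrank_V h] at h2
  omega

omit [SMulCommClass Γ (ZMod p) V] in
theorem isCompl_span (h : IsAdmissibleExtension p V C) {w : V} (hw : w ∉ C) :
    IsCompl C (Submodule.span (ZMod p) {w}) := by
  refine ⟨?_, codisjoint_iff.mpr (sup_span_eq_top h hw)⟩
  rw [Submodule.disjoint_def]
  intro x hxC hxw
  obtain ⟨a, rfl⟩ := Submodule.mem_span_singleton.mp hxw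
  by_cases ha : a = 0
  · rw [ha, zero_smul]
  · exfalso
    have h4 : w = a⁻¹ • (a • w) := by rw [smul_smul, inv_mul_cancel₀ ha, one_smul]
    exact hw (h4 ▸ C.smul_mem _ hxC)

omit [SMulCommClass Γ (ZMod p) V] in
theorem exists_eq_smul (h : IsAdmissibleExtension p V C) {c : V} (hc : c ∈ C) (hc0 : c ≠ 0)
    {x : V} (hx : x ∈ C) : ∃ a : ZMod p, x = a • c := by
  haveI := finite_V h
  have h1 := finrank_C h
  have hc' : (⟨c, hc⟩ : C) ≠ 0 := fun h0 => hc0 (congrArg Subtype.val h0)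
  obtain ⟨a, ha⟩ := (finrank_eq_one_iff_of_nonzero' (⟨c, hc⟩ : C) hc').mp h1 ⟨x, hx⟩
  exact ⟨a, (congrArg Subtype.val ha).symm⟩

theorem smul_eq_self_of (h : IsAdmissibleExtension p V C) {v0 : V} (hv0 : v0 ∉ C) {σ : Γ}
    (hσ : σ • v0 = v0) (v : V) : σ • v = v := by
  have hv : v ∈ C ⊔ Submodule.span (ZMod p) {v0} := by rw [sup_span_eq_top h hv0]; trivial
  obtain ⟨c, hc, y, hy, rfl⟩ := Submodule.mem_sup.mp hv
  obtain ⟨a, rfl⟩ := Submodule.mem_span_singleton.mp hy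
  rw [smul_add, h.fixed_sub σ c hc, smul_comm, hσ]

/-- `σ` acts trivially on `V` iff `χ(σ) = 1` and the defect of `v0` vanishes. -/
theorem smul_eq_self_iff (h : IsAdmissibleExtension p V C) {v0 : V} (hv0 : v0 ∉ C) (σ : Γ) :
    (∀ v : V, σ • v = v) ↔ chi p σ = 1 ∧ dfc p v0 σ = 0 := by
  constructor
  · intro hσ
    have h1 := chi_eq_one_of_smul_eq h hv0 (hσ v0)
    refine ⟨h1, ?_⟩
    unfold dfc; rw [hσ v0, h1, one_smul, sub_self]
  · rintro ⟨h1, h2⟩
    refine smul_eq_self_of h hv0 ?_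
    rw [smul_eq (p := p) v0 σ, h1, h2, one_smul, add_zero]

/-- The "Maschke case": if the defect of `v0` vanishes on the kernel of `χ`, the extension
splits globally. -/
theorem splits_of_forall (h : IsAdmissibleExtension p V C) {v0 : V} (hv0 : v0 ∉ C)
    (hM : ∀ σ : Γ, chi p σ = 1 → dfc p v0 σ = 0) : SplitsGlobally C := by
  -- find an eigenvector `w ∉ C`
  obtain ⟨w, hw, hwσ⟩ : ∃ w : V, w ∉ C ∧ ∀ σ : Γ, dfc p w σ = 0 := by
    by_cases hall : ∀ σ : Γ, chi p σ = 1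
    · exact ⟨v0, hv0, fun σ => hM σ (hall σ)⟩
    · push Not at hall
      obtain ⟨σ0, hσ0⟩ := hall
      set u : ZMod p := chi p σ0 - 1 with hu
      have hu0 : u ≠ 0 := sub_ne_zero.mpr hσ0
      set c : V := u⁻¹ • dfc p v0 σ0 with hc
      have hcC : c ∈ C := C.smul_mem _ (dfc_mem h v0 σ0)
      set w : V := v0 + c with hw
      have hwC : w ∉ C := fun hw' => hv0 (by
        have : v0 = w - c := by rw [hw]; abel
        rw [this]; exact C.sub_mem hw' hcC)
      -- the defect of `w`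
      have hdw : ∀ σ : Γ, dfc p w σ = dfc p v0 σ + (1 - chi p σ) • c := by
        intro σ
        unfold dfc
        rw [hw, smul_add, smul_add, h.fixed_sub σ c hcC, sub_smul, one_smul]
        abel
      have hdw0 : dfc p w σ0 = 0 := by
        rw [hdw, hc, smul_smul]
        have : (1 - chi p σ0) * u⁻¹ = -1 := by
          rw [hu]; field_simp; ring
        rw [this, neg_smul, one_smul, add_neg_cancel]
      have hdw1 : ∀ σ : Γ, chi p σ = 1 → dfc p w σ = 0 := by
        intro σ hσ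
        rw [hdw, hσ, sub_self, zero_smul, add_zero, hM σ hσ]
      refine ⟨w, hwC, fun σ => ?_⟩
      -- commutator trick
      have hκ : chi p (σ * σ0 * σ⁻¹ * σ0⁻¹) = 1 := by
        rw [chi_mul, chi_mul, chi_mul, chi_inv, chi_inv]
        have h1 := chi_ne_zero p σ
        have h2 := chi_ne_zero p σ0
        field_simp
      have e1 : σ * σ0 = (σ * σ0 * σ⁻¹ * σ0⁻¹) * (σ0 * σ) := by group
      have e2 : dfc p w (σ * σ0) = chi p σ0 • dfc p w σ := by
        rw [dfc_mul h, hdw0, add_zero]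
      have e3 : dfc p w (σ * σ0) = dfc p w σ := by
        rw [e1, dfc_mul h, hdw1 _ hκ, smul_zero, zero_add, dfc_mul h, hdw0, smul_zero, zero_add]
      have e4 : u • dfc p w σ = 0 := by
        rw [hu, sub_smul, one_smul, ← e2, e3, sub_self]
      rcases smul_eq_zero.mp e4 with h0 | h0
      · exact absurd h0 hu0
      · exact h0
  refine ⟨Submodule.span (ZMod p) {w}, ?_, isCompl_span h hw⟩
  intro σ x hx
  obtain ⟨a, rfl⟩ := Submodule.mem_span_singleton.mp hx
  rw [smul_comm, smul_eq (p := p) w σ, hwσ σ, add_zero, smul_smul]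
  exact Submodule.smul_mem _ _ (Submodule.mem_span_singleton_self w)

end VSide

section Resolvent

theorem sum_range_add_periodic {R : Type*} [AddCommGroup R] (F : ℕ → R) (n : ℕ)
    (hF : ∀ m, F (m + n) = F m) (k : ℕ) :
    ∑ j ∈ Finset.range n, F (k + j) = ∑ j ∈ Finset.range n, F j := by
  induction k with
  | zero => simp
  | succ k ih =>
    have h1 : ∑ j ∈ Finset.range n, F (k + 1 + j) + F k = ∑ j ∈ Finset.range n, F (k + j) + F k := by
      have h2 := Finset.sum_range_succ' (fun j => F (k + j)) n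
      have h3 := Finset.sum_range_succ (fun j => F (k + j)) n
      simp only [add_zero] at h2
      have h4 : ∀ j, F (k + (j + 1)) = F (k + 1 + j) := fun j => by
        congr 1; omega
      simp only [h4] at h2
      rw [← h2, h3, hF]
    rw [← ih]
    exact add_right_cancel h1

variable {p : ℕ} [Fact p.Prime] {V : Type} [AddCommGroup V] [Module (ZMod p) V]
  [DistribMulAction Γ V] [SMulCommClass Γ (ZMod p) V] {C : Submodule (ZMod p) V}

/-- The kernel of the action of the Galois group on `V`. -/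
def kerV (V : Type) [AddCommGroup V] [DistribMulAction Γ V] : Subgroup Γ where
  carrier := {σ | ∀ v : V, σ • v = v}
  mul_mem' := fun {a b} ha hb v => by rw [mul_smul, hb v, ha v]
  one_mem' := fun v => one_smul _ v
  inv_mem' := fun {a} ha v => by rw [inv_smul_eq_iff, ha v]

omit [Module (ZMod p) V] [SMulCommClass Γ (ZMod p) V] in
theorem mem_kerV (σ : Γ) : σ ∈ kerV V ↔ ∀ v : V, σ • v = v := Iff.rfl

omit [Module (ZMod p) V] [SMulCommClass Γ (ZMod p) V] in
theorem fixingSubgroup_fixedField_kerV (hopen : IsOpen {σ : Γ | ∀ v : V, σ • v = v}) :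
    (IntermediateField.fixedField (kerV V)).fixingSubgroup = kerV V := by
  haveI := isGalois_Qb
  have hcl : IsClosed ((kerV V : Subgroup Γ) : Set Γ) := Subgroup.isClosed_of_isOpen _ hopen
  exact InfiniteGalois.fixingSubgroup_fixedField ⟨kerV V, hcl⟩

/-- Elements of the fixed field of the kernel only see `τ` through its defect. -/
theorem apply_eq_pow_apply (h : IsAdmissibleExtension p V C) {v0 : V} (hv0 : v0 ∉ C)
    {τ0 : Γ} (hτ0 : chi p τ0 = 1) {τ : Γ} (hτ : chi p τ = 1) {k : ℕ}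
    (hk : dfc p v0 τ = (k : ZMod p) • dfc p v0 τ0) {θ : Qb}
    (hθ : θ ∈ IntermediateField.fixedField (kerV V)) : τ θ = (τ0 ^ k) θ := by
  have hχk : chi p (τ0 ^ k) = 1 := by rw [chi_pow, hτ0, one_pow]
  have hν : (τ0 ^ k)⁻¹ * τ ∈ kerV V := by
    rw [mem_kerV, smul_eq_self_iff h hv0]
    refine ⟨by rw [chi_mul, chi_inv, hχk, hτ, inv_one, one_mul], ?_⟩
    rw [dfc_mul_of_chi h v0 _ hτ, dfc_inv h v0 hχk, dfc_pow h v0 hτ0, hk, neg_add_cancel]
  have h1 := (IntermediateField.mem_fixedField_iff _ _).mp hθ _ hν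
  have h2 : (τ0 ^ k) (((τ0 ^ k)⁻¹ * τ) θ) = τ θ := by
    rw [AlgEquiv.mul_apply, ← AlgEquiv.mul_apply, mul_inv_cancel, AlgEquiv.one_apply]
  rw [← h2, h1]

theorem exists_resolvent (h : IsAdmissibleExtensionCts p V C) {v0 : V} (hv0 : v0 ∉ C)
    {τ0 : Γ} (hτ0 : chi p τ0 = 1) (hd0 : dfc p v0 τ0 ≠ 0) {ζ : Qb} (hζ : IsPrimitiveRoot ζ p) :
    ∃ β : Qb, β ≠ 0 ∧ ∀ (τ : Γ) (k : ℕ), chi p τ = 1 →
      dfc p v0 τ = (k : ZMod p) • dfc p v0 τ0 → τ β = ζ ^ k * β := by
  have hp : p.Prime := Fact.out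
  have hadm := h.toIsAdmissibleExtension
  set M := IntermediateField.fixedField (kerV V) with hMdef
  have hM : M.fixingSubgroup = kerV V := fixingSubgroup_fixedField_kerV h.open_kernel
  have hz : ζ ≠ 0 := hζ.ne_zero hp.ne_zero
  -- the characters `θ ↦ τ0^j θ` on `M`
  let f : Fin p → (M →* Qb) := fun j =>
    { toFun := fun x => (τ0 ^ (j : ℕ)) (x : Qb)
      map_one' := by simp
      map_mul' := fun x y => by simp }
  have hf : Function.Injective f := by
    intro i j hij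
    have h1 : ∀ θ : M, (τ0 ^ (i : ℕ)) (θ : Qb) = (τ0 ^ (j : ℕ)) (θ : Qb) := fun θ =>
      DFunLike.congr_fun hij θ
    have hκ : (τ0 ^ (i : ℕ))⁻¹ * τ0 ^ (j : ℕ) ∈ M.fixingSubgroup := by
      rw [IntermediateField.mem_fixingSubgroup_iff]
      intro x hx
      rw [AlgEquiv.mul_apply, ← h1 ⟨x, hx⟩, ← AlgEquiv.mul_apply, inv_mul_cancel,
        AlgEquiv.one_apply]
    rw [hM, mem_kerV, smul_eq_self_iff hadm hv0] at hκ
    have hχi : chi p (τ0 ^ (i : ℕ)) = 1 := by rw [chi_pow, hτ0, one_pow]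
    have hχj : chi p (τ0 ^ (j : ℕ)) = 1 := by rw [chi_pow, hτ0, one_pow]
    have h2 := hκ.2
    rw [dfc_mul_of_chi hadm v0 _ hχj, dfc_inv hadm v0 hχi, dfc_pow hadm v0 hτ0,
      dfc_pow hadm v0 hτ0, ← neg_smul, ← add_smul] at h2
    rcases smul_eq_zero.mp h2 with h3 | h3
    · have h4 : ((j : ℕ) : ZMod p) = ((i : ℕ) : ZMod p) := by
        have : ((j : ℕ) : ZMod p) - ((i : ℕ) : ZMod p) = 0 := by rw [← h3]; ring
        exact sub_eq_zero.mp this
      have h5 := (ZMod.natCast_eq_natCast_iff' _ _ _).mp h4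
      rw [Nat.mod_eq_of_lt j.2, Nat.mod_eq_of_lt i.2] at h5
      exact Fin.ext h5.symm
    · exact absurd h3 hd0
  have hli : LinearIndependent Qb (fun j : Fin p => (f j : M → Qb)) :=
    (linearIndependent_monoidHom M Qb).comp f hf
  -- a point where the resolvent does not vanish
  obtain ⟨θ, hθ⟩ : ∃ θ : M, ∑ j : Fin p, (ζ⁻¹) ^ (j : ℕ) * (τ0 ^ (j : ℕ)) (θ : Qb) ≠ 0 := by
    by_contra hall
    push Not at hall
    have hsum : ∑ j : Fin p, ((ζ⁻¹) ^ (j : ℕ)) • (f j : M → Qb) = 0 := by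
      funext θ
      simp only [Finset.sum_apply, Pi.smul_apply, smul_eq_mul, Pi.zero_apply]
      exact hall θ
    have h0 := Fintype.linearIndependent_iff.mp hli _ hsum ⟨0, hp.pos⟩
    simp at h0
  set F : ℕ → Qb := fun m => (ζ⁻¹) ^ m * (τ0 ^ m) (θ : Qb) with hF
  have hθM : (θ : Qb) ∈ IntermediateField.fixedField (kerV V) := θ.2
  have hFper : ∀ m, F (m + p) = F m := by
    intro m
    have h1 : (τ0 ^ (m + p)) (θ : Qb) = (τ0 ^ m) (θ : Qb) := by
      refine apply_eq_pow_apply hadm hv0 hτ0 (by rw [chi_pow, hτ0, one_pow]) ?_ hθM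
      rw [dfc_pow hadm v0 hτ0, Nat.cast_add, ZMod.natCast_self, add_zero]
    have h2 : (ζ⁻¹) ^ (m + p) = (ζ⁻¹) ^ m := by
      rw [pow_add, inv_pow ζ p, hζ.pow_eq_one, inv_one, mul_one]
    simp only [hF, h1, h2]
  refine ⟨∑ j ∈ Finset.range p, F j, ?_, ?_⟩
  · rw [← Fin.sum_univ_eq_sum_range]
    exact hθ
  · intro τ k hτ hk
    have hτζ : τ ζ = ζ := (chi_eq_one_iff p hζ τ).mp hτ
    have hτζi : τ (ζ⁻¹) = ζ⁻¹ := by rw [map_inv₀, hτζ]
    have h1 : ∀ j : ℕ, τ (F j) = ζ ^ k * F (k + j) := by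
      intro j
      have h2 : τ ((τ0 ^ j) (θ : Qb)) = (τ0 ^ (k + j)) (θ : Qb) := by
        rw [← AlgEquiv.mul_apply]
        refine apply_eq_pow_apply hadm hv0 hτ0 ?_ ?_ hθM
        · rw [chi_mul, chi_pow, hτ, hτ0, one_pow, one_mul]
        · rw [dfc_mul_of_chi hadm v0 _ (by rw [chi_pow, hτ0, one_pow]), hk,
            dfc_pow hadm v0 hτ0, ← add_smul, Nat.cast_add]
      have h3 : ζ ^ k * ζ⁻¹ ^ (k + j) = ζ⁻¹ ^ j := by
        rw [pow_add, ← mul_assoc, ← mul_pow, mul_inv_cancel₀ hz, one_pow, one_mul]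
      simp only [hF]
      rw [map_mul, map_pow, hτζi, h2, ← mul_assoc, h3]
    rw [map_sum, Finset.sum_congr rfl (fun j _ => h1 j), ← Finset.mul_sum,
      sum_range_add_periodic F p hFper k]

end Resolvent

section Main

/-- The stabiliser of `ζ` in the absolute Galois group. -/
def stabZ (ζ : Qb) : Subgroup Γ where
  carrier := {f | f ζ = ζ}
  mul_mem' := fun {a b} ha hb => by
    show (a * b) ζ = ζ
    rw [AlgEquiv.mul_apply, hb, ha]
  one_mem' := rfl
  inv_mem' := fun {a} ha => by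
    show a⁻¹ ζ = ζ
    have h1 : a⁻¹ (a ζ) = ζ := by rw [← AlgEquiv.mul_apply, inv_mul_cancel, AlgEquiv.one_apply]
    rw [ha] at h1
    exact h1

theorem fixedField_stabZ (ζ : Qb) : IntermediateField.fixedField (stabZ ζ) = ℚ⟮ζ⟯ := by
  haveI := isGalois_Qb
  apply le_antisymm
  · have h1 : (ℚ⟮ζ⟯).fixingSubgroup ≤ stabZ ζ := by
      intro f hf
      exact (IntermediateField.mem_fixingSubgroup_iff _ f).mp hf ζ
        (IntermediateField.mem_adjoin_simple_self ℚ ζ)
    intro x hx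
    rw [← InfiniteGalois.fixedField_fixingSubgroup (ℚ⟮ζ⟯)]
    rw [IntermediateField.mem_fixedField_iff] at hx ⊢
    exact fun f hf => hx f (h1 hf)
  · rw [IntermediateField.adjoin_simple_le_iff, IntermediateField.mem_fixedField_iff]
    exact fun f hf => hf

theorem mem_adjoin_of_fixed {ζ x : Qb} (hx : ∀ τ : Γ, τ ζ = ζ → τ x = x) : x ∈ ℚ⟮ζ⟯ := by
  rw [← fixedField_stabZ, IntermediateField.mem_fixedField_iff]
  exact fun f hf => hx f hf

theorem fixed_of_mem_adjoin {ζ x : Qb} (hx : x ∈ ℚ⟮ζ⟯) {τ : Γ} (hτ : τ ζ = ζ) : τ x = x := by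
  rw [← fixedField_stabZ, IntermediateField.mem_fixedField_iff] at hx
  exact hx τ hτ

/-- (GS-A) of the S14 skeleton: the Galois side up to the Kummer generator. -/
theorem exists_kummerDatum {p : ℕ} [Fact p.Prime] (_h3 : 3 ≤ p)
    (V : Type) [AddCommGroup V] [Module (ZMod p) V]
    [DistribMulAction (AlgebraicClosure ℚ ≃ₐ[ℚ] AlgebraicClosure ℚ) V]
    [SMulCommClass (AlgebraicClosure ℚ ≃ₐ[ℚ] AlgebraicClosure ℚ) (ZMod p) V]
    (C : Submodule (ZMod p) V) (hadm : IsAdmissibleExtensionCts p V C)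
    (hns : ¬ SplitsGlobally C) :
    ∃ ζ β : AlgebraicClosure ℚ, IsKummerDatum p ζ β := by
  have hp : p.Prime := Fact.out
  have h := hadm.toIsAdmissibleExtension
  haveI : NeZero (p : Qb) := ⟨Nat.cast_ne_zero.mpr hp.ne_zero⟩
  obtain ⟨ζ, hζ⟩ := HasEnoughRootsOfUnity.exists_primitiveRoot Qb p
  have hz : ζ ≠ 0 := hζ.ne_zero hp.ne_zero
  obtain ⟨v0, hv0⟩ := exists_not_mem h
  obtain ⟨τ0, hτ0, hd0⟩ : ∃ τ0 : Γ, chi p τ0 = 1 ∧ dfc p v0 τ0 ≠ 0 := by
    by_contra hall
    push Not at hall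
    exact hns (splits_of_forall h hv0 hall)
  obtain ⟨β, hβ0, hβ⟩ := exists_resolvent hadm hv0 hτ0 hd0 hζ
  have hc0C : dfc p v0 τ0 ∈ C := dfc_mem h v0 τ0
  -- every `τ` in the kernel of `χ` multiplies `β` by a power of `ζ`
  have hkey : ∀ τ : Γ, chi p τ = 1 →
      ∃ k : ℕ, dfc p v0 τ = (k : ZMod p) • dfc p v0 τ0 ∧ τ β = ζ ^ k * β := by
    intro τ hτ
    obtain ⟨a, ha⟩ := exists_eq_smul h hc0C hd0 (dfc_mem h v0 τ)
    haveI : NeZero p := ⟨hp.ne_zero⟩
    have ha' : dfc p v0 τ = ((a.val : ℕ) : ZMod p) • dfc p v0 τ0 := by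
      rw [ZMod.natCast_zmod_val]; exact ha
    exact ⟨a.val, ha', hβ τ a.val hτ ha'⟩
  refine ⟨ζ, β, ⟨hζ, hβ0, ?_, ?_, ?_, ?_, ?_⟩⟩
  · -- pow_mem
    apply mem_adjoin_of_fixed
    intro τ hτ
    obtain ⟨k, -, hk⟩ := hkey τ ((chi_eq_one_iff p hζ τ).mpr hτ)
    rw [map_pow, hk, mul_pow, ← pow_mul, mul_comm k p, pow_mul, hζ.pow_eq_one, one_pow, one_mul]
  · -- not_mem
    intro hmem
    have h1 : τ0 β = β := fixed_of_mem_adjoin hmem ((chi_eq_one_iff p hζ τ0).mp hτ0)
    have h2 : τ0 β = ζ ^ 1 * β := hβ τ0 1 hτ0 (by rw [Nat.cast_one, one_smul])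
    rw [h1, pow_one] at h2
    have h3 : ζ = 1 := by
      have : (ζ - 1) * β = 0 := by rw [sub_mul, one_mul, ← h2, sub_self]
      rcases mul_eq_zero.mp this with h4 | h4
      · exact sub_eq_zero.mp h4
      · exact absurd h4 hβ0
    exact hζ.ne_one hp.one_lt h3
  · -- eigen
    intro σ a hσ
    have hχσ : chi p σ = (a : ZMod p) := chi_eq_of_map p hζ σ a hσ
    have hβa : β ^ (a ^ 2) ≠ 0 := pow_ne_zero _ hβ0
    refine ⟨σ β * (β ^ (a ^ 2))⁻¹, ?_, ?_⟩
    · apply mem_adjoin_of_fixed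
      intro τ hτ
      have hχτ : chi p τ = 1 := (chi_eq_one_iff p hζ τ).mpr hτ
      obtain ⟨k, hk, hkβ⟩ := hkey τ hχτ
      -- the conjugate
      have hχc : chi p (σ⁻¹ * τ * σ) = 1 := by
        rw [chi_mul, chi_mul, chi_inv, hχτ, mul_one, inv_mul_cancel₀ (chi_ne_zero p σ)]
      have hdc : dfc p v0 (σ⁻¹ * τ * σ) = ((a * k : ℕ) : ZMod p) • dfc p v0 τ0 := by
        rw [dfc_conj h v0 σ hχτ, hk, hχσ, smul_smul, Nat.cast_mul]
      have hcβ : (σ⁻¹ * τ * σ) β = ζ ^ (a * k) * β := hβ _ _ hχc hdc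
      have h1 : τ (σ β) = ζ ^ (a * (a * k)) * σ β := by
        have e : τ (σ β) = σ ((σ⁻¹ * τ * σ) β) := by
          rw [← AlgEquiv.mul_apply, ← AlgEquiv.mul_apply]
          congr 1
          group
        rw [e, hcβ, map_mul, map_pow, hσ, ← pow_mul]
      have h2 : τ (β ^ (a ^ 2)) = ζ ^ (a * (a * k)) * β ^ (a ^ 2) := by
        rw [map_pow, hkβ, mul_pow, ← pow_mul]
        congr 2
        ring
      rw [map_mul, map_inv₀, h1, h2, mul_inv, mul_mul_mul_comm,
        mul_inv_cancel₀ (pow_ne_zero _ hz), one_mul]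
    · rw [mul_comm (σ β), ← mul_assoc, mul_inv_cancel₀ hβa, one_mul]
  · -- unram
    intro ℓ hℓ hℓp A hA σ hσ
    have h1 := (smul_eq_self_iff h hv0 σ).mp (h.unramified_outside ℓ hℓ hℓp A hA σ hσ)
    refine ⟨(chi_eq_one_iff p hζ σ).mp h1.1, ?_⟩
    have h2 := hβ σ 0 h1.1 (by rw [h1.2, Nat.cast_zero, zero_smul])
    rw [pow_zero, one_mul] at h2
    exact h2
  · -- split
    intro A hA σ hσ hσζ
    have hχ : chi p σ = 1 := (chi_eq_one_iff p hζ σ).mpr hσζ
    obtain ⟨C', hC', hcompl⟩ := h.locally_split A hA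
    have hv : v0 ∈ C ⊔ C' := by rw [hcompl.sup_eq_top]; trivial
    obtain ⟨c, hc, c', hc', hcc⟩ := Submodule.mem_sup.mp hv
    have h1 : σ • c' = c' := by
      have h2 : dfc p c' σ ∈ C ⊓ C' := by
        refine ⟨dfc_mem h c' σ, ?_⟩
        unfold dfc
        rw [hχ, one_smul]
        exact C'.sub_mem (hC' σ hσ c' hc') hc'
      rw [hcompl.inf_eq_bot, Submodule.mem_bot] at h2
      unfold dfc at h2
      rw [hχ, one_smul] at h2
      exact sub_eq_zero.mp h2
    have h3 : σ • v0 = v0 := by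
      rw [← hcc, smul_add, h.fixed_sub σ c hc, h1]
    have h4 := (smul_eq_self_iff h hv0 σ).mp (smul_eq_self_of h hv0 h3)
    have h5 := hβ σ 0 hχ (by rw [h4.2, Nat.cast_zero, zero_smul])
    rw [pow_zero, one_mul] at h5
    exact h5

end Main

/-- Node (GSA) of the S14 skeleton, in the literal `Stmt` form. -/
theorem gsa : StmtGSA :=
  fun _ _ h3 V _ _ _ _ C hadm hns => exists_kummerDatum h3 V C hadm hns

end Fermat.Agent.S14.H97
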