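import Fermat.Agent.S14.Stmts
import Fermat.Agent.S14.LocalDict_helper87

/-!
# S14, row 164 (GSB): the fields `ℚ(ζ) ⊆ ℚ(ζ, β)` and manipulations of Kummer data (helper86)

* `MM ζ β = ℚ(ζ, β)`; number-field / cyclotomic / Galois instances (as theorems);
  `mem_fixingSubgroup_MM_iff`;
* `kummerDatum_mul_left` : scaling `β` by a nonzero element of `ℚ(ζ)`;
* `not_exists_pow_eq` : `β ^ p` is not a `p`-th power in `ℚ(ζ)`;
* `eigen_pow` : the eigen-relation for `β ^ p` and automorphisms of `ℚ(ζ)`.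
-/

set_option autoImplicit false

open scoped NumberField IntermediateField

namespace Fermat.Agent.S14.H86

local notation "Qb" => AlgebraicClosure ℚ
local notation "Γ" => (AlgebraicClosure ℚ ≃ₐ[ℚ] AlgebraicClosure ℚ)

/-- `M = ℚ(ζ, β)`. -/
noncomputable abbrev MM (ζ β : Qb) : IntermediateField ℚ Qb := IntermediateField.adjoin ℚ {ζ, β}

theorem le_MM (ζ β : Qb) : ℚ⟮ζ⟯ ≤ MM ζ β :=
  IntermediateField.adjoin.mono ℚ {ζ} {ζ, β} (by simp)

theorem zeta_mem_MM (ζ β : Qb) : ζ ∈ MM ζ β :=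
  IntermediateField.subset_adjoin ℚ {ζ, β} (by simp)

theorem beta_mem_MM (ζ β : Qb) : β ∈ MM ζ β :=
  IntermediateField.subset_adjoin ℚ {ζ, β} (by simp)

theorem isIntegral_rat_Qb (x : Qb) : IsIntegral ℚ x := by
  have := H87.isGalois_rat_algebraicClosure
  exact Algebra.IsIntegral.isIntegral x

theorem numberField_K (ζ : Qb) : NumberField ℚ⟮ζ⟯ := by
  have : FiniteDimensional ℚ ℚ⟮ζ⟯ :=
    IntermediateField.adjoin.finiteDimensional (isIntegral_rat_Qb ζ)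
  exact { to_charZero := inferInstance, to_finiteDimensional := inferInstance }

theorem numberField_MM (ζ β : Qb) : NumberField (MM ζ β) := by
  have : FiniteDimensional ℚ (MM ζ β) :=
    IntermediateField.finiteDimensional_adjoin (fun x _ => isIntegral_rat_Qb x)
  exact { to_charZero := inferInstance, to_finiteDimensional := inferInstance }

/-- An automorphism fixing a set pointwise fixes the field it generates. -/
theorem fixed_of_mem_adjoin_set {S : Set Qb} {σ : Γ} (hS : ∀ s ∈ S, σ s = s) {x : Qb}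
    (hx : x ∈ IntermediateField.adjoin ℚ S) : σ x = x := by
  have hle : IntermediateField.adjoin ℚ S ≤
      IntermediateField.fixedField (Subgroup.zpowers σ) := by
    rw [IntermediateField.adjoin_le_iff]
    intro s hs
    rw [SetLike.mem_coe, IntermediateField.mem_fixedField_iff]
    intro g hg
    have h1 : Subgroup.zpowers σ ≤ MulAction.stabilizer Γ s := by
      rw [Subgroup.zpowers_le, MulAction.mem_stabilizer_iff]
      exact hS s hs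
    exact MulAction.mem_stabilizer_iff.mp (h1 hg)
  exact (IntermediateField.mem_fixedField_iff _ x).mp (hle hx) σ (Subgroup.mem_zpowers σ)

theorem fixed_of_mem_K {ζ : Qb} {σ : Γ} (hσ : σ ζ = ζ) {x : Qb} (hx : x ∈ ℚ⟮ζ⟯) : σ x = x :=
  fixed_of_mem_adjoin_set (S := {ζ}) (by rintro s rfl; exact hσ) hx

/-- (F4) -/
theorem mem_fixingSubgroup_MM_iff (ζ β : Qb) (σ : Γ) :
    σ ∈ (MM ζ β).fixingSubgroup ↔ σ ζ = ζ ∧ σ β = β := by
  rw [IntermediateField.mem_fixingSubgroup_iff]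
  constructor
  · intro h
    exact ⟨h ζ (zeta_mem_MM ζ β), h β (beta_mem_MM ζ β)⟩
  · rintro ⟨h1, h2⟩ x hx
    refine fixed_of_mem_adjoin_set (S := {ζ, β}) ?_ hx
    rintro s (rfl | rfl)
    · exact h1
    · exact h2

/-- An automorphism mapping `ζ` into `ℚ(ζ)` maps `ℚ(ζ)` into itself. -/
theorem map_mem_K {ζ : Qb} (σ : Γ) (hσ : σ ζ ∈ ℚ⟮ζ⟯) {x : Qb} (hx : x ∈ ℚ⟮ζ⟯) :
    σ x ∈ ℚ⟮ζ⟯ := by
  have h1 : (ℚ⟮ζ⟯).map (σ : Qb →ₐ[ℚ] Qb) ≤ ℚ⟮ζ⟯ := by
    rw [IntermediateField.adjoin_map, IntermediateField.adjoin_le_iff]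
    rintro _ ⟨s, rfl, rfl⟩
    exact hσ
  exact h1 ⟨x, hx, rfl⟩

section

variable {p : ℕ} [Fact p.Prime] {ζ β : Qb}

theorem isCyclotomicExtension_K (hζ : IsPrimitiveRoot ζ p) :
    IsCyclotomicExtension {p} ℚ ℚ⟮ζ⟯ := by
  have := H87.isGalois_rat_algebraicClosure
  exact hζ.intermediateField_adjoin_isCyclotomicExtension ℚ

/-- Every automorphism maps `ζ` to a power of `ζ`. -/
theorem exists_apply_eq_pow (hζ : IsPrimitiveRoot ζ p) (σ : Γ) : ∃ a : ℕ, σ ζ = ζ ^ a := by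
  have h1 : (σ ζ) ^ p = 1 := by rw [← map_pow, hζ.pow_eq_one, map_one]
  obtain ⟨i, -, hi⟩ := hζ.eq_pow_of_pow_eq_one h1
  exact ⟨i, hi.symm⟩

/-- (F2) `M/ℚ` is Galois (the eigen-relation makes `M` stable under `Γ`). -/
theorem isGalois_MM (h : IsKummerDatum p ζ β) : IsGalois ℚ (MM ζ β) := by
  have := H87.isGalois_rat_algebraicClosure
  have hnormal : @Normal ℚ (MM ζ β) _ _ (MM ζ β).algebra' := by
    rw [IntermediateField.normal_iff_forall_map_le']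
    intro σ
    rw [IntermediateField.adjoin_map, IntermediateField.adjoin_le_iff]
    rintro _ ⟨s, hs, rfl⟩
    obtain ⟨a, ha⟩ := exists_apply_eq_pow h.prim σ
    rcases hs with rfl | rfl
    · show σ s ∈ MM s β
      rw [ha]
      exact pow_mem (zeta_mem_MM s β) a
    · obtain ⟨c, hc, hcβ⟩ := h.eigen σ a ha
      show σ s ∈ MM ζ s
      rw [hcβ]
      exact mul_mem (pow_mem (beta_mem_MM ζ s) _) (le_MM ζ s hc)
  have halg : (DivisionRing.toRatAlgebra : Algebra ℚ (MM ζ β)) = (MM ζ β).algebra' :=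
    Subsingleton.elim _ _
  rw [halg]
  exact isGalois_iff.mpr ⟨inferInstance, hnormal⟩

omit [Fact p.Prime] in
/-- (C1) scaling `β` by a nonzero element of `ℚ(ζ)`. -/
theorem kummerDatum_mul_left (h : IsKummerDatum p ζ β) {κ : Qb} (hκ : κ ∈ ℚ⟮ζ⟯)
    (hκ0 : κ ≠ 0) : IsKummerDatum p ζ (κ * β) where
  prim := h.prim
  ne_zero := mul_ne_zero hκ0 h.ne_zero
  pow_mem := by
    rw [mul_pow]
    exact mul_mem (pow_mem hκ p) h.pow_mem
  not_mem := by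
    intro hmem
    apply h.not_mem
    have h1 : β = κ⁻¹ * (κ * β) := by rw [← mul_assoc, inv_mul_cancel₀ hκ0, one_mul]
    rw [h1]
    exact mul_mem (inv_mem hκ) hmem
  eigen := by
    intro σ a hσ
    obtain ⟨c, hc, hcβ⟩ := h.eigen σ a hσ
    have hσκ : σ κ ∈ ℚ⟮ζ⟯ :=
      map_mem_K σ (by rw [hσ]; exact pow_mem (IntermediateField.mem_adjoin_simple_self ℚ ζ) a) hκ
    refine ⟨σ κ * c * (κ ^ (a ^ 2))⁻¹,
      mul_mem (mul_mem hσκ hc) (inv_mem (pow_mem hκ _)), ?_⟩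
    rw [map_mul, hcβ, mul_pow]
    have hκa : κ ^ (a ^ 2) ≠ 0 := pow_ne_zero _ hκ0
    field_simp
  unram := by
    intro ℓ hℓ hne A hA σ hσ
    obtain ⟨h1, h2⟩ := h.unram ℓ hℓ hne A hA σ hσ
    refine ⟨h1, ?_⟩
    rw [map_mul, fixed_of_mem_K h1 hκ, h2]
  split := by
    intro A hA σ hσ hζ
    rw [map_mul, fixed_of_mem_K hζ hκ, h.split A hA σ hσ hζ]

/-- (C6) `β ^ p` is not a `p`-th power in `ℚ(ζ)`. -/
theorem not_exists_pow_eq (h : IsKummerDatum p ζ β) : ¬ ∃ x ∈ ℚ⟮ζ⟯, x ^ p = β ^ p := by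
  rintro ⟨x, hx, hxp⟩
  have hp : p.Prime := Fact.out
  have hx0 : x ≠ 0 := by
    rintro rfl
    rw [zero_pow hp.ne_zero] at hxp
    exact h.ne_zero (pow_eq_zero_iff hp.ne_zero |>.mp hxp.symm)
  have h1 : (β * x⁻¹) ^ p = 1 := by
    rw [mul_pow, inv_pow, ← hxp, mul_inv_cancel₀ (pow_ne_zero p hx0)]
  obtain ⟨i, -, hi⟩ := h.prim.eq_pow_of_pow_eq_one h1
  apply h.not_mem
  have h2 : β = ζ ^ i * x := by
    rw [hi, mul_assoc, inv_mul_cancel₀ hx0, mul_one]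
  rw [h2]
  exact mul_mem (pow_mem (IntermediateField.mem_adjoin_simple_self ℚ ζ) i) hx

omit [Fact p.Prime] in
/-- (C7) the eigen-relation for `α = β ^ p` and automorphisms of `ℚ(ζ)`. -/
theorem eigen_pow (h : IsKummerDatum p ζ β) (σ : ℚ⟮ζ⟯ ≃ₐ[ℚ] ℚ⟮ζ⟯) (a : ℕ)
    (hσ : ((σ ⟨ζ, IntermediateField.mem_adjoin_simple_self ℚ ζ⟩ : ℚ⟮ζ⟯) : Qb) = ζ ^ a) :
    ∃ c : ℚ⟮ζ⟯, ((σ ⟨β ^ p, h.pow_mem⟩ : ℚ⟮ζ⟯) : Qb) = (β ^ p) ^ (a ^ 2) * (c : Qb) ^ p := by
  have := H87.isGalois_rat_algebraicClosure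
  have hlift : ∀ x : ℚ⟮ζ⟯, (σ.liftNormal Qb) (x : Qb) = ((σ x : ℚ⟮ζ⟯) : Qb) :=
    fun x => σ.liftNormal_commutes Qb x
  have hδ : (σ.liftNormal Qb) ζ = ζ ^ a := by
    rw [← hσ]
    exact hlift ⟨ζ, IntermediateField.mem_adjoin_simple_self ℚ ζ⟩
  obtain ⟨c, hc, hcβ⟩ := h.eigen (σ.liftNormal Qb) a hδ
  refine ⟨⟨c, hc⟩, ?_⟩
  rw [← hlift ⟨β ^ p, h.pow_mem⟩]
  show (σ.liftNormal Qb) (β ^ p) = (β ^ p) ^ (a ^ 2) * c ^ p
  rw [map_pow, hcβ, mul_pow, ← pow_mul, ← pow_mul, mul_comm p]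

end

end Fermat.Agent.S14.H86
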