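import Mathlib
import Fermat.Agent.S14.Stmts
import Fermat.Agent.S14.GSA_helper97

/-!
# S14, row 164 (GSB): Galois bookkeeping for Kummer data (helper97)

Sections (C) and (F2) of helper86's `GsbSpec`: scaling a Kummer datum by `ℚ(ζ)ˣ`, `β ^ p` is not
a `p`-th power in `ℚ(ζ)`, the eigen relation for `β ^ p` and automorphisms of `ℚ(ζ)`, and
`ℚ(ζ, β) / ℚ` is Galois.
-/

set_option autoImplicit false

open scoped NumberField IntermediateField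

namespace Fermat.Agent.S14.H97

local notation "Qb" => AlgebraicClosure ℚ
local notation "Γ" => (AlgebraicClosure ℚ ≃ₐ[ℚ] AlgebraicClosure ℚ)

section C

variable {p : ℕ} [Fact p.Prime] {ζ β : Qb}

/-- `ℚ(ζ)` is stable under `Γ` when `ζ` is a root of unity (`σ ζ` is a power of `ζ`). -/
theorem map_mem_adjoin_of_pow {ζ κ : Qb} (hκ : κ ∈ ℚ⟮ζ⟯) (σ : Γ) {a : ℕ} (hσ : σ ζ = ζ ^ a) :
    σ κ ∈ ℚ⟮ζ⟯ := by
  have h1 : (ℚ⟮ζ⟯).map (σ : Qb →ₐ[ℚ] Qb) ≤ ℚ⟮ζ⟯ := by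
    rw [IntermediateField.adjoin_map, IntermediateField.adjoin_le_iff]
    rintro _ ⟨x, hx, rfl⟩
    rw [Set.mem_singleton_iff] at hx
    subst hx
    show σ x ∈ ℚ⟮x⟯
    rw [hσ]
    exact pow_mem (IntermediateField.mem_adjoin_simple_self ℚ x) a
  exact h1 ⟨κ, hκ, rfl⟩

/-- (C6) `β ^ p` is not a `p`-th power in `ℚ(ζ)`. -/
theorem not_exists_pow_eq (h : IsKummerDatum p ζ β) : ¬ ∃ x ∈ ℚ⟮ζ⟯, x ^ p = β ^ p := by
  rintro ⟨x, hx, hxp⟩
  have hp0 : 0 < p := (Fact.out : p.Prime).pos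
  have hx0 : x ≠ 0 := by
    rintro rfl
    rw [zero_pow hp0.ne'] at hxp
    exact h.ne_zero (pow_eq_zero_iff hp0.ne' |>.mp hxp.symm)
  have h1 : (β / x) ^ p = 1 := by
    rw [div_pow, hxp, div_self (pow_ne_zero p h.ne_zero)]
  obtain ⟨i, -, hi⟩ := h.prim.eq_pow_of_pow_eq_one h1
  apply h.not_mem
  have h2 : β = x * ζ ^ i := by
    rw [hi]; field_simp
  rw [h2]
  exact mul_mem hx (pow_mem (IntermediateField.mem_adjoin_simple_self ℚ ζ) i)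

omit [Fact p.Prime] in
/-- (C7) the eigen-relation for `α = β ^ p` and automorphisms of `ℚ(ζ)`. -/
theorem eigen_pow (h : IsKummerDatum p ζ β) (σ : ℚ⟮ζ⟯ ≃ₐ[ℚ] ℚ⟮ζ⟯) (a : ℕ)
    (hσ : ((σ ⟨ζ, IntermediateField.mem_adjoin_simple_self ℚ ζ⟩ : ℚ⟮ζ⟯) : Qb) = ζ ^ a) :
    ∃ c : ℚ⟮ζ⟯, ((σ ⟨β ^ p, h.pow_mem⟩ : ℚ⟮ζ⟯) : Qb) = (β ^ p) ^ (a ^ 2) * (c : Qb) ^ p := by
  have : Normal ℚ Qb := isGalois_Qb.to_normal
  set δ : Γ := σ.liftNormal Qb with hδ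
  have hcomm : ∀ x : ℚ⟮ζ⟯, δ (x : Qb) = ((σ x : ℚ⟮ζ⟯) : Qb) := fun x =>
    σ.liftNormal_commutes Qb x
  have hδζ : δ ζ = ζ ^ a := by
    rw [← hσ]
    exact hcomm ⟨ζ, IntermediateField.mem_adjoin_simple_self ℚ ζ⟩
  obtain ⟨c, hc, hcβ⟩ := h.eigen δ a hδζ
  refine ⟨⟨c, hc⟩, ?_⟩
  have h1 : ((σ ⟨β ^ p, h.pow_mem⟩ : ℚ⟮ζ⟯) : Qb) = δ (β ^ p) :=
    (hcomm ⟨β ^ p, h.pow_mem⟩).symm
  rw [h1, map_pow, hcβ, mul_pow, ← pow_mul, ← pow_mul, mul_comm p (a ^ 2)]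

omit [Fact p.Prime] in
/-- (C1) scaling `β` by a nonzero element of `ℚ(ζ)`. -/
theorem IsKummerDatum.mul_left (h : IsKummerDatum p ζ β) {κ : Qb} (hκ : κ ∈ ℚ⟮ζ⟯)
    (hκ0 : κ ≠ 0) : IsKummerDatum p ζ (κ * β) where
  prim := h.prim
  ne_zero := mul_ne_zero hκ0 h.ne_zero
  pow_mem := by
    rw [mul_pow]
    exact mul_mem (pow_mem hκ p) h.pow_mem
  not_mem := by
    intro hmem
    apply h.not_mem
    have h1 : β = κ⁻¹ * (κ * β) := by
      rw [← mul_assoc, inv_mul_cancel₀ hκ0, one_mul]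
    rw [h1]
    exact mul_mem (inv_mem hκ) hmem
  eigen := by
    intro σ a hσ
    obtain ⟨c, hc, hcβ⟩ := h.eigen σ a hσ
    refine ⟨σ κ * c / κ ^ (a ^ 2), ?_, ?_⟩
    · exact div_mem (mul_mem (map_mem_adjoin_of_pow hκ σ hσ) hc) (pow_mem hκ _)
    · have hX : κ ^ (a ^ 2) ≠ 0 := pow_ne_zero _ hκ0
      rw [map_mul, hcβ, mul_pow]
      field_simp
  unram := by
    intro ℓ hℓ hℓp A hA σ hσ
    obtain ⟨h1, h2⟩ := h.unram ℓ hℓ hℓp A hA σ hσ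
    exact ⟨h1, by rw [map_mul, h2, fixed_of_mem_adjoin hκ h1]⟩
  split := by
    intro A hA σ hσ hζ
    rw [map_mul, h.split A hA σ hσ hζ, fixed_of_mem_adjoin hκ hζ]

end C

section F

variable {p : ℕ} [Fact p.Prime] {ζ β : Qb}

/-- (F2) `M = ℚ(ζ, β)` is Galois over `ℚ` (the eigen-relation makes `M` stable under `Γ`). -/
theorem isGalois_MM (h : IsKummerDatum p ζ β) :
    IsGalois ℚ (IntermediateField.adjoin ℚ {ζ, β}) := by
  have : Normal ℚ Qb := isGalois_Qb.to_normal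
  have hζM : ζ ∈ IntermediateField.adjoin ℚ {ζ, β} :=
    IntermediateField.subset_adjoin ℚ _ (Set.mem_insert ζ {β})
  have hβM : β ∈ IntermediateField.adjoin ℚ {ζ, β} :=
    IntermediateField.subset_adjoin ℚ _ (Set.mem_insert_of_mem ζ rfl)
  have hle : ℚ⟮ζ⟯ ≤ IntermediateField.adjoin ℚ {ζ, β} :=
    IntermediateField.adjoin.mono ℚ _ _ (Set.singleton_subset_iff.mpr (Set.mem_insert ζ {β}))
  have key : ∀ σ : Γ, (IntermediateField.adjoin ℚ {ζ, β}).map (σ : Qb →ₐ[ℚ] Qb) ≤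
      IntermediateField.adjoin ℚ {ζ, β} := by
    intro σ
    rw [IntermediateField.adjoin_map, IntermediateField.adjoin_le_iff]
    rintro _ ⟨x, hx, rfl⟩
    have hσζ : σ ζ = ζ ^ ExtCitation.cycloExp p σ :=
      map_root p σ (h.prim.pow_eq_one)
    rcases hx with rfl | hx
    · show σ x ∈ IntermediateField.adjoin ℚ {x, β}
      rw [hσζ]
      exact pow_mem hζM _
    · rw [Set.mem_singleton_iff] at hx
      subst hx
      obtain ⟨c, hc, hcβ⟩ := h.eigen σ _ hσζ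
      show σ x ∈ IntermediateField.adjoin ℚ {ζ, x}
      rw [hcβ]
      exact mul_mem (pow_mem hβM _) (hle hc)
  have hnormal : Normal ℚ (IntermediateField.adjoin ℚ {ζ, β}) := by
    have h1 := (IntermediateField.normal_iff_forall_map_le'
      (K := IntermediateField.adjoin ℚ {ζ, β})).mpr key
    convert h1
    exact Subsingleton.elim _ _
  exact ⟨⟩

end F

end Fermat.Agent.S14.H97
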