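import Mathlib
import Fermat.Agent.S14.LocalDict_helper87

/-!
# S14, SP: ramification of a Galois number field `M ⊆ ℚ̄` from inertia / decomposition groups
of valuation subrings of `ℚ̄` (helper86; on top of `LocalDict_helper87`)

* `inertia_eq_bot`, `ramificationIdx_int_eq_one`, `ramificationIdx_eq_one` (A1, A1'):
  if the inertia groups over `ℓ` fix `M` pointwise then `e = 1` for every prime of `M` over `ℓ`
  (over `ℤ` and over any subfield `K`);
* `stabilizer_eq_bot`, `ramificationIdx_inertiaDeg_eq_one` (B1): if every element of a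
  decomposition group over `ℓ` which fixes `K` fixes `M`, then `e = f = 1` over `K` for every
  prime of `M` over `ℓ`.
-/

set_option autoImplicit false

namespace Fermat.Agent.S14.H86

open NumberField
open scoped Pointwise
open Fermat.Agent.S14.H87

local notation "Qb" => AlgebraicClosure ℚ

variable (M : IntermediateField ℚ Qb) [NumberField M] [IsGalois ℚ M]

omit [IsGalois ℚ M] in
theorem isMaximal_of_natCast_mem {ℓ : ℕ} (hℓ : ℓ.Prime) (Q : Ideal (𝓞 M)) [Q.IsPrime]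
    (hQ : (ℓ : 𝓞 M) ∈ Q) : Q.IsMaximal := by
  refine Ideal.IsPrime.isMaximal inferInstance ?_
  rintro rfl
  rw [Ideal.mem_bot] at hQ
  exact hℓ.ne_zero (by exact_mod_cast hQ)

/-- If all inertia groups over `ℓ` fix `M` pointwise, the inertia groups of the primes of `M`
over `ℓ` are trivial. -/
theorem inertia_eq_bot {ℓ : ℕ} (hℓ : ℓ.Prime)
    (hI : ∀ A : ValuationSubring Qb, A.LiesOverPrime ℓ →
      ∀ σ ∈ A.inertiaSubgroupIn ℚ, σ ∈ M.fixingSubgroup)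
    (Q : Ideal (𝓞 M)) [Q.IsPrime] (hQ : (ℓ : 𝓞 M) ∈ Q) :
    Ideal.inertia (M ≃ₐ[ℚ] M) Q = ⊥ := by
  have := isMaximal_of_natCast_mem M hℓ Q hQ
  obtain ⟨A, hAQ⟩ := exists_center_eq M Q
  have hA : A.LiesOverPrime ℓ := (natCast_mem_center_iff A M ℓ).mp (by rw [hAQ]; exact hQ)
  rw [← hAQ, ← map_inertiaSubgroupIn A hℓ hA M, eq_bot_iff]
  rintro _ ⟨σ, hσ, rfl⟩
  rw [Subgroup.mem_bot]
  exact restrictNormalHom_eq_one M σ (hI A hA σ hσ)

/-- (A1) if all inertia groups over `ℓ` fix `M` pointwise, `M/ℚ` is unramified over `ℓ`. -/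
theorem ramificationIdx_int_eq_one {ℓ : ℕ} (hℓ : ℓ.Prime)
    (hI : ∀ A : ValuationSubring Qb, A.LiesOverPrime ℓ →
      ∀ σ ∈ A.inertiaSubgroupIn ℚ, σ ∈ M.fixingSubgroup)
    (Q : Ideal (𝓞 M)) [Q.IsPrime] (hQ : (ℓ : 𝓞 M) ∈ Q) : Q.ramificationIdx ℤ = 1 := by
  have h1 := Ideal.card_inertia_eq_ramificationIdxIn (G := M ≃ₐ[ℚ] M) (Q.under ℤ) Q
  rw [inertia_eq_bot M hℓ hI Q hQ,
    Ideal.ramificationIdxIn_eq_ramificationIdx (Q.under ℤ) Q (M ≃ₐ[ℚ] M)] at h1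
  rw [← h1]
  simp

/-- (A1') the relative form. -/
theorem ramificationIdx_eq_one {ℓ : ℕ} (hℓ : ℓ.Prime)
    (hI : ∀ A : ValuationSubring Qb, A.LiesOverPrime ℓ →
      ∀ σ ∈ A.inertiaSubgroupIn ℚ, σ ∈ M.fixingSubgroup)
    (K : Type*) [Field K] [NumberField K] [Algebra K M]
    (Q : Ideal (𝓞 M)) [Q.IsPrime] (hQ : (ℓ : 𝓞 M) ∈ Q) : Q.ramificationIdx (𝓞 K) = 1 := by
  have h1 := ramificationIdx_int_eq_one M hℓ hI Q hQ
  have h2 : Q.ramificationIdx ℤ =
      (Q.under (𝓞 K)).ramificationIdx ℤ * Q.ramificationIdx (𝓞 K) :=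
    Ideal.ramificationIdx_tower (Q.under (𝓞 K)) Q
  rw [h1] at h2
  exact Nat.eq_one_of_mul_eq_one_left h2.symm

/-- If every element of a decomposition group over `ℓ` which fixes `K` fixes `M`, then the
decomposition groups in `Gal(M/K)` of the primes of `M` over `ℓ` are trivial. -/
theorem stabilizer_eq_bot {ℓ : ℕ} (hℓ : ℓ.Prime)
    (K : Type*) [Field K] [NumberField K] [Algebra K M]
    (hD : ∀ A : ValuationSubring Qb, A.LiesOverPrime ℓ → ∀ σ ∈ A.decompositionSubgroup ℚ,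
      (∀ x : K, σ ((algebraMap K M x : M) : Qb) = ((algebraMap K M x : M) : Qb)) →
        σ ∈ M.fixingSubgroup)
    (Q : Ideal (𝓞 M)) [Q.IsPrime] (hQ : (ℓ : 𝓞 M) ∈ Q) :
    MulAction.stabilizer (M ≃ₐ[K] M) Q = ⊥ := by
  have := isMaximal_of_natCast_mem M hℓ Q hQ
  obtain ⟨A, hAQ⟩ := exists_center_eq M Q
  have hA : A.LiesOverPrime ℓ := (natCast_mem_center_iff A M ℓ).mp (by rw [hAQ]; exact hQ)
  rw [eq_bot_iff]
  intro τ hτ
  rw [Subgroup.mem_bot]
  have hτ' : τ.restrictScalars ℚ ∈ MulAction.stabilizer (M ≃ₐ[ℚ] M) (center A M) := by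
    rw [hAQ]
    rw [MulAction.mem_stabilizer_iff] at hτ ⊢
    exact (show τ.restrictScalars ℚ • Q = τ • Q from rfl).trans hτ
  rw [← map_decompositionSubgroup A hℓ hA M] at hτ'
  obtain ⟨σ, hσ, hστ⟩ := hτ'
  have hfix : σ ∈ M.fixingSubgroup := hD A hA σ hσ (fun x => by
    rw [← coe_restrictNormalHom_apply M σ, hστ]
    simp)
  have h1 := restrictNormalHom_eq_one M σ hfix
  rw [hστ] at h1
  ext x
  have h2 := congrArg (fun f : M ≃ₐ[ℚ] M => f x) h1
  simpa using h2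

/-- (B1) if every element of a decomposition group over `ℓ` which fixes `K` fixes `M`, then the
primes of `M` over `ℓ` have `e = f = 1` over `K`. -/
theorem ramificationIdx_inertiaDeg_eq_one {ℓ : ℕ} (hℓ : ℓ.Prime)
    (K : Type*) [Field K] [NumberField K] [Algebra K M]
    (hD : ∀ A : ValuationSubring Qb, A.LiesOverPrime ℓ → ∀ σ ∈ A.decompositionSubgroup ℚ,
      (∀ x : K, σ ((algebraMap K M x : M) : Qb) = ((algebraMap K M x : M) : Qb)) →
        σ ∈ M.fixingSubgroup)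
    (Q : Ideal (𝓞 M)) [Q.IsPrime] (hQ : (ℓ : 𝓞 M) ∈ Q) :
    Q.ramificationIdx (𝓞 K) = 1 ∧ Q.inertiaDeg (𝓞 K) = 1 := by
  have : IsGalois K M := IsGalois.tower_top_of_isGalois ℚ K M
  have h1 := Ideal.card_stabilizer_eq (G := M ≃ₐ[K] M) (Q.under (𝓞 K)) Q
  rw [stabilizer_eq_bot M hℓ K hD Q hQ,
    Ideal.ramificationIdxIn_eq_ramificationIdx (Q.under (𝓞 K)) Q (M ≃ₐ[K] M),
    Ideal.inertiaDegIn_eq_inertiaDeg (Q.under (𝓞 K)) Q (M ≃ₐ[K] M)] at h1
  have h2 : Q.ramificationIdx (𝓞 K) * Q.inertiaDeg (𝓞 K) = 1 := by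
    rw [← h1]; simp
  exact ⟨Nat.eq_one_of_mul_eq_one_right h2, Nat.eq_one_of_mul_eq_one_left h2⟩

end Fermat.Agent.S14.H86
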