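import Fermat.Agent.S14.Stmts
import Fermat.Agent.S14.Dedekind_helper86
import Fermat.Agent.S14.RamDict_helper86
import Fermat.Agent.S14.GsbFields_helper86

/-!
# S14, row 164: `StmtGSB` (helper86) - a Kummer datum gives a singular primary number

Arithmetic part and assembly, on top of `Dedekind_helper86`, `RamDict_helper86`,
`LocalDict_helper87` and the Galois bookkeeping for `ℚ(ζ) ⊆ ℚ(ζ, β)` (`GsbFields_helper86`).
-/

set_option autoImplicit false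

open scoped NumberField IntermediateField
open UniqueFactorizationMonoid

namespace Fermat.Agent.S14.H86

local notation "Qb" => AlgebraicClosure ℚ
local notation "Γ" => (AlgebraicClosure ℚ ≃ₐ[ℚ] AlgebraicClosure ℚ)

/-- The inclusion `ℚ(ζ) → ℚ(ζ, β)` as an algebra structure (local to this file). -/
@[reducible] noncomputable def algKM (ζ β : Qb) : Algebra ℚ⟮ζ⟯ (MM ζ β) :=
  (IntermediateField.inclusion (le_MM ζ β)).toRingHom.toAlgebra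

attribute [local instance] algKM numberField_K numberField_MM

theorem coe_algebraMap_KM (ζ β : Qb) (x : ℚ⟮ζ⟯) :
    ((algebraMap ℚ⟮ζ⟯ (MM ζ β) x : MM ζ β) : Qb) = (x : Qb) := by
  rw [RingHom.algebraMap_toAlgebra]
  rfl

/-- Every nonzero prime of the ring of integers of a number field contains a prime number. -/
theorem exists_prime_natCast_mem {K : Type*} [Field K] [NumberField K] (Q : Ideal (𝓞 K))
    [hQ : Q.IsPrime] (hQ0 : Q ≠ ⊥) : ∃ ℓ : ℕ, ℓ.Prime ∧ (ℓ : 𝓞 K) ∈ Q := by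
  have key : ∀ n : ℕ, 1 ≤ n → (n : 𝓞 K) ∈ Q → ∃ ℓ : ℕ, ℓ.Prime ∧ (ℓ : 𝓞 K) ∈ Q := by
    intro n
    induction n using Nat.strong_induction_on with
    | _ n ih =>
      intro hn hmem
      rcases Nat.lt_or_ge 1 n with h1 | h1
      · have hmf : (n.minFac).Prime := Nat.minFac_prime (by omega)
        have hdiv : n = n.minFac * (n / n.minFac) := (Nat.mul_div_cancel' n.minFac_dvd).symm
        have hmem' : ((n.minFac : ℕ) : 𝓞 K) * ((n / n.minFac : ℕ) : 𝓞 K) ∈ Q := by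
          rw [← Nat.cast_mul, ← hdiv]; exact hmem
        rcases hQ.mem_or_mem hmem' with h2 | h2
        · exact ⟨_, hmf, h2⟩
        · refine ih (n / n.minFac) (Nat.div_lt_self (by omega) hmf.one_lt) ?_ h2
          exact Nat.div_pos (Nat.minFac_le (by omega)) hmf.pos
      · have hn1 : n = 1 := by omega
        subst hn1
        exact absurd (by simpa using hmem) (Ideal.ne_top_iff_one Q |>.mp hQ.ne_top)
  have h0 : Ideal.absNorm Q ≠ 0 := fun h => hQ0 (Ideal.absNorm_eq_zero_iff.mp h)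
  exact key (Ideal.absNorm Q) (Nat.one_le_iff_ne_zero.mpr h0) (Ideal.absNorm_mem Q)

section

variable {p : ℕ} {ζ β : Qb}

/-- `b ^ p = α` in `𝓞 M`, from the same identity in `ℚ̄`. -/
theorem algebraMap_eq_pow (α : 𝓞 ℚ⟮ζ⟯) (b : 𝓞 (MM ζ β))
    (h : ((α : ℚ⟮ζ⟯) : Qb) = (((b : MM ζ β) : Qb)) ^ p) :
    algebraMap (𝓞 ℚ⟮ζ⟯) (𝓞 (MM ζ β)) α = b ^ p := by
  apply NumberField.RingOfIntegers.ext
  apply Subtype.ext
  have h1 : ((algebraMap (𝓞 ℚ⟮ζ⟯) (𝓞 (MM ζ β)) α : 𝓞 (MM ζ β)) : MM ζ β) =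
      algebraMap ℚ⟮ζ⟯ (MM ζ β) (α : ℚ⟮ζ⟯) := rfl
  rw [h1, coe_algebraMap_KM, h]
  simp

/-- The inertia hypothesis of `RamDict` from the clause `unram`. -/
theorem hI_of_kummerDatum (h : IsKummerDatum p ζ β) {ℓ : ℕ} (hℓ : ℓ.Prime) (hne : ℓ ≠ p) :
    ∀ A : ValuationSubring Qb, A.LiesOverPrime ℓ →
      ∀ σ ∈ A.inertiaSubgroupIn ℚ, σ ∈ (MM ζ β).fixingSubgroup :=
  fun A hA σ hσ => (mem_fixingSubgroup_MM_iff ζ β σ).mpr (h.unram ℓ hℓ hne A hA σ hσ)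

/-- The decomposition hypothesis of `RamDict` from the clause `split`. -/
theorem hD_of_kummerDatum (h : IsKummerDatum p ζ β) :
    ∀ A : ValuationSubring Qb, A.LiesOverPrime p → ∀ σ ∈ A.decompositionSubgroup ℚ,
      (∀ x : ℚ⟮ζ⟯, σ ((algebraMap ℚ⟮ζ⟯ (MM ζ β) x : MM ζ β) : Qb) =
        ((algebraMap ℚ⟮ζ⟯ (MM ζ β) x : MM ζ β) : Qb)) → σ ∈ (MM ζ β).fixingSubgroup := by
  intro A hA σ hσ hx
  have hζ : σ ζ = ζ := by
    have := hx ⟨ζ, IntermediateField.mem_adjoin_simple_self ℚ ζ⟩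
    rwa [coe_algebraMap_KM] at this
  exact (mem_fixingSubgroup_MM_iff ζ β σ).mpr ⟨hζ, h.split A hA σ hσ hζ⟩

variable [Fact p.Prime]

/-- For an integral Kummer datum, every prime of `𝓞 M` is unramified over `𝓞 K`. -/
theorem ramificationIdx_eq_one_of_kummerDatum (h : IsKummerDatum p ζ β)
    (Q : Ideal (𝓞 (MM ζ β))) [Q.IsPrime] (hQ0 : Q ≠ ⊥) :
    Q.ramificationIdx (𝓞 ℚ⟮ζ⟯) = 1 := by
  have : IsGalois ℚ (MM ζ β) := isGalois_MM h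
  obtain ⟨ℓ, hℓ, hℓQ⟩ := exists_prime_natCast_mem Q hQ0
  by_cases hne : ℓ = p
  · subst hne
    exact (ramificationIdx_inertiaDeg_eq_one (MM ζ β) hℓ ℚ⟮ζ⟯ (hD_of_kummerDatum h) Q hℓQ).1
  · exact ramificationIdx_eq_one (MM ζ β) hℓ (hI_of_kummerDatum h hℓ hne) ℚ⟮ζ⟯ Q hℓQ

/-- (L) for an integral Kummer datum with `α = β ^ p ∈ 𝓞 K`, all valuations of `α` are divisible
by `p`. -/
theorem dvd_count_of_kummerDatum (h : IsKummerDatum p ζ β) (hint : IsIntegral ℤ β)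
    (α : 𝓞 ℚ⟮ζ⟯) (hα : ((α : ℚ⟮ζ⟯) : Qb) = β ^ p) (𝔮 : Ideal (𝓞 ℚ⟮ζ⟯)) (h𝔮 : 𝔮.IsPrime)
    (h0 : 𝔮 ≠ ⊥) : p ∣ Multiset.count 𝔮 (normalizedFactors (Ideal.span {α})) := by
  have hβM : β ∈ MM ζ β := IntermediateField.subset_adjoin ℚ {ζ, β} (by simp)
  let b : 𝓞 (MM ζ β) := ⟨⟨β, hβM⟩,
    (isIntegral_algebraMap_iff (algebraMap (MM ζ β) Qb).injective).mp hint⟩
  have hab : algebraMap (𝓞 ℚ⟮ζ⟯) (𝓞 (MM ζ β)) α = b ^ p := algebraMap_eq_pow α b hα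
  have hα0 : α ≠ 0 := by
    rintro rfl
    have h1 : (0 : Qb) = β ^ p := by rw [← hα]; rfl
    exact h.ne_zero (pow_eq_zero_iff (Fact.out : p.Prime).ne_zero |>.mp h1.symm)
  obtain ⟨⟨Q, hQprime, hQover⟩⟩ :=
    (inferInstance : Nonempty (Ideal.primesOver 𝔮 (𝓞 (MM ζ β))))
  have hq : Q.under (𝓞 ℚ⟮ζ⟯) = 𝔮 := (hQover.over).symm
  have hq0 : Q.under (𝓞 ℚ⟮ζ⟯) ≠ ⊥ := by rw [hq]; exact h0
  have he := ramificationIdx_eq_one_of_kummerDatum h Q (ne_bot_of_under_ne_bot Q hq0)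
  have := dvd_count_of_pow_eq Q hq0 he p α hα0 b hab
  rwa [hq] at this


/-- `ζ` as an element of `ℚ(ζ)`. -/
noncomputable def zK (ζ : Qb) : ℚ⟮ζ⟯ := ⟨ζ, IntermediateField.mem_adjoin_simple_self ℚ ζ⟩

omit [Fact p.Prime] in
theorem isPrimitiveRoot_zK (hζ : IsPrimitiveRoot ζ p) : IsPrimitiveRoot (zK ζ) p :=
  IsPrimitiveRoot.of_map_of_injective (f := algebraMap ℚ⟮ζ⟯ Qb) (by exact hζ)
    (algebraMap ℚ⟮ζ⟯ Qb).injective

/-- The coercion `𝓞 ℚ(ζ) → ℚ̄` as a ring homomorphism. -/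
noncomputable def toQb (ζ : Qb) : 𝓞 ℚ⟮ζ⟯ →+* Qb :=
  (algebraMap ℚ⟮ζ⟯ Qb).comp (algebraMap (𝓞 ℚ⟮ζ⟯) ℚ⟮ζ⟯)

omit [Fact p.Prime] in
theorem toQb_apply (x : 𝓞 ℚ⟮ζ⟯) : toQb ζ x = ((x : ℚ⟮ζ⟯) : Qb) := rfl

omit [Fact p.Prime] in
theorem toQb_injective : Function.Injective (toQb ζ) :=
  (algebraMap ℚ⟮ζ⟯ Qb).injective.comp NumberField.RingOfIntegers.coe_injective

theorem toQb_toInteger_sub_one (hz : IsPrimitiveRoot (zK ζ) p) :
    toQb ζ (hz.toInteger - 1) = ζ - 1 := by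
  rw [map_sub, map_one]
  rfl

omit [Fact p.Prime] in
theorem exists_alpha (h : IsKummerDatum p ζ β) (hint : IsIntegral ℤ β) :
    ∃ α : 𝓞 ℚ⟮ζ⟯, ((α : ℚ⟮ζ⟯) : Qb) = β ^ p :=
  ⟨⟨⟨β ^ p, h.pow_mem⟩,
    (isIntegral_algebraMap_iff (algebraMap ℚ⟮ζ⟯ Qb).injective).mp (hint.pow p)⟩, rfl⟩

theorem alpha_ne_zero (h : IsKummerDatum p ζ β) (α : 𝓞 ℚ⟮ζ⟯)
    (hα : ((α : ℚ⟮ζ⟯) : Qb) = β ^ p) : α ≠ 0 := by
  rintro rfl
  have h1 : (0 : Qb) = β ^ p := by rw [← hα]; rfl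
  exact h.ne_zero (pow_eq_zero_iff (Fact.out : p.Prime).ne_zero |>.mp h1.symm)

/-- (L') for an integral Kummer datum, `α = β ^ p` is a `p`-th power modulo `(ζ - 1) ^ 3`. -/
theorem exists_local_pow (h : IsKummerDatum p ζ β) (hint : IsIntegral ℤ β)
    (α : 𝓞 ℚ⟮ζ⟯) (hα : ((α : ℚ⟮ζ⟯) : Qb) = β ^ p) (hz : IsPrimitiveRoot (zK ζ) p) :
    ∃ ξ : 𝓞 ℚ⟮ζ⟯, (hz.toInteger - 1) ^ 3 ∣ α - ξ ^ p := by
  have : IsGalois ℚ (MM ζ β) := isGalois_MM h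
  have : IsCyclotomicExtension {p} ℚ ℚ⟮ζ⟯ := isCyclotomicExtension_K h.prim
  have hπprime : Prime (hz.toInteger - 1) := hz.zeta_sub_one_prime'
  have h𝔮prime : (Ideal.span {hz.toInteger - 1}).IsPrime :=
    (Ideal.span_singleton_prime hπprime.ne_zero).mpr hπprime
  have h𝔮0 : Ideal.span {hz.toInteger - 1} ≠ ⊥ := by
    simpa using hπprime.ne_zero
  have hp𝔮 : (p : 𝓞 ℚ⟮ζ⟯) ∈ Ideal.span {hz.toInteger - 1} :=
    Ideal.mem_span_singleton.mpr hz.toInteger_sub_one_dvd_prime'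
  obtain ⟨⟨Q, hQprime, hQover⟩⟩ :=
    (inferInstance : Nonempty (Ideal.primesOver (Ideal.span {hz.toInteger - 1})
      (𝓞 (MM ζ β))))
  have hq : Q.under (𝓞 ℚ⟮ζ⟯) = Ideal.span {hz.toInteger - 1} := (hQover.over).symm
  have hq0 : Q.under (𝓞 ℚ⟮ζ⟯) ≠ ⊥ := by rw [hq]; exact h𝔮0
  have hpQ : (p : 𝓞 (MM ζ β)) ∈ Q := by
    have h1 : (p : 𝓞 ℚ⟮ζ⟯) ∈ Q.under (𝓞 ℚ⟮ζ⟯) := by rw [hq]; exact hp𝔮
    rw [Ideal.under_def, Ideal.mem_comap, map_natCast] at h1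
    exact h1
  obtain ⟨he, hf⟩ := ramificationIdx_inertiaDeg_eq_one (MM ζ β) (Fact.out : p.Prime) ℚ⟮ζ⟯
    (hD_of_kummerDatum h) Q hpQ
  have hβM : β ∈ MM ζ β := IntermediateField.subset_adjoin ℚ {ζ, β} (by simp)
  let b : 𝓞 (MM ζ β) := ⟨⟨β, hβM⟩,
    (isIntegral_algebraMap_iff (algebraMap (MM ζ β) Qb).injective).mp hint⟩
  have hab : algebraMap (𝓞 ℚ⟮ζ⟯) (𝓞 (MM ζ β)) α = b ^ p := algebraMap_eq_pow α b hα
  obtain ⟨ξ, hξ⟩ := exists_sub_mem_pow Q hq0 he hf 3 b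
  refine ⟨ξ, ?_⟩
  have h1 : algebraMap (𝓞 ℚ⟮ζ⟯) (𝓞 (MM ζ β)) (α - ξ ^ p) ∈ Q ^ 3 := by
    rw [map_sub, map_pow, hab]
    obtain ⟨c, hc⟩ := sub_dvd_pow_sub_pow b (algebraMap (𝓞 ℚ⟮ζ⟯) (𝓞 (MM ζ β)) ξ) p
    rw [hc]
    exact Ideal.mul_mem_right _ _ hξ
  have h2 := mem_pow_under_of_mem_pow Q hq0 he 3 _ h1
  rw [hq, Ideal.span_singleton_pow, Ideal.mem_span_singleton] at h2
  exact h2

/-- Normalisation: an integral Kummer datum can be rescaled so that `α = β ^ p` is prime to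
`ζ - 1`. -/
theorem exists_normalised (h : IsKummerDatum p ζ β) (hint : IsIntegral ℤ β)
    (hz : IsPrimitiveRoot (zK ζ) p) :
    ∃ β₁ : Qb, IsKummerDatum p ζ β₁ ∧ IsIntegral ℤ β₁ ∧
      ∃ α₁ : 𝓞 ℚ⟮ζ⟯, ((α₁ : ℚ⟮ζ⟯) : Qb) = β₁ ^ p ∧ ¬ (hz.toInteger - 1) ∣ α₁ := by
  have : IsCyclotomicExtension {p} ℚ ℚ⟮ζ⟯ := isCyclotomicExtension_K h.prim
  have hp : p.Prime := Fact.out
  obtain ⟨α, hα⟩ := exists_alpha h hint
  have hα0 : α ≠ 0 := alpha_ne_zero h α hα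
  have hπprime : Prime (hz.toInteger - 1) := hz.zeta_sub_one_prime'
  have h𝔮prime : (Ideal.span {hz.toInteger - 1}).IsPrime :=
    (Ideal.span_singleton_prime hπprime.ne_zero).mpr hπprime
  have h𝔮0 : Ideal.span {hz.toInteger - 1} ≠ ⊥ := by
    simpa using hπprime.ne_zero
  obtain ⟨n, α₁, hnd, hα1⟩ := WfDvdMonoid.max_power_factor hα0 hπprime.irreducible
  have hcount : Multiset.count (Ideal.span {hz.toInteger - 1})
      (normalizedFactors (Ideal.span {α})) = n := by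
    apply le_antisymm
    · by_contra hlt
      push Not at hlt
      have h1 := (mem_pow_iff_le_count (Ideal.span {hz.toInteger - 1}) h𝔮0 α hα0 (n + 1)).mpr hlt
      rw [Ideal.span_singleton_pow, Ideal.mem_span_singleton, hα1, pow_succ] at h1
      exact hnd ((mul_dvd_mul_iff_left (pow_ne_zero n hπprime.ne_zero)).mp h1)
    · apply (mem_pow_iff_le_count (Ideal.span {hz.toInteger - 1}) h𝔮0 α hα0 n).mp
      rw [Ideal.span_singleton_pow, Ideal.mem_span_singleton, hα1]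
      exact dvd_mul_right _ _
  obtain ⟨m, hm⟩ : p ∣ n := by
    rw [← hcount]
    exact dvd_count_of_kummerDatum h hint α hα _ h𝔮prime h𝔮0
  have hζ1 : ζ - 1 ≠ 0 := sub_ne_zero.mpr (h.prim.ne_one hp.one_lt)
  have hκmem : ((ζ - 1) ^ m)⁻¹ ∈ ℚ⟮ζ⟯ :=
    inv_mem (pow_mem (sub_mem (IntermediateField.mem_adjoin_simple_self ℚ ζ) (one_mem _)) m)
  have hκ0 : ((ζ - 1) ^ m)⁻¹ ≠ 0 := inv_ne_zero (pow_ne_zero m hζ1)
  have hcoe : ((α₁ : ℚ⟮ζ⟯) : Qb) = (((ζ - 1) ^ m)⁻¹ * β) ^ p := by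
    have h1 : toQb ζ α = (ζ - 1) ^ n * toQb ζ α₁ := by
      rw [hα1, map_mul, map_pow, toQb_toInteger_sub_one]
    rw [toQb_apply, hα, toQb_apply, hm] at h1
    rw [mul_pow, h1, inv_pow, ← pow_mul, mul_comm m p, ← mul_assoc,
      inv_mul_cancel₀ (pow_ne_zero _ hζ1), one_mul]
  refine ⟨((ζ - 1) ^ m)⁻¹ * β, kummerDatum_mul_left h hκmem hκ0, ?_, α₁, hcoe, hnd⟩
  apply IsIntegral.of_pow hp.pos
  rw [← hcoe]
  exact map_isIntegral_int (toQb ζ) (NumberField.RingOfIntegers.isIntegral α₁)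

/-- (GSB) a Kummer datum gives a singular primary number. -/
theorem gsb : StmtGSB := by
  intro p _ _ ζ β h
  have hp : p.Prime := Fact.out
  have halg : IsAlgebraic ℤ β := by
    have := H87.isGalois_rat_algebraicClosure
    exact (IsFractionRing.isAlgebraic_iff ℤ ℚ Qb).mpr (Algebra.IsAlgebraic.isAlgebraic β)
  obtain ⟨d, hd0, hdint⟩ := halg.exists_integral_multiple
  have hdmem : (d : Qb) ∈ ℚ⟮ζ⟯ := intCast_mem _ d
  have h0 : IsKummerDatum p ζ ((d : Qb) * β) :=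
    kummerDatum_mul_left h hdmem (Int.cast_ne_zero.mpr hd0)
  have hint0 : IsIntegral ℤ ((d : Qb) * β) := by rwa [zsmul_eq_mul] at hdint
  have hz : IsPrimitiveRoot (zK ζ) p := isPrimitiveRoot_zK h.prim
  obtain ⟨β₁, h1, hint1, α₁, hα1, hcop⟩ := exists_normalised h0 hint0 hz
  refine ⟨ℚ⟮ζ⟯, numberField_K ζ, isCyclotomicExtension_K h.prim, zK ζ, hz, α₁, ?_⟩
  exact
    { not_pow := by
        rintro ⟨x, hx⟩
        refine not_exists_pow_eq h1 ⟨(x : Qb), x.2, ?_⟩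
        rw [← hα1, ← hx]
        rfl
      ideal_pow := exists_eq_pow_of_dvd_count _
        (by simpa using alpha_ne_zero h1 α₁ hα1) p
        (fun q hq hq0 => dvd_count_of_kummerDatum h1 hint1 α₁ hα1 q hq hq0)
      coprime := hcop
      local_pow := exists_local_pow h1 hint1 α₁ hα1 hz
      eigen := by
        intro σ a hσ
        obtain ⟨c, hc⟩ := eigen_pow h1 σ a (by
          have h2 : (⟨ζ, IntermediateField.mem_adjoin_simple_self ℚ ζ⟩ : ℚ⟮ζ⟯) = zK ζ := rfl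
          rw [h2, hσ]
          rfl)
        refine ⟨c, ?_⟩
        have e : ((α₁ : 𝓞 ℚ⟮ζ⟯) : ℚ⟮ζ⟯) = ⟨β₁ ^ p, h1.pow_mem⟩ := Subtype.ext hα1
        apply Subtype.ext
        rw [e, hc]
        rfl }

end

end Fermat.Agent.S14.H86
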