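import Mathlib
import Fermat.Agent.S14.Defs
import Fermat.Agent.S14.Dedekind_helper86

/-!
# S14, SP-c (c3): the normalisation step (helper97)

`K` is a model of `ℚ(ζ_p)`, `π = ζ - 1`.  From an integral `α ∈ 𝓞 K` which

* is not a `p`-th power in `K`,
* has all its valuations divisible by `p`,
* satisfies the eigen relation,
* has a `p`-th root `b` in a Dedekind extension `B` of `𝓞 K` having a prime `Q` over `p` with
  `e(Q | π) = f(Q | π) = 1`,

we produce a singular primary number `α' = α / π ^ (p m)` (`exists_isSingularPrimary`).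
-/

set_option autoImplicit false

open scoped NumberField
open UniqueFactorizationMonoid

namespace Fermat.Agent.S14.H97

section Transfer

variable {p : ℕ} {K : Type*} [Field K]

/-- Being a `p`-th power is insensitive to multiplication by a nonzero `p`-th power. -/
theorem not_pow_of_mul_pow {α₁ α₂ κ : K} (hκ : κ ≠ 0) (h : α₁ = κ ^ p * α₂)
    (h2 : ¬ ∃ x : K, x ^ p = α₂) : ¬ ∃ x : K, x ^ p = α₁ := by
  rintro ⟨x, hx⟩
  refine h2 ⟨x / κ, ?_⟩
  rw [div_pow, hx, h]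
  field_simp

/-- The eigen relation is insensitive to multiplication by a nonzero `p`-th power. -/
theorem eigen_of_mul_pow [Algebra ℚ K] {z : K} {α₁ α₂ κ : K} (hκ : κ ≠ 0)
    (h : α₁ = κ ^ p * α₂)
    (h2 : ∀ (σ : K ≃ₐ[ℚ] K) (a : ℕ), σ z = z ^ a → ∃ c : K, σ α₂ = α₂ ^ (a ^ 2) * c ^ p) :
    ∀ (σ : K ≃ₐ[ℚ] K) (a : ℕ), σ z = z ^ a → ∃ c : K, σ α₁ = α₁ ^ (a ^ 2) * c ^ p := by
  intro σ a hσ
  obtain ⟨c, hc⟩ := h2 σ a hσ
  refine ⟨σ κ * c / κ ^ (a ^ 2), ?_⟩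
  have hX : κ ^ (a ^ 2) ≠ 0 := pow_ne_zero _ hκ
  have h3 : (κ ^ p) ^ (a ^ 2) = (κ ^ (a ^ 2)) ^ p := by
    rw [← pow_mul, ← pow_mul, mul_comm]
  rw [h, map_mul, map_pow, hc, mul_pow, h3, div_pow, mul_pow]
  field_simp

/-- Clearing denominators of an algebraic number by a positive integer. -/
theorem exists_nat_mul_isIntegral {L : Type*} [Field L] [CharZero L] (β : L)
    (hβ : IsAlgebraic ℚ β) : ∃ n : ℕ, 0 < n ∧ IsIntegral ℤ ((n : L) * β) := by
  have hβ' : IsAlgebraic ℤ β := (IsFractionRing.isAlgebraic_iff ℤ ℚ L).mpr hβ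
  obtain ⟨y, hy0, hy⟩ := hβ'.exists_integral_multiple
  refine ⟨y.natAbs, Int.natAbs_pos.mpr hy0, ?_⟩
  rw [zsmul_eq_mul] at hy
  have key : ((y.natAbs : ℕ) : L) = ((y.natAbs : ℤ) : L) := (Int.cast_natCast _).symm
  rcases Int.natAbs_eq y with h | h
  · rw [key, ← h]; exact hy
  · have h' : ((y.natAbs : ℤ)) = -y := by omega
    rw [key, h', Int.cast_neg, neg_mul]; exact hy.neg

end Transfer

section Cyclo

variable {p : ℕ} [hp : Fact p.Prime] {K : Type*} [Field K] [NumberField K]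
  [hK : IsCyclotomicExtension {p} ℚ K] {z : K} (hz : IsPrimitiveRoot z p)

theorem prime_toInteger_sub_one : Prime (hz.toInteger - 1) := hz.zeta_sub_one_prime'

theorem span_toInteger_sub_one_ne_bot : Ideal.span {hz.toInteger - 1} ≠ ⊥ := by
  rw [Ne, Ideal.span_singleton_eq_bot]
  exact (prime_toInteger_sub_one hz).ne_zero

instance isPrime_span_toInteger_sub_one : (Ideal.span {hz.toInteger - 1}).IsPrime :=
  (Ideal.span_singleton_prime (prime_toInteger_sub_one hz).ne_zero).mpr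
    (prime_toInteger_sub_one hz)

/-- The unique prime of `𝓞 K` containing `p` is `(ζ - 1)`. -/
theorem eq_span_of_natCast_mem (P : Ideal (𝓞 K)) [hP : P.IsPrime] (hpP : (p : 𝓞 K) ∈ P) :
    P = Ideal.span {hz.toInteger - 1} := by
  have hassoc := IsCyclotomicExtension.Rat.associated_zeta_sub_one_pow_prime p hz
  obtain ⟨u, hu⟩ := hassoc.symm
  have h1 : (hz.toInteger - 1) ^ (p - 1) ∈ P := by
    rw [← hu]; exact Ideal.mul_mem_right _ _ hpP
  have h2 : hz.toInteger - 1 ∈ P := hP.mem_of_pow_mem _ h1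
  have hle : Ideal.span {hz.toInteger - 1} ≤ P := (Ideal.span_singleton_le_iff_mem P).mpr h2
  have hmax : (Ideal.span {hz.toInteger - 1}).IsMaximal :=
    (isPrime_span_toInteger_sub_one hz).isMaximal (span_toInteger_sub_one_ne_bot hz)
  exact (hmax.eq_of_le hP.ne_top hle).symm

/-- Splitting off the exact power of `π = ζ - 1`. -/
theorem exists_pow_mul_not_dvd (α : 𝓞 K) (hα : α ≠ 0) :
    ∃ (k : ℕ) (α' : 𝓞 K), α = (hz.toInteger - 1) ^ k * α' ∧ ¬ (hz.toInteger - 1) ∣ α' ∧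
      k = Multiset.count (Ideal.span {hz.toInteger - 1})
        (normalizedFactors (Ideal.span {α})) := by
  obtain ⟨k, α', hnd, hk⟩ :=
    WfDvdMonoid.max_power_factor hα (prime_toInteger_sub_one hz).irreducible
  refine ⟨k, α', hk, hnd, ?_⟩
  have hne := span_toInteger_sub_one_ne_bot hz
  have h1 : k ≤ Multiset.count (Ideal.span {hz.toInteger - 1})
      (normalizedFactors (Ideal.span {α})) := by
    rw [← H86.mem_pow_iff_le_count _ hne α hα k, Ideal.span_singleton_pow,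
      Ideal.mem_span_singleton, hk]
    exact Dvd.intro _ rfl
  have h2 : ¬ k + 1 ≤ Multiset.count (Ideal.span {hz.toInteger - 1})
      (normalizedFactors (Ideal.span {α})) := by
    rw [← H86.mem_pow_iff_le_count _ hne α hα (k + 1), Ideal.span_singleton_pow,
      Ideal.mem_span_singleton, hk, pow_succ]
    intro h
    exact hnd ((mul_dvd_mul_iff_left (pow_ne_zero k (prime_toInteger_sub_one hz).ne_zero)).mp h)
  omega

/-- (N-core) Normalisation, abstract form: `B` is an integrally closed domain containing `𝓞 K`,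
`Q` an ideal of `B` such that `𝓞 K → B ⧸ Q ^ 3` is surjective with kernel inside `(π ^ 3)`. -/
theorem exists_isSingularPrimary_core {B : Type*} [CommRing B] [IsDomain B]
    [IsIntegrallyClosed B] [Algebra (𝓞 K) B]
    (hinj : Function.Injective (algebraMap (𝓞 K) B))
    (α : 𝓞 K) (hα : α ≠ 0)
    (h_i : ¬ ∃ x : K, x ^ p = (α : K))
    (h_ii : ∀ q : Ideal (𝓞 K), q.IsPrime → q ≠ ⊥ →
      p ∣ Multiset.count q (normalizedFactors (Ideal.span {α})))
    (h_iv : ∀ (σ : K ≃ₐ[ℚ] K) (a : ℕ), σ z = z ^ a →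
      ∃ c : K, σ (α : K) = (α : K) ^ (a ^ 2) * c ^ p)
    (Q : Ideal B) (hsurj : ∀ x : B, ∃ y : 𝓞 K, x - algebraMap (𝓞 K) B y ∈ Q ^ 3)
    (hcomap : ∀ a : 𝓞 K, algebraMap (𝓞 K) B a ∈ Q ^ 3 → (hz.toInteger - 1) ^ 3 ∣ a)
    (b : B) (hb : b ^ p = algebraMap (𝓞 K) B α) :
    ∃ α' : 𝓞 K, IsSingularPrimary p hz α' := by
  have hp0 : 0 < p := hp.out.pos
  have hπ : Prime (hz.toInteger - 1) := prime_toInteger_sub_one hz
  have hne := span_toInteger_sub_one_ne_bot hz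
  obtain ⟨k, α', hαeq, hndvd, hk⟩ := exists_pow_mul_not_dvd hz α hα
  obtain ⟨m, hm⟩ : p ∣ k := by
    rw [hk]; exact h_ii _ (isPrime_span_toInteger_sub_one hz) hne
  obtain ⟨ϖ, hϖ⟩ : ∃ ϖ : 𝓞 K, ϖ = (hz.toInteger - 1) ^ m := ⟨_, rfl⟩
  have hϖ0 : ϖ ≠ 0 := by rw [hϖ]; exact pow_ne_zero m hπ.ne_zero
  have hαeq' : α = ϖ ^ p * α' := by
    rw [hαeq, hm, hϖ, ← pow_mul, mul_comm m p]
  have hα'0 : α' ≠ 0 := by
    rintro rfl
    exact hα (by rw [hαeq', mul_zero])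
  -- transfer of (i) and (iv)
  have hϖK : (ϖ : K) ≠ 0 := by
    simpa using hϖ0
  have hK1 : (α' : K) = ((ϖ : K)⁻¹) ^ p * (α : K) := by
    have h0 : (α : K) = (ϖ : K) ^ p * (α' : K) := by
      show algebraMap (𝓞 K) K α = (algebraMap (𝓞 K) K ϖ) ^ p * algebraMap (𝓞 K) K α'
      rw [hαeq', map_mul, map_pow]
    rw [h0, inv_pow, ← mul_assoc, inv_mul_cancel₀ (pow_ne_zero p hϖK), one_mul]
  have h_i' : ¬ ∃ x : K, x ^ p = (α' : K) :=
    not_pow_of_mul_pow (inv_ne_zero hϖK) hK1 h_i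
  have h_iv' : ∀ (σ : K ≃ₐ[ℚ] K) (a : ℕ), σ z = z ^ a →
      ∃ c : K, σ (α' : K) = (α' : K) ^ (a ^ 2) * c ^ p :=
    eigen_of_mul_pow (inv_ne_zero hϖK) hK1 h_iv
  -- (ii)
  have h_ii' : ∃ I : Ideal (𝓞 K), Ideal.span {α'} = I ^ p := by
    refine H86.exists_eq_pow_of_dvd_count _ (by simpa using hα'0) p ?_
    intro q hq hq0
    have h1 := h_ii q hq hq0
    have h2 : Ideal.span {α} = Ideal.span {ϖ} ^ p * Ideal.span {α'} := by
      rw [hαeq', Ideal.span_singleton_pow, Ideal.span_singleton_mul_span_singleton]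
    have hsp : Ideal.span {ϖ} ≠ ⊥ := by simpa using hϖ0
    rw [h2, normalizedFactors_mul (pow_ne_zero p hsp) (by simpa using hα'0),
      normalizedFactors_pow, Multiset.count_add, Multiset.count_nsmul] at h1
    exact (Nat.dvd_add_right (dvd_mul_right p _)).mp h1
  -- the `p`-th root of `α'` in `B`
  have hϖB : algebraMap (𝓞 K) B ϖ ≠ 0 := fun h => hϖ0 (hinj (by rw [h, map_zero]))
  obtain ⟨b', hb'⟩ : algebraMap (𝓞 K) B ϖ ∣ b := by
    rw [← IsIntegrallyClosed.pow_dvd_pow_iff hp0.ne', hb, hαeq', map_mul, map_pow]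
    exact Dvd.intro _ rfl
  have hb'p : b' ^ p = algebraMap (𝓞 K) B α' := by
    have h1 : (algebraMap (𝓞 K) B ϖ) ^ p * b' ^ p =
        (algebraMap (𝓞 K) B ϖ) ^ p * algebraMap (𝓞 K) B α' := by
      rw [← mul_pow, ← hb', hb, hαeq', map_mul, map_pow]
    exact mul_left_cancel₀ (pow_ne_zero p hϖB) h1
  -- (iii)
  obtain ⟨ξ, hξ⟩ := hsurj b'
  have h3 : algebraMap (𝓞 K) B (α' - ξ ^ p) ∈ Q ^ 3 := by
    rw [map_sub, map_pow, ← hb'p]
    obtain ⟨c, hc⟩ := sub_dvd_pow_sub_pow b' (algebraMap (𝓞 K) B ξ) p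
    rw [hc]
    exact Ideal.mul_mem_right _ _ hξ
  exact ⟨α', ⟨h_i', h_ii', hndvd, ⟨ξ, hcomap _ h3⟩, h_iv'⟩⟩

section Dedekind

variable {B : Type*} [CommRing B] [IsDedekindDomain B] [Algebra (𝓞 K) B]
  [Module.IsTorsionFree (𝓞 K) B]

omit [IsDedekindDomain B] [Module.IsTorsionFree (𝓞 K) B] in
/-- A prime of `B` containing `p` lies over `(π)`. -/
theorem under_eq_span_of_natCast_mem (Q : Ideal B) [Q.IsPrime] (hpQ : (p : B) ∈ Q) :
    Q.under (𝓞 K) = Ideal.span {hz.toInteger - 1} := by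
  refine eq_span_of_natCast_mem hz _ ?_
  rw [Ideal.under_def, Ideal.mem_comap, map_natCast]
  exact hpQ

/-- (N-main) Normalisation: from an integral `α` with a `p`-th root in the Dedekind extension
`B`, all valuations divisible by `p`, the eigen relation, not a `p`-th power, and a prime `Q`
of `B` over `p` with `e = f = 1` over `𝓞 K`, to a singular primary number. -/
theorem exists_isSingularPrimary (α : 𝓞 K) (hα : α ≠ 0)
    (h_i : ¬ ∃ x : K, x ^ p = (α : K))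
    (h_ii : ∀ q : Ideal (𝓞 K), q.IsPrime → q ≠ ⊥ →
      p ∣ Multiset.count q (normalizedFactors (Ideal.span {α})))
    (h_iv : ∀ (σ : K ≃ₐ[ℚ] K) (a : ℕ), σ z = z ^ a →
      ∃ c : K, σ (α : K) = (α : K) ^ (a ^ 2) * c ^ p)
    (Q : Ideal B) [Q.IsPrime] (hpQ : (p : B) ∈ Q)
    (he : Q.ramificationIdx (𝓞 K) = 1) (hf : Q.inertiaDeg (𝓞 K) = 1)
    (b : B) (hb : b ^ p = algebraMap (𝓞 K) B α) :
    ∃ α' : 𝓞 K, IsSingularPrimary p hz α' := by
  have hu := under_eq_span_of_natCast_mem hz Q hpQ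
  have hq : Q.under (𝓞 K) ≠ ⊥ := by
    rw [hu]; exact span_toInteger_sub_one_ne_bot hz
  refine exists_isSingularPrimary_core hz (FaithfulSMul.algebraMap_injective (𝓞 K) B) α hα
    h_i h_ii h_iv Q (H86.exists_sub_mem_pow Q hq he hf 3) ?_ b hb
  intro a ha
  have h1 := H86.mem_pow_under_of_mem_pow Q hq he 3 a ha
  rwa [hu, Ideal.span_singleton_pow, Ideal.mem_span_singleton] at h1

/-- (N-main') The same with the valuation hypothesis replaced by: every nonzero prime of `𝓞 K`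
has an unramified prime of `B` above it. -/
theorem exists_isSingularPrimary' (α : 𝓞 K) (hα : α ≠ 0)
    (h_i : ¬ ∃ x : K, x ^ p = (α : K))
    (h_ii : ∀ q : Ideal (𝓞 K), q.IsPrime → q ≠ ⊥ →
      ∃ Q' : Ideal B, Q'.IsPrime ∧ Q'.under (𝓞 K) = q ∧ Q'.ramificationIdx (𝓞 K) = 1)
    (h_iv : ∀ (σ : K ≃ₐ[ℚ] K) (a : ℕ), σ z = z ^ a →
      ∃ c : K, σ (α : K) = (α : K) ^ (a ^ 2) * c ^ p)
    (Q : Ideal B) [Q.IsPrime] (hpQ : (p : B) ∈ Q)
    (he : Q.ramificationIdx (𝓞 K) = 1) (hf : Q.inertiaDeg (𝓞 K) = 1)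
    (b : B) (hb : b ^ p = algebraMap (𝓞 K) B α) :
    ∃ α' : 𝓞 K, IsSingularPrimary p hz α' := by
  refine exists_isSingularPrimary hz α hα h_i ?_ h_iv Q hpQ he hf b hb
  intro q hq hq0
  obtain ⟨Q', hQ', hu, he'⟩ := h_ii q hq hq0
  have := H86.dvd_count_of_pow_eq Q' (by rw [hu]; exact hq0) he' p α hα b hb.symm
  rwa [hu] at this

end Dedekind

end Cyclo

end Fermat.Agent.S14.H97
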