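import Fermat.Agent.S14.BoundB_helper29

/-!
# S14 / WP8 (bound B): the orbit decomposition

`Z_C(s) = N(J)^s / w * ∑_{γ ∈ J} W γ |N γ|^(-s)` for an integral ideal `J` in the class `C⁻¹`:
the nonzero elements of `J` are parametrised by the ideals `I` of class `C` (via
`(γ) = J * I`) and the units.
-/

set_option autoImplicit false

open NumberField NumberField.Units
open scoped nonZeroDivisors

namespace Fermat.Agent.S14.H29

variable {K : Type*} [Field K] [NumberField K]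

section

variable (C : ClassGroup (𝓞 K)) (J : (Ideal (𝓞 K))⁰) (hJ : ClassGroup.mk0 J = C⁻¹)

include hJ in
theorem isPrincipal_mul_of_class (I : {I : (Ideal (𝓞 K))⁰ // ClassGroup.mk0 I = C}) :
    ((J : Ideal (𝓞 K)) * ((I : (Ideal (𝓞 K))⁰) : Ideal (𝓞 K))).IsPrincipal := by
  have h : ClassGroup.mk0 (J * (I : (Ideal (𝓞 K))⁰)) = 1 := by
    rw [map_mul, hJ, I.2, inv_mul_cancel]
  have := (ClassGroup.mk0_eq_one_iff (SetLike.coe_mem (J * (I : (Ideal (𝓞 K))⁰)))).mp h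
  simpa using this

/-- A generator of the principal ideal `J * I`. -/
noncomputable def orbGen (I : {I : (Ideal (𝓞 K))⁰ // ClassGroup.mk0 I = C}) : 𝓞 K :=
  @Submodule.IsPrincipal.generator _ _ _ _ _ _ (isPrincipal_mul_of_class C J hJ I)

theorem span_orbGen (I : {I : (Ideal (𝓞 K))⁰ // ClassGroup.mk0 I = C}) :
    Ideal.span {orbGen C J hJ I} =
      (J : Ideal (𝓞 K)) * ((I : (Ideal (𝓞 K))⁰) : Ideal (𝓞 K)) :=
  @Ideal.span_singleton_generator _ _ _ (isPrincipal_mul_of_class C J hJ I)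

theorem orbGen_ne_zero (I : {I : (Ideal (𝓞 K))⁰ // ClassGroup.mk0 I = C}) :
    orbGen C J hJ I ≠ 0 := by
  intro h
  have h1 := span_orbGen C J hJ I
  rw [h, Ideal.span_singleton_eq_bot.mpr rfl] at h1
  have h2 : (J : Ideal (𝓞 K)) ≠ 0 := nonZeroDivisors.coe_ne_zero J
  have h3 : ((I : (Ideal (𝓞 K))⁰) : Ideal (𝓞 K)) ≠ 0 := nonZeroDivisors.coe_ne_zero _
  exact mul_ne_zero h2 h3 h1.symm

theorem orbGen_mem (I : {I : (Ideal (𝓞 K))⁰ // ClassGroup.mk0 I = C}) :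
    orbGen C J hJ I ∈ (J : Ideal (𝓞 K)) := by
  have h : orbGen C J hJ I ∈ Ideal.span {orbGen C J hJ I} := Ideal.mem_span_singleton_self _
  rw [span_orbGen] at h
  have hle : (J : Ideal (𝓞 K)) * ((I : (Ideal (𝓞 K))⁰) : Ideal (𝓞 K)) ≤ (J : Ideal (𝓞 K)) :=
    Ideal.mul_le_left
  exact hle h

/-- The parametrisation of the nonzero elements of `J` by (ideals of class `C`) × units. -/
noncomputable def orbMap (p : {I : (Ideal (𝓞 K))⁰ // ClassGroup.mk0 I = C} × (𝓞 K)ˣ) :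
    {γ : (J : Ideal (𝓞 K)) // γ ≠ 0} :=
  ⟨⟨(p.2 : 𝓞 K) * orbGen C J hJ p.1, Ideal.mul_mem_left _ _ (orbGen_mem C J hJ p.1)⟩, by
    intro h
    have h' : (p.2 : 𝓞 K) * orbGen C J hJ p.1 = 0 := congrArg Subtype.val h
    exact mul_ne_zero (Units.ne_zero p.2) (orbGen_ne_zero C J hJ p.1) h'⟩

theorem orbMap_coe (p : {I : (Ideal (𝓞 K))⁰ // ClassGroup.mk0 I = C} × (𝓞 K)ˣ) :
    (((orbMap C J hJ p : {γ : (J : Ideal (𝓞 K)) // γ ≠ 0}) : (J : Ideal (𝓞 K))) : 𝓞 K) =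
      (p.2 : 𝓞 K) * orbGen C J hJ p.1 := rfl

theorem orbMap_bijective : Function.Bijective (orbMap C J hJ) := by
  have hJ0 : (J : Ideal (𝓞 K)) ≠ 0 := nonZeroDivisors.coe_ne_zero J
  constructor
  · rintro ⟨I₁, u₁⟩ ⟨I₂, u₂⟩ h
    have h' : (u₁ : 𝓞 K) * orbGen C J hJ I₁ = (u₂ : 𝓞 K) * orbGen C J hJ I₂ :=
      congrArg (fun γ : {γ : (J : Ideal (𝓞 K)) // γ ≠ 0} ↦ ((γ : (J : Ideal (𝓞 K))) : 𝓞 K)) h
    have hspan : Ideal.span {orbGen C J hJ I₁} = Ideal.span {orbGen C J hJ I₂} := by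
      rw [← Ideal.span_singleton_mul_left_unit u₁.isUnit, h',
        Ideal.span_singleton_mul_left_unit u₂.isUnit]
    rw [span_orbGen, span_orbGen] at hspan
    have hI : I₁ = I₂ := Subtype.ext (Subtype.ext (mul_left_cancel₀ hJ0 hspan))
    subst hI
    have hu : (u₁ : 𝓞 K) = u₂ := mul_right_cancel₀ (orbGen_ne_zero C J hJ I₁) h'
    rw [Units.ext hu]
  · rintro ⟨⟨γ, hγJ⟩, hγ0⟩
    have hγ : γ ≠ 0 := fun h ↦ hγ0 (Subtype.ext h)
    obtain ⟨I₀, hI₀⟩ := Ideal.dvd_span_singleton.mpr hγJ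
    have hI₀0 : I₀ ≠ 0 := by
      rintro rfl
      rw [mul_zero] at hI₀
      exact hγ (Ideal.span_singleton_eq_bot.mp hI₀)
    have hI₀mem : I₀ ∈ (Ideal (𝓞 K))⁰ := mem_nonZeroDivisors_of_ne_zero hI₀0
    have hspan0 : Ideal.span {γ} ∈ (Ideal (𝓞 K))⁰ :=
      mem_nonZeroDivisors_of_ne_zero (by simpa [Ideal.span_singleton_eq_bot] using hγ)
    have hcls : ClassGroup.mk0 (⟨I₀, hI₀mem⟩ : (Ideal (𝓞 K))⁰) = C := by
      have h1 : ClassGroup.mk0 (⟨Ideal.span {γ}, hspan0⟩ : (Ideal (𝓞 K))⁰) = 1 :=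
        (ClassGroup.mk0_eq_one_iff hspan0).mpr ⟨γ, rfl⟩
      have h2 : (⟨Ideal.span {γ}, hspan0⟩ : (Ideal (𝓞 K))⁰) = J * ⟨I₀, hI₀mem⟩ :=
        Subtype.ext hI₀
      rw [h2, map_mul, hJ] at h1
      exact (inv_mul_eq_one.mp h1).symm
    set I : {I : (Ideal (𝓞 K))⁰ // ClassGroup.mk0 I = C} := ⟨⟨I₀, hI₀mem⟩, hcls⟩ with hIdef
    have hassoc : Associated (orbGen C J hJ I) γ := by
      rw [← Ideal.span_singleton_eq_span_singleton, span_orbGen, hI₀]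
    obtain ⟨u, hu⟩ := hassoc
    refine ⟨(I, u), ?_⟩
    apply Subtype.ext
    apply Subtype.ext
    rw [orbMap_coe, mul_comm]
    exact hu

/-- The parametrisation as an equivalence. -/
noncomputable def orbEquiv :
    {I : (Ideal (𝓞 K))⁰ // ClassGroup.mk0 I = C} × (𝓞 K)ˣ ≃ {γ : (J : Ideal (𝓞 K)) // γ ≠ 0} :=
  Equiv.ofBijective (orbMap C J hJ) (orbMap_bijective C J hJ)

theorem wF_unit_mul_orbGen (s : ℝ) (I : {I : (Ideal (𝓞 K))⁰ // ClassGroup.mk0 I = C})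
    (u : (𝓞 K)ˣ) :
    wF K s ((u : 𝓞 K) * orbGen C J hJ I) = W K (u * orbGen C J hJ I) *
      ((Ideal.absNorm (J : Ideal (𝓞 K)) : ℝ) *
        (Ideal.absNorm ((I : (Ideal (𝓞 K))⁰) : Ideal (𝓞 K)) : ℝ)) ^ (-s) := by
  unfold wF
  congr 2
  have h : (Ideal.absNorm (Ideal.span {(u : 𝓞 K) * orbGen C J hJ I}) : ℝ) =
      |((Algebra.norm ℤ ((u : 𝓞 K) * orbGen C J hJ I) : ℤ) : ℝ)| := by
    rw [Ideal.absNorm_span_singleton, Nat.cast_natAbs]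
    push_cast
    rfl
  rw [← h, Ideal.span_singleton_mul_left_unit u.isUnit, span_orbGen, map_mul, Nat.cast_mul]

end

/-- **Orbit decomposition.** -/
theorem orbitDecomp_of
    (hZs : ∀ s : ℝ, 1 < s →
      Summable (fun I : (Ideal (𝓞 K))⁰ => (Ideal.absNorm (I : Ideal (𝓞 K)) : ℝ) ^ (-s))) :
    OrbitDecomp K := by
  intro C J hJ s hs
  set w : ℝ := (torsionOrder K : ℝ) with hw
  have hw0 : 0 < w := by
    rw [hw]
    exact_mod_cast torsionOrder_pos K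
  set N : ℝ := (Ideal.absNorm (J : Ideal (𝓞 K)) : ℝ) with hN
  have hN0 : 0 < N := by
    rw [hN]
    exact_mod_cast Nat.pos_of_ne_zero (Ideal.absNorm_ne_zero_of_nonZeroDivisors J)
  -- the function on the product
  set f : {I : (Ideal (𝓞 K))⁰ // ClassGroup.mk0 I = C} × (𝓞 K)ˣ → ℝ := fun p ↦
    W K (p.2 * orbGen C J hJ p.1) *
      (N * (Ideal.absNorm ((p.1 : (Ideal (𝓞 K))⁰) : Ideal (𝓞 K)) : ℝ)) ^ (-s) with hf
  have hf0 : 0 ≤ f := fun p ↦ mul_nonneg (W_nonneg K _) (Real.rpow_nonneg (by positivity) _)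
  have hfib : ∀ I : {I : (Ideal (𝓞 K))⁰ // ClassGroup.mk0 I = C},
      HasSum (fun u : (𝓞 K)ˣ ↦ f (I, u))
        (w * (N * (Ideal.absNorm ((I : (Ideal (𝓞 K))⁰) : Ideal (𝓞 K)) : ℝ)) ^ (-s)) :=
    fun I ↦ (W_hasSum K (orbGen C J hJ I) (orbGen_ne_zero C J hJ I)).mul_right _
  have hterm : ∀ I : {I : (Ideal (𝓞 K))⁰ // ClassGroup.mk0 I = C},
      w * (N * (Ideal.absNorm ((I : (Ideal (𝓞 K))⁰) : Ideal (𝓞 K)) : ℝ)) ^ (-s) =
        w * N ^ (-s) * (Ideal.absNorm ((I : (Ideal (𝓞 K))⁰) : Ideal (𝓞 K)) : ℝ) ^ (-s) := by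
    intro I
    rw [Real.mul_rpow hN0.le (Nat.cast_nonneg _), mul_assoc]
  have hsubs : Summable (fun I : {I : (Ideal (𝓞 K))⁰ // ClassGroup.mk0 I = C} ↦
      (Ideal.absNorm ((I : (Ideal (𝓞 K))⁰) : Ideal (𝓞 K)) : ℝ) ^ (-s)) :=
    (hZs s hs).subtype _
  have hsum2 : Summable (fun I : {I : (Ideal (𝓞 K))⁰ // ClassGroup.mk0 I = C} ↦
      ∑' u : (𝓞 K)ˣ, f (I, u)) := by
    have : (fun I : {I : (Ideal (𝓞 K))⁰ // ClassGroup.mk0 I = C} ↦ ∑' u : (𝓞 K)ˣ, f (I, u)) =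
        fun I : {I : (Ideal (𝓞 K))⁰ // ClassGroup.mk0 I = C} ↦ w * N ^ (-s) *
          (Ideal.absNorm ((I : (Ideal (𝓞 K))⁰) : Ideal (𝓞 K)) : ℝ) ^ (-s) := by
      funext I
      rw [(hfib I).tsum_eq, hterm]
    rw [this]
    exact hsubs.mul_left _
  have hfsum : Summable f :=
    (summable_prod_of_nonneg hf0).mpr ⟨fun I ↦ (hfib I).summable, hsum2⟩
  have htsum : ∑' p, f p = w * N ^ (-s) * partialZeta K C s := by
    rw [hfsum.tsum_prod]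
    have : (fun I : {I : (Ideal (𝓞 K))⁰ // ClassGroup.mk0 I = C} ↦ ∑' u : (𝓞 K)ˣ, f (I, u)) =
        fun I : {I : (Ideal (𝓞 K))⁰ // ClassGroup.mk0 I = C} ↦ w * N ^ (-s) *
          (Ideal.absNorm ((I : (Ideal (𝓞 K))⁰) : Ideal (𝓞 K)) : ℝ) ^ (-s) := by
      funext I
      rw [(hfib I).tsum_eq, hterm]
    rw [this, tsum_mul_left]
    rfl
  -- transfer to the nonzero elements of `J`
  have hcomp : (fun γ : {γ : (J : Ideal (𝓞 K)) // γ ≠ 0} ↦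
      wF K s ((γ : (J : Ideal (𝓞 K))) : 𝓞 K)) ∘ (orbEquiv C J hJ) = f := by
    funext p
    simp only [Function.comp_apply, orbEquiv, Equiv.ofBijective_apply, orbMap_coe]
    rw [wF_unit_mul_orbGen]
  have h1 : HasSum (fun γ : {γ : (J : Ideal (𝓞 K)) // γ ≠ 0} ↦
      wF K s ((γ : (J : Ideal (𝓞 K))) : 𝓞 K)) (w * N ^ (-s) * partialZeta K C s) := by
    rw [← (orbEquiv C J hJ).hasSum_iff, hcomp, ← htsum]
    exact hfsum.hasSum
  have hsupp : Function.support (fun γ : (J : Ideal (𝓞 K)) ↦ wF K s (γ : 𝓞 K)) ⊆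
      {γ : (J : Ideal (𝓞 K)) | γ ≠ 0} := by
    intro γ hγ h0
    apply hγ
    have : (γ : 𝓞 K) = 0 := by rw [h0]; rfl
    simp [wF, this, W_zero]
  have h2 : HasSum (fun γ : (J : Ideal (𝓞 K)) ↦ wF K s (γ : 𝓞 K))
      (w * N ^ (-s) * partialZeta K C s) :=
    (hasSum_subtype_iff_of_support_subset hsupp).mp h1
  refine ⟨h2.summable, ?_⟩
  rw [h2.tsum_eq, Real.rpow_neg hN0.le]
  have hNs : N ^ s ≠ 0 := (Real.rpow_pos_of_pos hN0 s).ne'
  field_simp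

end Fermat.Agent.S14.H29
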