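import Mathlib

/-!
# S14, the case `p = 3` of the arithmetic side

In `ℚ(ζ₃)` there is no "singular primary" number which is not a cube:
if `(α) = I ^ 3`, `λ ∤ α` and `α` is a cube modulo `λ ^ 3` (`λ = ζ - 1`), then `α` is a cube.
-/

set_option autoImplicit false

open NumberField

namespace Fermat.Agent.S14.H39

open IsCyclotomicExtension.Rat.Three in
/-- Core statement, in the `hζ.toInteger` shape. -/
theorem no_singular_primary_three_toInteger {K : Type*} [Field K] [NumberField K]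
    [IsCyclotomicExtension {3} ℚ K] {ζ : K} (hζ : IsPrimitiveRoot ζ 3) (α : 𝓞 K)
    (h1 : ¬ ∃ x : K, x ^ 3 = (α : K))
    (h2 : ∃ I : Ideal (𝓞 K), Ideal.span {α} = I ^ 3)
    (h3 : ¬ (hζ.toInteger - 1) ∣ α)
    (h4 : ∃ ξ : 𝓞 K, (hζ.toInteger - 1) ^ 3 ∣ α - ξ ^ 3) : False := by
  have : IsPrincipalIdealRing (𝓞 K) := IsCyclotomicExtension.Rat.three_pid K
  obtain ⟨I, hI⟩ := h2
  obtain ⟨ξ, hξ⟩ := h4
  obtain ⟨γ, hγ⟩ : ∃ γ : 𝓞 K, I = Ideal.span {γ} := ⟨_, (Ideal.span_singleton_generator I).symm⟩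
  rw [hγ, Ideal.span_singleton_pow, Ideal.span_singleton_eq_span_singleton] at hI
  obtain ⟨u, hu⟩ := hI.symm
  -- `hu : γ ^ 3 * u = α`
  have hlγ : ¬ (hζ.toInteger - 1) ∣ γ := fun h =>
    h3 (hu ▸ Dvd.dvd.mul_right (dvd_pow h (by norm_num)) _)
  have hlξ : ¬ (hζ.toInteger - 1) ∣ ξ := fun h => by
    apply h3
    have h' : (hζ.toInteger - 1) ∣ ξ ^ 3 := dvd_pow h (by norm_num)
    have h'' : (hζ.toInteger - 1) ∣ α - ξ ^ 3 := dvd_trans (dvd_pow_self _ (by norm_num)) hξ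
    have := dvd_add h'' h'
    simpa using this
  have key : ∀ x : 𝓞 K, ¬ (hζ.toInteger - 1) ∣ x →
      ∃ e : ℤ, (e = 1 ∨ e = -1) ∧ (hζ.toInteger - 1) ^ 3 ∣ x ^ 3 - (e : 𝓞 K) := by
    intro x hx
    rcases lambda_pow_four_dvd_cube_sub_one_or_add_one_of_lambda_not_dvd hζ hx with h | h
    · exact ⟨1, Or.inl rfl, by
        have := dvd_trans (pow_dvd_pow (hζ.toInteger - 1) (show 3 ≤ 4 by norm_num)) h
        simpa using this⟩
    · exact ⟨-1, Or.inr rfl, by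
        have := dvd_trans (pow_dvd_pow (hζ.toInteger - 1) (show 3 ≤ 4 by norm_num)) h
        simpa using this⟩
  obtain ⟨e1, he1, hd1⟩ := key γ hlγ
  obtain ⟨e2, he2, hd2⟩ := key ξ hlξ
  have he1sq : (e1 : 𝓞 K) * e1 = 1 := by
    rcases he1 with h | h <;> simp [h]
  -- `u - e1 * e2` is divisible by `λ ^ 3`
  have hdiv : (hζ.toInteger - 1) ^ 3 ∣ (u : 𝓞 K) - ((e1 * e2 : ℤ) : 𝓞 K) := by
    have e : (u : 𝓞 K) - ((e1 * e2 : ℤ) : 𝓞 K)
        = (e1 : 𝓞 K) * (-(u : 𝓞 K) * (γ ^ 3 - (e1 : 𝓞 K)) + (α - ξ ^ 3) + (ξ ^ 3 - (e2 : 𝓞 K))) := by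
      have : (e1 : 𝓞 K) * (-(u : 𝓞 K) * (γ ^ 3 - (e1 : 𝓞 K)) + (α - ξ ^ 3) + (ξ ^ 3 - (e2 : 𝓞 K)))
          = (e1 : 𝓞 K) * e1 * u - e1 * e2 + e1 * (α - γ ^ 3 * u) := by ring
      rw [this, he1sq, hu]
      push_cast
      ring
    rw [e]
    exact Dvd.dvd.mul_left (dvd_add (dvd_add (Dvd.dvd.mul_left hd1 _) hξ) hd2) _
  have hcong : ∃ n : ℤ, (hζ.toInteger - 1) ^ 2 ∣ ((u : 𝓞 K) - n : 𝓞 K) :=
    ⟨e1 * e2, dvd_trans (pow_dvd_pow _ (by norm_num)) hdiv⟩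
  rcases eq_one_or_neg_one_of_unit_of_congruent hζ u hcong with h | h
  · apply h1
    refine ⟨(γ : K), ?_⟩
    rw [← hu, h]
    simp
  · apply h1
    refine ⟨-(γ : K), ?_⟩
    rw [← hu, h]
    simp
    ring

/-- The case `p = 3` of the arithmetic side of S14, with the primitive root given in `K`
(`π = hz.toInteger - 1`). -/
theorem no_singular_primary_three' {K : Type*} [Field K] [NumberField K]
    [IsCyclotomicExtension {3} ℚ K] (z : K) (hz : IsPrimitiveRoot z 3) (α : 𝓞 K)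
    (h1 : ¬ ∃ x : K, x ^ 3 = (α : K))
    (h2 : ∃ I : Ideal (𝓞 K), Ideal.span {α} = I ^ 3)
    (h3 : ¬ (hz.toInteger - 1) ∣ α)
    (h4 : ∃ ξ : 𝓞 K, (hz.toInteger - 1) ^ 3 ∣ α - ξ ^ 3) : False :=
  no_singular_primary_three_toInteger hz α h1 h2 h3 h4

/-- The case `p = 3` of the arithmetic side of S14, with the primitive root given in `𝓞 K`
(`π = z - 1`). -/
theorem no_singular_primary_three {K : Type*} [Field K] [NumberField K]
    [IsCyclotomicExtension {3} ℚ K] (z : 𝓞 K) (hz : IsPrimitiveRoot z 3) (α : 𝓞 K)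
    (h1 : ¬ ∃ x : K, x ^ 3 = (α : K))
    (h2 : ∃ I : Ideal (𝓞 K), Ideal.span {α} = I ^ 3)
    (h3 : ¬ (z - 1) ∣ α)
    (h4 : ∃ ξ : 𝓞 K, (z - 1) ^ 3 ∣ α - ξ ^ 3) : False := by
  have hz' : IsPrimitiveRoot (z : K) 3 :=
    hz.map_of_injective (f := algebraMap (𝓞 K) K) RingOfIntegers.coe_injective
  have e : hz'.toInteger = z := by
    ext
    rfl
  exact no_singular_primary_three_toInteger hz' α h1 h2 (by rw [e]; exact h3) (by rw [e]; exact h4)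

end Fermat.Agent.S14.H39
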