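import Fermat.Agent.S14.Stmts
import Fermat.Agent.S14.Three_helper39

/-!
# S14, node (P3): no singular primary number for `p = 3`
-/

set_option autoImplicit false

namespace Fermat.Agent.S14.H39

/-- (P3) the case `p = 3` of the arithmetic side. -/
theorem p3 : StmtP3 := fun _ _ _ _ ζ hζ α h =>
  no_singular_primary_three' ζ hζ α h.not_pow h.ideal_pow h.coprime h.local_pow

end Fermat.Agent.S14.H39
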