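import Mathlib

set_option autoImplicit false

/-!
# S14, item (6): the case `p = 3` of the arithmetic side (interface (II))

In `ℚ(ζ₃)` the ring of integers is a PID and the units are `±ζ^j`; a unit congruent to `±1`
modulo `(ζ - 1)^2` is `±1`.  Hence an `α` with `(α) = I^3`, prime to `ζ - 1` and congruent to a
cube modulo `(ζ - 1)^3`, is a cube.
-/

namespace Fermat.Agent.S14.H86

open NumberField

/-- The case `p = 3`, integral form: `α` is a cube in `𝓞 K`. -/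
theorem exists_cube_eq_three {K : Type*} [Field K] [NumberField K]
    [IsCyclotomicExtension {3} ℚ K] (z α : 𝓞 K) (hz : IsPrimitiveRoot z 3)
    (hI : ∃ I : Ideal (𝓞 K), Ideal.span {α} = I ^ 3) (hα : ¬ (z - 1) ∣ α)
    (hξ : ∃ ξ : 𝓞 K, (z - 1) ^ 3 ∣ α - ξ ^ 3) : ∃ x : 𝓞 K, x ^ 3 = α := by
  classical
  have : IsPrincipalIdealRing (𝓞 K) := IsCyclotomicExtension.Rat.three_pid K
  have hζ : IsPrimitiveRoot ((z : 𝓞 K) : K) 3 :=
    hz.map_of_injective (RingOfIntegers.coe_injective)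
  have hzint : hζ.toInteger = z := by ext; rfl
  obtain ⟨I, hI⟩ := hI
  obtain ⟨ξ, hξ⟩ := hξ
  obtain ⟨γ, hγ⟩ : ∃ γ : 𝓞 K, I = Ideal.span {γ} :=
    ⟨_, (Submodule.IsPrincipal.span_singleton_generator I).symm⟩
  rw [hγ, Ideal.span_singleton_pow, Ideal.span_singleton_eq_span_singleton] at hI
  obtain ⟨ε, hε⟩ := hI.symm
  -- `γ ^ 3 * ε = α`
  have hγ' : ¬ (z - 1) ∣ γ := fun h => hα (by
    rw [← hε]; exact Dvd.dvd.mul_right (dvd_pow h (by norm_num)) _)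
  have hξ' : ¬ (z - 1) ∣ ξ := fun h => hα (by
    have h1 : (z - 1) ∣ ξ ^ 3 := dvd_pow h (by norm_num)
    have h2 : (z - 1) ∣ α - ξ ^ 3 := Dvd.dvd.trans (dvd_pow_self _ (by norm_num)) hξ
    have h3 := dvd_add h2 h1
    simpa using h3)
  have key : ∀ x : 𝓞 K, ¬ (z - 1) ∣ x →
      ∃ s : ℤ, (s = 1 ∨ s = -1) ∧ (z - 1) ^ 3 ∣ x ^ 3 - (s : 𝓞 K) := by
    intro x hx
    have hx' : ¬ (hζ.toInteger - 1) ∣ x := by rwa [hzint]
    rcases IsCyclotomicExtension.Rat.Three.lambda_pow_four_dvd_cube_sub_one_or_add_one_of_lambda_not_dvd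
      hζ hx' with h | h
    · refine ⟨1, Or.inl rfl, ?_⟩
      rw [hzint] at h
      have := Dvd.dvd.trans (pow_dvd_pow (z - 1) (show 3 ≤ 4 by norm_num)) h
      simpa using this
    · refine ⟨-1, Or.inr rfl, ?_⟩
      rw [hzint] at h
      have := Dvd.dvd.trans (pow_dvd_pow (z - 1) (show 3 ≤ 4 by norm_num)) h
      simpa using this
  obtain ⟨s1, hs1, h1⟩ := key γ hγ'
  obtain ⟨s2, hs2, h2⟩ := key ξ hξ'
  have hs1sq : (s1 : 𝓞 K) * s1 = 1 := by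
    rcases hs1 with rfl | rfl <;> simp
  -- `ε ≡ s1 * s2` modulo `(z - 1) ^ 3`
  have hcong : (z - 1) ^ 3 ∣ (ε : 𝓞 K) - ((s1 * s2 : ℤ) : 𝓞 K) := by
    have e : (ε : 𝓞 K) - ((s1 * s2 : ℤ) : 𝓞 K) =
        (s1 : 𝓞 K) * ((α - ξ ^ 3) + (ξ ^ 3 - (s2 : 𝓞 K)) - (γ ^ 3 - (s1 : 𝓞 K)) * ε) := by
      rw [← hε]
      push_cast
      linear_combination (-(ε : 𝓞 K)) * hs1sq
    rw [e]
    exact Dvd.dvd.mul_left (dvd_sub (dvd_add hξ h2) (Dvd.dvd.mul_right h1 _)) _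
  have hcong2 : ∃ n : ℤ, (hζ.toInteger - 1) ^ 2 ∣ ((ε : 𝓞 K) - n : 𝓞 K) :=
    ⟨s1 * s2, by
      rw [hzint]
      exact Dvd.dvd.trans (pow_dvd_pow (z - 1) (show 2 ≤ 3 by norm_num)) hcong⟩
  rcases IsCyclotomicExtension.Rat.Three.eq_one_or_neg_one_of_unit_of_congruent hζ ε hcong2
    with h | h
  · refine ⟨γ, ?_⟩
    rw [← hε, h]; simp
  · refine ⟨-γ, ?_⟩
    rw [← hε, h]; simp [Odd.neg_pow (by decide : Odd 3)]

/-- The case `p = 3` of interface (II), in the shape of the Galois-side output: `α` is a cube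
in `K`. -/
theorem no_singular_primary_three {K : Type*} [Field K] [NumberField K]
    [IsCyclotomicExtension {3} ℚ K] (z α : 𝓞 K) (hz : IsPrimitiveRoot z 3)
    (hI : ∃ I : Ideal (𝓞 K), Ideal.span {α} = I ^ 3) (hα : ¬ (z - 1) ∣ α)
    (hξ : ∃ ξ : 𝓞 K, (z - 1) ^ 3 ∣ α - ξ ^ 3) : ∃ x : K, x ^ 3 = (α : K) := by
  obtain ⟨x, hx⟩ := exists_cube_eq_three z α hz hI hα hξ
  exact ⟨(x : K), by rw [← hx]; simp⟩

end Fermat.Agent.S14.H86
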