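import Fermat.Agent.S14.OrbitDecomp_helper29
import Fermat.Agent.S14.TransBoundW_helper44
import Fermat.Agent.S14.ZetaIdeals_helper51

/-!
# S14 / WP8: the bound B (`StmtB`)

Differences of partial zeta functions of ideal classes are bounded on `(1, 2)`.
Assembly of: the unit weight `W` (`UnitWeight_helper29`), the translation bound
(`TransBound_helper44`), the orbit decomposition (`OrbitDecomp_helper29`), the coset comparison
(`CosetCompare_helper29`, `BoundB_helper29`) and the pole of the zeta function
(`ZetaIdeals_helper51`).
-/

set_option autoImplicit false

open NumberField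

namespace Fermat.Agent.S14.H29

theorem transBd (K : Type*) [Field K] [NumberField K] : TransBd K := fun J r ↦ by
  simpa only [wF] using H44.transBound_W K J r

/-- **(B)** differences of partial zeta functions of ideal classes are bounded near `1`. -/
theorem stmtB : StmtB := fun F _ _ ↦
  stmtB_of (orbitDecomp_of fun _ hs ↦ H51.summable_absNorm_rpow F hs) (transBd F)
    (fun _ hs ↦ H51.summable_absNorm_rpow F hs) (H51.exists_bound_sub_one_mul_zetaIdeal F)

end Fermat.Agent.S14.H29
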