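import Mathlib

/-!
# Thaine's relation for the cyclotomic unit (S14, WP5a) -- helper68

`K = ℚ(ζ_p)`, `l ≡ 1 mod p` a prime, `L = K(ζ_l)`, `s` a primitive root mod `l`.
The unit `u = 1 - ζ ζ_l` of `𝓞 L` has relative norm `1`; Hilbert 90 gives `β ∈ 𝓞 L` with
`t β = u β` (`t` the generator of `Gal(L/K)` with `t ζ_l = ζ_l ^ s`).  For `γ = N_{L/K} β` we get
`γ 𝓞 L = (β)^(l-1)`, hence for every prime `𝔮` of `𝓞 K`:
* if `l ∉ 𝔮` then `(l - 1) ∣ v_𝔮(γ)` (`L/K` is unramified at `𝔮`);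
* if `l ∈ 𝔮` then `1 - ζ ≡ s ^ v_𝔮(γ) mod 𝔮` (`L/K` is totally ramified at `𝔮`).
-/

set_option autoImplicit false
set_option linter.unusedSectionVars false
set_option linter.style.haveILetI false

open NumberField Polynomial

namespace Fermat.Agent.S14.H68

theorem isPrimitiveRoot_mul {M : Type*} [CommMonoid M] {a b : M} {m n : ℕ}
    (ha : IsPrimitiveRoot a m) (hb : IsPrimitiveRoot b n) (hmn : Nat.Coprime m n) :
    IsPrimitiveRoot (a * b) (m * n) := by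
  have h1 := (Commute.all a b).orderOf_mul_eq_mul_orderOf_of_coprime
    (by rw [← ha.eq_orderOf, ← hb.eq_orderOf]; exact hmn)
  rw [← ha.eq_orderOf, ← hb.eq_orderOf] at h1
  rw [← h1]; exact IsPrimitiveRoot.orderOf _

/-- (M2) `(ζ - 1)^(l-1)` is associated to `l` for a primitive `l`-th root of unity, `l` prime. -/
theorem associated_sub_one_pow {R : Type*} [CommRing R] [IsDomain R] {ζ : R} {l : ℕ}
    (hl : l.Prime) (hζ : IsPrimitiveRoot ζ l) : Associated ((ζ - 1) ^ (l - 1)) (l : R) := by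
  have hl' : l = (l - 1) + 1 := (Nat.sub_add_cancel hl.pos).symm
  have hζ' : IsPrimitiveRoot ζ ((l - 1) + 1) := hl' ▸ hζ
  have h := hζ'.prod_one_sub_pow_eq_order
  have h2 : ((l - 1 : ℕ) : R) + 1 = (l : R) := by
    rw [← Nat.cast_add_one, ← hl']
  rw [h2] at h
  rw [← h, ← Associates.mk_eq_mk_iff_associated, ← Associates.finsetProd_mk, Associates.mk_pow]
  conv_lhs => rw [← Finset.card_range (l - 1), ← Finset.prod_const]
  refine Finset.prod_congr rfl fun k hk => ?_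
  rw [Associates.mk_eq_mk_iff_associated]
  have hk' : k + 1 < l := by have := Finset.mem_range.mp hk; omega
  have hcop : (k + 1).Coprime l := (Nat.coprime_of_lt_prime (Nat.succ_ne_zero k) hk' hl).symm
  have := hζ.associated_sub_one_pow_sub_one_of_coprime hcop
  rw [← neg_sub (ζ ^ (k + 1)) 1]
  exact this.neg_right

section dedekind
variable {R : Type*} [CommRing R] [IsDedekindDomain R]

/-- Two elements with the same exact `𝔔`-power are proportional by elements outside `𝔔`. -/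
theorem exists_mul_eq_mul_of_exact_pow {𝔔 : Ideal R} [h𝔔 : 𝔔.IsPrime] (h0 : 𝔔 ≠ ⊥) {x y : R}
    {k : ℕ} (hx : 𝔔 ^ k ∣ Ideal.span {x}) (hx' : ¬ 𝔔 ^ (k + 1) ∣ Ideal.span {x})
    (hy : 𝔔 ^ k ∣ Ideal.span {y}) (hy' : ¬ 𝔔 ^ (k + 1) ∣ Ideal.span {y}) :
    ∃ a c : R, a ∉ 𝔔 ∧ c ∉ 𝔔 ∧ a * x = c * y := by
  have hprime : Prime 𝔔 := Ideal.prime_of_isPrime h0 h𝔔
  obtain ⟨A, hA⟩ := hx
  obtain ⟨B, hB⟩ := hy
  have hB𝔔 : ¬ B ≤ 𝔔 := by
    intro h
    apply hy'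
    rw [hB, pow_succ]
    exact mul_dvd_mul_left _ (Ideal.dvd_iff_le.mpr h)
  obtain ⟨a, haB, ha𝔔⟩ := SetLike.not_le_iff_exists.mp hB𝔔
  have hax : a * x ∈ Ideal.span {y} := by
    have h1 : a * x ∈ B * Ideal.span {x} :=
      Ideal.mul_mem_mul haB (Ideal.mem_span_singleton_self x)
    rw [hA] at h1
    rw [hB]
    have h2 : B * (𝔔 ^ k * A) = (𝔔 ^ k * B) * A := by
      rw [mul_comm B, mul_assoc, mul_comm A B, ← mul_assoc]
    rw [h2] at h1
    exact (Ideal.mul_le_left : 𝔔 ^ k * B * A ≤ 𝔔 ^ k * B) h1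
  obtain ⟨c, hc⟩ := Ideal.mem_span_singleton.mp hax
  refine ⟨a, c, ha𝔔, ?_, by rw [hc, mul_comm]⟩
  intro hc𝔔
  apply hx'
  have h3 : 𝔔 ^ (k + 1) ∣ Ideal.span {a} * Ideal.span {x} := by
    rw [Ideal.span_singleton_mul_span_singleton, hc, ← Ideal.span_singleton_mul_span_singleton,
      pow_succ, hB, mul_comm (𝔔 ^ k) 𝔔]
    have h4 : 𝔔 ∣ Ideal.span {c} := by
      rw [Ideal.dvd_iff_le, Ideal.span_singleton_le_iff_mem]; exact hc𝔔
    calc 𝔔 * 𝔔 ^ k ∣ Ideal.span {c} * (𝔔 ^ k * B) := by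
          rw [← mul_assoc]; exact Dvd.dvd.mul_right (mul_dvd_mul_right h4 _) _
      _ = 𝔔 ^ k * B * Ideal.span {c} := by rw [mul_comm]
  refine hprime.pow_dvd_of_dvd_mul_left (k + 1) ?_ h3
  rw [Ideal.dvd_iff_le, Ideal.span_singleton_le_iff_mem]
  exact ha𝔔

end dedekind

section fieldlevel
variable {p l : ℕ} [hp : Fact p.Prime] [hl : Fact l.Prime]
variable (K : Type) [Field K] [NumberField K] [IsCyclotomicExtension {p} ℚ K]
variable (L : Type) [Field L] [NumberField L] [Algebra K L] [IsCyclotomicExtension {l} K L]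

include K in
theorem isCyclotomicExtension_mul (hpl : p ≠ l) : IsCyclotomicExtension {p * l} ℚ L := by
  have h1 : IsCyclotomicExtension ({p} ∪ {l}) ℚ L :=
    IsCyclotomicExtension.trans {p} {l} ℚ K L (algebraMap K L).injective
  have hζp := (IsCyclotomicExtension.zeta_spec p ℚ K).map_of_injective (algebraMap K L).injective
  have hζl := IsCyclotomicExtension.zeta_spec l K L
  have hcop : Nat.Coprime p l := (Nat.coprime_primes hp.out hl.out).mpr hpl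
  have hζ := isPrimitiveRoot_mul hζp hζl hcop
  have hne : NeZero (p * l) := ⟨Nat.mul_ne_zero hp.out.ne_zero hl.out.ne_zero⟩
  have hnp : NeZero p := ⟨hp.out.ne_zero⟩
  have hnl : NeZero l := ⟨hl.out.ne_zero⟩
  have h2 : IsCyclotomicExtension (({p} ∪ {l}) ∪ {p * l}) ℚ L :=
    IsCyclotomicExtension.union_of_isPrimitiveRoot _ ℚ L hζ
  have h3 : (({p} ∪ {l}) ∪ {p * l} : Set ℕ) = (({p * l} ∪ {p}) ∪ {l} : Set ℕ) := by
    ext x; simp only [Set.mem_union, Set.mem_singleton_iff]; tauto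
  rw [h3] at h2
  have h4 : IsCyclotomicExtension ({p * l} ∪ {p}) ℚ L :=
    (IsCyclotomicExtension.iff_union_of_dvd ℚ L
      ⟨p * l, by simp, hne.ne, Dvd.intro_left p rfl⟩).mpr h2
  exact (IsCyclotomicExtension.iff_union_of_dvd ℚ L
      ⟨p * l, by simp, hne.ne, Dvd.intro l rfl⟩).mpr h4

include K in
theorem finrank_eq (hpl : p ≠ l) : Module.finrank K L = l - 1 := by
  have := isCyclotomicExtension_mul K L hpl
  have hne : NeZero (p * l) := ⟨Nat.mul_ne_zero hp.out.ne_zero hl.out.ne_zero⟩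
  have hnp : NeZero p := ⟨hp.out.ne_zero⟩
  have hcop : Nat.Coprime p l := (Nat.coprime_primes hp.out hl.out).mpr hpl
  have h1 : Module.finrank ℚ L = (p * l).totient :=
    IsCyclotomicExtension.finrank L (cyclotomic.irreducible_rat (Nat.pos_of_ne_zero hne.ne))
  have h2 : Module.finrank ℚ K = p.totient :=
    IsCyclotomicExtension.finrank K (cyclotomic.irreducible_rat hp.out.pos)
  have h3 := Module.finrank_mul_finrank ℚ K L
  rw [h1, h2, Nat.totient_mul hcop, Nat.totient_prime hp.out, Nat.totient_prime hl.out] at h3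
  exact Nat.eq_of_mul_eq_mul_left (Nat.sub_pos_of_lt hp.out.one_lt) h3

include L in
theorem irreducible_cyclotomic_aux (hpl : p ≠ l) : Irreducible (cyclotomic l K) := by
  have hnl : NeZero l := ⟨hl.out.ne_zero⟩
  have hζl := IsCyclotomicExtension.zeta_spec l K L
  set ζl := IsCyclotomicExtension.zeta l K L
  have hint : IsIntegral K ζl := hζl.isIntegral hl.out.pos |>.tower_top
  have hdvd : minpoly K ζl ∣ cyclotomic l K := by
    apply minpoly.dvd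
    have := (isRoot_cyclotomic_iff (R := L) (n := l)).mpr hζl
    rw [IsRoot.def, ← map_cyclotomic l (algebraMap K L), eval_map, ← aeval_def] at this
    exact this
  have hdeg : (minpoly K ζl).natDegree = l - 1 := by
    rw [← finrank_eq K L hpl, ← hζl.powerBasis_dim K, ← PowerBasis.finrank]
  have heq : cyclotomic l K = minpoly K ζl := by
    refine eq_of_monic_of_dvd_of_natDegree_le (minpoly.monic hint) (cyclotomic.monic l K) hdvd ?_
    rw [hdeg, natDegree_cyclotomic, Nat.totient_prime hl.out]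
  rw [heq]
  exact minpoly.irreducible hint

theorem irreducible_cyclotomic (hpl : p ≠ l) : Irreducible (cyclotomic l K) :=
  irreducible_cyclotomic_aux K (CyclotomicField l K) hpl


/-- A generator of `Gal(L/K)` attached to a generator `s` of `(ZMod l)ˣ`. -/
theorem exists_generator (hpl : p ≠ l) (s : (ZMod l)ˣ) (hs : ∀ x, x ∈ Subgroup.zpowers s) :
    ∃ g : L ≃ₐ[K] L, (∀ x, x ∈ Subgroup.zpowers g) ∧
      ∀ μ : L, μ ^ l = 1 → g μ = μ ^ (s : ZMod l).val := by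
  have hnl : NeZero l := ⟨hl.out.ne_zero⟩
  have hirr := irreducible_cyclotomic (l := l) K hpl
  let e := IsCyclotomicExtension.autEquivPow L hirr
  refine ⟨e.symm s, fun x => ?_, fun μ hμ => ?_⟩
  · obtain ⟨n, hn⟩ := Subgroup.mem_zpowers_iff.mp (hs (e x))
    refine Subgroup.mem_zpowers_iff.mpr ⟨n, ?_⟩
    rw [← map_zpow, hn, MulEquiv.symm_apply_apply]
  · have hζl := IsCyclotomicExtension.zeta_spec l K L
    obtain ⟨i, -, rfl⟩ := hζl.eq_pow_of_pow_eq_one hμ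
    have h1 := hζl.autToPow_spec K (e.symm s)
    have h2 : hζl.autToPow K (e.symm s) = s := e.apply_symm_apply s
    rw [h2] at h1
    rw [map_pow, ← h1, ← pow_mul, ← pow_mul, mul_comm]

theorem norm_algebraMap_sub_zeta (hpl : p ≠ l) (a : K) :
    Algebra.norm K (algebraMap K L a - IsCyclotomicExtension.zeta l K L) =
      (cyclotomic l K).eval a := by
  have hnl : NeZero l := ⟨hl.out.ne_zero⟩
  have hirr := irreducible_cyclotomic (l := l) K hpl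
  have hζl := IsCyclotomicExtension.zeta_spec l K L
  have h1 := _root_.charpoly_leftMulMatrix (hζl.powerBasis K)
  rw [hζl.powerBasis_gen K, ← hζl.minpoly_eq_cyclotomic_of_irreducible hirr] at h1
  rw [Algebra.norm_eq_matrix_det (hζl.powerBasis K).basis, map_sub, AlgHom.commutes, ← h1,
    Matrix.eval_charpoly]
  rfl

theorem norm_one_sub_mul_zeta (hpl : p ≠ l) (hl1 : p ∣ l - 1) {ζ : K} (hζ : IsPrimitiveRoot ζ p) :
    Algebra.norm K (1 - algebraMap K L ζ * IsCyclotomicExtension.zeta l K L) = 1 := by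
  have hζ0 : ζ ≠ 0 := hζ.ne_zero hp.out.ne_zero
  have h1 : (1 : L) - algebraMap K L ζ * IsCyclotomicExtension.zeta l K L =
      algebraMap K L ζ * (algebraMap K L ζ⁻¹ - IsCyclotomicExtension.zeta l K L) := by
    rw [mul_sub, ← map_mul, mul_inv_cancel₀ hζ0, map_one]
  rw [h1, map_mul, Algebra.norm_algebraMap, finrank_eq (p := p) K L hpl,
    norm_algebraMap_sub_zeta (p := p) K L hpl, cyclotomic_prime, eval_geom_sum]
  obtain ⟨m, hm⟩ := hl1
  have h2 : ζ ^ (l - 1) = 1 := by rw [hm, pow_mul, hζ.pow_eq_one, one_pow]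
  have h3 : ζ⁻¹ ^ l = ζ⁻¹ := by
    have : l = (l - 1) + 1 := (Nat.sub_add_cancel hl.out.pos).symm
    rw [this, pow_succ, inv_pow, h2, inv_one, one_mul]
  have h4 : ζ⁻¹ - 1 ≠ 0 := by
    intro h
    have : ζ = 1 := by
      have := sub_eq_zero.mp h
      rw [inv_eq_one] at this; exact this
    exact hζ.ne_one hp.out.one_lt this
  have h5 := mul_geom_sum ζ⁻¹ l
  rw [h3] at h5
  have h6 : ∑ i ∈ Finset.range l, ζ⁻¹ ^ i = 1 := by
    apply mul_left_cancel₀ h4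
    rw [h5, mul_one]
  rw [h2, h6, one_mul]

end fieldlevel

section integers
variable {p l : ℕ} [hp : Fact p.Prime] [hl : Fact l.Prime]
variable (K : Type) [Field K] [NumberField K] [IsCyclotomicExtension {p} ℚ K]
variable (L : Type) [Field L] [NumberField L] [Algebra K L] [IsCyclotomicExtension {l} K L]

/-- The Thaine unit `u = 1 - ζ ζ_l` of `𝓞 L`. -/
noncomputable def thaineUnit (l : ℕ) [Fact l.Prime] [IsCyclotomicExtension {l} K L] (ζ : 𝓞 K) : 𝓞 L :=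
  1 - algebraMap (𝓞 K) (𝓞 L) ζ * (IsCyclotomicExtension.zeta_spec l K L).toInteger

theorem coe_thaineUnit (ζ : 𝓞 K) :
    ((thaineUnit K L l ζ : 𝓞 L) : L) =
      1 - algebraMap K L (ζ : K) * IsCyclotomicExtension.zeta l K L :=
  rfl

theorem norm_thaineUnit (hpl : p ≠ l) (hl1 : p ∣ l - 1) {ζ : 𝓞 K} (hζ : IsPrimitiveRoot ζ p) :
    Algebra.norm K ((thaineUnit K L l ζ : 𝓞 L) : L) = 1 := by
  rw [coe_thaineUnit]
  exact norm_one_sub_mul_zeta K L hpl hl1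
    (hζ.map_of_injective (RingOfIntegers.coe_injective (K := K)))

theorem isUnit_thaineUnit (hpl : p ≠ l) (hl1 : p ∣ l - 1) {ζ : 𝓞 K} (hζ : IsPrimitiveRoot ζ p) :
    IsUnit (thaineUnit K L l ζ) := by
  rw [← RingOfIntegers.isUnit_norm K]
  have : RingOfIntegers.norm K (thaineUnit K L l ζ) = 1 := by
    apply RingOfIntegers.ext
    rw [RingOfIntegers.coe_norm, norm_thaineUnit K L hpl hl1 hζ]
    rfl
  rw [this]; exact isUnit_one

/-- Hilbert 90 for the Thaine unit. -/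
theorem exists_beta (hpl : p ≠ l) (hl1 : p ∣ l - 1) {ζ : 𝓞 K} (hζ : IsPrimitiveRoot ζ p)
    (g : L ≃ₐ[K] L) (hg : ∀ x, x ∈ Subgroup.zpowers g) :
    ∃ β : 𝓞 L, β ≠ 0 ∧ galRestrict (𝓞 K) K L (𝓞 L) g β = thaineUnit K L l ζ * β := by
  have hgal : IsGalois K L := IsCyclotomicExtension.isGalois {l} K L
  have hcyc : IsCyclic (L ≃ₐ[K] L) := ⟨g, hg⟩
  obtain ⟨uu, huu⟩ := isUnit_thaineUnit K L hpl hl1 hζ
  have hη : Algebra.norm K (algebraMap (𝓞 L) L ((uu⁻¹ : (𝓞 L)ˣ) : 𝓞 L)) = 1 := by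
    have h1 : algebraMap (𝓞 L) L ((uu⁻¹ : (𝓞 L)ˣ) : 𝓞 L) * algebraMap (𝓞 L) L (thaineUnit K L l ζ) = 1 := by
      rw [← map_mul, ← huu, Units.inv_mul, map_one]
    have h2 := congrArg (Algebra.norm K) h1
    rw [map_mul, map_one] at h2
    have h3 := norm_thaineUnit K L hpl hl1 hζ
    rw [RingOfIntegers.coe_eq_algebraMap] at h3
    rwa [h3, mul_one] at h2
  obtain ⟨β, hβ0, hβ⟩ := groupCohomology.exists_mul_galRestrict_of_norm_eq_one
    (A := 𝓞 K) (B := 𝓞 L) hg hη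
  refine ⟨β, hβ0, ?_⟩
  have := congrArg (fun x => (uu : 𝓞 L) * x) hβ
  simp only [← mul_assoc, Units.mul_inv, one_mul] at this
  rw [this, huu]

omit [IsCyclotomicExtension {p} ℚ K] [IsCyclotomicExtension {l} K L] in
theorem associated_galRestrict [IsGalois K L] (g : L ≃ₐ[K] L) (hg : ∀ x, x ∈ Subgroup.zpowers g)
    {β u : 𝓞 L} (hu : IsUnit u)
    (hβ : galRestrict (𝓞 K) K L (𝓞 L) g β = u * β) (σ : L ≃ₐ[K] L) :
    Associated (galRestrict (𝓞 K) K L (𝓞 L) σ β) β := by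
  set G := galRestrict (𝓞 K) K L (𝓞 L) g with hG
  have hnat : ∀ n : ℕ, Associated ((G ^ n) β) β := by
    intro n
    induction n with
    | zero => simp
    | succ n ih =>
      rw [pow_succ, AlgEquiv.mul_apply, hβ, map_mul]
      exact (associated_unit_mul_left _ _ (hu.map (G ^ n))).trans ih
  obtain ⟨n, rfl⟩ := Subgroup.mem_zpowers_iff.mp (hg σ)
  rw [map_zpow, ← hG]
  obtain ⟨m, rfl | rfl⟩ := n.eq_nat_or_neg
  · rw [zpow_natCast]; exact hnat m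
  · rw [zpow_neg, zpow_natCast]
    have := (hnat m).map ((G ^ m)⁻¹ : 𝓞 L ≃ₐ[𝓞 K] 𝓞 L)
    rw [← AlgEquiv.mul_apply, inv_mul_cancel, AlgEquiv.one_apply] at this
    exact this.symm

include K in
theorem span_algebraMap_norm (hpl : p ≠ l) {β : 𝓞 L}
    (hβ : ∀ σ : L ≃ₐ[K] L, Associated (galRestrict (𝓞 K) K L (𝓞 L) σ β) β) :
    Ideal.span {algebraMap (𝓞 K) (𝓞 L) (RingOfIntegers.norm K β)} = Ideal.span {β} ^ (l - 1) := by
  have hgal : IsGalois K L := IsCyclotomicExtension.isGalois {l} K L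
  have h1 : algebraMap (𝓞 K) (𝓞 L) (RingOfIntegers.norm K β) =
      ∏ σ : L ≃ₐ[K] L, galRestrict (𝓞 K) K L (𝓞 L) σ β := by
    apply RingOfIntegers.coe_injective
    refine (RingOfIntegers.coe_algebraMap_norm K β).trans ?_
    rw [Algebra.norm_eq_prod_automorphisms, map_prod]
    refine Finset.prod_congr rfl fun σ _ => ?_
    rw [algebraMap_galRestrict_apply]
  rw [h1, ← Ideal.prod_span_singleton]
  have h2 : ∀ σ : L ≃ₐ[K] L, Ideal.span {galRestrict (𝓞 K) K L (𝓞 L) σ β} = Ideal.span {β} :=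
    fun σ => Ideal.span_singleton_eq_span_singleton.mpr (hβ σ)
  simp only [h2, Finset.prod_const, Finset.card_univ]
  rw [← Nat.card_eq_fintype_card, IsGalois.card_aut_eq_finrank, finrank_eq (p := p) K L hpl]

/-- ramification index of `𝔔 | 𝔮` in `L/K`: `l - 1` above `l`, `1` elsewhere. -/
theorem ramificationIdx_eq (hpl : p ≠ l) (𝔮 : Ideal (𝓞 K)) [𝔮.IsPrime]
    (𝔔 : Ideal (𝓞 L)) [𝔔.IsPrime] [𝔔.LiesOver 𝔮] (h𝔔 : 𝔔 ≠ ⊥) :
    ((l : 𝓞 K) ∈ 𝔮 → 𝔔.ramificationIdx (𝓞 K) = l - 1) ∧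
      ((l : 𝓞 K) ∉ 𝔮 → 𝔔.ramificationIdx (𝓞 K) = 1) := by
  have hcycL : IsCyclotomicExtension {p * l} ℚ L := isCyclotomicExtension_mul K L hpl
  have : NeZero 𝔔 := ⟨h𝔔⟩
  set q := Ideal.absNorm (Ideal.under ℤ 𝔔) with hq
  have hqp : q.Prime := Nat.absNorm_under_prime 𝔔
  have : Fact q.Prime := ⟨hqp⟩
  have h1 : 𝔔.LiesOver (Ideal.span {(q : ℤ)}) := Int.liesOver_span_absNorm 𝔔
  have h2 : 𝔮.LiesOver (Ideal.span {(q : ℤ)}) := Ideal.LiesOver.tower_bot 𝔔 𝔮 _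
  have htower := Ideal.ramificationIdx_tower (R := ℤ) 𝔮 𝔔
  have hmem : (l : 𝓞 K) ∈ 𝔮 ↔ q = l := by
    have h3 : (l : 𝓞 K) ∈ 𝔮 ↔ ((l : ℤ) : 𝓞 L) ∈ 𝔔 := by
      rw [Ideal.over_def 𝔔 𝔮, Ideal.under_def, Ideal.mem_comap]
      simp
    rw [h3, Int.cast_mem_ideal_iff, Int.natCast_dvd_natCast, Nat.prime_dvd_prime_iff_eq hqp hl.out]
  by_cases hql : q = l
  · refine ⟨fun _ => ?_, fun h => absurd (hmem.mpr hql) h⟩
    have hn : p * l = q ^ (0 + 1) * p := by rw [hql]; ring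
    have hm : ¬ q ∣ p := by
      rw [hql, Nat.prime_dvd_prime_iff_eq hl.out hp.out]; exact fun h => hpl h.symm
    have e1 := IsCyclotomicExtension.Rat.ramificationIdx_eq (p * l) L 𝔔 hn hm
    have : NeZero p := ⟨hp.out.ne_zero⟩
    have e2 := IsCyclotomicExtension.Rat.ramificationIdx_eq_of_not_dvd q K 𝔮 hm
    rw [e1, e2, one_mul, pow_zero, one_mul, hql] at htower
    exact htower.symm
  · refine ⟨fun h => absurd (hmem.mp h) hql, fun _ => ?_⟩
    by_cases hqp' : q = p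
    · have hn : p * l = q ^ (0 + 1) * l := by rw [hqp']; ring
      have hm : ¬ q ∣ l := by
        rw [Nat.prime_dvd_prime_iff_eq hqp hl.out]; exact hql
      have e1 := IsCyclotomicExtension.Rat.ramificationIdx_eq (p * l) L 𝔔 hn hm
      have hn' : p = q ^ (0 + 1) * 1 := by rw [hqp']; ring
      have e2 := IsCyclotomicExtension.Rat.ramificationIdx_eq p K 𝔮 hn'
        (by rw [Nat.dvd_one]; exact hqp.ne_one)
      rw [e1, e2] at htower
      have hpos : 0 < q ^ 0 * (q - 1) := by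
        rw [pow_zero, one_mul]; exact Nat.sub_pos_of_lt hqp.one_lt
      exact (Nat.eq_of_mul_eq_mul_left hpos (by rw [mul_one]; exact htower)).symm
    · have hm : ¬ q ∣ p * l := by
        rw [hqp.dvd_mul, Nat.prime_dvd_prime_iff_eq hqp hp.out,
          Nat.prime_dvd_prime_iff_eq hqp hl.out]
        tauto
      have : NeZero (p * l) := ⟨Nat.mul_ne_zero hp.out.ne_zero hl.out.ne_zero⟩
      have e1 := IsCyclotomicExtension.Rat.ramificationIdx_eq_of_not_dvd q L 𝔔 hm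
      rw [e1] at htower
      exact Nat.eq_one_of_mul_eq_one_left htower.symm

/-- The primitive `l`-th root of unity of `𝓞 L`. -/
noncomputable def zetaL (l : ℕ) [Fact l.Prime] [IsCyclotomicExtension {l} K L] : 𝓞 L :=
  (IsCyclotomicExtension.zeta_spec l K L).toInteger

theorem zetaL_isPrimitiveRoot : IsPrimitiveRoot (zetaL K L l) l :=
  (IsCyclotomicExtension.zeta_spec l K L).toInteger_isPrimitiveRoot

theorem coe_zetaL : ((zetaL K L l : 𝓞 L) : L) = IsCyclotomicExtension.zeta l K L := rfl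

theorem zetaL_sub_one_mem (𝔔 : Ideal (𝓞 L)) [h𝔔 : 𝔔.IsPrime] (h : (l : 𝓞 L) ∈ 𝔔) :
    zetaL K L l - 1 ∈ 𝔔 := by
  obtain ⟨u, hu⟩ := associated_sub_one_pow hl.out (zetaL_isPrimitiveRoot K L)
  rw [← hu] at h
  rcases h𝔔.mem_or_mem h with h1 | h1
  · exact h𝔔.mem_of_pow_mem _ h1
  · exact absurd (Ideal.eq_top_of_isUnit_mem _ h1 u.isUnit) h𝔔.ne_top

theorem galRestrict_zetaL (g : L ≃ₐ[K] L) (s : ℕ) (hg : ∀ μ : L, μ ^ l = 1 → g μ = μ ^ s) :
    galRestrict (𝓞 K) K L (𝓞 L) g (zetaL K L l) = zetaL K L l ^ s := by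
  apply RingOfIntegers.coe_injective
  have h1 := algebraMap_galRestrict_apply (𝓞 K) g (zetaL K L l)
  refine h1.trans ?_
  rw [map_pow]
  exact hg _ (IsCyclotomicExtension.zeta_spec l K L).pow_eq_one

theorem pow_sub_one_mem (𝔔 : Ideal (𝓞 L)) [h𝔔 : 𝔔.IsPrime] (h : (l : 𝓞 L) ∈ 𝔔) (n : ℕ) :
    zetaL K L l ^ n - 1 ∈ 𝔔 := by
  have h1 : zetaL K L l - 1 ∣ zetaL K L l ^ n - 1 := by
    simpa using sub_dvd_pow_sub_pow (zetaL K L l) 1 n
  exact Ideal.mem_of_dvd _ h1 (zetaL_sub_one_mem K L 𝔔 h)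

/-- (M3) The generator acts trivially modulo a prime above `l`. -/
theorem galRestrict_sub_mem (hpl : p ≠ l) {ζ : 𝓞 K} (hζ : IsPrimitiveRoot ζ p)
    (g : L ≃ₐ[K] L) (s : ℕ) (hg : ∀ μ : L, μ ^ l = 1 → g μ = μ ^ s)
    (𝔔 : Ideal (𝓞 L)) [h𝔔 : 𝔔.IsPrime] (h : (l : 𝓞 L) ∈ 𝔔) (x : 𝓞 L) :
    galRestrict (𝓞 K) K L (𝓞 L) g x - x ∈ 𝔔 := by
  have hcyc : IsCyclotomicExtension {p * l} ℚ L := isCyclotomicExtension_mul K L hpl
  have hne : NeZero (p * l) := ⟨Nat.mul_ne_zero hp.out.ne_zero hl.out.ne_zero⟩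
  have hcop : Nat.Coprime p l := (Nat.coprime_primes hp.out hl.out).mpr hpl
  have hζK : IsPrimitiveRoot (algebraMap K L (ζ : K)) p :=
    (hζ.map_of_injective (RingOfIntegers.coe_injective (K := K))).map_of_injective
      (algebraMap K L).injective
  have hζpl : IsPrimitiveRoot (algebraMap K L (ζ : K) * IsCyclotomicExtension.zeta l K L) (p * l) :=
    isPrimitiveRoot_mul hζK (IsCyclotomicExtension.zeta_spec l K L) hcop
  have htop := IsCyclotomicExtension.Rat.adjoin_singleton_eq_top hζpl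
  have hgen : hζpl.toInteger = algebraMap (𝓞 K) (𝓞 L) ζ * zetaL K L l := by
    apply RingOfIntegers.coe_injective
    rfl
  have hx : x ∈ Algebra.adjoin ℤ {hζpl.toInteger} := by rw [htop]; trivial
  set G := galRestrict (𝓞 K) K L (𝓞 L) g with hG
  induction hx using Algebra.adjoin_induction with
  | mem y hy =>
    rw [Set.mem_singleton_iff] at hy
    rw [hy, hgen, map_mul, AlgEquiv.commutes, hG, galRestrict_zetaL K L g s hg, ← mul_sub]
    apply Ideal.mul_mem_left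
    have h1 := pow_sub_one_mem K L 𝔔 h s
    have h2 := zetaL_sub_one_mem K L 𝔔 h
    have h3 : zetaL K L l ^ s - zetaL K L l = (zetaL K L l ^ s - 1) - (zetaL K L l - 1) := by ring
    rw [h3]; exact Ideal.sub_mem _ h1 h2
  | algebraMap n =>
    have : G (algebraMap ℤ (𝓞 L) n) = algebraMap ℤ (𝓞 L) n := by
      simp
    rw [this, sub_self]; exact Ideal.zero_mem _
  | add y z _ _ hy hz =>
    have : G (y + z) - (y + z) = (G y - y) + (G z - z) := by rw [map_add]; ring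
    rw [this]; exact Ideal.add_mem _ hy hz
  | mul y z _ _ hy hz =>
    have : G (y * z) - y * z = G y * (G z - z) + (G y - y) * z := by rw [map_mul]; ring
    rw [this]
    exact Ideal.add_mem _ (Ideal.mul_mem_left _ _ hz) (Ideal.mul_mem_right _ _ hy)

/-- (M5) the local computation at a prime above `l`. -/
theorem local_congr (hpl : p ≠ l) {ζ : 𝓞 K} (hζ : IsPrimitiveRoot ζ p)
    (g : L ≃ₐ[K] L) (s : ℕ) (hg : ∀ μ : L, μ ^ l = 1 → g μ = μ ^ s)
    (𝔔 : Ideal (𝓞 L)) [h𝔔 : 𝔔.IsPrime] (h𝔔0 : 𝔔 ≠ ⊥) (h : (l : 𝓞 L) ∈ 𝔔)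
    (hπ : ¬ 𝔔 ^ 2 ∣ Ideal.span {zetaL K L l - 1})
    {β u : 𝓞 L} (hβ : galRestrict (𝓞 K) K L (𝓞 L) g β = u * β)
    {k : ℕ} (hk : 𝔔 ^ k ∣ Ideal.span {β}) (hk' : ¬ 𝔔 ^ (k + 1) ∣ Ideal.span {β}) :
    u - (s : 𝓞 L) ^ k ∈ 𝔔 := by
  have hπmem : zetaL K L l - 1 ∈ 𝔔 := zetaL_sub_one_mem K L 𝔔 h
  have hζ1 : zetaL K L l - 1 ≠ 0 :=
    sub_ne_zero.mpr ((zetaL_isPrimitiveRoot K L).ne_one hl.out.one_lt)
  set π := zetaL K L l - 1 with hπdef
  have hprime : Prime 𝔔 := Ideal.prime_of_isPrime h𝔔0 h𝔔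
  have hdvd : 𝔔 ∣ Ideal.span {π} :=
    Ideal.dvd_iff_le.mpr ((Ideal.span_singleton_le_iff_mem _).mpr hπmem)
  have hspan0 : Ideal.span {π} ≠ 0 := by
    rw [Ideal.zero_eq_bot, Ne, Ideal.span_singleton_eq_bot]; exact hζ1
  have hfin : FiniteMultiplicity 𝔔 (Ideal.span {π}) := FiniteMultiplicity.of_prime_left hprime hspan0
  have hm1 : multiplicity 𝔔 (Ideal.span {π}) = 1 :=
    multiplicity_eq_of_dvd_of_not_dvd (by simpa using hdvd) (by simpa using hπ)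
  have h1 : 𝔔 ^ k ∣ Ideal.span {π ^ k} := by
    rw [← Ideal.span_singleton_pow]
    exact pow_dvd_pow_of_dvd hdvd k
  have h2 : ¬ 𝔔 ^ (k + 1) ∣ Ideal.span {π ^ k} := by
    rw [← Ideal.span_singleton_pow]
    apply (hfin.pow hprime).not_pow_dvd_of_multiplicity_lt
    rw [hfin.multiplicity_pow hprime, hm1, mul_one]
    exact Nat.lt_succ_self k
  obtain ⟨a, c, ha, hc, hac⟩ := exists_mul_eq_mul_of_exact_pow h𝔔0 hk hk' h1 h2
  set G := galRestrict (𝓞 K) K L (𝓞 L) g with hG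
  set ρ := ∑ i ∈ Finset.range s, zetaL K L l ^ i with hρ
  have hGπ : G π = π * ρ := by
    rw [hπdef, map_sub, map_one, hG, galRestrict_zetaL K L g s hg, hρ, mul_geom_sum]
  clear_value π ρ G
  have hkey : (G a * u * c - a * G c * ρ ^ k) * π ^ k = 0 := by
    have e1 := congrArg G hac
    rw [map_mul, map_mul, map_pow, hβ, hGπ] at e1
    calc (G a * u * c - a * G c * ρ ^ k) * π ^ k
        = G a * u * (c * π ^ k) - a * (G c * (π * ρ) ^ k) := by ring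
      _ = G a * u * (a * β) - a * (G a * (u * β)) := by rw [← hac, ← e1]
      _ = 0 := by ring
  have hkey2 : G a * u * c = a * G c * ρ ^ k := by
    rcases mul_eq_zero.mp hkey with h3 | h3
    · exact sub_eq_zero.mp h3
    · exact absurd h3 (pow_ne_zero k hζ1)
  have hGmod : ∀ x : 𝓞 L, Ideal.Quotient.mk 𝔔 (G x) = Ideal.Quotient.mk 𝔔 x := by
    intro x
    rw [Ideal.Quotient.eq, hG]
    exact galRestrict_sub_mem K L hpl hζ g s hg 𝔔 h x
  have hρmod : Ideal.Quotient.mk 𝔔 ρ = Ideal.Quotient.mk 𝔔 (s : 𝓞 L) := by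
    rw [Ideal.Quotient.eq]
    have : ρ - (s : 𝓞 L) = ∑ i ∈ Finset.range s, (zetaL K L l ^ i - 1) := by
      rw [Finset.sum_sub_distrib, hρ]; simp
    rw [this]
    exact Ideal.sum_mem _ fun i _ => pow_sub_one_mem K L 𝔔 h i
  have hmod := congrArg (Ideal.Quotient.mk 𝔔) hkey2
  simp only [map_mul, map_pow, hGmod, hρmod] at hmod
  have ha' : Ideal.Quotient.mk 𝔔 a ≠ 0 := by
    rwa [Ne, Ideal.Quotient.eq_zero_iff_mem]
  have hc' : Ideal.Quotient.mk 𝔔 c ≠ 0 := by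
    rwa [Ne, Ideal.Quotient.eq_zero_iff_mem]
  have hfinal : Ideal.Quotient.mk 𝔔 u = Ideal.Quotient.mk 𝔔 ((s : 𝓞 L) ^ k) := by
    rw [map_pow]
    have e2 : Ideal.Quotient.mk 𝔔 a * Ideal.Quotient.mk 𝔔 c * Ideal.Quotient.mk 𝔔 u =
        Ideal.Quotient.mk 𝔔 a * Ideal.Quotient.mk 𝔔 c * Ideal.Quotient.mk 𝔔 (s : 𝓞 L) ^ k := by
      rw [← hmod]; ring
    exact mul_left_cancel₀ (mul_ne_zero ha' hc') e2
  exact Ideal.Quotient.eq.mp hfinal

include K in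
/-- The multiplicity of a prime of `𝓞 L` above `l` in `(l)` is `l - 1`. -/
theorem multiplicity_span_natCast (hpl : p ≠ l) (𝔔 : Ideal (𝓞 L)) [h𝔔 : 𝔔.IsPrime]
    (h𝔔0 : 𝔔 ≠ ⊥) (h : (l : 𝓞 L) ∈ 𝔔) :
    multiplicity 𝔔 (Ideal.span {(l : 𝓞 L)}) = l - 1 := by
  have hcycL : IsCyclotomicExtension {p * l} ℚ L := isCyclotomicExtension_mul K L hpl
  have : NeZero 𝔔 := ⟨h𝔔0⟩
  have hqp : (Ideal.absNorm (Ideal.under ℤ 𝔔)).Prime := Nat.absNorm_under_prime 𝔔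
  have hql : Ideal.absNorm (Ideal.under ℤ 𝔔) = l := by
    have h3 : ((l : ℤ) : 𝓞 L) ∈ 𝔔 := by simpa using h
    rw [Int.cast_mem_ideal_iff, Int.natCast_dvd_natCast,
      Nat.prime_dvd_prime_iff_eq hqp hl.out] at h3
    exact h3
  have h1 : 𝔔.LiesOver (Ideal.span {(l : ℤ)}) := hql ▸ Int.liesOver_span_absNorm 𝔔
  have hn : p * l = l ^ (0 + 1) * p := by ring
  have hm : ¬ l ∣ p := by
    rw [Nat.prime_dvd_prime_iff_eq hl.out hp.out]; exact fun h => hpl h.symm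
  have e1 := IsCyclotomicExtension.Rat.ramificationIdx_eq (p * l) L 𝔔 hn hm
  have hl0 : Ideal.span {(l : ℤ)} ≠ ⊥ := by simp [hl.out.ne_zero]
  have e2 := Ideal.ramificationIdx'_eq_ramificationIdx (Ideal.span {(l : ℤ)}) 𝔔 hl0
  have hmap : Ideal.map (algebraMap ℤ (𝓞 L)) (Ideal.span {(l : ℤ)}) =
      Ideal.span {(l : 𝓞 L)} := by
    rw [Ideal.map_span, Set.image_singleton]; simp
  have e3 := Ideal.IsDedekindDomain.ramificationIdx'_eq_multiplicity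
    (p := Ideal.span {(l : ℤ)}) (P := 𝔔) (by rw [hmap]; simp [hl.out.ne_zero]) h𝔔
  rw [hmap] at e3
  rw [← e3, e2, e1, pow_zero, one_mul]

/-- `ζ_l - 1` is a uniformizer at every prime of `𝓞 L` above `l`. -/
theorem not_sq_dvd_span_zetaL_sub_one (hpl : p ≠ l) (𝔔 : Ideal (𝓞 L)) [h𝔔 : 𝔔.IsPrime]
    (h𝔔0 : 𝔔 ≠ ⊥) (h : (l : 𝓞 L) ∈ 𝔔) : ¬ 𝔔 ^ 2 ∣ Ideal.span {zetaL K L l - 1} := by
  intro hdvd
  have hprime : Prime 𝔔 := Ideal.prime_of_isPrime h𝔔0 h𝔔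
  have hassoc := associated_sub_one_pow hl.out (zetaL_isPrimitiveRoot K L (l := l))
  have hspan : Ideal.span {(l : 𝓞 L)} = Ideal.span {zetaL K L l - 1} ^ (l - 1) := by
    rw [Ideal.span_singleton_pow]
    exact (Ideal.span_singleton_eq_span_singleton.mpr hassoc).symm
  have h1 : (𝔔 ^ 2) ^ (l - 1) ∣ Ideal.span {(l : 𝓞 L)} := by
    rw [hspan]; exact pow_dvd_pow_of_dvd hdvd _
  have hl0 : Ideal.span {(l : 𝓞 L)} ≠ 0 := by
    rw [Ideal.zero_eq_bot, Ne, Ideal.span_singleton_eq_bot]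
    exact_mod_cast hl.out.ne_zero
  have hfin := FiniteMultiplicity.of_prime_left hprime hl0
  have h2 := hfin.not_pow_dvd_of_multiplicity_lt (m := 2 * (l - 1)) (by
    rw [multiplicity_span_natCast K L hpl 𝔔 h𝔔0 h]
    have := hl.out.two_le
    omega)
  exact h2 (by rwa [← pow_mul] at h1)

/-- Transport of multiplicities from `𝓞 K` to `𝓞 L`. -/
theorem multiplicity_relation (𝔮 : Ideal (𝓞 K)) [h𝔮 : 𝔮.IsPrime] (h𝔮0 : 𝔮 ≠ ⊥)
    (𝔔 : Ideal (𝓞 L)) [h𝔔 : 𝔔.IsPrime] [𝔔.LiesOver 𝔮] (h𝔔0 : 𝔔 ≠ ⊥)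
    {γ : 𝓞 K} (hγ : γ ≠ 0) {β : 𝓞 L} (hβ : β ≠ 0) {n : ℕ}
    (hspan : Ideal.span {algebraMap (𝓞 K) (𝓞 L) γ} = Ideal.span {β} ^ n) :
    𝔔.ramificationIdx (𝓞 K) * multiplicity 𝔮 (Ideal.span {γ}) =
      n * multiplicity 𝔔 (Ideal.span {β}) := by
  have hp𝔮 : Prime 𝔮 := Ideal.prime_of_isPrime h𝔮0 h𝔮
  have hp𝔔 : Prime 𝔔 := Ideal.prime_of_isPrime h𝔔0 h𝔔
  have hγ0 : Ideal.span {γ} ≠ ⊥ := by rwa [Ne, Ideal.span_singleton_eq_bot]
  have hβ0 : Ideal.span {β} ≠ ⊥ := by rwa [Ne, Ideal.span_singleton_eq_bot]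
  have e1 := Ideal.IsDedekindDomain.emultiplicity_map_eq_ramificationIdx'_mul (S := 𝓞 L)
    hγ0 hp𝔮.irreducible hp𝔔.irreducible h𝔔0
  rw [Ideal.map_span, Set.image_singleton, hspan, emultiplicity_pow hp𝔔,
    Ideal.ramificationIdx'_eq_ramificationIdx 𝔮 𝔔 h𝔮0,
    (FiniteMultiplicity.of_prime_left hp𝔔 hβ0).emultiplicity_eq_multiplicity,
    (FiniteMultiplicity.of_prime_left hp𝔮 hγ0).emultiplicity_eq_multiplicity] at e1
  exact_mod_cast e1.symm

end integers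

section main
variable {p l : ℕ} [hp : Fact p.Prime] [hl : Fact l.Prime]
variable {K : Type} [Field K] [NumberField K] [IsCyclotomicExtension {p} ℚ K]

/-- **Thaine's relation, valuation form.**  `K = ℚ(ζ_p)`, `l ≡ 1 mod p` prime, `s` a primitive
root modulo `l`.  There is `γ ≠ 0` in `𝓞 K` whose valuation is divisible by `l - 1` at every
prime not above `l`, and such that `1 - ζ ≡ s ^ v_𝔮(γ) mod 𝔮` at every prime `𝔮` above `l`. -/
theorem thaine_valuation (hl1 : p ∣ l - 1) {ζ : 𝓞 K} (hζ : IsPrimitiveRoot ζ p)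
    (s : (ZMod l)ˣ) (hs : ∀ x, x ∈ Subgroup.zpowers s) :
    ∃ γ : 𝓞 K, γ ≠ 0 ∧ ∀ 𝔮 : Ideal (𝓞 K), 𝔮.IsPrime → 𝔮 ≠ ⊥ →
      ((l : 𝓞 K) ∉ 𝔮 → (l - 1) ∣ multiplicity 𝔮 (Ideal.span {γ})) ∧
      ((l : 𝓞 K) ∈ 𝔮 →
        (1 - ζ) - (((s : ZMod l).val : ℕ) : 𝓞 K) ^ multiplicity 𝔮 (Ideal.span {γ}) ∈ 𝔮) := by
  have hpl : p ≠ l := by
    rintro rfl
    have h1 := Nat.le_of_dvd (Nat.sub_pos_of_lt hp.out.one_lt) hl1
    have h2 := hp.out.pos
    omega
  let L := CyclotomicField l K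
  obtain ⟨g, hg, hgs⟩ := exists_generator K L hpl s hs
  obtain ⟨β, hβ0, hβ⟩ := exists_beta K L hpl hl1 hζ g hg
  have hgal : IsGalois K L := IsCyclotomicExtension.isGalois {l} K L
  have hassoc := associated_galRestrict K L g hg (isUnit_thaineUnit K L hpl hl1 hζ) hβ
  have hspan := span_algebraMap_norm K L hpl hassoc
  have hγ : RingOfIntegers.norm K β ≠ 0 := by
    intro h0
    rw [h0, map_zero] at hspan
    have h1 : Ideal.span {β} ^ (l - 1) = ⊥ := by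
      rw [← hspan]; simp
    have h2 := pow_eq_zero_iff (Nat.sub_pos_of_lt hl.out.one_lt).ne' |>.mp h1
    rw [Ideal.zero_eq_bot, Ideal.span_singleton_eq_bot] at h2
    exact hβ0 h2
  refine ⟨RingOfIntegers.norm K β, hγ, ?_⟩
  intro 𝔮 h𝔮 h𝔮0
  have h𝔮max : 𝔮.IsMaximal := h𝔮.isMaximal h𝔮0
  obtain ⟨𝔔, h𝔔max, h𝔔over⟩ := Ideal.exists_maximal_ideal_liesOver_of_isIntegral 𝔮 (S := 𝓞 L)
  have h𝔔 : 𝔔.IsPrime := h𝔔max.isPrime
  have h𝔔0 : 𝔔 ≠ ⊥ := Ideal.ne_bot_of_liesOver_of_ne_bot h𝔮0 𝔔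
  have hrel := multiplicity_relation K L 𝔮 h𝔮0 𝔔 h𝔔0 hγ hβ0 hspan
  obtain ⟨he1, he2⟩ := ramificationIdx_eq K L hpl 𝔮 𝔔 h𝔔0
  constructor
  · intro hl𝔮
    rw [he2 hl𝔮, one_mul] at hrel
    exact ⟨_, hrel⟩
  · intro hl𝔮
    rw [he1 hl𝔮] at hrel
    have hk : multiplicity 𝔮 (Ideal.span {RingOfIntegers.norm K β}) =
        multiplicity 𝔔 (Ideal.span {β}) :=
      Nat.eq_of_mul_eq_mul_left (Nat.sub_pos_of_lt hl.out.one_lt) hrel
    rw [hk]
    have hl𝔔 : (l : 𝓞 L) ∈ 𝔔 := by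
      have := (Ideal.mem_of_liesOver 𝔔 𝔮 (l : 𝓞 K)).mp hl𝔮
      simpa using this
    have hprime : Prime 𝔔 := Ideal.prime_of_isPrime h𝔔0 h𝔔
    have hβspan : Ideal.span {β} ≠ 0 := by
      rw [Ideal.zero_eq_bot, Ne, Ideal.span_singleton_eq_bot]; exact hβ0
    have hfin := FiniteMultiplicity.of_prime_left hprime hβspan
    have hloc := local_congr K L hpl hζ g _ hgs 𝔔 h𝔔0 hl𝔔
      (not_sq_dvd_span_zetaL_sub_one K L hpl 𝔔 h𝔔0 hl𝔔) hβ
      (pow_multiplicity_dvd 𝔔 (Ideal.span {β}))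
      (hfin.not_pow_dvd_of_multiplicity_lt (Nat.lt_succ_self _))
    rw [Ideal.mem_of_liesOver 𝔔 𝔮]
    have hu : thaineUnit K L l ζ - (1 - algebraMap (𝓞 K) (𝓞 L) ζ) ∈ 𝔔 := by
      have : thaineUnit K L l ζ - (1 - algebraMap (𝓞 K) (𝓞 L) ζ) =
          - (algebraMap (𝓞 K) (𝓞 L) ζ * (zetaL K L l - 1)) := by
        simp only [thaineUnit, zetaL]; ring
      rw [this]
      exact neg_mem (Ideal.mul_mem_left _ _ (zetaL_sub_one_mem K L 𝔔 hl𝔔))
    have : algebraMap (𝓞 K) (𝓞 L) ((1 - ζ) - (((s : ZMod l).val : ℕ) : 𝓞 K) ^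
        multiplicity 𝔔 (Ideal.span {β})) =
        (thaineUnit K L l ζ - (((s : ZMod l).val : ℕ) : 𝓞 L) ^ multiplicity 𝔔 (Ideal.span {β})) -
          (thaineUnit K L l ζ - (1 - algebraMap (𝓞 K) (𝓞 L) ζ)) := by
      simp only [map_sub, map_one, map_pow, map_natCast]; ring
    rw [this]
    exact Ideal.sub_mem _ hloc hu

end main

end Fermat.Agent.S14.H68
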