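import Fermat.Agent.S14.Stmts2
import Fermat.Agent.S14.Thaine_helper68

/-!
# `StmtThaineA` from `H68.thaine_valuation` (independent single-file backup of the Thaine core)
-/

set_option autoImplicit false

open scoped NumberField
open UniqueFactorizationMonoid

namespace Fermat.Agent.S14.H68

theorem multiplicity_eq_count {R : Type*} [CommRing R] [IsDedekindDomain R] (P I : Ideal R)
    [hP : P.IsPrime] (hP0 : P ≠ ⊥) (hI : I ≠ ⊥) :
    multiplicity P I = Multiset.count P (normalizedFactors I) := by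
  have hirr : Irreducible P := (Ideal.prime_of_isPrime hP0 hP).irreducible
  apply multiplicity_eq_of_emultiplicity_eq_some
  rw [emultiplicity_eq_count_normalizedFactors hirr hI, normalize_eq]

theorem thaineA_backup : StmtThaineA := by
  intro p l _ _ hlp K _ _ _ ζ hζ s hs
  have hl : l.Prime := Fact.out
  have hp : p.Prime := Fact.out
  have hl1 : p ∣ l - 1 := by
    have := Nat.dvd_sub_mod (n := p) l
    rwa [hlp] at this
  have hs0 : (s : ZMod l) ≠ 0 := by
    intro h0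
    rw [h0, orderOf_zero] at hs
    have := hl.two_le
    omega
  let s' : (ZMod l)ˣ := Units.mk0 (s : ZMod l) hs0
  have hs' : ∀ x, x ∈ Subgroup.zpowers s' := by
    intro x
    have hcard : Nat.card (Subgroup.zpowers s') = Nat.card (ZMod l)ˣ := by
      rw [Nat.card_zpowers, ← orderOf_units, Units.val_mk0, hs, Nat.card_eq_fintype_card,
        ZMod.card_units_eq_totient, Nat.totient_prime hl]
    rw [Subgroup.eq_top_of_card_eq _ hcard]
    trivial
  obtain ⟨γ, hγ, h⟩ := thaine_valuation hl1 hζ s' hs'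
  refine ⟨γ, hγ, fun P hP hP0 => ?_⟩
  have hI : Ideal.span {γ} ≠ ⊥ := by rwa [Ne, Ideal.span_singleton_eq_bot]
  obtain ⟨h1, h2⟩ := h P hP hP0
  rw [multiplicity_eq_count P _ hP0 hI] at h1 h2
  refine ⟨h1, fun hlP => ?_⟩
  have h3 := h2 hlP
  have hval : ((s' : ZMod l).val : ℕ) = s % l := by
    simp [s', ZMod.val_natCast]
  rw [hval] at h3
  set k := Multiset.count P (normalizedFactors (Ideal.span {γ})) with hk
  have h4 : ((s : ℕ) : 𝓞 K) - ((s % l : ℕ) : 𝓞 K) ∈ P := by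
    have : ((s : ℕ) : 𝓞 K) - ((s % l : ℕ) : 𝓞 K) = (l : 𝓞 K) * ((s / l : ℕ) : 𝓞 K) := by
      have e : ((s : ℕ) : 𝓞 K) = (l : 𝓞 K) * ((s / l : ℕ) : 𝓞 K) + ((s % l : ℕ) : 𝓞 K) := by
        exact_mod_cast (Nat.div_add_mod s l).symm
      rw [e, add_sub_cancel_right]
    rw [this]; exact Ideal.mul_mem_right _ _ hlP
  have h5 : ((s : ℕ) : 𝓞 K) ^ k - ((s % l : ℕ) : 𝓞 K) ^ k ∈ P :=
    Ideal.mem_of_dvd _ (sub_dvd_pow_sub_pow _ _ k) h4
  have h6 : (1 - ζ) - ((s : ℕ) : 𝓞 K) ^ k =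
      ((1 - ζ) - ((s % l : ℕ) : 𝓞 K) ^ k) - (((s : ℕ) : 𝓞 K) ^ k - ((s % l : ℕ) : 𝓞 K) ^ k) := by
    ring
  rw [h6]
  exact Ideal.sub_mem _ h3 h5

end Fermat.Agent.S14.H68
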