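import Mathlib

/-!
S14, WP5 (Thaine), rows R5 and R2 (owner: helper72).

* `count_normalizedFactors_map` / `count_map_span_singleton` (R5, valuation bridge):
  for an extension `B / A` of Dedekind domains and a prime `Q` of `B` over `P`,
  `v_Q (I B) = e(Q|P) * v_P (I)`.
* `exists_norm_span_eq_pow` (R2, norm element): if `β ∈ 𝓞 L` generates a Galois-invariant ideal
  (`σ β = u β` with `u` a unit, for all `σ`), then `a := N_{L/K} β ∈ 𝓞 K` satisfies
  `a 𝓞 L = (β) ^ [L : K]`.
-/

set_option autoImplicit false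

namespace Fermat.Agent.S14.H72

open UniqueFactorizationMonoid NumberField

section R5

variable {A B : Type*} [CommRing A] [IsDedekindDomain A] [CommRing B] [IsDedekindDomain B]
  [Algebra A B] [FaithfulSMul A B]

/-- (R5), ideal form. -/
theorem count_normalizedFactors_map (P : Ideal A) [P.IsPrime] (hP : P ≠ ⊥) (Q : Ideal B)
    [Q.IsPrime] [Q.LiesOver P] (I : Ideal A) (hI : I ≠ ⊥) :
    Multiset.count Q (normalizedFactors (I.map (algebraMap A B))) =
      Q.ramificationIdx A * Multiset.count P (normalizedFactors I) := by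
  classical
  induction I using UniqueFactorizationMonoid.induction_on_prime with
  | h₁ => exact absurd rfl hI
  | h₂ x hx =>
    have hx' : x = ⊤ := Ideal.isUnit_iff.mp hx
    subst hx'
    rw [Ideal.map_top, ← Ideal.one_eq_top, ← Ideal.one_eq_top, normalizedFactors_one,
      normalizedFactors_one]
    simp
  | h₃ J p hJ hp ih =>
    have ih' := ih hJ
    have hp0 : p ≠ ⊥ := hp.ne_zero
    have hpm : p.map (algebraMap A B) ≠ ⊥ := Ideal.map_ne_bot_of_ne_bot hp0
    have hJm : J.map (algebraMap A B) ≠ ⊥ := Ideal.map_ne_bot_of_ne_bot hJ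
    rw [Ideal.map_mul, normalizedFactors_mul hpm hJm, Multiset.count_add, ih',
      normalizedFactors_mul hp0 hJ, Multiset.count_add, mul_add]
    congr 1
    by_cases hpP : p = P
    · subst hpP
      rw [← Ideal.IsDedekindDomain.ramificationIdx_eq_normalizedFactors_count p Q hpm,
        normalizedFactors_irreducible hp.irreducible, normalize_eq, Multiset.count_singleton_self,
        mul_one]
    · have h1 : Multiset.count P (normalizedFactors p) = 0 := by
        rw [normalizedFactors_irreducible hp.irreducible, normalize_eq]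
        rw [Multiset.count_singleton, if_neg (Ne.symm hpP)]
      rw [h1, mul_zero, Multiset.count_eq_zero]
      intro hmem
      apply hpP
      have hle : p.map (algebraMap A B) ≤ Q := by
        have := dvd_of_mem_normalizedFactors hmem
        exact Ideal.le_of_dvd this
      have hle' : p ≤ P := by
        rw [(Ideal.LiesOver.over (p := P) (P := Q)), Ideal.under_def]
        exact Ideal.map_le_iff_le_comap.mp hle
      have hpprime : p.IsPrime := Ideal.isPrime_of_prime hp
      have hmax : p.IsMaximal := hpprime.isMaximal hp0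
      exact hmax.eq_of_le (Ideal.IsPrime.ne_top inferInstance) hle'

/-- (R5), element form. -/
theorem count_map_span_singleton (P : Ideal A) [P.IsPrime] (hP : P ≠ ⊥) (Q : Ideal B)
    [Q.IsPrime] [Q.LiesOver P] (a : A) (ha : a ≠ 0) :
    Multiset.count Q (normalizedFactors (Ideal.span {algebraMap A B a})) =
      Q.ramificationIdx A * Multiset.count P (normalizedFactors (Ideal.span {a})) := by
  have h := count_normalizedFactors_map P hP Q (Ideal.span {a})
    (by rwa [Ne, Ideal.span_singleton_eq_bot])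
  rwa [Ideal.map_span, Set.image_singleton] at h

end R5

section R2

variable {K L : Type*} [Field K] [NumberField K] [Field L] [NumberField L] [Algebra K L]
  [IsGalois K L]

/-- (R2) norm element: if `β` generates a Galois-invariant ideal of `𝓞 L`, then
`N_{L/K} β` generates (in `𝓞 L`) the `[L : K]`-th power of that ideal. -/
theorem exists_norm_span_eq_pow (β : 𝓞 L) (hβ : β ≠ 0)
    (h : ∀ σ : L ≃ₐ[K] L, ∃ u : (𝓞 L)ˣ, σ (β : L) = ((u : 𝓞 L) : L) * (β : L)) :
    ∃ a : 𝓞 K, a ≠ 0 ∧
      Ideal.span {algebraMap (𝓞 K) (𝓞 L) a} = Ideal.span {β} ^ Module.finrank K L := by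
  classical
  have hfd : FiniteDimensional K L := FiniteDimensional.right ℚ K L
  choose u hu using h
  refine ⟨RingOfIntegers.norm K β, ?_, ?_⟩
  · intro h0
    have h1 : ((RingOfIntegers.norm K β : 𝓞 K) : K) = 0 := by rw [h0]; rfl
    rw [RingOfIntegers.coe_norm, Algebra.norm_eq_zero_iff] at h1
    exact hβ (RingOfIntegers.coe_eq_zero_iff.mp h1)
  · have key : algebraMap (𝓞 K) (𝓞 L) (RingOfIntegers.norm K β) =
        ((∏ σ : L ≃ₐ[K] L, u σ : (𝓞 L)ˣ) : 𝓞 L) * β ^ Module.finrank K L := by
      apply RingOfIntegers.ext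
      rw [RingOfIntegers.coe_algebraMap_norm, Algebra.norm_eq_prod_automorphisms]
      simp_rw [hu]
      rw [Finset.prod_mul_distrib, Finset.prod_const, Finset.card_univ,
        ← Nat.card_eq_fintype_card, IsGalois.card_aut_eq_finrank]
      simp
    rw [key, Ideal.span_singleton_mul_left_unit (Units.isUnit _), Ideal.span_singleton_pow]

omit [NumberField K] [NumberField L] [IsGalois K L] in
/-- the set of automorphisms multiplying `β` by a unit is closed under products -/
theorem exists_unit_smul_mul (β : 𝓞 L) (σ τ : L ≃ₐ[K] L)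
    (hσ : ∃ v : (𝓞 L)ˣ, σ (β : L) = ((v : 𝓞 L) : L) * (β : L))
    (hτ : ∃ v : (𝓞 L)ˣ, τ (β : L) = ((v : 𝓞 L) : L) * (β : L)) :
    ∃ v : (𝓞 L)ˣ, (σ * τ) (β : L) = ((v : 𝓞 L) : L) * (β : L) := by
  obtain ⟨v, hv⟩ := hσ
  obtain ⟨w, hw⟩ := hτ
  refine ⟨Units.map (RingOfIntegers.mapRingEquiv (σ : L ≃+* L) : 𝓞 L →* 𝓞 L) w * v, ?_⟩
  rw [AlgEquiv.mul_apply, hw, map_mul, hv]
  simp only [Units.val_mul, Units.coe_map, MonoidHom.coe_coe, map_mul]
  have h1 : (algebraMap (𝓞 L) L) ((RingOfIntegers.mapRingEquiv (σ : L ≃+* L)) (w : 𝓞 L)) =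
      σ ((w : 𝓞 L) : L) := RingOfIntegers.mapRingEquiv_apply (σ : L ≃+* L) (w : 𝓞 L)
  rw [h1]
  ring

omit [IsGalois K L] in
/-- cyclic wrapper for (R2): it is enough to know `g β = u β` for a generator `g`. -/
theorem exists_unit_smul_of_generator (g : L ≃ₐ[K] L) (hg : ∀ x, x ∈ Subgroup.zpowers g)
    (β : 𝓞 L) (u : (𝓞 L)ˣ) (hu : g (β : L) = ((u : 𝓞 L) : L) * (β : L)) :
    ∀ σ : L ≃ₐ[K] L, ∃ v : (𝓞 L)ˣ, σ (β : L) = ((v : 𝓞 L) : L) * (β : L) := by
  have hfd : FiniteDimensional K L := FiniteDimensional.right ℚ K L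
  intro σ
  have hσ : σ ∈ Submonoid.powers g := by
    rw [mem_powers_iff_mem_zpowers]
    exact hg σ
  obtain ⟨n, rfl : g ^ n = σ⟩ := hσ
  induction n with
  | zero => exact ⟨1, by simp⟩
  | succ n ih =>
    rw [pow_succ]
    exact exists_unit_smul_mul β _ _ ih ⟨u, hu⟩

/-- (R2) in the cyclic form used by the assembly. -/
theorem exists_norm_span_eq_pow_of_generator (g : L ≃ₐ[K] L)
    (hg : ∀ x, x ∈ Subgroup.zpowers g) (β : 𝓞 L) (hβ : β ≠ 0) (u : (𝓞 L)ˣ)
    (hu : g (β : L) = ((u : 𝓞 L) : L) * (β : L)) :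
    ∃ a : 𝓞 K, a ≠ 0 ∧
      Ideal.span {algebraMap (𝓞 K) (𝓞 L) a} = Ideal.span {β} ^ Module.finrank K L :=
  exists_norm_span_eq_pow β hβ (exists_unit_smul_of_generator g hg β u hu)

end R2

end Fermat.Agent.S14.H72
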