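import Fermat.Agent.S14.Stmts2
import Fermat.Agent.S14.IdealForm_helper72

/-!
# S14, Thaine's relation: from the valuation form (`StmtThaineA`) to `StmtThaine`

Form A (helper96): for `ℓ ≡ 1 mod p` and a primitive root `s` modulo `ℓ` there is `a ∈ 𝓞 K`,
`a ≠ 0`, with `(ℓ - 1) ∣ v_P(a)` for the primes `P ∤ ℓ` and `1 - ζ ≡ s ^ v_P(a) mod P` for the
primes `P ∣ ℓ`.

This file does the Galois-orbit bookkeeping: the primes above `ℓ` are the `p - 1` distinct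
ideals `σ⁻¹ 𝔩`, the valuation of `a` at `σ⁻¹ 𝔩` is congruent to the discrete logarithm `k σ`
modulo `ℓ - 1`, hence `∏ σ, (σ⁻¹ [𝔩]) ^ k σ` is a `p`-th power in the class group.
-/

set_option autoImplicit false
open scoped NumberField nonZeroDivisors Pointwise
open UniqueFactorizationMonoid NumberField

namespace Fermat.Agent.S14.H39

section
variable {p : ℕ} [Fact p.Prime] {K : Type} [Field K] [NumberField K]

theorem smul_eq_galRestrict (σ : K ≃ₐ[ℚ] K) (x : 𝓞 K) :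
    (σ • x : 𝓞 K) = galRestrict ℤ ℚ K (𝓞 K) σ x := by
  apply RingOfIntegers.ext
  exact (algebraMap_galRestrict_apply ℤ σ x).symm

theorem smul_ideal_eq_map (σ : K ≃ₐ[ℚ] K) (P : Ideal (𝓞 K)) :
    σ • P = P.map (galRestrictionDatum ℤ ℚ K (𝓞 K) σ : 𝓞 K →+* 𝓞 K) := by
  rw [Ideal.pointwise_smul_def]
  congr 1
  ext x
  exact congrArg _ (smul_eq_galRestrict σ x)

/-- membership in the image of an ideal under `σ⁻¹` -/
theorem mem_map_inv_iff (σ : K ≃ₐ[ℚ] K) (I : Ideal (𝓞 K)) (x : 𝓞 K) :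
    x ∈ I.map (galRestrictionDatum ℤ ℚ K (𝓞 K) σ⁻¹ : 𝓞 K →+* 𝓞 K) ↔
      galRestrict ℤ ℚ K (𝓞 K) σ x ∈ I := by
  have h1 : galRestrictionDatum ℤ ℚ K (𝓞 K) σ⁻¹ = (galRestrictionDatum ℤ ℚ K (𝓞 K) σ).symm := by
    rw [map_inv]; rfl
  rw [h1]
  have := Ideal.mem_map_of_equiv (galRestrictionDatum ℤ ℚ K (𝓞 K) σ).symm (I := I) x
  rw [show ((galRestrictionDatum ℤ ℚ K (𝓞 K) σ).symm : 𝓞 K →+* 𝓞 K) =
    (((galRestrictionDatum ℤ ℚ K (𝓞 K) σ).symm : 𝓞 K ≃+* 𝓞 K) : 𝓞 K →+* 𝓞 K) from rfl]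
  constructor
  · intro h
    obtain ⟨y, hy, hyx⟩ := this.mp h
    rw [← hyx, ← galRestrictionDatum_apply, RingEquiv.apply_symm_apply]
    exact hy
  · intro h
    refine this.mpr ⟨_, h, ?_⟩
    rw [← galRestrictionDatum_apply, RingEquiv.symm_apply_apply]

omit [NumberField K] in
theorem int_dvd_of_mem {ℓ : ℕ} (hℓ : ℓ.Prime) (𝔩 : Ideal (𝓞 K)) (h𝔩 : 𝔩.IsPrime)
    (hmem : (ℓ : 𝓞 K) ∈ 𝔩) (n : ℤ) (hn : (n : 𝓞 K) ∈ 𝔩) : (ℓ : ℤ) ∣ n := by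
  by_contra h
  have hcop : IsCoprime (ℓ : ℤ) n :=
    (Prime.coprime_iff_not_dvd (Nat.prime_iff_prime_int.mp hℓ)).mpr h
  obtain ⟨u, v, huv⟩ := hcop
  apply h𝔩.ne_top
  rw [Ideal.eq_top_iff_one]
  have : (1 : 𝓞 K) = (u : 𝓞 K) * (ℓ : 𝓞 K) + (v : 𝓞 K) * (n : 𝓞 K) := by
    have := congrArg (Int.cast : ℤ → 𝓞 K) huv
    push_cast at this
    exact this.symm
  rw [this]
  exact 𝔩.add_mem (𝔩.mul_mem_left _ hmem) (𝔩.mul_mem_left _ hn)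

/-- The stabiliser of a degree-one prime over `ℓ ≠ p` is trivial. -/
theorem eq_one_of_forall_mem [IsCyclotomicExtension {p} ℚ K] {ζ : K} (hζ : IsPrimitiveRoot ζ p)
    {ℓ : ℕ} (hℓ : ℓ.Prime) (hℓp : ℓ ≠ p) (𝔩 : Ideal (𝓞 K)) (h𝔩 : 𝔩.IsPrime)
    (hmem : (ℓ : 𝓞 K) ∈ 𝔩) (t : ℤ) (ht : hζ.toInteger - (t : 𝓞 K) ∈ 𝔩)
    (ρ : K ≃ₐ[ℚ] K) (hρ : ∀ x ∈ 𝔩, galRestrict ℤ ℚ K (𝓞 K) ρ x ∈ 𝔩) : ρ = 1 := by
  have hp : p.Prime := Fact.out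
  have : NeZero p := ⟨hp.ne_zero⟩
  set z := hζ.toInteger with hzdef
  have hz : IsPrimitiveRoot z p := hζ.toInteger_isPrimitiveRoot
  have h1 : galRestrict ℤ ℚ K (𝓞 K) ρ z - (t : 𝓞 K) ∈ 𝔩 := by
    have := hρ _ ht
    rwa [map_sub, map_intCast] at this
  have h2 : galRestrict ℤ ℚ K (𝓞 K) ρ z - z ∈ 𝔩 := by
    have := 𝔩.sub_mem h1 ht
    rwa [sub_sub_sub_cancel_right] at this
  obtain ⟨a, ha, hza⟩ : ∃ a < p, z ^ a = galRestrict ℤ ℚ K (𝓞 K) ρ z :=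
    hz.eq_pow_of_pow_eq_one (by rw [← map_pow, hz.pow_eq_one, map_one])
  have hp𝔩 : (p : 𝓞 K) ∉ 𝔩 := by
    intro hp'
    have := int_dvd_of_mem hℓ 𝔩 h𝔩 hmem (p : ℤ) (by simpa using hp')
    rw [Int.natCast_dvd_natCast] at this
    exact hℓp ((Nat.prime_dvd_prime_iff_eq hℓ hp).mp this)
  have hz1 : z - 1 ∉ 𝔩 := fun h => hp𝔩 (𝔩.mem_of_dvd hζ.toInteger_sub_one_dvd_prime' h)
  have hzu : z ∉ 𝔩 := by
    intro h
    apply h𝔩.ne_top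
    rw [Ideal.eq_top_iff_one, ← hz.pow_eq_one]
    exact 𝔩.pow_mem_of_mem h p hp.pos
  by_cases ha1 : a = 1
  · -- `ρ ζ = ζ`
    subst ha1
    rw [pow_one] at hza
    have hρζ : ρ ζ = ζ := by
      have := congrArg (algebraMap (𝓞 K) K) hza
      rw [algebraMap_galRestrict_apply] at this
      exact this.symm
    apply AlgEquiv.coe_toAlgHom_injective
    apply (hζ.powerBasis ℚ).algHom_ext
    simp [hρζ]
  · exfalso
    rw [← hza] at h2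
    rcases Nat.eq_zero_or_pos a with h0 | hpos
    · subst h0
      rw [pow_zero] at h2
      apply hz1
      have := 𝔩.neg_mem h2
      rwa [neg_sub] at this
    · have ha2 : 2 ≤ a := by omega
      have e : z ^ a - z = z * (z ^ (a - 1) - 1) := by
        have : a = (a - 1) + 1 := by omega
        conv_lhs => rw [this, pow_succ]
        ring
      rw [e] at h2
      have h3 : z ^ (a - 1) - 1 ∈ 𝔩 := (h𝔩.mem_or_mem h2).resolve_left hzu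
      have hcop : (a - 1).Coprime p :=
        Nat.Coprime.symm ((Nat.Prime.coprime_iff_not_dvd hp).mpr
          (Nat.not_dvd_of_pos_of_lt (by omega) (by omega)))
      have hassoc := hz.associated_sub_one_pow_sub_one_of_coprime hcop
      exact hz1 (𝔩.mem_of_dvd hassoc.symm.dvd h3)

omit [Fact p.Prime] in
theorem exists_eq_map_inv [IsCyclotomicExtension {p} ℚ K] {ℓ : ℕ} (hℓ : ℓ.Prime)
    (𝔩 P : Ideal (𝓞 K)) (h𝔩 : 𝔩.IsPrime) (hP : P.IsPrime) (hmem : (ℓ : 𝓞 K) ∈ 𝔩)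
    (hmemP : (ℓ : 𝓞 K) ∈ P) :
    ∃ σ : K ≃ₐ[ℚ] K, P = 𝔩.map (galRestrictionDatum ℤ ℚ K (𝓞 K) σ⁻¹ : 𝓞 K →+* 𝓞 K) := by
  have : IsGalois ℚ K := IsCyclotomicExtension.isGalois {p} ℚ K
  have h1 : 𝔩.LiesOver (Ideal.span {(ℓ : ℤ)}) :=
    (Ideal.liesOver_span_iff h𝔩.ne_top (Nat.prime_iff_prime_int.mp hℓ)).mpr (by simpa using hmem)
  have h2 : P.LiesOver (Ideal.span {(ℓ : ℤ)}) :=
    (Ideal.liesOver_span_iff hP.ne_top (Nat.prime_iff_prime_int.mp hℓ)).mpr (by simpa using hmemP)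
  obtain ⟨τ, hτ⟩ := Ideal.exists_smul_eq_of_isGaloisGroup (Ideal.span {(ℓ : ℤ)}) 𝔩 P (K ≃ₐ[ℚ] K)
  refine ⟨τ⁻¹, ?_⟩
  rw [inv_inv, ← smul_ideal_eq_map]
  exact hτ.symm

/-- **Thaine's relation: from the valuation form to the class group.** -/
theorem thaine_core [IsCyclotomicExtension {p} ℚ K] {ζ : K} (hζ : IsPrimitiveRoot ζ p)
    {ℓ : ℕ} (hℓ : ℓ.Prime) (hℓp : ℓ % p = 1)
    (𝔩 : (Ideal (𝓞 K))⁰) (h𝔩 : (𝔩 : Ideal (𝓞 K)).IsPrime)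
    (hmem : (ℓ : 𝓞 K) ∈ (𝔩 : Ideal (𝓞 K)))
    (g : ℕ) (hg : orderOf (g : ZMod ℓ) = ℓ - 1) (k : (K ≃ₐ[ℚ] K) → ℕ)
    (hk : ∀ σ : K ≃ₐ[ℚ] K,
      (1 - galRestrict ℤ ℚ K (𝓞 K) σ hζ.toInteger) - (g : 𝓞 K) ^ (k σ) ∈ (𝔩 : Ideal (𝓞 K)))
    (a : 𝓞 K) (ha : a ≠ 0)
    (hA : ∀ P : Ideal (𝓞 K), P.IsPrime → P ≠ ⊥ →
      ((ℓ : 𝓞 K) ∉ P → (ℓ - 1) ∣ Multiset.count P (normalizedFactors (Ideal.span {a}))) ∧
      ((ℓ : 𝓞 K) ∈ P → (1 - hζ.toInteger) -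
        (g : 𝓞 K) ^ Multiset.count P (normalizedFactors (Ideal.span {a})) ∈ P)) :
    ∃ d : ClassGroup (𝓞 K),
      ∏ σ : K ≃ₐ[ℚ] K, (clAct σ⁻¹ (ClassGroup.mk0 𝔩)) ^ (k σ) = d ^ p := by
  classical
  have hp : p.Prime := Fact.out
  have hℓne : ℓ ≠ p := by
    rintro rfl
    simp at hℓp
  have hpdvd : p ∣ ℓ - 1 := by
    have := Nat.div_add_mod ℓ p
    rw [hℓp] at this
    exact ⟨ℓ / p, by omega⟩
  have hℓ2 := hℓ.two_le
  -- the primes above `ℓ`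
  set Q : (K ≃ₐ[ℚ] K) → (Ideal (𝓞 K))⁰ :=
    fun σ => Ideal.mapNonZero (galRestrictionDatum ℤ ℚ K (𝓞 K) σ⁻¹) 𝔩 with hQdef
  have hQprime : ∀ σ, (Q σ : Ideal (𝓞 K)).IsPrime := fun σ => by
    rw [hQdef, Ideal.coe_mapNonZero]
    exact Ideal.map_isPrime_of_equiv _
  have hQbot : ∀ σ, (Q σ : Ideal (𝓞 K)) ≠ ⊥ := fun σ => nonZeroDivisors.coe_ne_zero (Q σ)
  have hQmem : ∀ σ x, x ∈ (Q σ : Ideal (𝓞 K)) ↔
      galRestrict ℤ ℚ K (𝓞 K) σ x ∈ (𝔩 : Ideal (𝓞 K)) := fun σ x => mem_map_inv_iff σ _ x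
  have hQℓ : ∀ σ, (ℓ : 𝓞 K) ∈ (Q σ : Ideal (𝓞 K)) := fun σ => by
    rw [hQmem, map_natCast]
    exact hmem
  have hact : ∀ σ : K ≃ₐ[ℚ] K, clAct σ⁻¹ (ClassGroup.mk0 𝔩) = ClassGroup.mk0 (Q σ) := fun σ => by
    unfold clAct
    exact ClassGroup.mulEquiv_mk0 _ _
  set m : (K ≃ₐ[ℚ] K) → ℕ :=
    fun σ => Multiset.count (Q σ : Ideal (𝓞 K)) (normalizedFactors (Ideal.span {a})) with hmdef
  -- the congruence `k σ ≡ m σ`
  have hfin : IsOfFinOrder (g : ZMod ℓ) := orderOf_pos_iff.mp (by rw [hg]; omega)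
  have hkm : ∀ σ, k σ ≡ m σ [MOD p] := by
    intro σ
    have h1 := (hA _ (hQprime σ) (hQbot σ)).2 (hQℓ σ)
    rw [hQmem, map_sub, map_sub, map_one, map_pow, map_natCast] at h1
    have h2 := (𝔩 : Ideal (𝓞 K)).sub_mem h1 (hk σ)
    have h3 : (((g : ℤ) ^ k σ - (g : ℤ) ^ m σ : ℤ) : 𝓞 K) ∈ (𝔩 : Ideal (𝓞 K)) := by
      push_cast
      convert h2 using 1
      ring
    have h4 := int_dvd_of_mem hℓ _ h𝔩 hmem _ h3
    have h5 : (g : ZMod ℓ) ^ k σ = (g : ZMod ℓ) ^ m σ := by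
      have := (ZMod.intCast_zmod_eq_zero_iff_dvd _ ℓ).mpr h4
      push_cast at this
      exact sub_eq_zero.mp this
    have h6 : hfin.unit ^ k σ = hfin.unit ^ m σ := by
      apply Units.ext
      rw [Units.val_pow_eq_pow_val, Units.val_pow_eq_pow_val, IsOfFinOrder.val_unit]
      exact h5
    have h7 := pow_eq_pow_iff_modEq.mp h6
    have h8 : orderOf hfin.unit = ℓ - 1 := by
      rw [← hg, ← orderOf_units, IsOfFinOrder.val_unit]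
    rw [h8] at h7
    exact h7.of_dvd hpdvd
  -- the finite set of primes above `ℓ`
  have hinj : Function.Injective (fun σ => (Q σ : Ideal (𝓞 K))) := by
    intro σ τ hστ
    have hρ : τ * σ⁻¹ = 1 := by
      have ht : hζ.toInteger - (((1 : ℤ) - (g : ℤ) ^ k 1 : ℤ) : 𝓞 K) ∈ (𝔩 : Ideal (𝓞 K)) := by
        have h := (𝔩 : Ideal (𝓞 K)).neg_mem (hk 1)
        rw [map_one] at h
        push_cast
        convert h using 1
        simp only [AlgEquiv.one_apply]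
        ring
      refine eq_one_of_forall_mem hζ hℓ hℓne _ h𝔩 hmem _ ht _ fun x hx => ?_
      have hx1 : galRestrict ℤ ℚ K (𝓞 K) σ⁻¹ x ∈ (Q σ : Ideal (𝓞 K)) := by
        rw [hQmem, ← AlgEquiv.mul_apply, ← map_mul, mul_inv_cancel, map_one]
        exact hx
      have hx2 : galRestrict ℤ ℚ K (𝓞 K) σ⁻¹ x ∈ (Q τ : Ideal (𝓞 K)) := by
        have : (Q σ : Ideal (𝓞 K)) = (Q τ : Ideal (𝓞 K)) := hστ
        rw [← this]
        exact hx1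
      rw [hQmem, ← AlgEquiv.mul_apply, ← map_mul] at hx2
      exact hx2
    exact (mul_inv_eq_one.mp hρ).symm
  set T : Finset (Ideal (𝓞 K)) := Finset.univ.image (fun σ => (Q σ : Ideal (𝓞 K))) with hTdef
  have hT : ∀ P : Ideal (𝓞 K), P.IsPrime → P ≠ ⊥ → P ∉ T →
      (ℓ - 1) ∣ Multiset.count P (normalizedFactors (Ideal.span {a})) := by
    intro P hP hP0 hPT
    refine (hA P hP hP0).1 fun hℓP => hPT ?_
    obtain ⟨σ, hσ⟩ := exists_eq_map_inv (p := p) hℓ 𝔩 P h𝔩 hP hmem hℓP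
    exact Finset.mem_image.mpr ⟨σ, Finset.mem_univ _, hσ.symm⟩
  have hI : Ideal.span {a} ≠ ⊥ := by rwa [Ne, Ideal.span_singleton_eq_bot]
  obtain ⟨J, hJ0, hJ⟩ := H72.exists_eq_pow_mul_prod (Ideal.span {a}) hI (ℓ - 1) T hT
  rw [hTdef, Finset.prod_image (fun σ _ τ _ h => hinj h)] at hJ
  -- pass to the class group
  have hcl : (ClassGroup.mk0 ⟨J, mem_nonZeroDivisors_of_ne_zero hJ0⟩) ^ (ℓ - 1) *
      ∏ σ, ClassGroup.mk0 (Q σ) ^ m σ = 1 := by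
    have hsub : (⟨Ideal.span {a}, mem_nonZeroDivisors_of_ne_zero hI⟩ : (Ideal (𝓞 K))⁰) =
        ⟨J, mem_nonZeroDivisors_of_ne_zero hJ0⟩ ^ (ℓ - 1) * ∏ σ, Q σ ^ m σ := by
      apply Subtype.ext
      rw [Submonoid.coe_mul, SubmonoidClass.coe_pow, Submonoid.coe_finsetProd]
      simp only [SubmonoidClass.coe_pow]
      exact hJ
    have hprinc : ClassGroup.mk0 ⟨Ideal.span {a}, mem_nonZeroDivisors_of_ne_zero hI⟩ = 1 := by
      rw [ClassGroup.mk0_eq_one_iff]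
      exact ⟨⟨a, rfl⟩⟩
    rw [hsub, map_mul, map_pow, map_prod] at hprinc
    simpa only [map_pow] using hprinc
  simp_rw [hact]
  have hq : ∀ σ, ∃ q : ℤ, (k σ : ℤ) = m σ + p * q := fun σ => by
    obtain ⟨q, hq⟩ := (hkm σ).symm.dvd
    exact ⟨q, by linarith⟩
  choose q hq using hq
  obtain ⟨c, hc⟩ := hpdvd
  refine ⟨(ClassGroup.mk0 ⟨J, mem_nonZeroDivisors_of_ne_zero hJ0⟩ ^ c)⁻¹ *
    ∏ σ, ClassGroup.mk0 (Q σ) ^ q σ, ?_⟩
  have e1 : ∀ σ, ClassGroup.mk0 (Q σ) ^ k σ =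
      ClassGroup.mk0 (Q σ) ^ m σ * (ClassGroup.mk0 (Q σ) ^ q σ) ^ p := by
    intro σ
    rw [← zpow_natCast, hq σ, zpow_add, zpow_natCast, mul_comm (p : ℤ), zpow_mul, zpow_natCast]
  simp_rw [e1]
  rw [Finset.prod_mul_distrib, Finset.prod_pow, mul_pow, inv_pow, ← pow_mul, mul_comm c p, ← hc]
  congr 1
  exact eq_inv_of_mul_eq_one_right hcl

end

/-- **Bridge (row 186)**: the valuation form of Thaine's relation implies Thaine's relation in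
the class group (node (TH) of S14). -/
theorem thaine_of_A (h : StmtThaineA) : StmtThaine := by
  intro p _ _ K _ _ _ ζ hζ ℓ hℓ hℓp 𝔩 h𝔩 hmem g hg k hk
  have : Fact ℓ.Prime := ⟨hℓ⟩
  obtain ⟨a, ha, hA'⟩ := h p ℓ hℓp K hζ.toInteger hζ.toInteger_isPrimitiveRoot g hg
  exact thaine_core hζ hℓ hℓp 𝔩 h𝔩 hmem g hg k hk a ha hA'

end Fermat.Agent.S14.H39
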