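import Fermat.Agent.S14.ThaineVC_helper39
import Fermat.Agent.S14.ThaineA_helper96

/-!
# S14, node (TH): Thaine's relation

`thaine : StmtThaine`, from helper96's valuation form `H96.thaineA : StmtThaineA` and the bridge
`H39.thaine_of_A`.
-/

set_option autoImplicit false

namespace Fermat.Agent.S14.H39

/-- (TH) Thaine's relation in the class group of `ℚ(ζ_p)`. -/
theorem thaine : StmtThaine := thaine_of_A H96.thaineA

end Fermat.Agent.S14.H39
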