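import Fermat.Agent.S14.TransBound_helper58
import Fermat.Agent.S14.UnitWeight_helper29

/-!
# S14 / WP8 row B.L (backup): the translation bound for helper29's weight `H29.W`
-/

namespace Fermat.Agent.S14.H58

open NumberField

/-- The translation bound `hL` of the assembly (row 185) for the weight `H29.W`. -/
theorem transBound_W (K : Type*) [Field K] [NumberField K] (J : Ideal (𝓞 K)) (r : 𝓞 K) :
    ∃ B : ℝ, ∀ s : ℝ, 1 < s → s < 2 →
      Summable (fun γ : J ↦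
        |H29.W K ((γ : 𝓞 K) + r) * |(Algebra.norm ℤ ((γ : 𝓞 K) + r) : ℝ)| ^ (-s) -
          H29.W K (γ : 𝓞 K) * |(Algebra.norm ℤ (γ : 𝓞 K) : ℝ)| ^ (-s)|) ∧
      ∑' γ : J,
        |H29.W K ((γ : 𝓞 K) + r) * |(Algebra.norm ℤ ((γ : 𝓞 K) + r) : ℝ)| ^ (-s) -
          H29.W K (γ : 𝓞 K) * |(Algebra.norm ℤ (γ : 𝓞 K) : ℝ)| ^ (-s)| ≤ B :=
  transBound_of (H29.W K) (H29.W_nonneg K) (H29.W_le_one K) (H29.W_cone K) (H29.W_lip K) J r

end Fermat.Agent.S14.H58
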