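import Mathlib

/-!
# S14 / WP8 (bound B), row B.L (backup): the translation estimate

For a weight `W : 𝓞 K → ℝ` with values in `[0, 1]`, supported in a cone where all archimedean
absolute values are comparable, and Lipschitz in the logarithmic coordinates, the function
`F s γ = W γ * |N γ| ^ (-s)` satisfies `∑_{γ ∈ J} |F s (γ + r) - F s γ| ≤ B` uniformly in
`s ∈ (1, 2)`.
-/

namespace Fermat.Agent.S14.H58

open NumberField NumberField.mixedEmbedding NumberField.InfinitePlace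

open scoped Classical

section General

/-- `|log a - log b| ≤ |a - b| / m` if `a, b ≥ m > 0`. -/
theorem abs_log_sub_log_le {a b m : ℝ} (hm : 0 < m) (ha : m ≤ a) (hb : m ≤ b) :
    |Real.log a - Real.log b| ≤ |a - b| / m := by
  have key : ∀ {a b : ℝ}, m ≤ a → a ≤ b → Real.log b - Real.log a ≤ (b - a) / m := by
    intro a b ha hab
    have ha0 : 0 < a := lt_of_lt_of_le hm ha
    have hb0 : 0 < b := lt_of_lt_of_le ha0 hab
    rw [← Real.log_div hb0.ne' ha0.ne']
    have h1 := Real.log_le_sub_one_of_pos (div_pos hb0 ha0)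
    have h2 : b / a - 1 = (b - a) / a := by field_simp
    rw [h2] at h1
    exact h1.trans (div_le_div_of_nonneg_left (by linarith) hm ha)
  rcases le_total a b with hab | hab
  · rw [abs_sub_comm, abs_of_nonneg (by
      have ha0 : 0 < a := lt_of_lt_of_le hm ha
      linarith [Real.log_le_log ha0 hab]), abs_sub_comm, abs_of_nonneg (by linarith)]
    exact key ha hab
  · rw [abs_of_nonneg (by
      have hb0 : 0 < b := lt_of_lt_of_le hm hb
      linarith [Real.log_le_log hb0 hab]), abs_of_nonneg (by linarith)]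
    exact key hb hab

end General

variable {K : Type*} [Field K] [NumberField K]

/-- The sup-norm of the archimedean absolute values of an algebraic integer. -/
noncomputable def M (x : 𝓞 K) : ℝ := ‖mixedEmbedding K (x : K)‖

theorem M_nonneg (x : 𝓞 K) : 0 ≤ M x := norm_nonneg _

theorem place_le_M (x : 𝓞 K) (w : InfinitePlace K) : w (x : K) ≤ M x := by
  rw [M, norm_eq_sup'_normAtPlace, ← normAtPlace_apply w (x : K)]
  exact Finset.le_sup' (fun w ↦ normAtPlace w (mixedEmbedding K (x : K))) (Finset.mem_univ w)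

theorem exists_place_eq_M (x : 𝓞 K) : ∃ w : InfinitePlace K, w (x : K) = M x := by
  obtain ⟨w, -, hw⟩ := Finset.exists_mem_eq_sup' Finset.univ_nonempty
    (fun w ↦ normAtPlace w (mixedEmbedding K (x : K)))
  refine ⟨w, ?_⟩
  rw [M, norm_eq_sup'_normAtPlace, hw, normAtPlace_apply]

theorem M_add_le (x y : 𝓞 K) : M (x + y) ≤ M x + M y := by
  unfold M
  push_cast
  rw [map_add]
  exact norm_add_le _ _

theorem M_neg (x : 𝓞 K) : M (-x) = M x := by
  unfold M
  push_cast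
  rw [map_neg, norm_neg]

theorem M_pos {x : 𝓞 K} (hx : x ≠ 0) : 0 < M x := by
  unfold M
  rw [norm_pos_iff]
  intro h
  apply hx
  have := (mixedEmbedding_injective K) (h.trans (map_zero _).symm)
  exact_mod_cast this

theorem M_zero : M (0 : 𝓞 K) = 0 := by
  unfold M
  simp

/-- The absolute value of the norm as a product over the infinite places. -/
theorem abs_norm_eq_prod (x : 𝓞 K) :
    |(Algebra.norm ℤ x : ℝ)| = ∏ w : InfinitePlace K, w (x : K) ^ mult w := by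
  rw [prod_eq_abs_norm, ← Algebra.coe_norm_int]
  push_cast
  rfl

theorem one_le_abs_norm {x : 𝓞 K} (hx : x ≠ 0) : (1 : ℝ) ≤ |(Algebra.norm ℤ x : ℝ)| := by
  have h : Algebra.norm ℤ x ≠ 0 := Algebra.norm_ne_zero_iff.mpr hx
  have h1 : (1 : ℤ) ≤ |Algebra.norm ℤ x| := Int.one_le_abs h
  rw [← Int.cast_abs]
  exact_mod_cast h1

omit [NumberField K] in
theorem place_pos {x : 𝓞 K} (hx : x ≠ 0) (w : InfinitePlace K) : 0 < w (x : K) :=
  pos_iff.mpr (by exact_mod_cast hx)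

theorem log_abs_norm {x : 𝓞 K} (hx : x ≠ 0) :
    Real.log |(Algebra.norm ℤ x : ℝ)| =
      ∑ w : InfinitePlace K, (mult w : ℝ) * Real.log (w (x : K)) := by
  rw [abs_norm_eq_prod, Real.log_prod]
  · exact Finset.sum_congr rfl fun w _ ↦ by rw [Real.log_pow]
  · intro w _
    exact pow_ne_zero _ (place_pos hx w).ne'

theorem pow_le_abs_norm {x : 𝓞 K} {A : ℝ} (hA : 0 ≤ A)
    (h : ∀ w : InfinitePlace K, A ≤ w (x : K)) :
    A ^ Module.finrank ℚ K ≤ |(Algebra.norm ℤ x : ℝ)| := by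
  rw [abs_norm_eq_prod, ← sum_mult_eq (K := K), ← Finset.prod_pow_eq_pow_sum]
  exact Finset.prod_le_prod (fun w _ ↦ pow_nonneg hA _)
    (fun w _ ↦ pow_le_pow_left₀ hA (h w) _)

/-- The function `F W s γ = W γ * |N γ| ^ (-s)`. -/
noncomputable def F (W : 𝓞 K → ℝ) (s : ℝ) (γ : 𝓞 K) : ℝ :=
  W γ * |(Algebra.norm ℤ γ : ℝ)| ^ (-s)

theorem F_zero (W : 𝓞 K → ℝ) {s : ℝ} (hs : 0 < s) : F W s 0 = 0 := by
  simp [F, Real.zero_rpow (neg_ne_zero.mpr hs.ne')]

theorem abs_F_le_one (W : 𝓞 K → ℝ) (h0 : ∀ x, 0 ≤ W x) (h1 : ∀ x, W x ≤ 1) {s : ℝ}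
    (hs : 0 < s) (x : 𝓞 K) : |F W s x| ≤ 1 := by
  by_cases hx : x = 0
  · rw [hx, F_zero W hs, abs_zero]
    exact zero_le_one
  · have hN := one_le_abs_norm hx
    have hp0 : 0 ≤ |(Algebra.norm ℤ x : ℝ)| ^ (-s) := Real.rpow_nonneg (abs_nonneg _) _
    have hp1 : |(Algebra.norm ℤ x : ℝ)| ^ (-s) ≤ 1 :=
      Real.rpow_le_one_of_one_le_of_nonpos hN (by linarith)
    rw [F, abs_of_nonneg (mul_nonneg (h0 x) hp0)]
    calc W x * |(Algebra.norm ℤ x : ℝ)| ^ (-s) ≤ 1 * 1 :=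
          mul_le_mul (h1 x) hp1 hp0 zero_le_one
      _ = 1 := one_mul 1

/-- The core estimate: if all places of `x` and `y` are `≥ A ≥ 1` and their logarithms differ
by at most `η`, then `|F y - F x| ≤ A^(-n) * η * const`. -/
theorem pointwise_bound (W : 𝓞 K → ℝ) (h0 : ∀ x, 0 ≤ W x) (h1 : ∀ x, W x ≤ 1)
    {L η A : ℝ} (hL : 0 ≤ L)
    (hlip : ∀ x y : 𝓞 K, x ≠ 0 → y ≠ 0 → |W x - W y| ≤
      L * ∑ w : InfinitePlace K, |Real.log (w (x : K)) - Real.log (w (y : K))|)
    {x y : 𝓞 K} (hA : 1 ≤ A) (hx : ∀ w : InfinitePlace K, A ≤ w (x : K))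
    (hy : ∀ w : InfinitePlace K, A ≤ w (y : K))
    (hη : ∀ w : InfinitePlace K, |Real.log (w (y : K)) - Real.log (w (x : K))| ≤ η)
    (hη1 : 2 * (Module.finrank ℚ K : ℝ) * η ≤ 1)
    {s : ℝ} (hs1 : 1 ≤ s) (hs2 : s ≤ 2) :
    |F W s y - F W s x| ≤ (A ^ Module.finrank ℚ K)⁻¹ * η *
      (L * Fintype.card (InfinitePlace K) + 4 * Module.finrank ℚ K) := by
  set n := Module.finrank ℚ K with hn
  have hA0 : 0 < A := lt_of_lt_of_le zero_lt_one hA
  have hx0 : x ≠ 0 := by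
    rintro rfl
    have := hx (Classical.arbitrary _)
    simp at this
    linarith
  have hy0 : y ≠ 0 := by
    rintro rfl
    have := hy (Classical.arbitrary _)
    simp at this
    linarith
  have hη0 : 0 ≤ η := (abs_nonneg _).trans (hη (Classical.arbitrary _))
  have hAn : (1 : ℝ) ≤ A ^ n := one_le_pow₀ hA
  have hAn0 : (0 : ℝ) < A ^ n := lt_of_lt_of_le zero_lt_one hAn
  set Nx := |(Algebra.norm ℤ x : ℝ)| with hNx
  set Ny := |(Algebra.norm ℤ y : ℝ)| with hNy
  have hNxA : A ^ n ≤ Nx := pow_le_abs_norm hA0.le hx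
  have hNyA : A ^ n ≤ Ny := pow_le_abs_norm hA0.le hy
  have hNx0 : 0 < Nx := lt_of_lt_of_le hAn0 hNxA
  have hNy0 : 0 < Ny := lt_of_lt_of_le hAn0 hNyA
  -- the weights
  have hW : |W y - W x| ≤ L * (Fintype.card (InfinitePlace K) * η) := by
    refine (hlip y x hy0 hx0).trans (mul_le_mul_of_nonneg_left ?_ hL)
    calc ∑ w : InfinitePlace K, |Real.log (w (y : K)) - Real.log (w (x : K))|
        ≤ ∑ _w : InfinitePlace K, η := Finset.sum_le_sum fun w _ ↦ hη w
      _ = Fintype.card (InfinitePlace K) * η := by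
          rw [Finset.sum_const, Finset.card_univ, nsmul_eq_mul]
  -- the powers of the norms
  have hpow : ∀ {N : ℝ}, A ^ n ≤ N → N ^ (-s) ≤ (A ^ n)⁻¹ := by
    intro N hN
    have hN1 : 1 ≤ N := hAn.trans hN
    calc N ^ (-s) ≤ N ^ (-1 : ℝ) := Real.rpow_le_rpow_of_exponent_le hN1 (by linarith)
      _ = N⁻¹ := Real.rpow_neg_one N
      _ ≤ (A ^ n)⁻¹ := inv_anti₀ hAn0 hN
  have hNxs0 : 0 ≤ Nx ^ (-s) := Real.rpow_nonneg hNx0.le _
  have hNys0 : 0 ≤ Ny ^ (-s) := Real.rpow_nonneg hNy0.le _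
  -- logarithms of the norms
  have hlog : |Real.log Ny - Real.log Nx| ≤ n * η := by
    rw [hNy, hNx, log_abs_norm hy0, log_abs_norm hx0, ← Finset.sum_sub_distrib]
    refine (Finset.abs_sum_le_sum_abs _ _).trans ?_
    have h1 : ∀ w : InfinitePlace K,
        |(mult w : ℝ) * Real.log (w (y : K)) - (mult w : ℝ) * Real.log (w (x : K))| ≤
          (mult w : ℝ) * η := by
      intro w
      rw [← mul_sub, abs_mul, abs_of_nonneg (Nat.cast_nonneg _)]
      exact mul_le_mul_of_nonneg_left (hη w) (Nat.cast_nonneg _)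
    refine (Finset.sum_le_sum fun w _ ↦ h1 w).trans ?_
    rw [← Finset.sum_mul]
    have h2 : ∑ w : InfinitePlace K, (mult w : ℝ) = n := by
      exact_mod_cast sum_mult_eq (K := K)
    rw [h2]
  set t := -s * (Real.log Ny - Real.log Nx) with ht
  have htabs : |t| ≤ 2 * n * η := by
    rw [ht, abs_mul, abs_neg, abs_of_nonneg (by linarith : 0 ≤ s)]
    calc s * |Real.log Ny - Real.log Nx| ≤ 2 * (n * η) :=
          mul_le_mul hs2 hlog (abs_nonneg _) (by norm_num)
      _ = 2 * n * η := by ring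
  have hexp : Ny ^ (-s) = Nx ^ (-s) * Real.exp t := by
    rw [Real.rpow_def_of_pos hNy0, Real.rpow_def_of_pos hNx0, ← Real.exp_add]
    congr 1
    rw [ht]
    ring
  have hexp1 : |Real.exp t - 1| ≤ 4 * n * η := by
    refine (Real.abs_exp_sub_one_le (htabs.trans hη1)).trans ?_
    calc 2 * |t| ≤ 2 * (2 * n * η) := by linarith
      _ = 4 * n * η := by ring
  have hdiff : |Ny ^ (-s) - Nx ^ (-s)| ≤ (A ^ n)⁻¹ * (4 * n * η) := by
    rw [hexp, show Nx ^ (-s) * Real.exp t - Nx ^ (-s) = Nx ^ (-s) * (Real.exp t - 1) by ring,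
      abs_mul, abs_of_nonneg hNxs0]
    exact mul_le_mul (hpow hNxA) hexp1 (abs_nonneg _) (inv_nonneg.mpr hAn0.le)
  -- assemble
  have hsplit : F W s y - F W s x =
      (W y - W x) * Ny ^ (-s) + W x * (Ny ^ (-s) - Nx ^ (-s)) := by
    simp only [F]
    ring
  rw [hsplit]
  refine (abs_add_le _ _).trans ?_
  rw [abs_mul, abs_mul, abs_of_nonneg hNys0, abs_of_nonneg (h0 x)]
  have hcard0 : (0 : ℝ) ≤ Fintype.card (InfinitePlace K) := Nat.cast_nonneg _
  have hterm1 : |W y - W x| * Ny ^ (-s) ≤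
      L * (Fintype.card (InfinitePlace K) * η) * (A ^ n)⁻¹ :=
    mul_le_mul hW (hpow hNyA) hNys0 (mul_nonneg hL (mul_nonneg hcard0 hη0))
  have hterm2 : W x * |Ny ^ (-s) - Nx ^ (-s)| ≤ 1 * ((A ^ n)⁻¹ * (4 * n * η)) :=
    mul_le_mul (h1 x) hdiff (abs_nonneg _) zero_le_one
  calc |W y - W x| * Ny ^ (-s) + W x * |Ny ^ (-s) - Nx ^ (-s)|
      ≤ L * (Fintype.card (InfinitePlace K) * η) * (A ^ n)⁻¹ +
          1 * ((A ^ n)⁻¹ * (4 * n * η)) := add_le_add hterm1 hterm2
    _ = (A ^ n)⁻¹ * η * (L * Fintype.card (InfinitePlace K) + 4 * n) := by ring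

/-- From the cone property: if `W x ≠ 0` or `W (x + r) ≠ 0` and `M x` is large, then all places
of `x` and of `x + r` are at least `c * M x / 4`. -/
theorem cone_facts (W : 𝓞 K → ℝ) {c : ℝ} (hc : 0 < c) (hc1 : c ≤ 1)
    (hcone : ∀ x : 𝓞 K, W x ≠ 0 → ∀ w w' : InfinitePlace K, c * w' (x : K) ≤ w (x : K))
    {x r : 𝓞 K} (hR : 8 * M r ≤ c * M x) (hW : W x ≠ 0 ∨ W (x + r) ≠ 0)
    (w : InfinitePlace K) :
    c * M x / 4 ≤ w (x : K) ∧ c * M x / 4 ≤ w ((x + r : 𝓞 K) : K) := by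
  have hdiff : |w ((x + r : 𝓞 K) : K) - w (x : K)| ≤ M r := by
    have := w.1.abs_abv_sub_le_abv_sub ((x + r : 𝓞 K) : K) (x : K)
    have h2 : ((x + r : 𝓞 K) : K) - (x : K) = (r : K) := by push_cast; ring
    rw [h2] at this
    exact this.trans (place_le_M r w)
  have hMr : 0 ≤ M r := M_nonneg r
  have hMx : 0 ≤ M x := M_nonneg x
  have h2 := abs_le.mp hdiff
  rcases hW with hW | hW
  · obtain ⟨w', hw'⟩ := exists_place_eq_M x
    have h1 : c * M x ≤ w (x : K) := hw' ▸ hcone x hW w w'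
    constructor <;> nlinarith
  · obtain ⟨w', hw'⟩ := exists_place_eq_M (x + r)
    have h1 : c * M (x + r) ≤ w ((x + r : 𝓞 K) : K) := hw' ▸ hcone (x + r) hW w w'
    have h3 : M x ≤ M (x + r) + M r := by
      have := M_add_le (x + r) (-r)
      rwa [add_neg_cancel_right, M_neg] at this
    have h4 : c * M x - M r ≤ c * M (x + r) := by nlinarith
    constructor <;> nlinarith

/-- The estimate for large `x`. -/
theorem large_bound (W : 𝓞 K → ℝ) (h0 : ∀ x, 0 ≤ W x) (h1 : ∀ x, W x ≤ 1)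
    {L c : ℝ} (hL : 0 ≤ L)
    (hlip : ∀ x y : 𝓞 K, x ≠ 0 → y ≠ 0 → |W x - W y| ≤
      L * ∑ w : InfinitePlace K, |Real.log (w (x : K)) - Real.log (w (y : K))|)
    (hc : 0 < c) (hc1 : c ≤ 1)
    (hcone : ∀ x : 𝓞 K, W x ≠ 0 → ∀ w w' : InfinitePlace K, c * w' (x : K) ≤ w (x : K))
    (r : 𝓞 K) {x : 𝓞 K} (hx : (8 * Module.finrank ℚ K * M r + 4) / c ≤ M x)
    {s : ℝ} (hs1 : 1 ≤ s) (hs2 : s ≤ 2) :
    |F W s (x + r) - F W s x| ≤ (4 / c) ^ (Module.finrank ℚ K + 1) * M r *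
      (L * Fintype.card (InfinitePlace K) + 4 * Module.finrank ℚ K) *
        (M x)⁻¹ ^ (Module.finrank ℚ K + 1) := by
  set n := Module.finrank ℚ K with hn
  have hn1 : (1 : ℝ) ≤ n := by
    have : 1 ≤ n := Module.finrank_pos
    exact_mod_cast this
  have hMr : 0 ≤ M r := M_nonneg r
  have hMx : 0 ≤ M x := M_nonneg x
  have hcard0 : (0 : ℝ) ≤ Fintype.card (InfinitePlace K) := Nat.cast_nonneg _
  have hRHS : 0 ≤ (4 / c) ^ (n + 1) * M r * (L * Fintype.card (InfinitePlace K) + 4 * n) *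
      (M x)⁻¹ ^ (n + 1) := by positivity
  have hx' : 8 * n * M r + 4 ≤ c * M x := by
    rw [div_le_iff₀ hc] at hx
    linarith
  by_cases hW : W x ≠ 0 ∨ W (x + r) ≠ 0
  · have hR8 : 8 * M r ≤ c * M x := by nlinarith
    set A := c * M x / 4 with hAdef
    have hA1 : 1 ≤ A := by
      rw [hAdef]
      nlinarith
    have hA0 : 0 < A := lt_of_lt_of_le zero_lt_one hA1
    have hfacts := cone_facts W hc hc1 hcone hR8 hW
    have hη : ∀ w : InfinitePlace K,
        |Real.log (w ((x + r : 𝓞 K) : K)) - Real.log (w (x : K))| ≤ M r / A := by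
      intro w
      refine (abs_log_sub_log_le hA0 (hfacts w).2 (hfacts w).1).trans ?_
      apply div_le_div_of_nonneg_right _ hA0.le
      have := w.1.abs_abv_sub_le_abv_sub ((x + r : 𝓞 K) : K) (x : K)
      have h2 : ((x + r : 𝓞 K) : K) - (x : K) = (r : K) := by push_cast; ring
      rw [h2] at this
      exact this.trans (place_le_M r w)
    have hη1 : 2 * (n : ℝ) * (M r / A) ≤ 1 := by
      rw [← mul_div_assoc, div_le_one hA0, hAdef]
      nlinarith
    have hmain := pointwise_bound W h0 h1 hL hlip hA1 (fun w ↦ (hfacts w).1)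
      (fun w ↦ (hfacts w).2) hη hη1 hs1 hs2
    rw [← hn] at hmain
    refine hmain.trans (le_of_eq ?_)
    have hMx0 : M x ≠ 0 := by
      intro h
      rw [h] at hx'
      nlinarith
    have hkey : (A ^ n)⁻¹ * (M r / A) = (4 / c) ^ (n + 1) * M r * (M x)⁻¹ ^ (n + 1) := by
      have hA' : A⁻¹ = 4 / c * (M x)⁻¹ := by
        rw [hAdef]
        field_simp
      rw [div_eq_mul_inv, ← inv_pow, hA', pow_succ, pow_succ, mul_pow]
      ring
    rw [hkey]
    ring
  · rw [not_or, not_not, not_not] at hW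
    rw [F, F, hW.1, hW.2, zero_mul, zero_mul, sub_zero, abs_zero]
    exact hRHS

omit [NumberField K] in
theorem mixedEmbedding_mem_integerLattice (x : 𝓞 K) :
    mixedEmbedding K (x : K) ∈ mixedEmbedding.integerLattice K :=
  ⟨x, rfl⟩

theorem finrank_integerLattice :
    Module.finrank ℤ (mixedEmbedding.integerLattice K) = Module.finrank ℚ K := by
  rw [ZLattice.rank ℝ, mixedEmbedding.finrank]

theorem summable_integerLattice :
    Summable fun z : mixedEmbedding.integerLattice K ↦ ‖z‖⁻¹ ^ (Module.finrank ℚ K + 1) :=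
  ZLattice.summable_norm_pow_inv (mixedEmbedding.integerLattice K)
    (Module.finrank ℚ K + 1) (by rw [finrank_integerLattice]; exact Nat.lt_succ_self _)

/-- The embedding of `𝓞 K` into the integer lattice. -/
noncomputable def toLattice (x : 𝓞 K) : mixedEmbedding.integerLattice K :=
  ⟨mixedEmbedding K (x : K), mixedEmbedding_mem_integerLattice x⟩

theorem toLattice_injective : Function.Injective (toLattice (K := K)) := by
  intro x y hxy
  have h1 : mixedEmbedding K (x : K) = mixedEmbedding K (y : K) := congrArg Subtype.val hxy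
  have := mixedEmbedding_injective K h1
  exact RingOfIntegers.ext this

theorem norm_toLattice (x : 𝓞 K) : ‖toLattice x‖ = M x := rfl

/-- `∑_{x ∈ 𝓞 K} M(x)^(-(n+1))` converges. -/
theorem summable_M_inv_pow :
    Summable (fun x : 𝓞 K ↦ (M x)⁻¹ ^ (Module.finrank ℚ K + 1)) := by
  have := (summable_integerLattice (K := K)).comp_injective toLattice_injective
  simpa only [Function.comp_def, norm_toLattice] using this

/-- **The translation bound** (row B.L): for a weight with values in `[0, 1]`, with the cone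
property and Lipschitz in the logarithmic coordinates, the sum over an ideal `J` of
`|F (γ + r) - F γ|` is bounded uniformly in `s ∈ (1, 2)`. -/
theorem transBound_of (W : 𝓞 K → ℝ) (h0 : ∀ x, 0 ≤ W x) (h1 : ∀ x, W x ≤ 1)
    (hcone : ∃ c : ℝ, 0 < c ∧ ∀ x : 𝓞 K, W x ≠ 0 →
      ∀ w w' : InfinitePlace K, c * w' (x : K) ≤ w (x : K))
    (hlip : ∃ L : ℝ, ∀ x y : 𝓞 K, x ≠ 0 → y ≠ 0 → |W x - W y| ≤
      L * ∑ w : InfinitePlace K, |Real.log (w (x : K)) - Real.log (w (y : K))|)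
    (J : Ideal (𝓞 K)) (r : 𝓞 K) :
    ∃ B : ℝ, ∀ s : ℝ, 1 < s → s < 2 →
      Summable (fun γ : J ↦
        |W ((γ : 𝓞 K) + r) * |(Algebra.norm ℤ ((γ : 𝓞 K) + r) : ℝ)| ^ (-s) -
          W (γ : 𝓞 K) * |(Algebra.norm ℤ (γ : 𝓞 K) : ℝ)| ^ (-s)|) ∧
      ∑' γ : J,
        |W ((γ : 𝓞 K) + r) * |(Algebra.norm ℤ ((γ : 𝓞 K) + r) : ℝ)| ^ (-s) -
          W (γ : 𝓞 K) * |(Algebra.norm ℤ (γ : 𝓞 K) : ℝ)| ^ (-s)| ≤ B := by
  obtain ⟨c₀, hc₀, hcone₀⟩ := hcone
  obtain ⟨L₀, hlip₀⟩ := hlip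
  -- normalise the constants
  set c := min c₀ 1 with hcdef
  have hc : 0 < c := lt_min hc₀ zero_lt_one
  have hc1 : c ≤ 1 := min_le_right _ _
  have hcone' : ∀ x : 𝓞 K, W x ≠ 0 → ∀ w w' : InfinitePlace K, c * w' (x : K) ≤ w (x : K) := by
    intro x hx w w'
    refine le_trans ?_ (hcone₀ x hx w w')
    exact mul_le_mul_of_nonneg_right (min_le_left _ _) (apply_nonneg _ _)
  set L := max L₀ 0 with hLdef
  have hL : 0 ≤ L := le_max_right _ _
  have hlip' : ∀ x y : 𝓞 K, x ≠ 0 → y ≠ 0 → |W x - W y| ≤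
      L * ∑ w : InfinitePlace K, |Real.log (w (x : K)) - Real.log (w (y : K))| := by
    intro x y hx hy
    refine (hlip₀ x y hx hy).trans ?_
    exact mul_le_mul_of_nonneg_right (le_max_left _ _)
      (Finset.sum_nonneg fun _ _ ↦ abs_nonneg _)
  set n := Module.finrank ℚ K with hn
  set R := (8 * n * M r + 4) / c with hR
  have hR0 : 0 < R := by
    have := M_nonneg r
    rw [hR]
    positivity
  set C1 := (4 / c) ^ (n + 1) * M r * (L * Fintype.card (InfinitePlace K) + 4 * n) with hC1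
  set Cbig := max C1 (2 * R ^ (n + 1)) with hCbig
  have hCbig0 : 0 ≤ Cbig := le_trans (by positivity) (le_max_right _ _)
  -- the dominating function
  set G : 𝓞 K → ℝ := fun x ↦ Cbig * (M x)⁻¹ ^ (n + 1) + if x = 0 then 1 else 0 with hG
  have hG0 : ∀ x, 0 ≤ G x := by
    intro x
    have : 0 ≤ (M x)⁻¹ ^ (n + 1) := pow_nonneg (inv_nonneg.mpr (M_nonneg x)) _
    rw [hG]
    dsimp only
    split_ifs <;> positivity
  have hGsum : Summable G := by
    refine (summable_M_inv_pow.mul_left Cbig).add ?_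
    exact (hasSum_ite_eq (0 : 𝓞 K) (1 : ℝ)).summable
  refine ⟨∑' x : 𝓞 K, G x, fun s hs1 hs2 ↦ ?_⟩
  have hs0 : 0 < s := by linarith
  -- the pointwise bound
  have hpt : ∀ x : 𝓞 K, |F W s (x + r) - F W s x| ≤ G x := by
    intro x
    by_cases hx : x = 0
    · subst hx
      rw [F_zero W hs0, sub_zero, hG]
      dsimp only
      rw [if_pos rfl, M_zero, inv_zero, zero_pow (Nat.succ_ne_zero n), mul_zero, zero_add,
        zero_add]
      exact abs_F_le_one W h0 h1 hs0 _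
    · have hMx : 0 < M x := M_pos hx
      rw [hG]
      dsimp only
      rw [if_neg hx, add_zero]
      have hinv0 : 0 ≤ (M x)⁻¹ ^ (n + 1) := pow_nonneg (inv_nonneg.mpr hMx.le) _
      by_cases hlarge : R ≤ M x
      · refine (large_bound W h0 h1 hL hlip' hc hc1 hcone' r hlarge hs1.le hs2.le).trans ?_
        exact mul_le_mul_of_nonneg_right (le_max_left _ _) hinv0
      · rw [not_le] at hlarge
        have h2 : |F W s (x + r) - F W s x| ≤ 2 := by
          have ha := abs_F_le_one W h0 h1 hs0 (x + r)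
          have hb := abs_F_le_one W h0 h1 hs0 x
          calc |F W s (x + r) - F W s x| ≤ |F W s (x + r)| + |F W s x| := abs_sub _ _
            _ ≤ 2 := by linarith
        refine h2.trans ?_
        have h3 : 1 ≤ R ^ (n + 1) * (M x)⁻¹ ^ (n + 1) := by
          rw [← mul_pow]
          apply one_le_pow₀
          rw [← div_eq_mul_inv, le_div_iff₀ hMx]
          linarith
        calc (2 : ℝ) ≤ 2 * (R ^ (n + 1) * (M x)⁻¹ ^ (n + 1)) := by linarith
          _ = 2 * R ^ (n + 1) * (M x)⁻¹ ^ (n + 1) := by ring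
          _ ≤ Cbig * (M x)⁻¹ ^ (n + 1) :=
            mul_le_mul_of_nonneg_right (le_max_right _ _) hinv0
  have hpt' : ∀ γ : J,
      |W ((γ : 𝓞 K) + r) * |(Algebra.norm ℤ ((γ : 𝓞 K) + r) : ℝ)| ^ (-s) -
        W (γ : 𝓞 K) * |(Algebra.norm ℤ (γ : 𝓞 K) : ℝ)| ^ (-s)| ≤ G (γ : 𝓞 K) :=
    fun γ ↦ hpt γ
  have hsummable : Summable (fun γ : J ↦
      |W ((γ : 𝓞 K) + r) * |(Algebra.norm ℤ ((γ : 𝓞 K) + r) : ℝ)| ^ (-s) -
        W (γ : 𝓞 K) * |(Algebra.norm ℤ (γ : 𝓞 K) : ℝ)| ^ (-s)|) :=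
    Summable.of_nonneg_of_le (fun _ ↦ abs_nonneg _) hpt'
      (hGsum.comp_injective Subtype.val_injective)
  exact ⟨hsummable, Summable.tsum_le_tsum_of_inj (fun γ : J ↦ (γ : 𝓞 K)) Subtype.val_injective
    (fun x _ ↦ hG0 x) hpt' hsummable hGsum⟩

end Fermat.Agent.S14.H58
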