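import Mathlib

/-!
# S14 / WP8 (bound B), analytic half 8-ANA-W: a Lipschitz partition of unity over unit orbits

`tent c = max 0 (1 - |c|)`; `logCoord K x i` = `i`-th coordinate of `logMap x` in the real basis
of `logSpace K` given by the basis of the unit lattice; `unitWeight K x = ∏ i, tent (logCoord K x i)`.
-/

namespace Fermat.Agent.S14.H58

open NumberField NumberField.mixedEmbedding NumberField.Units
  NumberField.Units.dirichletUnitTheorem NumberField.InfinitePlace

/-- The tent function. -/
noncomputable def tent (c : ℝ) : ℝ := max 0 (1 - |c|)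

theorem tent_nonneg (c : ℝ) : 0 ≤ tent c := le_max_left _ _

theorem tent_le_one (c : ℝ) : tent c ≤ 1 :=
  max_le zero_le_one (by linarith [abs_nonneg c])

theorem tent_eq_zero_of_one_le_abs {c : ℝ} (h : 1 ≤ |c|) : tent c = 0 :=
  max_eq_left (by linarith)

theorem abs_lt_one_of_tent_ne_zero {c : ℝ} (h : tent c ≠ 0) : |c| < 1 := by
  by_contra h'
  exact h (tent_eq_zero_of_one_le_abs (not_lt.mp h'))

theorem tent_of_abs_le_one {c : ℝ} (h : |c| ≤ 1) : tent c = 1 - |c| :=
  max_eq_right (by linarith)

/-- The tent function is `1`-Lipschitz. -/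
theorem abs_tent_sub_tent_le (a b : ℝ) : |tent a - tent b| ≤ |a - b| := by
  have h1 : |(1 - |a|) - (1 - |b|)| ≤ |a - b| := by
    have := abs_abs_sub_abs_le_abs_sub a b
    rw [show (1 - |a|) - (1 - |b|) = -(|a| - |b|) by ring, abs_neg]
    exact this
  have h2 := abs_max_sub_max_le_abs (1 - |a|) (1 - |b|) 0
  unfold tent
  rw [max_comm 0 (1 - |a|), max_comm 0 (1 - |b|)]
  exact h2.trans h1

/-- The two integers `k` at which `tent (c + k)` can be nonzero. -/
noncomputable def tentSupp (c : ℝ) : Finset ℤ := {-⌊c⌋ - 1, -⌊c⌋}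

theorem tent_add_int_eq_zero {c : ℝ} {k : ℤ} (hk : k ∉ tentSupp c) : tent (c + k) = 0 := by
  simp only [tentSupp, Finset.mem_insert, Finset.mem_singleton, not_or] at hk
  apply tent_eq_zero_of_one_le_abs
  have h1 := Int.floor_le c
  have h2 := Int.lt_floor_add_one c
  rcases lt_or_gt_of_ne hk.2 with h | h
  · have h' : k ≤ -⌊c⌋ - 2 := by
      rcases lt_or_gt_of_ne hk.1 with h3 | h3
      · omega
      · omega
    have h'' : (k : ℝ) ≤ -⌊c⌋ - 2 := by exact_mod_cast h'
    rw [le_abs]
    right
    linarith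
  · have h' : -⌊c⌋ + 1 ≤ k := by omega
    have h'' : (-⌊c⌋ + 1 : ℝ) ≤ k := by exact_mod_cast h'
    rw [le_abs]
    left
    linarith

theorem sum_tentSupp (c : ℝ) : ∑ k ∈ tentSupp c, tent (c + k) = 1 := by
  have hne : (-⌊c⌋ - 1 : ℤ) ≠ -⌊c⌋ := by omega
  rw [tentSupp, Finset.sum_pair hne]
  have h1 := Int.floor_le c
  have h2 := Int.lt_floor_add_one c
  have e1 : tent (c + ((-⌊c⌋ - 1 : ℤ) : ℝ)) = 1 - |c + ((-⌊c⌋ - 1 : ℤ) : ℝ)| := by
    apply tent_of_abs_le_one
    push_cast
    rw [abs_le]
    constructor <;> linarith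
  have e2 : tent (c + ((-⌊c⌋ : ℤ) : ℝ)) = 1 - |c + ((-⌊c⌋ : ℤ) : ℝ)| := by
    apply tent_of_abs_le_one
    push_cast
    rw [abs_le]
    constructor <;> linarith
  rw [e1, e2]
  push_cast
  rw [abs_of_nonpos (by linarith : c + (-(⌊c⌋ : ℝ) - 1) ≤ 0),
    abs_of_nonneg (by linarith : 0 ≤ c + -(⌊c⌋ : ℝ))]
  ring

/-- The integer translates of the tent function form a partition of unity. -/
theorem hasSum_tent_int (c : ℝ) : HasSum (fun k : ℤ ↦ tent (c + k)) 1 := by
  have := hasSum_sum_of_ne_finset_zero (L := SummationFilter.unconditional ℤ)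
    (f := fun k : ℤ ↦ tent (c + k)) (s := tentSupp c) (fun k hk ↦ tent_add_int_eq_zero hk)
  rwa [sum_tentSupp] at this

variable (K : Type*) [Field K] [NumberField K]

open scoped Classical in
/-- Coordinates of `logMap x` in the real basis of `logSpace K` induced by the basis of the unit
lattice. -/
noncomputable def logCoord (x : mixedSpace K) (i : Fin (Units.rank K)) : ℝ :=
  ((basisUnitLattice K).ofZLatticeBasis ℝ (unitLattice K)).repr (logMap x) i

/-- The weight: a product of tent functions of the log-coordinates. -/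
noncomputable def unitWeight (x : mixedSpace K) : ℝ := ∏ i, tent (logCoord K x i)

/-- The weight on algebraic integers. -/
noncomputable def W (γ : 𝓞 K) : ℝ := unitWeight K (mixedEmbedding K γ)

theorem unitWeight_nonneg (x : mixedSpace K) : 0 ≤ unitWeight K x :=
  Finset.prod_nonneg fun _ _ ↦ tent_nonneg _

theorem unitWeight_le_one (x : mixedSpace K) : unitWeight K x ≤ 1 :=
  Finset.prod_le_one (fun _ _ ↦ tent_nonneg _) (fun _ _ ↦ tent_le_one _)

theorem W_nonneg (γ : 𝓞 K) : 0 ≤ W K γ := unitWeight_nonneg K _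

theorem W_le_one (γ : 𝓞 K) : W K γ ≤ 1 := unitWeight_le_one K _

theorem abs_logCoord_lt_one_of_unitWeight_ne_zero {x : mixedSpace K} (h : unitWeight K x ≠ 0)
    (i : Fin (Units.rank K)) : |logCoord K x i| < 1 := by
  apply abs_lt_one_of_tent_ne_zero
  intro h0
  exact h (Finset.prod_eq_zero (Finset.mem_univ i) h0)

/-! ### The action of units -/

/-- Units as torsion times integer vectors (Dirichlet's unit theorem). -/
noncomputable def unitsEquiv : torsion K × (Fin (Units.rank K) → ℤ) ≃ (𝓞 K)ˣ :=
  Equiv.ofBijective (fun ζe ↦ (ζe.1 : (𝓞 K)ˣ) * ∏ i, (fundSystem K i) ^ (ζe.2 i))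
    ((Function.bijective_iff_existsUnique _).mpr fun x ↦ by
      obtain ⟨ζe, h1, h2⟩ := exist_unique_eq_mul_prod K x
      exact ⟨ζe, h1.symm, fun y hy ↦ h2 y hy.symm⟩)

theorem unitsEquiv_apply (ζe : torsion K × (Fin (Units.rank K) → ℤ)) :
    unitsEquiv K ζe = (ζe.1 : (𝓞 K)ˣ) * ∏ i, (fundSystem K i) ^ (ζe.2 i) := rfl

open scoped Classical in
theorem logEmbedding_unitsEquiv (ζe : torsion K × (Fin (Units.rank K) → ℤ)) :
    logEmbedding K (Additive.ofMul (unitsEquiv K ζe)) =
      ∑ i, ((ζe.2 i : ℤ) : ℝ) • ((basisUnitLattice K).ofZLatticeBasis ℝ (unitLattice K)) i := by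
  rw [unitsEquiv_apply, ofMul_mul, map_add, (logEmbedding_eq_zero_iff).mpr ζe.1.2, zero_add,
    ofMul_prod, map_sum]
  refine Finset.sum_congr rfl fun i _ ↦ ?_
  rw [ofMul_zpow, map_zsmul, logEmbedding_fundSystem, Module.Basis.ofZLatticeBasis_apply,
    Int.cast_smul_eq_zsmul]

open scoped Classical in
theorem logCoord_unitsEquiv_smul (ζe : torsion K × (Fin (Units.rank K) → ℤ)) {x : mixedSpace K}
    (hx : mixedEmbedding.norm x ≠ 0) (i : Fin (Units.rank K)) :
    logCoord K (unitsEquiv K ζe • x) i = logCoord K x i + ((ζe.2 i : ℤ) : ℝ) := by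
  unfold logCoord
  rw [logMap_unit_smul _ hx, map_add, Finsupp.add_apply, add_comm, logEmbedding_unitsEquiv]
  congr 1
  rw [Module.Basis.repr_sum_self]

/-- The orbit sum of the weight over the whole unit group is the number of roots of unity. -/
theorem hasSum_unitWeight {x : mixedSpace K} (hx : mixedEmbedding.norm x ≠ 0) :
    HasSum (fun u : (𝓞 K)ˣ ↦ unitWeight K (u • x)) (torsionOrder K) := by
  classical
  rw [← (unitsEquiv K).hasSum_iff]
  have hfun : (fun u : (𝓞 K)ˣ ↦ unitWeight K (u • x)) ∘ (unitsEquiv K) =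
      fun ζe ↦ ∏ i, tent (logCoord K x i + ((ζe.2 i : ℤ) : ℝ)) := by
    funext ζe
    simp only [Function.comp_apply, unitWeight, logCoord_unitsEquiv_smul K ζe hx]
  rw [hfun]
  let _ : Fintype (torsion K) := Fintype.ofFinite _
  set s : Fin (Units.rank K) → Finset ℤ := fun i ↦ tentSupp (logCoord K x i) with hs
  have hsupp : ∀ ζe ∉ ((Finset.univ : Finset (torsion K)) ×ˢ Fintype.piFinset s),
      ∏ i, tent (logCoord K x i + ((ζe.2 i : ℤ) : ℝ)) = 0 := by
    intro ζe hζe
    simp only [Finset.mem_product, Finset.mem_univ, true_and, Fintype.mem_piFinset,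
      not_forall] at hζe
    obtain ⟨i, hi⟩ := hζe
    exact Finset.prod_eq_zero (Finset.mem_univ i) (tent_add_int_eq_zero hi)
  have h := hasSum_sum_of_ne_finset_zero (L := SummationFilter.unconditional _) hsupp
  convert h using 1
  rw [Finset.sum_product]
  have hinner : ∑ f ∈ Fintype.piFinset s, ∏ i, tent (logCoord K x i + ((f i : ℤ) : ℝ)) = 1 := by
    rw [← Finset.prod_univ_sum (fun i ↦ s i) (fun i k ↦ tent (logCoord K x i + ((k : ℤ) : ℝ)))]
    exact Finset.prod_eq_one fun i _ ↦ sum_tentSupp _
  simp only [hinner, Finset.sum_const, Finset.card_univ, nsmul_eq_mul, mul_one]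
  rw [torsionOrder, Nat.card_eq_fintype_card]

theorem hasSum_W {γ : 𝓞 K} (hγ : γ ≠ 0) :
    HasSum (fun u : (𝓞 K)ˣ ↦ W K (u * γ)) (torsionOrder K) := by
  have hx : mixedEmbedding.norm (mixedEmbedding K (γ : K)) ≠ 0 := by
    rw [norm_eq_norm]
    simpa using hγ
  have := hasSum_unitWeight K hx
  convert this using 2 with u
  simp [W, unitSMul_smul]

/-! ### The log-coordinates are linear in the logarithms of the `normAtPlace` -/

open scoped Classical in
/-- The linear map computing `logMap` from the vector of `log (normAtPlace w x)`. -/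
noncomputable def logLin : (InfinitePlace K → ℝ) →ₗ[ℝ] logSpace K where
  toFun y := fun w ↦ mult w.val * (y w.val - (∑ v, mult v * y v) * (Module.finrank ℚ K : ℝ)⁻¹)
  map_add' y z := by
    ext w
    simp only [Pi.add_apply, mul_add, Finset.sum_add_distrib]
    ring
  map_smul' c y := by
    ext w
    simp only [Pi.smul_apply, smul_eq_mul, RingHom.id_apply]
    have : ∑ v, (mult v : ℝ) * (c * y v) = c * ∑ v, (mult v : ℝ) * y v := by
      rw [Finset.mul_sum]
      exact Finset.sum_congr rfl fun v _ ↦ by ring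
    rw [this]
    ring

theorem log_norm_eq_sum {x : mixedSpace K} (hx : mixedEmbedding.norm x ≠ 0) :
    Real.log (mixedEmbedding.norm x) = ∑ v, (mult v : ℝ) * Real.log (normAtPlace v x) := by
  rw [mixedEmbedding.norm_apply, Real.log_prod]
  · exact Finset.sum_congr rfl fun v _ ↦ by rw [Real.log_pow]
  · intro v _
    exact pow_ne_zero _ (mixedEmbedding.norm_ne_zero_iff.mp hx v)

theorem logMap_eq_logLin {x : mixedSpace K} (hx : mixedEmbedding.norm x ≠ 0) :
    logMap x = logLin K (fun w ↦ Real.log (normAtPlace w x)) := by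
  ext w
  rw [logMap_apply, log_norm_eq_sum K hx]
  rfl

open scoped Classical in
/-- The `i`-th log-coordinate as a linear form in the vector of `log (normAtPlace w x)`. -/
noncomputable def logCoordLin (i : Fin (Units.rank K)) : (InfinitePlace K → ℝ) →ₗ[ℝ] ℝ :=
  (Finsupp.lapply i) ∘ₗ
    ((basisUnitLattice K).ofZLatticeBasis ℝ (unitLattice K)).repr.toLinearMap ∘ₗ logLin K

open scoped Classical in
/-- The coefficients of the log-coordinates as linear forms in the `log (normAtPlace w x)`. -/
noncomputable def logCoordCoeff (i : Fin (Units.rank K)) (w : InfinitePlace K) : ℝ :=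
  logCoordLin K i (fun j ↦ if w = j then 1 else 0)

theorem logCoord_eq_logCoordLin {x : mixedSpace K} (hx : mixedEmbedding.norm x ≠ 0)
    (i : Fin (Units.rank K)) :
    logCoord K x i = logCoordLin K i (fun w ↦ Real.log (normAtPlace w x)) := by
  unfold logCoord logCoordLin
  rw [logMap_eq_logLin K hx]
  rfl

/-- (W3) The log-coordinates are linear combinations of the `log (normAtPlace w x)`. -/
theorem logCoord_eq_sum {x : mixedSpace K} (hx : mixedEmbedding.norm x ≠ 0)
    (i : Fin (Units.rank K)) :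
    logCoord K x i = ∑ w, logCoordCoeff K i w * Real.log (normAtPlace w x) := by
  classical
  rw [logCoord_eq_logCoordLin K hx, LinearMap.pi_apply_eq_sum_univ]
  refine Finset.sum_congr rfl fun w _ ↦ ?_
  rw [smul_eq_mul, mul_comm]
  rfl

/-! ### The cone property -/

section Cone

open scoped Classical

/-- A bound for `‖logMap x‖` on the support of the weight. -/
noncomputable def logBound : ℝ :=
  ∑ i, ‖((basisUnitLattice K).ofZLatticeBasis ℝ (unitLattice K)) i‖

theorem logBound_nonneg : 0 ≤ logBound K :=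
  Finset.sum_nonneg fun _ _ ↦ norm_nonneg _

theorem norm_logMap_le {x : mixedSpace K} (h : unitWeight K x ≠ 0) :
    ‖logMap x‖ ≤ logBound K := by
  have hrepr := ((basisUnitLattice K).ofZLatticeBasis ℝ (unitLattice K)).sum_repr (logMap x)
  rw [← hrepr]
  refine (norm_sum_le _ _).trans (Finset.sum_le_sum fun i _ ↦ ?_)
  rw [_root_.norm_smul, Real.norm_eq_abs]
  have := abs_logCoord_lt_one_of_unitWeight_ne_zero K h i
  unfold logCoord at this
  exact (mul_le_mul_of_nonneg_right this.le (norm_nonneg _)).trans (one_mul _).le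

/-- The constant `M'` such that all `log (normAtPlace w x)` are within `M'` of
`log (norm x) / n` on the support of the weight. -/
noncomputable def coneBound : ℝ := Fintype.card (InfinitePlace K) * logBound K

theorem coneBound_nonneg : 0 ≤ coneBound K :=
  mul_nonneg (Nat.cast_nonneg _) (logBound_nonneg K)

omit [NumberField K] in
theorem one_le_mult (w : InfinitePlace K) : (1 : ℝ) ≤ mult w := by
  have : 1 ≤ mult w := by
    unfold mult
    split_ifs <;> norm_num
  exact_mod_cast this

theorem abs_log_normAtPlace_sub_le {x : mixedSpace K} (hx : mixedEmbedding.norm x ≠ 0)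
    (h : unitWeight K x ≠ 0) (w : InfinitePlace K) :
    |Real.log (normAtPlace w x) -
      Real.log (mixedEmbedding.norm x) * (Module.finrank ℚ K : ℝ)⁻¹| ≤ coneBound K := by
  set L := Real.log (mixedEmbedding.norm x) * (Module.finrank ℚ K : ℝ)⁻¹ with hL
  have hM := norm_logMap_le K h
  have hMnn := logBound_nonneg K
  -- bound away from `w₀`
  have hne : ∀ v : InfinitePlace K, v ≠ w₀ →
      |(mult v : ℝ) * (Real.log (normAtPlace v x) - L)| ≤ logBound K := by
    intro v hv
    have h1 : ‖logMap x ⟨v, hv⟩‖ ≤ ‖logMap x‖ := norm_le_pi_norm (logMap x) ⟨v, hv⟩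
    rw [logMap_apply, Real.norm_eq_abs] at h1
    exact h1.trans hM
  have hdrop : ∀ v : InfinitePlace K,
      |Real.log (normAtPlace v x) - L| ≤ |(mult v : ℝ) * (Real.log (normAtPlace v x) - L)| := by
    intro v
    rw [abs_mul, abs_of_nonneg (by linarith [one_le_mult K v] : (0 : ℝ) ≤ mult v)]
    exact le_mul_of_one_le_left (abs_nonneg _) (one_le_mult K v)
  have hcard : (1 : ℝ) ≤ Fintype.card (InfinitePlace K) := by
    exact_mod_cast Fintype.card_pos
  by_cases hw : w = w₀
  · -- the sum of all `mult v * (log - L)` vanishes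
    have hsum : ∑ v, (mult v : ℝ) * (Real.log (normAtPlace v x) - L) = 0 := by
      have hn : (Module.finrank ℚ K : ℝ) ≠ 0 := Nat.cast_ne_zero.mpr Module.finrank_pos.ne'
      have h1 : ∑ v : InfinitePlace K, (mult v : ℝ) = Module.finrank ℚ K := by
        exact_mod_cast sum_mult_eq (K := K)
      simp only [mul_sub, Finset.sum_sub_distrib]
      rw [← log_norm_eq_sum K hx, ← Finset.sum_mul, h1, hL]
      field_simp
      ring
    rw [← Finset.add_sum_erase _ _ (Finset.mem_univ w)] at hsum
    have h2 : (mult w : ℝ) * (Real.log (normAtPlace w x) - L) =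
        -∑ v ∈ Finset.univ.erase w, (mult v : ℝ) * (Real.log (normAtPlace v x) - L) := by
      linarith
    refine (hdrop w).trans ?_
    rw [h2, abs_neg]
    refine (Finset.abs_sum_le_sum_abs _ _).trans ?_
    have h3 : ∑ v ∈ Finset.univ.erase w,
        |(mult v : ℝ) * (Real.log (normAtPlace v x) - L)| ≤
          ∑ _v ∈ Finset.univ.erase w, logBound K :=
      Finset.sum_le_sum fun v hv ↦ hne v (by
        rw [Finset.mem_erase] at hv
        exact hw ▸ hv.1)
    refine h3.trans ?_
    rw [Finset.sum_const, nsmul_eq_mul, coneBound]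
    refine mul_le_mul_of_nonneg_right ?_ hMnn
    exact_mod_cast Finset.card_le_univ _
  · refine (hdrop w).trans ((hne w hw).trans ?_)
    rw [coneBound]
    exact le_mul_of_one_le_left hMnn hcard

/-- The cone constant `κ`. -/
noncomputable def coneConst : ℝ := Real.exp (-2 * coneBound K)

theorem coneConst_pos : 0 < coneConst K := Real.exp_pos _

theorem coneConst_le_one : coneConst K ≤ 1 := by
  rw [coneConst, Real.exp_le_one_iff]
  linarith [coneBound_nonneg K]

/-- (W4) The cone property: on the support of the weight all `normAtPlace w x` are comparable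
to `‖x‖`. -/
theorem coneConst_mul_norm_le {x : mixedSpace K} (hx : mixedEmbedding.norm x ≠ 0)
    (h : unitWeight K x ≠ 0) (w : InfinitePlace K) :
    coneConst K * ‖x‖ ≤ normAtPlace w x := by
  classical
  set L := Real.log (mixedEmbedding.norm x) * (Module.finrank ℚ K : ℝ)⁻¹ with hL
  have hpos : ∀ v, 0 < normAtPlace v x := fun v ↦
    lt_of_le_of_ne (normAtPlace_nonneg v x) (mixedEmbedding.norm_ne_zero_iff.mp hx v).symm
  have hb := abs_log_normAtPlace_sub_le K hx h
  have hupper : ∀ v, normAtPlace v x ≤ Real.exp (L + coneBound K) := by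
    intro v
    rw [← Real.exp_log (hpos v)]
    apply Real.exp_le_exp.mpr
    have := (abs_le.mp (hb v)).2
    linarith
  have hlower : Real.exp (L - coneBound K) ≤ normAtPlace w x := by
    rw [← Real.exp_log (hpos w)]
    apply Real.exp_le_exp.mpr
    have := (abs_le.mp (hb w)).1
    linarith
  have hnorm : ‖x‖ ≤ Real.exp (L + coneBound K) := by
    rw [norm_eq_sup'_normAtPlace]
    exact Finset.sup'_le _ _ fun v _ ↦ hupper v
  calc coneConst K * ‖x‖ ≤ coneConst K * Real.exp (L + coneBound K) :=
        mul_le_mul_of_nonneg_left hnorm (coneConst_pos K).le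
    _ = Real.exp (L - coneBound K) := by
        rw [coneConst, ← Real.exp_add]
        congr 1
        ring
    _ ≤ normAtPlace w x := hlower

theorem normAtPlace_le_norm (x : mixedSpace K) (w : InfinitePlace K) :
    normAtPlace w x ≤ ‖x‖ := by
  classical
  rw [norm_eq_sup'_normAtPlace]
  exact Finset.le_sup' (fun w ↦ normAtPlace w x) (Finset.mem_univ w)

/-- `mixedEmbedding.norm x ≤ ‖x‖ ^ n`. -/
theorem mixedNorm_le_norm_pow (x : mixedSpace K) :
    mixedEmbedding.norm x ≤ ‖x‖ ^ Module.finrank ℚ K := by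
  rw [mixedEmbedding.norm_apply, ← sum_mult_eq (K := K), ← Finset.prod_pow_eq_pow_sum]
  exact Finset.prod_le_prod (fun w _ ↦ pow_nonneg (normAtPlace_nonneg w x) _)
    (fun w _ ↦ pow_le_pow_left₀ (normAtPlace_nonneg w x) (normAtPlace_le_norm K x w) _)

/-- On the support of the weight, `(κ ‖x‖) ^ n ≤ mixedEmbedding.norm x`. -/
theorem coneConst_mul_norm_pow_le {x : mixedSpace K} (hx : mixedEmbedding.norm x ≠ 0)
    (h : unitWeight K x ≠ 0) :
    (coneConst K * ‖x‖) ^ Module.finrank ℚ K ≤ mixedEmbedding.norm x := by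
  rw [mixedEmbedding.norm_apply, ← sum_mult_eq (K := K), ← Finset.prod_pow_eq_pow_sum]
  exact Finset.prod_le_prod
    (fun w _ ↦ pow_nonneg (mul_nonneg (coneConst_pos K).le (norm_nonneg x)) _)
    (fun w _ ↦ pow_le_pow_left₀ (mul_nonneg (coneConst_pos K).le (norm_nonneg x))
      (coneConst_mul_norm_le K hx h w) _)

end Cone

end Fermat.Agent.S14.H58
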